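import Mathlib

/-!
P11 (S18) — `Cover.lean`: the two explicit auxiliary covers of the `j`-line.

* `ℓ ≠ 2`:  `g = lamN / lamD`, `lamN = 256 (X² - X + 1)³`, `lamD = X² (X - 1)²`
  (the `λ`-line; cusps `0, 1, ∞`; self-reciprocal).
* `ℓ = 2`:  `g = muN / muD`, `muN = 27 X³ (X³ + 8)³`, `muD = (X³ - 1)³`
  (the Hesse pencil; cusps `1, ω, ω², ∞`), and its reciprocal form in the coordinate `1/x`:
  `mrN = 27 (8 X³ + 1)³`, `mrD = X³ (1 - X³)³` (cusps `0, 1, ω, ω²`).

For each cover we prove the polynomial identities `N = c Q3³`, `N - 1728 D = c' Q2²`,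
`N' D - N D' = c'' Q3² Q2 Cu`, the degree / leading coefficient facts, coprimality of `N` and `D`
over fields of the relevant characteristics, and (over a field of characteristic zero) the
multiplicity statement `IsCoverDatum.exists_factor`:
`N - (N(a)/D(a)) D = (X - a)^e U`, `U(a) ≠ 0`, with `e = 3, 2, 1` according to
`N(a)/D(a) = 0`, `= 1728`, or neither.
-/

set_option autoImplicit false

namespace Fermat.Agent.S18.Cover

open Polynomial

/-! ### Generic cover data over a field -/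

section Generic

variable {L : Type*} [Field L]

/-- If `a` is a root of `Q` and `Q'(a) ≠ 0` then `Q = (X - a) V` with `V(a) ≠ 0`. -/
theorem exists_simple_factor (Q : L[X]) (a : L) (h0 : Q.eval a = 0)
    (h1 : (derivative Q).eval a ≠ 0) :
    ∃ V : L[X], Q = (X - C a) * V ∧ V.eval a ≠ 0 := by
  obtain ⟨V, hV⟩ := dvd_iff_isRoot.2 h0
  refine ⟨V, hV, fun hVa => h1 ?_⟩
  rw [hV, derivative_mul, eval_add, eval_mul, eval_mul, hVa, eval_sub, eval_X, eval_C]
  simp

/-- An abstract cover datum `g = N / D` over a field: `N = c Q3³`, `N - j₁ D = c' Q2²`,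
`N' D - N D' = c'' Q3² Q2 Cu` with `Q3`, `Q2` having only simple roots, `Cu` vanishing only at
roots of `D` (the finite cusps), and `N`, `D` coprime. (In the applications `j₁ = 1728`.) -/
structure IsCoverDatum (N D Q3 Q2 Cu : L[X]) (c c' c'' j₁ : L) : Prop where
  c_ne : c ≠ 0
  c'_ne : c' ≠ 0
  c''_ne : c'' ≠ 0
  j₁_ne : j₁ ≠ 0
  N_eq : N = C c * Q3 ^ 3
  N_sub : N - C j₁ * D = C c' * Q2 ^ 2
  wronskian : derivative N * D - N * derivative D = C c'' * Q3 ^ 2 * Q2 * Cu
  sep3 : ∀ a : L, Q3.eval a = 0 → (derivative Q3).eval a ≠ 0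
  sep2 : ∀ a : L, Q2.eval a = 0 → (derivative Q2).eval a ≠ 0
  cusp : ∀ a : L, Cu.eval a = 0 → D.eval a = 0
  coprime : IsCoprime N D

namespace IsCoverDatum

variable {N D Q3 Q2 Cu : L[X]} {c c' c'' j₁ : L}

/-- `N` and `D` have no common root. -/
theorem eval_N_ne_zero (h : IsCoverDatum N D Q3 Q2 Cu c c' c'' j₁) {a : L}
    (ha : D.eval a = 0) : N.eval a ≠ 0 := by
  intro hN
  obtain ⟨u, v, huv⟩ := h.coprime
  have := congrArg (eval a) huv
  rw [eval_add, eval_mul, eval_mul, hN, ha, mul_zero, mul_zero, add_zero, eval_one] at this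
  exact zero_ne_one this

/-- `N(a) = 0` iff `Q3(a) = 0`. -/
theorem eval_N_eq_zero_iff (h : IsCoverDatum N D Q3 Q2 Cu c c' c'' j₁) (a : L) :
    N.eval a = 0 ↔ Q3.eval a = 0 := by
  rw [h.N_eq, eval_mul, eval_C, eval_pow, mul_eq_zero, or_iff_right h.c_ne,
    pow_eq_zero_iff (by norm_num)]

/-- `N(a) = j₁ D(a)` iff `Q2(a) = 0`. -/
theorem eval_N_eq_iff (h : IsCoverDatum N D Q3 Q2 Cu c c' c'' j₁) (a : L) :
    N.eval a = j₁ * D.eval a ↔ Q2.eval a = 0 := by
  have := congrArg (eval a) h.N_sub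
  rw [eval_sub, eval_mul, eval_C, eval_mul, eval_C, eval_pow] at this
  rw [← sub_eq_zero, this, mul_eq_zero, or_iff_right h.c'_ne, pow_eq_zero_iff (by norm_num)]

/-- The multiplicity statement: for `a` not a cusp (`D(a) ≠ 0`), with `j₀ = N(a)/D(a)`,
`N - j₀ D = (X - a)^e U`, `U(a) ≠ 0`, and `e = 3` if `j₀ = 0`, `e = 2` if `j₀ = j₁`,
`e = 1` otherwise. -/
theorem exists_factor (h : IsCoverDatum N D Q3 Q2 Cu c c' c'' j₁) (a : L)
    (ha : D.eval a ≠ 0) :
    ∃ (e : ℕ) (U : L[X]),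
      N - C (N.eval a / D.eval a) * D = (X - C a) ^ e * U ∧ U.eval a ≠ 0 ∧
        ((N.eval a / D.eval a = 0 ∧ e = 3) ∨ (N.eval a / D.eval a = j₁ ∧ e = 2) ∨
          (N.eval a / D.eval a ≠ 0 ∧ N.eval a / D.eval a ≠ j₁ ∧ e = 1)) := by
  by_cases h0 : N.eval a = 0
  · -- `j₀ = 0`
    have hQ3 : Q3.eval a = 0 := (h.eval_N_eq_zero_iff a).1 h0
    obtain ⟨V, hV, hVa⟩ := exists_simple_factor Q3 a hQ3 (h.sep3 a hQ3)
    refine ⟨3, C c * V ^ 3, ?_, ?_, Or.inl ⟨by rw [h0, zero_div], rfl⟩⟩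
    · rw [h0, zero_div, C_0, zero_mul, sub_zero, h.N_eq, hV]; ring
    · rw [eval_mul, eval_C, eval_pow]
      exact mul_ne_zero h.c_ne (pow_ne_zero _ hVa)
  by_cases h1 : N.eval a = j₁ * D.eval a
  · -- `j₀ = j₁`
    have hj : N.eval a / D.eval a = j₁ := by rw [h1, mul_div_assoc, div_self ha, mul_one]
    have hQ2 : Q2.eval a = 0 := (h.eval_N_eq_iff a).1 h1
    obtain ⟨V, hV, hVa⟩ := exists_simple_factor Q2 a hQ2 (h.sep2 a hQ2)
    refine ⟨2, C c' * V ^ 2, ?_, ?_, Or.inr (Or.inl ⟨hj, rfl⟩)⟩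
    · rw [hj, h.N_sub, hV]; ring
    · rw [eval_mul, eval_C, eval_pow]
      exact mul_ne_zero h.c'_ne (pow_ne_zero _ hVa)
  · -- generic `j₀`
    set j₀ := N.eval a / D.eval a with hj₀
    have hj0 : j₀ ≠ 0 := div_ne_zero h0 ha
    have hj1 : j₀ ≠ j₁ := fun hEq => h1 (by rw [← hEq, hj₀, div_mul_cancel₀ _ ha])
    have hroot : (N - C j₀ * D).eval a = 0 := by
      rw [eval_sub, eval_mul, eval_C, hj₀, div_mul_cancel₀ _ ha, sub_self]
    have hder : (derivative (N - C j₀ * D)).eval a ≠ 0 := by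
      have hW := congrArg (eval a) h.wronskian
      rw [eval_sub, eval_mul, eval_mul, eval_mul, eval_mul, eval_mul, eval_C, eval_pow] at hW
      have hQ3 : Q3.eval a ≠ 0 := fun hq => h0 ((h.eval_N_eq_zero_iff a).2 hq)
      have hQ2 : Q2.eval a ≠ 0 := fun hq => h1 ((h.eval_N_eq_iff a).2 hq)
      have hCu : Cu.eval a ≠ 0 := fun hq => ha (h.cusp a hq)
      have hne : (derivative N).eval a * D.eval a - N.eval a * (derivative D).eval a ≠ 0 := by
        rw [hW]
        exact mul_ne_zero (mul_ne_zero (mul_ne_zero h.c''_ne (pow_ne_zero _ hQ3)) hQ2) hCu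
      intro hzero
      apply hne
      rw [derivative_sub, derivative_mul, derivative_C, zero_mul, zero_add, eval_sub, eval_mul,
        eval_C, sub_eq_zero] at hzero
      rw [hzero, hj₀]
      field_simp
      ring
    obtain ⟨U, hU, hUa⟩ := exists_simple_factor _ a hroot hder
    exact ⟨1, U, by rw [pow_one]; exact hU, hUa, Or.inr (Or.inr ⟨hj0, hj1, rfl⟩)⟩

/-- `exists_factor` evaluated at a point `x` of an `L`-algebra with `N(x) = j D(x)`:
`(j - j₀) D(x) = (x - a)^e U(x)`. -/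
theorem exists_factor_aeval (h : IsCoverDatum N D Q3 Q2 Cu c c' c'' j₁) (a : L)
    (ha : D.eval a ≠ 0) {Ω : Type*} [CommRing Ω] [Algebra L Ω] (x j : Ω)
    (hcov : aeval x N = j * aeval x D) :
    ∃ (e : ℕ) (U : L[X]),
      (j - algebraMap L Ω (N.eval a / D.eval a)) * aeval x D =
          (x - algebraMap L Ω a) ^ e * aeval x U ∧ U.eval a ≠ 0 ∧
        ((N.eval a / D.eval a = 0 ∧ e = 3) ∨ (N.eval a / D.eval a = j₁ ∧ e = 2) ∨
          (N.eval a / D.eval a ≠ 0 ∧ N.eval a / D.eval a ≠ j₁ ∧ e = 1)) := by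
  obtain ⟨e, U, hU, hUa, hcase⟩ := h.exists_factor a ha
  refine ⟨e, U, ?_, hUa, hcase⟩
  have := congrArg (aeval x) hU
  rw [map_sub, map_mul, aeval_C, map_mul, map_pow, map_sub, aeval_X, aeval_C, hcov] at this
  rw [← this]; ring

end IsCoverDatum

end Generic

/-! ### The `λ`-cover (`ℓ ≠ 2`) -/

section Lam

variable (R : Type*) [CommRing R]

/-- `256 (X² - X + 1)³` -/
noncomputable def lamN : R[X] := C 256 * (X ^ 2 - X + 1) ^ 3
/-- `X² (X - 1)²` -/
noncomputable def lamD : R[X] := X ^ 2 * (X - 1) ^ 2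
/-- `X² - X + 1` -/
noncomputable def lamQ3 : R[X] := X ^ 2 - X + 1
/-- `(X + 1)(X - 2)(2X - 1)` -/
noncomputable def lamQ2 : R[X] := (X + 1) * (X - 2) * (2 * X - 1)
/-- `X (X - 1)` (finite cusps `0, 1`) -/
noncomputable def lamCu : R[X] := X * (X - 1)

variable {R}

theorem map_lamN {S : Type*} [CommRing S] (f : R →+* S) : (lamN R).map f = lamN S := by
  simp [lamN, Polynomial.map_mul, Polynomial.map_pow, Polynomial.map_add, Polynomial.map_sub,
    map_ofNat]

theorem map_lamD {S : Type*} [CommRing S] (f : R →+* S) : (lamD R).map f = lamD S := by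
  simp [lamD, Polynomial.map_mul, Polynomial.map_pow, Polynomial.map_sub]

variable (R)

theorem lamN_eq : lamN R = C 256 * lamQ3 R ^ 3 := rfl

theorem lamN_sub : lamN R - C 1728 * lamD R = C 64 * lamQ2 R ^ 2 := by
  simp only [lamN, lamD, lamQ2, map_ofNat]; ring

theorem lam_wronskian :
    derivative (lamN R) * lamD R - lamN R * derivative (lamD R) =
      C 256 * lamQ3 R ^ 2 * lamQ2 R * lamCu R := by
  simp only [lamN, lamD, lamQ3, lamQ2, lamCu, derivative_mul, derivative_pow, derivative_add,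
    derivative_sub, derivative_X, derivative_one, map_ofNat, derivative_ofNat, Nat.cast_ofNat]
  ring


theorem monic_lamQ3 : (lamQ3 R).Monic := by
  unfold lamQ3; monicity!

theorem monic_lamD : (lamD R).Monic := by
  unfold lamD; monicity!

theorem natDegree_lamD [Nontrivial R] : (lamD R).natDegree = 4 := by
  unfold lamD; compute_degree!

theorem natDegree_lamQ3 [Nontrivial R] : (lamQ3 R).natDegree = 2 := by
  unfold lamQ3; compute_degree!

theorem natDegree_lamN (h : (256 : R) ≠ 0) : (lamN R).natDegree = 6 := by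
  have : Nontrivial R := ⟨⟨256, 0, h⟩⟩
  rw [lamN_eq, natDegree_C_mul_of_mul_ne_zero, (monic_lamQ3 R).natDegree_pow,
    natDegree_lamQ3]
  rw [((monic_lamQ3 R).pow 3).leadingCoeff, mul_one]; exact h

theorem leadingCoeff_lamN : (lamN R).leadingCoeff = 256 := by
  rw [lamN_eq, leadingCoeff_mul_monic ((monic_lamQ3 R).pow 3), leadingCoeff_C]

theorem natDegree_lamD_lt_natDegree_lamN (h : (256 : R) ≠ 0) :
    (lamD R).natDegree < (lamN R).natDegree := by
  have : Nontrivial R := ⟨⟨256, 0, h⟩⟩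
  rw [natDegree_lamD, natDegree_lamN R h]; norm_num

/-- the `λ`-cover is self-reciprocal: `x⁶ N(1/x) = N(x)`. -/
theorem eval_lamN_of_mul_eq_one {x y : R} (h : x * y = 1) :
    (lamN R).eval y * x ^ 6 = (lamN R).eval x := by
  have h1 : (y ^ 2 - y + 1) * x ^ 2 = x ^ 2 - x + 1 := by
    linear_combination (x * y + 1 - x) * h
  simp only [lamN, eval_mul, eval_pow, eval_add, eval_sub, eval_X, eval_one, eval_C]
  rw [← h1]; ring

/-- the `λ`-cover is self-reciprocal: `x⁶ D(1/x) = D(x)`. -/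
theorem eval_lamD_of_mul_eq_one {x y : R} (h : x * y = 1) :
    (lamD R).eval y * x ^ 6 = (lamD R).eval x := by
  have h1 : y * (y - 1) * x ^ 3 = -(x * (x - 1)) := by
    linear_combination (x ^ 2 * y + x - x ^ 2) * h
  simp only [lamD, eval_mul, eval_pow, eval_sub, eval_X, eval_one]
  calc y ^ 2 * (y - 1) ^ 2 * x ^ 6 = (y * (y - 1) * x ^ 3) ^ 2 := by ring
    _ = x ^ 2 * (x - 1) ^ 2 := by rw [h1]; ring

theorem isUnit_leadingCoeff_lamN (h2 : IsUnit (2 : R)) : IsUnit (lamN R).leadingCoeff := by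
  rw [leadingCoeff_lamN]
  have : (256 : R) = 2 ^ 8 := by norm_num
  rw [this]; exact h2.pow 8

/-- `lamN` and `lamD` are coprime over any commutative ring in which `2` is invertible. -/
theorem isCoprime_lamN_lamD_of_isUnit (h2 : IsUnit (2 : R)) : IsCoprime (lamN R) (lamD R) := by
  have h256 : IsUnit (C (256 : R)) := by
    have : (256 : R) = 2 ^ 8 := by norm_num
    rw [this]; exact (h2.pow 8).map C
  have h0 : IsCoprime (X ^ 2 - X + 1 : R[X]) (X * (X - 1)) := ⟨1, -1, by ring⟩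
  have h1 : IsCoprime ((X ^ 2 - X + 1 : R[X]) ^ 3) ((X * (X - 1)) ^ 2) := h0.pow
  have h3 : lamD R = (X * (X - 1)) ^ 2 := by unfold lamD; ring
  rw [lamN, h3]
  exact (isCoprime_mul_unit_left_left h256 _ _).2 h1

@[simp] theorem eval_lamN (a : R) : (lamN R).eval a = 256 * (a ^ 2 - a + 1) ^ 3 := by
  simp [lamN]

@[simp] theorem eval_lamD (a : R) : (lamD R).eval a = a ^ 2 * (a - 1) ^ 2 := by
  simp [lamD]

theorem aeval_lamN {Ω : Type*} [CommRing Ω] [Algebra R Ω] (x : Ω) :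
    aeval x (lamN R) = 256 * (x ^ 2 - x + 1) ^ 3 := by
  simp [lamN, map_ofNat]

theorem aeval_lamD {Ω : Type*} [CommRing Ω] [Algebra R Ω] (x : Ω) :
    aeval x (lamD R) = x ^ 2 * (x - 1) ^ 2 := by
  simp [lamD]

/-- the finite cusps of the `λ`-cover are `0` and `1`. -/
theorem eval_lamD_eq_zero_iff [IsDomain R] (a : R) : (lamD R).eval a = 0 ↔ a = 0 ∨ a = 1 := by
  rw [eval_lamD, mul_eq_zero, pow_eq_zero_iff (by norm_num), pow_eq_zero_iff (by norm_num),
    sub_eq_zero]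

/-- the cusps `0, 1` have unit differences. -/
theorem lam_cusps_isUnit_sub [DecidableEq R] :
    ∀ c ∈ ({0, 1} : Finset R), ∀ c' ∈ ({0, 1} : Finset R), c ≠ c' → IsUnit (c - c') := by
  intro c hc c' hc' hne
  simp only [Finset.mem_insert, Finset.mem_singleton] at hc hc'
  rcases hc with rfl | rfl <;> rcases hc' with rfl | rfl
  · exact absurd rfl hne
  · rw [zero_sub]; exact isUnit_one.neg
  · rw [sub_zero]; exact isUnit_one
  · exact absurd rfl hne

/-- the cover relation in the coordinate `1/x` (the `λ`-cover is self-reciprocal). -/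
theorem lam_cover_inv {Ω : Type*} [Field Ω] [Algebra R Ω] {x j : Ω} (hx : x ≠ 0)
    (hcov : aeval x (lamN R) = j * aeval x (lamD R)) :
    aeval x⁻¹ (lamN R) = j * aeval x⁻¹ (lamD R) := by
  have h1 : x * x⁻¹ = 1 := mul_inv_cancel₀ hx
  have hN := eval_lamN_of_mul_eq_one Ω h1
  have hD := eval_lamD_of_mul_eq_one Ω h1
  rw [aeval_lamN, aeval_lamD] at hcov ⊢
  rw [eval_lamN, eval_lamN] at hN
  rw [eval_lamD, eval_lamD] at hD
  have hx6 : x ^ 6 ≠ 0 := pow_ne_zero _ hx
  apply mul_right_cancel₀ hx6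
  rw [hN, mul_assoc, hD, hcov]

end Lam

section LamField

variable (k : Type*) [Field k]

/-- `lamN` and `lamD` are coprime over any field of characteristic `≠ 2`. -/
theorem isCoprime_lamN_lamD (h2 : (2 : k) ≠ 0) : IsCoprime (lamN k) (lamD k) := by
  have h256 : IsUnit (C (256 : k)) := by
    rw [isUnit_C]
    exact isUnit_iff_ne_zero.2 (by
      have : (256 : k) = 2 ^ 8 := by norm_num
      rw [this]; exact pow_ne_zero _ h2)
  have h0 : IsCoprime (X ^ 2 - X + 1 : k[X]) (X * (X - 1)) := ⟨1, -1, by ring⟩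
  have h1 : IsCoprime ((X ^ 2 - X + 1 : k[X]) ^ 3) ((X * (X - 1)) ^ 2) := h0.pow
  have h3 : lamD k = (X * (X - 1)) ^ 2 := by unfold lamD; ring
  rw [lamN, h3]
  exact (isCoprime_mul_unit_left_left h256 _ _).2 h1

variable (L : Type*) [Field L] [CharZero L]

theorem lamQ3_sep (a : L) (h : (lamQ3 L).eval a = 0) : (derivative (lamQ3 L)).eval a ≠ 0 := by
  intro h'
  simp only [lamQ3, derivative_add, derivative_sub, derivative_X_pow, derivative_X,
    derivative_one, eval_add, eval_sub, eval_mul, eval_pow, eval_X, eval_one,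
    Nat.cast_ofNat, add_zero, eval_ofNat, map_ofNat] at h h'
  have : (3 : L) = 0 := by linear_combination 4 * h - (2 * a - 1) * h'
  exact absurd this (by norm_num)

theorem lamQ2_sep (a : L) (h : (lamQ2 L).eval a = 0) : (derivative (lamQ2 L)).eval a ≠ 0 := by
  intro h'
  simp only [lamQ2, derivative_mul, derivative_add, derivative_sub, derivative_X,
    derivative_one, derivative_ofNat, eval_add, eval_sub, eval_mul, eval_X, eval_one,
    eval_ofNat, add_zero, sub_zero, zero_mul, one_mul, mul_one, zero_add] at h h'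
  have : (27 : L) = 0 := by
    linear_combination (-6 * (2 * a - 1)) * h + ((2 * a - 1) ^ 2 - 6) * h'
  exact absurd this (by norm_num)

/-- the `λ`-cover is a cover datum in characteristic zero. -/
theorem isCoverDatum_lam :
    IsCoverDatum (lamN L) (lamD L) (lamQ3 L) (lamQ2 L) (lamCu L) 256 64 256 1728 where
  c_ne := by norm_num
  c'_ne := by norm_num
  c''_ne := by norm_num
  j₁_ne := by norm_num
  N_eq := lamN_eq L
  N_sub := lamN_sub L
  wronskian := lam_wronskian L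
  sep3 := lamQ3_sep L
  sep2 := lamQ2_sep L
  cusp := by
    intro a ha
    simp only [lamCu, lamD, eval_mul, eval_pow, eval_sub, eval_X, eval_one] at ha ⊢
    rcases mul_eq_zero.1 ha with h | h <;> simp [h]
  coprime := isCoprime_lamN_lamD L (by norm_num)

end LamField

/-! ### The Hesse cover (`ℓ = 2`) -/

section Mu

variable (R : Type*) [CommRing R]

/-- `27 X³ (X³ + 8)³` -/
noncomputable def muN : R[X] := C 27 * (X * (X ^ 3 + 8)) ^ 3
/-- `(X³ - 1)³` -/
noncomputable def muD : R[X] := (X ^ 3 - 1) ^ 3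
/-- `X (X³ + 8)` -/
noncomputable def muQ3 : R[X] := X * (X ^ 3 + 8)
/-- `X⁶ - 20 X³ - 8` -/
noncomputable def muQ2 : R[X] := X ^ 6 - 20 * X ^ 3 - 8
/-- `(X³ - 1)²` (finite cusps `1, ω, ω²`) -/
noncomputable def muCu : R[X] := (X ^ 3 - 1) ^ 2

variable {R}

theorem map_muN {S : Type*} [CommRing S] (f : R →+* S) : (muN R).map f = muN S := by
  simp [muN, Polynomial.map_mul, Polynomial.map_pow, Polynomial.map_add, map_ofNat]

theorem map_muD {S : Type*} [CommRing S] (f : R →+* S) : (muD R).map f = muD S := by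
  simp [muD, Polynomial.map_pow, Polynomial.map_sub]

variable (R)

theorem muN_eq : muN R = C 27 * muQ3 R ^ 3 := rfl

theorem muN_eq' : muN R = C 27 * X ^ 3 * (X ^ 3 + 8) ^ 3 := by
  unfold muN; ring

theorem muN_sub : muN R - C 1728 * muD R = C 27 * muQ2 R ^ 2 := by
  simp only [muN, muD, muQ2, map_ofNat]; ring

theorem mu_wronskian :
    derivative (muN R) * muD R - muN R * derivative (muD R) =
      C 81 * muQ3 R ^ 2 * muQ2 R * muCu R := by
  simp only [muN, muD, muQ3, muQ2, muCu, derivative_mul, derivative_pow, derivative_add,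
    derivative_sub, derivative_X, derivative_one, map_ofNat, derivative_ofNat, Nat.cast_ofNat]
  ring

theorem monic_muQ3 : (muQ3 R).Monic := by
  unfold muQ3; monicity!

theorem monic_muD : (muD R).Monic := by
  unfold muD; monicity!

theorem natDegree_muD [Nontrivial R] : (muD R).natDegree = 9 := by
  unfold muD; compute_degree!

theorem natDegree_muQ3 [Nontrivial R] : (muQ3 R).natDegree = 4 := by
  unfold muQ3; compute_degree!

theorem natDegree_muN (h : (27 : R) ≠ 0) : (muN R).natDegree = 12 := by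
  have : Nontrivial R := ⟨⟨27, 0, h⟩⟩
  rw [muN_eq, natDegree_C_mul_of_mul_ne_zero, (monic_muQ3 R).natDegree_pow,
    natDegree_muQ3]
  rw [((monic_muQ3 R).pow 3).leadingCoeff, mul_one]; exact h

theorem leadingCoeff_muN : (muN R).leadingCoeff = 27 := by
  rw [muN_eq, leadingCoeff_mul_monic ((monic_muQ3 R).pow 3), leadingCoeff_C]

theorem natDegree_muD_lt_natDegree_muN (h : (27 : R) ≠ 0) :
    (muD R).natDegree < (muN R).natDegree := by
  have : Nontrivial R := ⟨⟨27, 0, h⟩⟩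
  rw [natDegree_muD, natDegree_muN R h]; norm_num

/-- with a primitive cube root of unity `ω`, the finite cusps are `1, ω, ω²`. -/
theorem muD_eq_of_omega (ω : R) (hω : ω ^ 2 + ω + 1 = 0) :
    muD R = ((X - 1) * (X - C ω) * (X - C (ω ^ 2))) ^ 3 := by
  have h3 : (X - 1) * (X - C ω) * (X - C (ω ^ 2)) = (X ^ 3 - 1 : R[X]) := by
    have hC : C ω ^ 2 + C ω + 1 = (0 : R[X]) := by
      rw [← C_pow, ← C_add, ← C_1, ← C_add, hω, C_0]
    rw [C_pow]
    linear_combination (-X ^ 2 + C ω * X - C ω + 1) * hC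
  rw [h3, muD]

/-- cusps stay distinct wherever `3` is invertible: `(ω - 1)(ω² - 1) = 3`. -/
theorem omega_sub_one_mul (ω : R) (hω : ω ^ 2 + ω + 1 = 0) : (ω - 1) * (ω ^ 2 - 1) = 3 := by
  linear_combination (ω - 2) * hω

/-- cusps stay distinct wherever `3` is invertible: `(ω - ω²)² = -3`. -/
theorem omega_sub_omega_sq (ω : R) (hω : ω ^ 2 + ω + 1 = 0) : (ω - ω ^ 2) ^ 2 = -3 := by
  linear_combination (ω ^ 2 - 3 * ω + 3) * hω

theorem isUnit_leadingCoeff_muN (h3 : IsUnit (3 : R)) : IsUnit (muN R).leadingCoeff := by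
  rw [leadingCoeff_muN]
  have : (27 : R) = 3 ^ 3 := by norm_num
  rw [this]; exact h3.pow 3

/-- `muN` and `muD` are coprime over any commutative ring in which `3` is invertible. -/
theorem isCoprime_muN_muD_of_isUnit (h3 : IsUnit (3 : R)) : IsCoprime (muN R) (muD R) := by
  have h27 : IsUnit (C (27 : R)) := by
    have : (27 : R) = 3 ^ 3 := by norm_num
    rw [this]; exact (h3.pow 3).map C
  have h9 : IsUnit (9 : R) := by
    have : (9 : R) = 3 ^ 2 := by norm_num
    rw [this]; exact h3.pow 2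
  obtain ⟨i9, hi9⟩ := h9.exists_left_inv
  have ha : IsCoprime (X : R[X]) (X ^ 3 - 1) := ⟨X ^ 2, -1, by ring⟩
  have hb : IsCoprime (X ^ 3 + 8 : R[X]) (X ^ 3 - 1) := by
    refine ⟨C i9, -C i9, ?_⟩
    have : C i9 * (X ^ 3 + 8) + -C i9 * (X ^ 3 - 1) = C (i9 * 9) := by
      rw [C_mul, map_ofNat]; ring
    rw [this, hi9, C_1]
  have h0 : IsCoprime (X * (X ^ 3 + 8) : R[X]) (X ^ 3 - 1) := ha.mul_left hb
  have h1 : IsCoprime ((X * (X ^ 3 + 8) : R[X]) ^ 3) ((X ^ 3 - 1) ^ 3) := h0.pow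
  rw [muN, muD]
  exact (isCoprime_mul_unit_left_left h27 _ _).2 h1

@[simp] theorem eval_muN (a : R) : (muN R).eval a = 27 * (a * (a ^ 3 + 8)) ^ 3 := by
  simp [muN]

@[simp] theorem eval_muD (a : R) : (muD R).eval a = (a ^ 3 - 1) ^ 3 := by
  simp [muD]

theorem aeval_muN {Ω : Type*} [CommRing Ω] [Algebra R Ω] (x : Ω) :
    aeval x (muN R) = 27 * (x * (x ^ 3 + 8)) ^ 3 := by
  simp [muN, map_ofNat]

theorem aeval_muD {Ω : Type*} [CommRing Ω] [Algebra R Ω] (x : Ω) :
    aeval x (muD R) = (x ^ 3 - 1) ^ 3 := by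
  simp [muD]

theorem cube_sub_one_eq_of_omega (ω a : R) (hω : ω ^ 2 + ω + 1 = 0) :
    a ^ 3 - 1 = (a - 1) * (a - ω) * (a - ω ^ 2) := by
  linear_combination (a ^ 2 - ω * a + ω - 1) * hω

/-- the finite cusps of the Hesse cover are `1, ω, ω²`. -/
theorem eval_muD_eq_zero_iff [IsDomain R] (ω : R) (hω : ω ^ 2 + ω + 1 = 0) (a : R) :
    (muD R).eval a = 0 ↔ a = 1 ∨ a = ω ∨ a = ω ^ 2 := by
  rw [eval_muD, pow_eq_zero_iff (by norm_num), cube_sub_one_eq_of_omega R ω a hω, mul_eq_zero,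
    mul_eq_zero, sub_eq_zero, sub_eq_zero, sub_eq_zero, or_assoc]

theorem omega_cube (ω : R) (hω : ω ^ 2 + ω + 1 = 0) : ω ^ 3 = 1 := by
  linear_combination (ω - 1) * hω

theorem isUnit_omega (ω : R) (hω : ω ^ 2 + ω + 1 = 0) : IsUnit ω :=
  IsUnit.of_mul_eq_one (ω ^ 2) (by linear_combination omega_cube R ω hω)

theorem isUnit_omega_sub_one (ω : R) (hω : ω ^ 2 + ω + 1 = 0) (h3 : IsUnit (3 : R)) :
    IsUnit (ω - 1) :=
  isUnit_of_mul_isUnit_left (by rw [omega_sub_one_mul R ω hω]; exact h3)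

theorem isUnit_omega_sq_sub_one (ω : R) (hω : ω ^ 2 + ω + 1 = 0) (h3 : IsUnit (3 : R)) :
    IsUnit (ω ^ 2 - 1) :=
  isUnit_of_mul_isUnit_right (by rw [omega_sub_one_mul R ω hω]; exact h3)

theorem isUnit_omega_sub_omega_sq (ω : R) (hω : ω ^ 2 + ω + 1 = 0) (h3 : IsUnit (3 : R)) :
    IsUnit (ω - ω ^ 2) := by
  have h : IsUnit ((ω - ω ^ 2) ^ 2) := by rw [omega_sub_omega_sq R ω hω]; exact h3.neg
  exact (isUnit_pow_iff (by norm_num)).1 h

/-- the cusps `0, 1, ω, ω²` (coordinate `1/x`; contains the finite cusps `1, ω, ω²` of the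
coordinate `x`) have unit differences when `3` is invertible. -/
theorem mu_cusps'_isUnit_sub [DecidableEq R] (ω : R) (hω : ω ^ 2 + ω + 1 = 0)
    (h3 : IsUnit (3 : R)) :
    ∀ c ∈ ({0, 1, ω, ω ^ 2} : Finset R), ∀ c' ∈ ({0, 1, ω, ω ^ 2} : Finset R), c ≠ c' →
      IsUnit (c - c') := by
  have hu := isUnit_omega R ω hω
  have h1 := isUnit_omega_sub_one R ω hω h3
  have h2 := isUnit_omega_sq_sub_one R ω hω h3
  have h12 := isUnit_omega_sub_omega_sq R ω hω h3
  have neg : ∀ {a b : R}, IsUnit (a - b) → IsUnit (b - a) := fun {a b} h => by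
    rw [← neg_sub]; exact h.neg
  intro c hc c' hc' hne
  simp only [Finset.mem_insert, Finset.mem_singleton] at hc hc'
  rcases hc with rfl | rfl | rfl | rfl <;> rcases hc' with rfl | rfl | rfl | rfl
  · exact absurd rfl hne
  · rw [zero_sub]; exact isUnit_one.neg
  · rw [zero_sub]; exact hu.neg
  · rw [zero_sub]; exact (hu.pow 2).neg
  · rw [sub_zero]; exact isUnit_one
  · exact absurd rfl hne
  · exact neg h1
  · exact neg h2
  · rw [sub_zero]; exact hu
  · exact h1
  · exact absurd rfl hne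
  · exact h12
  · rw [sub_zero]; exact hu.pow 2
  · exact h2
  · exact neg h12
  · exact absurd rfl hne

/-- the finite cusps `1, ω, ω²` have unit differences when `3` is invertible. -/
theorem mu_cusps_isUnit_sub [DecidableEq R] (ω : R) (hω : ω ^ 2 + ω + 1 = 0)
    (h3 : IsUnit (3 : R)) :
    ∀ c ∈ ({1, ω, ω ^ 2} : Finset R), ∀ c' ∈ ({1, ω, ω ^ 2} : Finset R), c ≠ c' →
      IsUnit (c - c') := by
  intro c hc c' hc' hne
  refine mu_cusps'_isUnit_sub R ω hω h3 c ?_ c' ?_ hne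
  · exact Finset.mem_insert_of_mem hc
  · exact Finset.mem_insert_of_mem hc'

end Mu

section MuField

variable (k : Type*) [Field k]

/-- `muN` and `muD` are coprime over any field of characteristic `≠ 3`. -/
theorem isCoprime_muN_muD (h3 : (3 : k) ≠ 0) : IsCoprime (muN k) (muD k) := by
  have h27 : IsUnit (C (27 : k)) := by
    rw [isUnit_C]
    exact isUnit_iff_ne_zero.2 (by
      have : (27 : k) = 3 ^ 3 := by norm_num
      rw [this]; exact pow_ne_zero _ h3)
  have h9 : (9 : k) ≠ 0 := by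
    have : (9 : k) = 3 ^ 2 := by norm_num
    rw [this]; exact pow_ne_zero _ h3
  have ha : IsCoprime (X : k[X]) (X ^ 3 - 1) := ⟨X ^ 2, -1, by ring⟩
  have hb : IsCoprime (X ^ 3 + 8 : k[X]) (X ^ 3 - 1) := by
    refine ⟨C (9 : k)⁻¹, -C (9 : k)⁻¹, ?_⟩
    have : C (9 : k)⁻¹ * (X ^ 3 + 8) + -C (9 : k)⁻¹ * (X ^ 3 - 1) = C ((9 : k)⁻¹ * 9) := by
      rw [C_mul, map_ofNat]; ring
    rw [this, inv_mul_cancel₀ h9, C_1]
  have h0 : IsCoprime (X * (X ^ 3 + 8) : k[X]) (X ^ 3 - 1) := ha.mul_left hb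
  have h1 : IsCoprime ((X * (X ^ 3 + 8) : k[X]) ^ 3) ((X ^ 3 - 1) ^ 3) := h0.pow
  rw [muN, muD]
  exact (isCoprime_mul_unit_left_left h27 _ _).2 h1

variable (L : Type*) [Field L] [CharZero L]

theorem muQ3_sep (a : L) (h : (muQ3 L).eval a = 0) : (derivative (muQ3 L)).eval a ≠ 0 := by
  intro h'
  simp only [muQ3, derivative_mul, derivative_add, derivative_X_pow, derivative_X,
    derivative_ofNat, eval_add, eval_mul, eval_pow, eval_X,
    Nat.cast_ofNat, add_zero, eval_ofNat, map_ofNat, one_mul] at h h'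
  have : (48 : L) = 0 := by linear_combination (-4 * a ^ 2) * h + (6 + a ^ 3) * h'
  exact absurd this (by norm_num)

theorem muQ2_sep (a : L) (h : (muQ2 L).eval a = 0) : (derivative (muQ2 L)).eval a ≠ 0 := by
  intro h'
  simp only [muQ2, derivative_mul, derivative_sub, derivative_X_pow,
    derivative_ofNat, eval_sub, eval_mul, eval_pow, eval_X,
    Nat.cast_ofNat, sub_zero, zero_mul, zero_add, eval_ofNat, map_ofNat] at h h'
  have : (2592 : L) = 0 := by
    linear_combination (30 * a ^ 3 - 324) * h + (104 * a - 5 * a ^ 4) * h'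
  exact absurd this (by norm_num)

/-- the Hesse cover is a cover datum in characteristic zero. -/
theorem isCoverDatum_mu :
    IsCoverDatum (muN L) (muD L) (muQ3 L) (muQ2 L) (muCu L) 27 27 81 1728 where
  c_ne := by norm_num
  c'_ne := by norm_num
  c''_ne := by norm_num
  j₁_ne := by norm_num
  N_eq := muN_eq L
  N_sub := muN_sub L
  wronskian := mu_wronskian L
  sep3 := muQ3_sep L
  sep2 := muQ2_sep L
  cusp := by
    intro a ha
    simp only [muCu, muD, eval_pow, eval_sub, eval_X, eval_one] at ha ⊢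
    rw [pow_eq_zero_iff (by norm_num)] at ha
    rw [ha]; norm_num
  coprime := isCoprime_muN_muD L (by norm_num)

end MuField

/-! ### The Hesse cover in the coordinate `1/x` -/

section MuRec

variable (R : Type*) [CommRing R]

/-- `27 (8 X³ + 1)³ = X¹² muN(1/X)` -/
noncomputable def mrN : R[X] := C 27 * (8 * X ^ 3 + 1) ^ 3
/-- `X³ (1 - X³)³ = X¹² muD(1/X)` -/
noncomputable def mrD : R[X] := X ^ 3 * (1 - X ^ 3) ^ 3
/-- `8 X³ + 1` -/
noncomputable def mrQ3 : R[X] := 8 * X ^ 3 + 1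
/-- `1 - 20 X³ - 8 X⁶` -/
noncomputable def mrQ2 : R[X] := 1 - 20 * X ^ 3 - 8 * X ^ 6
/-- `X² (1 - X³)²` (finite cusps `0, 1, ω, ω²`) -/
noncomputable def mrCu : R[X] := X ^ 2 * (1 - X ^ 3) ^ 2

variable {R}

theorem map_mrN {S : Type*} [CommRing S] (f : R →+* S) : (mrN R).map f = mrN S := by
  simp [mrN, Polynomial.map_mul, Polynomial.map_pow, Polynomial.map_add, map_ofNat]

theorem map_mrD {S : Type*} [CommRing S] (f : R →+* S) : (mrD R).map f = mrD S := by
  simp [mrD, Polynomial.map_mul, Polynomial.map_pow, Polynomial.map_sub]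

variable (R)

theorem mrN_eq : mrN R = C 27 * mrQ3 R ^ 3 := rfl

theorem mrN_sub : mrN R - C 1728 * mrD R = C 27 * mrQ2 R ^ 2 := by
  simp only [mrN, mrD, mrQ2, map_ofNat]; ring

theorem mr_wronskian :
    derivative (mrN R) * mrD R - mrN R * derivative (mrD R) =
      C (-81) * mrQ3 R ^ 2 * mrQ2 R * mrCu R := by
  simp only [mrN, mrD, mrQ3, mrQ2, mrCu, derivative_mul, derivative_pow, derivative_add,
    derivative_sub, derivative_X, derivative_one, map_ofNat, derivative_ofNat, Nat.cast_ofNat,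
    map_neg]
  ring

/-- `x¹² mrN(1/x) = muN(x)` -/
theorem eval_mrN_of_mul_eq_one {x y : R} (h : x * y = 1) :
    (mrN R).eval y * x ^ 12 = (muN R).eval x := by
  have h3 : x ^ 3 * y ^ 3 = 1 := by rw [← mul_pow, h, one_pow]
  have h1 : (8 * y ^ 3 + 1) * x ^ 3 = x ^ 3 + 8 := by linear_combination 8 * h3
  simp only [mrN, muN, eval_mul, eval_pow, eval_add, eval_X, eval_one, eval_C, eval_ofNat]
  rw [← h1]
  linear_combination (27 * (8 * y ^ 3 + 1) ^ 3 * x ^ 12 * (1 - 1)) * h3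

/-- `x¹² mrD(1/x) = muD(x)` -/
theorem eval_mrD_of_mul_eq_one {x y : R} (h : x * y = 1) :
    (mrD R).eval y * x ^ 12 = (muD R).eval x := by
  have h3 : x ^ 3 * y ^ 3 = 1 := by rw [← mul_pow, h, one_pow]
  have h1 : (1 - y ^ 3) * x ^ 3 = x ^ 3 - 1 := by linear_combination -h3
  simp only [mrD, muD, eval_mul, eval_pow, eval_sub, eval_X, eval_one]
  calc y ^ 3 * (1 - y ^ 3) ^ 3 * x ^ 12 = (x ^ 3 * y ^ 3) * ((1 - y ^ 3) * x ^ 3) ^ 3 := by ring
    _ = (x ^ 3 - 1) ^ 3 := by rw [h3, h1, one_mul]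

/-- with a primitive cube root of unity `ω`, the finite cusps of `mrD` are `0, 1, ω, ω²`. -/
theorem mrD_eq_of_omega (ω : R) (hω : ω ^ 2 + ω + 1 = 0) :
    mrD R = -(X * ((X - 1) * (X - C ω) * (X - C (ω ^ 2)))) ^ 3 := by
  have h3 : (X - 1) * (X - C ω) * (X - C (ω ^ 2)) = (X ^ 3 - 1 : R[X]) := by
    have hC : C ω ^ 2 + C ω + 1 = (0 : R[X]) := by
      rw [← C_pow, ← C_add, ← C_1, ← C_add, hω, C_0]
    rw [C_pow]
    linear_combination (-X ^ 2 + C ω * X - C ω + 1) * hC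
  rw [h3, mrD]; ring

/-- `mrN` and `mrD` are coprime over any commutative ring in which `3` is invertible. -/
theorem isCoprime_mrN_mrD_of_isUnit (h3 : IsUnit (3 : R)) : IsCoprime (mrN R) (mrD R) := by
  have h27 : IsUnit (C (27 : R)) := by
    have : (27 : R) = 3 ^ 3 := by norm_num
    rw [this]; exact (h3.pow 3).map C
  have h9 : IsUnit (9 : R) := by
    have : (9 : R) = 3 ^ 2 := by norm_num
    rw [this]; exact h3.pow 2
  obtain ⟨i9, hi9⟩ := h9.exists_left_inv
  have ha : IsCoprime (8 * X ^ 3 + 1 : R[X]) X := ⟨1, -(8 * X ^ 2), by ring⟩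
  have hb : IsCoprime (8 * X ^ 3 + 1 : R[X]) (1 - X ^ 3) := by
    refine ⟨C i9, C i9 * 8, ?_⟩
    have : C i9 * (8 * X ^ 3 + 1) + C i9 * 8 * (1 - X ^ 3) = C (i9 * 9) := by
      rw [C_mul, map_ofNat]; ring
    rw [this, hi9, C_1]
  have h0 : IsCoprime ((8 * X ^ 3 + 1 : R[X]) ^ 3) (X ^ 3 * (1 - X ^ 3) ^ 3) :=
    IsCoprime.pow_left (IsCoprime.mul_right ha.pow_right hb.pow_right)
  rw [mrN, mrD]
  exact (isCoprime_mul_unit_left_left h27 _ _).2 h0

@[simp] theorem eval_mrN (a : R) : (mrN R).eval a = 27 * (8 * a ^ 3 + 1) ^ 3 := by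
  simp [mrN]

@[simp] theorem eval_mrD (a : R) : (mrD R).eval a = a ^ 3 * (1 - a ^ 3) ^ 3 := by
  simp [mrD]

theorem aeval_mrN {Ω : Type*} [CommRing Ω] [Algebra R Ω] (x : Ω) :
    aeval x (mrN R) = 27 * (8 * x ^ 3 + 1) ^ 3 := by
  simp [mrN, map_ofNat]

theorem aeval_mrD {Ω : Type*} [CommRing Ω] [Algebra R Ω] (x : Ω) :
    aeval x (mrD R) = x ^ 3 * (1 - x ^ 3) ^ 3 := by
  simp [mrD]

/-- the finite cusps of the Hesse cover in the coordinate `1/x` are `0, 1, ω, ω²`. -/
theorem eval_mrD_eq_zero_iff [IsDomain R] (ω : R) (hω : ω ^ 2 + ω + 1 = 0) (a : R) :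
    (mrD R).eval a = 0 ↔ a = 0 ∨ a = 1 ∨ a = ω ∨ a = ω ^ 2 := by
  have h : (1 : R) - a ^ 3 = -((a - 1) * (a - ω) * (a - ω ^ 2)) := by
    rw [← cube_sub_one_eq_of_omega R ω a hω]; ring
  rw [eval_mrD, mul_eq_zero, pow_eq_zero_iff (by norm_num), pow_eq_zero_iff (by norm_num), h,
    neg_eq_zero, mul_eq_zero, mul_eq_zero, sub_eq_zero, sub_eq_zero, sub_eq_zero, or_assoc]

/-- the Hesse cover relation in the coordinate `1/x`. -/
theorem mu_cover_inv {Ω : Type*} [Field Ω] [Algebra R Ω] {x j : Ω} (hx : x ≠ 0)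
    (hcov : aeval x (muN R) = j * aeval x (muD R)) :
    aeval x⁻¹ (mrN R) = j * aeval x⁻¹ (mrD R) := by
  have h1 : x * x⁻¹ = 1 := mul_inv_cancel₀ hx
  have hN := eval_mrN_of_mul_eq_one Ω h1
  have hD := eval_mrD_of_mul_eq_one Ω h1
  rw [aeval_muN, aeval_muD] at hcov
  rw [aeval_mrN, aeval_mrD]
  rw [eval_mrN, eval_muN] at hN
  rw [eval_mrD, eval_muD] at hD
  have hx12 : x ^ 12 ≠ 0 := pow_ne_zero _ hx
  apply mul_right_cancel₀ hx12
  rw [hN, mul_assoc, hD, hcov]

end MuRec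

section MuRecField

variable (k : Type*) [Field k]

/-- `mrN` and `mrD` are coprime over any field of characteristic `≠ 3`. -/
theorem isCoprime_mrN_mrD (h3 : (3 : k) ≠ 0) : IsCoprime (mrN k) (mrD k) := by
  have h27 : IsUnit (C (27 : k)) := by
    rw [isUnit_C]
    exact isUnit_iff_ne_zero.2 (by
      have : (27 : k) = 3 ^ 3 := by norm_num
      rw [this]; exact pow_ne_zero _ h3)
  have h9 : (9 : k) ≠ 0 := by
    have : (9 : k) = 3 ^ 2 := by norm_num
    rw [this]; exact pow_ne_zero _ h3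
  have ha : IsCoprime (8 * X ^ 3 + 1 : k[X]) X := ⟨1, -(8 * X ^ 2), by ring⟩
  have hb : IsCoprime (8 * X ^ 3 + 1 : k[X]) (1 - X ^ 3) := by
    refine ⟨C (9 : k)⁻¹, C (9 : k)⁻¹ * 8, ?_⟩
    have : C (9 : k)⁻¹ * (8 * X ^ 3 + 1) + C (9 : k)⁻¹ * 8 * (1 - X ^ 3) = C ((9 : k)⁻¹ * 9) := by
      rw [C_mul, map_ofNat]; ring
    rw [this, inv_mul_cancel₀ h9, C_1]
  have h0 : IsCoprime ((8 * X ^ 3 + 1 : k[X]) ^ 3) (X ^ 3 * (1 - X ^ 3) ^ 3) :=
    IsCoprime.pow_left (IsCoprime.mul_right ha.pow_right hb.pow_right)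
  rw [mrN, mrD]
  exact (isCoprime_mul_unit_left_left h27 _ _).2 h0

variable (L : Type*) [Field L] [CharZero L]

theorem mrQ3_sep (a : L) (h : (mrQ3 L).eval a = 0) : (derivative (mrQ3 L)).eval a ≠ 0 := by
  intro h'
  simp only [mrQ3, derivative_mul, derivative_add, derivative_X_pow, derivative_one,
    derivative_ofNat, eval_add, eval_mul, eval_pow, eval_X, eval_one,
    Nat.cast_ofNat, add_zero, zero_mul, zero_add, eval_ofNat, map_ofNat] at h h'
  have : (3 : L) = 0 := by linear_combination 3 * h - a * h'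
  exact absurd this (by norm_num)

theorem mrQ2_sep (a : L) (h : (mrQ2 L).eval a = 0) : (derivative (mrQ2 L)).eval a ≠ 0 := by
  intro h'
  simp only [mrQ2, derivative_mul, derivative_sub, derivative_X_pow, derivative_one,
    derivative_ofNat, eval_sub, eval_mul, eval_pow, eval_X, eval_one,
    Nat.cast_ofNat, zero_sub, zero_mul, zero_add, eval_ofNat, map_ofNat,
    eval_neg] at h h'
  have : (81 : L) = 0 := by
    linear_combination (81 + 60 * a ^ 3) * h - a * (26 + 10 * a ^ 3) * h'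
  exact absurd this (by norm_num)

/-- the Hesse cover in the coordinate `1/x` is a cover datum in characteristic zero. -/
theorem isCoverDatum_mr :
    IsCoverDatum (mrN L) (mrD L) (mrQ3 L) (mrQ2 L) (mrCu L) 27 27 (-81) 1728 where
  c_ne := by norm_num
  c'_ne := by norm_num
  c''_ne := by norm_num
  j₁_ne := by norm_num
  N_eq := mrN_eq L
  N_sub := mrN_sub L
  wronskian := mr_wronskian L
  sep3 := mrQ3_sep L
  sep2 := mrQ2_sep L
  cusp := by
    intro a ha
    simp only [mrCu, mrD, eval_mul, eval_pow, eval_sub, eval_X, eval_one] at ha ⊢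
    rcases mul_eq_zero.1 ha with h | h
    · rw [pow_eq_zero_iff (by norm_num)] at h
      rw [h]; norm_num
    · rw [pow_eq_zero_iff (by norm_num)] at h
      rw [h]; norm_num
  coprime := isCoprime_mrN_mrD L (by norm_num)

end MuRecField

end Fermat.Agent.S18.Cover
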