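import Mathlib

/-!
P11 / S18 — the package of hypotheses on an auxiliary cover `g = N_g / D_g` of the `j`-line used
by the model instantiation (`ModelInst`).  The two instances (`λ`-cover for `ℓ ≠ 2`, Hesse cover
for `ℓ = 2`) are constructed in `CoverInst`.
-/

set_option autoImplicit false

namespace Fermat.Agent.S18

open Polynomial

/-- A cover `g = N_g / D_g` of the `j`-line, defined over `ℤ`, which is good at the residue
characteristic `ℓ` of the valuation ring `A ⊂ ℚ̄`: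

* over every nontrivial ring in which `m` is invertible, `deg D_g < deg N_g`, the leading
  coefficient of `N_g` is a unit and `N_g`, `D_g` are coprime;
* over `ℚ̄`: `N_g = c₃ Q₃³` and `N_g - 1728 D_g = c₂ Q₂²`;
* `cusps` contains the zeros of `D_g` in `ℚ̄`, `cusps'` contains `0` and the inverses of the
  nonzero elements of `cusps`; both consist of elements of `A` with pairwise differences units
  of `A`. -/
structure GoodCover (ℓ : ℕ) (A : ValuationSubring (AlgebraicClosure ℚ)) where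
  /-- numerator -/
  Ng : ℤ[X]
  /-- denominator -/
  Dg : ℤ[X]
  /-- the integer which has to be invertible -/
  m : ℕ
  hm : ¬ ℓ ∣ m
  basic : ∀ (R : Type) [CommRing R] [Nontrivial R], IsUnit ((m : ℕ) : R) →
    (Dg.map (Int.castRingHom R)).natDegree < (Ng.map (Int.castRingHom R)).natDegree ∧
      IsUnit (Ng.map (Int.castRingHom R)).leadingCoeff ∧
      IsCoprime (Ng.map (Int.castRingHom R)) (Dg.map (Int.castRingHom R))
  /-- `N_g = c₃ Q₃³` -/
  Q₃ : (AlgebraicClosure ℚ)[X]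
  /-- `N_g - 1728 D_g = c₂ Q₂²` -/
  Q₂ : (AlgebraicClosure ℚ)[X]
  c₃ : AlgebraicClosure ℚ
  c₂ : AlgebraicClosure ℚ
  hN : Ng.map (Int.castRingHom (AlgebraicClosure ℚ)) = C c₃ * Q₃ ^ 3
  hN' : Ng.map (Int.castRingHom (AlgebraicClosure ℚ)) -
      C 1728 * Dg.map (Int.castRingHom (AlgebraicClosure ℚ)) = C c₂ * Q₂ ^ 2
  /-- the finite cusps in the coordinate `x` -/
  cusps : Finset (AlgebraicClosure ℚ)
  /-- the finite cusps in the coordinate `1 / x` -/
  cusps' : Finset (AlgebraicClosure ℚ)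
  hcusps : ∀ a : AlgebraicClosure ℚ,
    (Dg.map (Int.castRingHom (AlgebraicClosure ℚ))).eval a = 0 → a ∈ cusps
  hzero : (0 : AlgebraicClosure ℚ) ∈ cusps'
  hinv : ∀ a ∈ cusps, a ≠ 0 → a⁻¹ ∈ cusps'
  hmem : ∀ a ∈ cusps, a ∈ A
  hmem' : ∀ a ∈ cusps', a ∈ A
  hunit : ∀ a ∈ cusps, ∀ b ∈ cusps, a ≠ b → (a - b)⁻¹ ∈ A
  hunit' : ∀ a ∈ cusps', ∀ b ∈ cusps', a ≠ b → (a - b)⁻¹ ∈ A

end Fermat.Agent.S18
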