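/-
P11 (S18) — module FLD-a (helper8).

`Λ := A ∩ K` for a number field `K ⊆ ℚ̄` and a valuation subring `A` of `ℚ̄` lying over `ℓ`
is a discrete valuation ring with finite residue field of characteristic `ℓ`, and its residue
field embeds into the residue field of `A`.

General lemma: a valuation subring `V ≠ ⊤` of the fraction field of a Dedekind domain `R` that
contains `R` is the valuation subring of the adic valuation at its centre; in particular it
is a DVR.
-/
import Mathlib
import Fermat.Prelude.Def_FLTPrelim_Ramification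
import Fermat.Prelude.Def_ModularCurve_LaurentCoeff
import Fermat.Agent.S28.FreeBasisAbs

set_option autoImplicit false

noncomputable section

namespace Fermat.Agent.S18.NumField

open IsDedekindDomain

section General

variable {R K : Type*} [CommRing R] [Field K] [Algebra R K]

/-- The structure map `R → V` for a valuation subring `V` of `K = Frac R` containing `R`. -/
def toValSub (V : ValuationSubring K) (hRV : ∀ r : R, algebraMap R K r ∈ V) : R →+* V :=
  (algebraMap R K).codRestrict V.toSubring hRV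

@[simp]
theorem coe_toValSub (V : ValuationSubring K) (hRV : ∀ r : R, algebraMap R K r ∈ V) (r : R) :
    (toValSub V hRV r : K) = algebraMap R K r := rfl

/-- The centre on `R` of a valuation subring of `K = Frac R` containing `R`. -/
def centreIdeal (V : ValuationSubring K) (hRV : ∀ r : R, algebraMap R K r ∈ V) : Ideal R :=
  Ideal.comap (toValSub V hRV) (IsLocalRing.maximalIdeal V)

instance centreIdeal_isPrime (V : ValuationSubring K) (hRV : ∀ r : R, algebraMap R K r ∈ V) :
    (centreIdeal V hRV).IsPrime :=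
  Ideal.comap_isPrime _ _

theorem mem_centreIdeal_iff (V : ValuationSubring K) (hRV : ∀ r : R, algebraMap R K r ∈ V)
    (r : R) : r ∈ centreIdeal V hRV ↔ ¬ IsUnit (toValSub V hRV r) := by
  rw [centreIdeal, Ideal.mem_comap, IsLocalRing.mem_maximalIdeal, mem_nonunits_iff]

theorem centreIdeal_ne_bot [IsDomain R] [IsFractionRing R K] (V : ValuationSubring K) (hRV : ∀ r : R, algebraMap R K r ∈ V)
    (hV : V ≠ ⊤) : centreIdeal V hRV ≠ ⊥ := by
  intro hbot
  apply hV
  rw [eq_top_iff]
  intro x _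
  obtain ⟨a, b, hb, rfl⟩ := IsFractionRing.div_surjective (A := R) x
  have hb0 : b ≠ 0 := nonZeroDivisors.ne_zero hb
  have hbu : IsUnit (toValSub V hRV b) := by
    by_contra hnu
    have : b ∈ centreIdeal V hRV := (mem_centreIdeal_iff V hRV b).mpr hnu
    rw [hbot, Ideal.mem_bot] at this
    exact hb0 this
  obtain ⟨u, hu⟩ := hbu
  have hinv : (algebraMap R K b)⁻¹ = ((u⁻¹ : Vˣ) : V) := by
    have h1 : ((u : V) : K) = algebraMap R K b := by rw [hu]; rfl
    have h2 : (((u⁻¹ : Vˣ) : V) : K) * ((u : V) : K) = 1 := by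
      rw [← MulMemClass.coe_mul, Units.inv_mul]; rfl
    rw [← h1]
    exact (eq_inv_of_mul_eq_one_left h2).symm
  rw [div_eq_mul_inv, hinv]
  exact V.mul_mem _ _ (hRV a) (SetLike.coe_mem _)

/-- The centre of `V` as a height-one prime of the Dedekind domain `R`. -/
def centre [IsDedekindDomain R] [IsFractionRing R K] (V : ValuationSubring K)
    (hRV : ∀ r : R, algebraMap R K r ∈ V) (hV : V ≠ ⊤) : HeightOneSpectrum R where
  asIdeal := centreIdeal V hRV
  isPrime := centreIdeal_isPrime V hRV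
  ne_bot := centreIdeal_ne_bot V hRV hV

/-- A valuation subring `V ≠ ⊤` of `Frac R` (`R` Dedekind) containing `R` is the valuation
subring of the adic valuation at its centre. -/
theorem eq_valuationSubring_centre [IsDedekindDomain R] [IsFractionRing R K]
    (V : ValuationSubring K) (hRV : ∀ r : R, algebraMap R K r ∈ V) (hV : V ≠ ⊤) :
    ((centre V hRV hV).valuation K).valuationSubring = V := by
  rw [← HeightOneSpectrum.valuationSubringAtPrime_eq_valuationSubring]
  refine ValuationSubring.eq_of_le_of_ne_top _ ?_ hV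
  intro x hx
  rw [HeightOneSpectrum.valuationSubringAtPrime_eq_valuationSubring,
    Valuation.mem_valuationSubring_iff] at hx
  obtain ⟨n, d, hnd⟩ := (centre V hRV hV).exists_primeCompl_mul_eq_of_integer x hx
  have hdu : IsUnit (toValSub V hRV d) := by
    by_contra hnu
    exact d.2 ((mem_centreIdeal_iff V hRV d).mpr hnu)
  obtain ⟨u, hu⟩ := hdu
  have hd0 : algebraMap R K d ≠ 0 := by
    intro h0
    have : (toValSub V hRV d) = 0 := Subtype.ext h0
    rw [← hu] at this
    exact u.ne_zero this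
  have hx' : x = algebraMap R K n * (((u⁻¹ : Vˣ) : V) : K) := by
    have h1 : ((u : V) : K) = algebraMap R K d := by rw [hu]; rfl
    have h2 : ((u : V) : K) * (((u⁻¹ : Vˣ) : V) : K) = 1 := by
      rw [← MulMemClass.coe_mul, Units.mul_inv]; rfl
    rw [← hnd, mul_assoc, ← h1, h2, mul_one]
  rw [hx']
  exact V.mul_mem _ _ (hRV n) (SetLike.coe_mem _)

/-- A valuation subring `V ≠ ⊤` of `Frac R` (`R` Dedekind) containing `R` is a DVR. -/
theorem isDiscreteValuationRing_of_dedekind [IsDedekindDomain R] [IsFractionRing R K]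
    (V : ValuationSubring K) (hRV : ∀ r : R, algebraMap R K r ∈ V) (hV : V ≠ ⊤) :
    IsDiscreteValuationRing V := by
  have h := eq_valuationSubring_centre V hRV hV
  have : IsDiscreteValuationRing ((centre V hRV hV).valuation K).valuationSubring :=
    inferInstance
  rw [h] at this
  exact this

end General

section Lam

open Fermat.Agent.S28.FreeBasisAbs

variable (A : ValuationSubring (AlgebraicClosure ℚ))
  (K : IntermediateField ℚ (AlgebraicClosure ℚ))

/-- `Λ = A ∩ K`, as a valuation subring of `K`. -/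
def lam : ValuationSubring K := A.comap (algebraMap K (AlgebraicClosure ℚ))

variable {A K} in
theorem mem_lam_iff {x : K} : x ∈ lam A K ↔ (x : AlgebraicClosure ℚ) ∈ A :=
  ValuationSubring.mem_comap

variable {A} in
/-- Elements of `ℚ̄` integral over `ℤ` lie in every valuation subring. -/
theorem mem_of_isIntegral_int {x : AlgebraicClosure ℚ} (hx : IsIntegral ℤ x) : x ∈ A := by
  have hx' : IsIntegral A x := hx.tower_top
  obtain ⟨y, rfl⟩ := (IsIntegrallyClosed.isIntegral_iff (R := A)).mp hx'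
  exact y.2

variable {ℓ : ℕ} [Fact ℓ.Prime]

variable {A} in
theorem natCast_inv_not_mem (hA : A.LiesOverPrime ℓ) : ((ℓ : AlgebraicClosure ℚ))⁻¹ ∉ A := by
  intro h
  have h1 : A.valuation (ℓ : AlgebraicClosure ℚ) < 1 := (A.mem_nonunits_iff).mp hA
  have h2 : A.valuation ((ℓ : AlgebraicClosure ℚ))⁻¹ ≤ 1 := (A.valuation_le_one_iff _).mpr h
  have hne : (ℓ : AlgebraicClosure ℚ) ≠ 0 := by
    exact_mod_cast (Fact.out : ℓ.Prime).ne_zero
  have h3 : A.valuation ((ℓ : AlgebraicClosure ℚ) * (ℓ : AlgebraicClosure ℚ)⁻¹) < 1 := by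
    rw [map_mul]
    exact mul_lt_one_of_lt_of_le h1 h2
  rw [mul_inv_cancel₀ hne, map_one] at h3
  exact lt_irrefl _ h3

variable {A} in
theorem lam_ne_top (hA : A.LiesOverPrime ℓ) : lam A K ≠ ⊤ := by
  intro htop
  have h : ((ℓ : K))⁻¹ ∈ lam A K := by rw [htop]; exact ValuationSubring.mem_top _
  rw [mem_lam_iff] at h
  apply natCast_inv_not_mem hA
  simpa using h

/-- A number field structure on a finite-dimensional intermediate field of `ℚ̄/ℚ`. -/
theorem numberField_of_finiteDimensional [FiniteDimensional ℚ K] : NumberField K :=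
  { to_charZero := inferInstance, to_finiteDimensional := inferInstance }

theorem ringOfIntegers_mem_lam [NumberField K] (r : NumberField.RingOfIntegers K) :
    algebraMap (NumberField.RingOfIntegers K) K r ∈ lam A K := by
  rw [mem_lam_iff]
  apply mem_of_isIntegral_int
  have h : IsIntegral ℤ (algebraMap (NumberField.RingOfIntegers K) K r) :=
    NumberField.RingOfIntegers.isIntegral_coe r
  exact h.map (IsScalarTower.toAlgHom ℤ K (AlgebraicClosure ℚ))

variable {A} in
/-- `Λ = A ∩ K` is a discrete valuation ring when `K` is a number field and `A` lies over `ℓ`. -/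
theorem isDiscreteValuationRing_lam [FiniteDimensional ℚ K] (hA : A.LiesOverPrime ℓ) :
    IsDiscreteValuationRing (lam A K) :=
  have : NumberField K := numberField_of_finiteDimensional K
  isDiscreteValuationRing_of_dedekind (R := NumberField.RingOfIntegers K) (lam A K)
    (ringOfIntegers_mem_lam A K) (lam_ne_top K hA)

/-- The inclusion `Λ = A ∩ K → A`. -/
def lamIncl : lam A K →+* A where
  toFun x := ⟨(x : K), mem_lam_iff.mp x.2⟩
  map_one' := rfl
  map_mul' _ _ := rfl
  map_zero' := rfl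
  map_add' _ _ := rfl

@[simp]
theorem coe_lamIncl (x : lam A K) : ((lamIncl A K x : A) : AlgebraicClosure ℚ) = ((x : K) : AlgebraicClosure ℚ) :=
  rfl

theorem lamIncl_injective : Function.Injective (lamIncl A K) := by
  intro x y h
  have h' : ((x : K) : AlgebraicClosure ℚ) = ((y : K) : AlgebraicClosure ℚ) :=
    congrArg (fun z : A => (z : AlgebraicClosure ℚ)) h
  exact Subtype.ext (Subtype.ext h')

instance lamIncl_isLocalHom : IsLocalHom (lamIncl A K) where
  map_nonunit x hx := by
    obtain ⟨u, hu⟩ := hx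
    have hx0 : (x : K) ≠ 0 := by
      intro h0
      have : lamIncl A K x = 0 := by
        have hx' : x = 0 := Subtype.ext h0
        rw [hx', map_zero]
      rw [← hu] at this
      exact u.ne_zero this
    have hinv : ((x : K))⁻¹ ∈ lam A K := by
      rw [mem_lam_iff]
      have h1 : (((u⁻¹ : Aˣ) : A) : AlgebraicClosure ℚ) * ((x : K) : AlgebraicClosure ℚ) = 1 := by
        have h2 : ((u⁻¹ : Aˣ) : A) * (lamIncl A K x) = 1 := by rw [← hu, Units.inv_mul]
        have h3 := congrArg (fun z : A => (z : AlgebraicClosure ℚ)) h2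
        simpa using h3
      have h4 : (((x : K))⁻¹ : K) = ((((x : K) : AlgebraicClosure ℚ))⁻¹ : AlgebraicClosure ℚ) := by
        push_cast; rfl
      rw [h4, ← eq_inv_of_mul_eq_one_left h1]
      exact SetLike.coe_mem _
    exact IsUnit.of_mul_eq_one (M := lam A K) ⟨(x : K)⁻¹, hinv⟩
      (Subtype.ext (by simp [hx0]))

/-- The induced map on residue fields `κ = Λ/𝔪 → A/𝔪_A`. -/
def lamResMap : IsLocalRing.ResidueField (lam A K) →+* IsLocalRing.ResidueField A :=
  IsLocalRing.ResidueField.map (lamIncl A K)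

theorem lamResMap_residue (x : lam A K) :
    lamResMap A K (IsLocalRing.residue (lam A K) x) = IsLocalRing.residue A (lamIncl A K x) :=
  rfl

theorem lamResMap_injective : Function.Injective (lamResMap A K) :=
  (lamResMap A K).injective

/-- The residue map of `Λ`, with source the underlying subring of `K` (the shape used by
`IsGaussRing`). It is surjective (`lamRes_surjective`). -/
def lamRes : ↥(lam A K).toSubring →+* IsLocalRing.ResidueField (lam A K) :=
  IsLocalRing.residue (lam A K)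

theorem lamRes_surjective : Function.Surjective (lamRes A K) := by
  intro y
  obtain ⟨x, hx⟩ := IsLocalRing.residue_surjective (R := ↥(lam A K)) y
  exact ⟨x, hx⟩

theorem lamRes_eq_zero_iff (x : ↥(lam A K).toSubring) :
    lamRes A K x = 0 ↔ ¬ IsUnit (show ↥(lam A K) from x) := by
  show IsLocalRing.residue (lam A K) x = 0 ↔ _
  rw [IsLocalRing.residue_eq_zero_iff, IsLocalRing.mem_maximalIdeal, mem_nonunits_iff]

/-- The residue map of `A` restricted to `Λ` (not surjective in general). -/
def lamResA : ↥(lam A K).toSubring →+* IsLocalRing.ResidueField A :=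
  (IsLocalRing.residue A).comp (lamIncl A K)

theorem lamResMap_lamRes (x : ↥(lam A K).toSubring) :
    lamResMap A K (lamRes A K x) = lamResA A K x := rfl

theorem lamResA_eq_zero_iff (x : ↥(lam A K).toSubring) :
    lamResA A K x = 0 ↔ lamRes A K x = 0 := by
  rw [← lamResMap_lamRes, map_eq_zero_iff _ (lamResMap_injective A K)]

variable {A K} in
/-- **FLD-a main statement**: for a number field `K ⊆ ℚ̄` and `A` over `ℓ`, `Λ = A ∩ K` with a
uniformiser `ϖ` and its residue map is an abstract Gauss ring (in the sense of S28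
`FreeBasisAbs.IsGaussRing`): `π ∈ Λ`, `π ≠ 0`, `res π = 0`, `ker res = π Λ`, every nonzero
element of `K` is `π ^ n * unit`. -/
theorem isGaussRing_lam [FiniteDimensional ℚ K] (hA : A.LiesOverPrime ℓ)
    {ϖ : lam A K} (hϖ : Irreducible ϖ) :
    IsGaussRing (lam A K).toSubring (ϖ : K) (lamRes A K) := by
  have := isDiscreteValuationRing_lam K hA
  refine ⟨ϖ.2, fun h0 => hϖ.ne_zero (Subtype.ext h0), ?_, ?_, ?_⟩
  · intro h
    rw [lamRes_eq_zero_iff]
    exact hϖ.not_isUnit
  · intro x hx
    rw [lamRes_eq_zero_iff] at hx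
    have hxm : (show ↥(lam A K) from x) ∈ IsLocalRing.maximalIdeal (lam A K) := hx
    rw [hϖ.maximalIdeal_eq, Ideal.mem_span_singleton] at hxm
    obtain ⟨y, hy⟩ := hxm
    exact ⟨y, congrArg (fun z : lam A K => (z : K)) hy⟩
  · intro x hx
    obtain ⟨n, u, hu⟩ :=
      IsDiscreteValuationRing.exists_units_eq_smul_zpow_of_irreducible (K := K) hϖ hx
    refine ⟨n, ((u : lam A K) : K), (u : lam A K).2, ?_, ?_⟩
    · have h2 : ((u : lam A K) : K) * (((u⁻¹ : (lam A K)ˣ) : lam A K) : K) = 1 := by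
        rw [← MulMemClass.coe_mul, Units.mul_inv]; rfl
      rw [← eq_inv_of_mul_eq_one_right h2]
      exact ((u⁻¹ : (lam A K)ˣ) : lam A K).2
    · rw [hu, Units.smul_def, Algebra.smul_def, mul_comm]
      rfl

variable {A K} in
/-- Same as `isGaussRing_lam`, with the (non-surjective) residue map into the residue field
of `A`. -/
theorem isGaussRing_lam_resA [FiniteDimensional ℚ K] (hA : A.LiesOverPrime ℓ)
    {ϖ : lam A K} (hϖ : Irreducible ϖ) :
    IsGaussRing (lam A K).toSubring (ϖ : K) (lamResA A K) := by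
  have h := isGaussRing_lam hA hϖ
  refine ⟨h.pi_mem, h.pi_ne_zero, ?_, ?_, h.unit⟩
  · intro hm
    rw [lamResA_eq_zero_iff]
    exact h.red_pi hm
  · intro x hx
    rw [lamResA_eq_zero_iff] at hx
    exact h.ker x hx

variable {A K} in
/-- Existence of a uniformiser of `Λ`. -/
theorem exists_irreducible_lam [FiniteDimensional ℚ K] (hA : A.LiesOverPrime ℓ) :
    ∃ ϖ : lam A K, Irreducible ϖ :=
  have := isDiscreteValuationRing_lam K hA
  IsDiscreteValuationRing.exists_irreducible _

/-! ### The residue field `κ = Λ/𝔪` is finite of characteristic `ℓ` -/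

variable {A} in
theorem natCast_mem_maximalIdeal_lam (hA : A.LiesOverPrime ℓ) :
    ((ℓ : ℕ) : lam A K) ∈ IsLocalRing.maximalIdeal (lam A K) := by
  rw [IsLocalRing.mem_maximalIdeal, mem_nonunits_iff]
  intro hu
  obtain ⟨u, hu⟩ := hu
  apply natCast_inv_not_mem hA
  have h2 : ((u : lam A K) : K) * (((u⁻¹ : (lam A K)ˣ) : lam A K) : K) = 1 := by
    rw [← MulMemClass.coe_mul, Units.mul_inv]; rfl
  have h3 : ((u : lam A K) : K) = (ℓ : K) := by rw [hu]; rfl
  have h4 : ((ℓ : K))⁻¹ = (((u⁻¹ : (lam A K)ˣ) : lam A K) : K) := by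
    rw [← h3]; exact (eq_inv_of_mul_eq_one_right h2).symm
  have h5 : ((ℓ : K))⁻¹ ∈ lam A K := by rw [h4]; exact SetLike.coe_mem _
  have h6 := mem_lam_iff.mp h5
  simpa using h6

variable {A} in
theorem charP_residueField_lam (hA : A.LiesOverPrime ℓ) :
    CharP (IsLocalRing.ResidueField (lam A K)) ℓ := by
  rw [CharP.charP_iff_prime_eq_zero (Fact.out : ℓ.Prime)]
  have h := (IsLocalRing.residue_eq_zero_iff _).mpr (natCast_mem_maximalIdeal_lam K hA)
  simpa using h

variable {A} in
/-- The residue field of `Λ = A ∩ K` is finite (`K` a number field). -/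
theorem finite_residueField_lam [FiniteDimensional ℚ K] (hA : A.LiesOverPrime ℓ) :
    Finite (IsLocalRing.ResidueField (lam A K)) := by
  have hNF : NumberField K := numberField_of_finiteDimensional K
  let R := NumberField.RingOfIntegers K
  have hRV : ∀ r : R, algebraMap R K r ∈ lam A K := ringOfIntegers_mem_lam A K
  have hV : lam A K ≠ ⊤ := lam_ne_top K hA
  let v := centre (lam A K) hRV hV
  let φ : R →+* IsLocalRing.ResidueField (lam A K) :=
    (IsLocalRing.residue (lam A K)).comp (toValSub (lam A K) hRV)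
  have hφker : ∀ r : R, r ∈ v.asIdeal → φ r = 0 := by
    intro r hr
    have hr' : ¬ IsUnit (toValSub (lam A K) hRV r) := (mem_centreIdeal_iff _ hRV r).mp hr
    exact (IsLocalRing.residue_eq_zero_iff _).mpr hr'
  have hmax : v.asIdeal.IsMaximal := v.isMaximal
  let ψ : R ⧸ v.asIdeal →+* IsLocalRing.ResidueField (lam A K) :=
    Ideal.Quotient.lift v.asIdeal φ hφker
  have hfin : Finite (R ⧸ v.asIdeal) := v.asIdeal.finiteQuotientOfFreeOfNeBot v.ne_bot
  refine Finite.of_surjective ψ ?_
  intro y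
  obtain ⟨x, rfl⟩ := IsLocalRing.residue_surjective y
  have hx : (v.valuation K) (x : K) ≤ 1 := by
    rw [← Valuation.mem_valuationSubring_iff, eq_valuationSubring_centre (lam A K) hRV hV]
    exact x.2
  obtain ⟨n, d, hnd⟩ := v.exists_primeCompl_mul_eq_of_integer (x : K) hx
  have hd : Ideal.Quotient.mk v.asIdeal (d : R) ≠ 0 := by
    rw [Ne, Ideal.Quotient.eq_zero_iff_mem]
    exact d.2
  let _ : Field (R ⧸ v.asIdeal) := Ideal.Quotient.field v.asIdeal
  obtain ⟨e, he⟩ := Ideal.Quotient.mk_surjective (I := v.asIdeal)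
    ((Ideal.Quotient.mk v.asIdeal (d : R))⁻¹)
  refine ⟨Ideal.Quotient.mk v.asIdeal (n * e), ?_⟩
  have h1 : φ (d : R) * φ e = 1 := by
    have : ψ (Ideal.Quotient.mk v.asIdeal (d : R) * Ideal.Quotient.mk v.asIdeal e) = 1 := by
      rw [he, mul_inv_cancel₀ hd, map_one]
    simpa [ψ] using this
  have h2 : IsLocalRing.residue (lam A K) x * φ (d : R) = φ n := by
    show IsLocalRing.residue (lam A K) x * IsLocalRing.residue (lam A K) (toValSub (lam A K) hRV d)
      = IsLocalRing.residue (lam A K) (toValSub (lam A K) hRV n)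
    rw [← map_mul]
    congr 1
    exact Subtype.ext hnd
  show ψ (Ideal.Quotient.mk v.asIdeal (n * e)) = IsLocalRing.residue (lam A K) x
  have h3 : ψ (Ideal.Quotient.mk v.asIdeal (n * e)) = φ n * φ e := by
    simp [ψ]
  rw [h3, ← h2, mul_assoc, h1, mul_one]

/-! ### Laurent series: `Λ((q)) = K((q)) ∩ A((q))` coefficientwise -/

open ModularCurve in
/-- A Laurent series over `K` all of whose coefficients lie in `A` comes from `Λ((q))`. -/
theorem exists_coeffMap_subtype_eq (y : LaurentSeries K)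
    (hy : ∀ n : ℤ, ((y.coeff n : K) : AlgebraicClosure ℚ) ∈ A) :
    ∃ y' : LaurentSeries (lam A K), coeffMap (lam A K).subtype y' = y := by
  refine ⟨⟨fun n => ⟨y.coeff n, mem_lam_iff.mpr (hy n)⟩, ?_⟩, ?_⟩
  · refine y.isPWO_support.mono ?_
    intro n hn
    rw [HahnSeries.mem_support]
    intro h0
    exact hn (Subtype.ext h0)
  · ext n
    rfl

open ModularCurve in
/-- If `y ∈ K((q))` and `Y ∈ A((q))` have the same image in `ℚ̄((q))`, they come from one
element of `Λ((q))`. -/
theorem exists_coeffMap_eq_of_coeffMap_eq (y : LaurentSeries K) (Y : LaurentSeries A)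
    (h : coeffMap (algebraMap K (AlgebraicClosure ℚ)) y = coeffMap A.subtype Y) :
    ∃ y' : LaurentSeries (lam A K),
      coeffMap (lam A K).subtype y' = y ∧ coeffMap (lamIncl A K) y' = Y := by
  have hy : ∀ n : ℤ, ((y.coeff n : K) : AlgebraicClosure ℚ) ∈ A := by
    intro n
    have hn := congrArg (fun z : LaurentSeries (AlgebraicClosure ℚ) => z.coeff n) h
    simp only [coeffMap_coeff] at hn
    have : ((y.coeff n : K) : AlgebraicClosure ℚ) = ((Y.coeff n : A) : AlgebraicClosure ℚ) := hn
    rw [this]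
    exact (Y.coeff n).2
  obtain ⟨y', hy'⟩ := exists_coeffMap_subtype_eq A K y hy
  refine ⟨y', hy', ?_⟩
  ext n
  have hn := congrArg (fun z : LaurentSeries (AlgebraicClosure ℚ) => z.coeff n) h
  simp only [coeffMap_coeff] at hn
  have h1 : ((y'.coeff n : lam A K) : K) = y.coeff n := by
    have := congrArg (fun z : LaurentSeries K => z.coeff n) hy'
    simpa using this
  show (((coeffMap (lamIncl A K) y').coeff n : A) : AlgebraicClosure ℚ) = _
  rw [coeffMap_coeff, coe_lamIncl, h1]
  exact hn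

open ModularCurve in
/-- Coefficientwise compatibility of the two residue maps. -/
theorem coeffMap_lamResMap (y' : LaurentSeries (lam A K)) :
    coeffMap (lamResMap A K) (coeffMap (IsLocalRing.residue (lam A K)) y') =
      coeffMap (IsLocalRing.residue A) (coeffMap (lamIncl A K) y') := by
  ext n
  rfl

open ModularCurve in
theorem coeffMap_lamResMap_injective :
    Function.Injective (coeffMap (lamResMap A K)) := by
  intro a b h
  ext n
  have hn := congrArg (fun z : LaurentSeries (IsLocalRing.ResidueField A) => z.coeff n) h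
  exact lamResMap_injective A K hn

/-! ### Number fields containing a given finite set -/

/-- Every finite subset of `ℚ̄` lies in a number field. -/
theorem exists_finiteDimensional_intermediateField (s : Set (AlgebraicClosure ℚ))
    (hs : s.Finite) :
    ∃ K : IntermediateField ℚ (AlgebraicClosure ℚ), FiniteDimensional ℚ K ∧ s ⊆ K := by
  have : Finite ↑s := hs
  refine ⟨IntermediateField.adjoin ℚ s, ?_, IntermediateField.subset_adjoin ℚ s⟩
  exact IntermediateField.finiteDimensional_adjoin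
    (fun x _ => ((AlgebraicClosure.isAlgebraic ℚ).isAlgebraic x).isIntegral)

/-- Every finite subset of `ℚ̄` lies in a number field containing a given number field. -/
theorem exists_finiteDimensional_intermediateField_ge
    (K₀ : IntermediateField ℚ (AlgebraicClosure ℚ)) [FiniteDimensional ℚ K₀]
    (s : Set (AlgebraicClosure ℚ)) (hs : s.Finite) :
    ∃ K : IntermediateField ℚ (AlgebraicClosure ℚ), FiniteDimensional ℚ K ∧ K₀ ≤ K ∧ s ⊆ K := by
  obtain ⟨K₁, hK₁, hsK₁⟩ := exists_finiteDimensional_intermediateField s hs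
  exact ⟨K₀ ⊔ K₁, IntermediateField.finiteDimensional_sup K₀ K₁, le_sup_left,
    hsK₁.trans (fun x hx => (le_sup_right : K₁ ≤ K₀ ⊔ K₁) hx)⟩

/-! ### Units: integers prime to `ℓ`, and `ζ - 1` -/

variable {A} in
/-- A natural number prime to `ℓ` is a unit of `A`. -/
theorem natCast_inv_mem (hA : A.LiesOverPrime ℓ) {n : ℕ} (hn : ¬ ℓ ∣ n) :
    ((n : AlgebraicClosure ℚ))⁻¹ ∈ A := by
  have hcop : Nat.Coprime n ℓ :=
    ((Nat.Prime.coprime_iff_not_dvd (Fact.out : ℓ.Prime)).mpr hn).symm
  have hb : (n : ℤ) * Nat.gcdA n ℓ + (ℓ : ℤ) * Nat.gcdB n ℓ = 1 := by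
    have := Nat.gcd_eq_gcd_ab n ℓ
    rw [hcop] at this
    simpa using this.symm
  have hbL : (n : AlgebraicClosure ℚ) * ((Nat.gcdA n ℓ : ℤ) : AlgebraicClosure ℚ) +
      (ℓ : AlgebraicClosure ℚ) * ((Nat.gcdB n ℓ : ℤ) : AlgebraicClosure ℚ) = 1 := by
    exact_mod_cast congrArg (fun z : ℤ => (z : AlgebraicClosure ℚ)) hb
  have hℓ : A.valuation (ℓ : AlgebraicClosure ℚ) < 1 := (A.mem_nonunits_iff).mp hA
  have hint : ∀ z : ℤ, A.valuation ((z : ℤ) : AlgebraicClosure ℚ) ≤ 1 := fun z =>
    (A.valuation_le_one_iff _).mpr (intCast_mem A z)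
  have hnle : A.valuation (n : AlgebraicClosure ℚ) ≤ 1 :=
    (A.valuation_le_one_iff _).mpr (natCast_mem A n)
  have hn1 : A.valuation (n : AlgebraicClosure ℚ) = 1 := by
    refine le_antisymm hnle (not_lt.mp fun hlt => ?_)
    have h1 : A.valuation ((n : AlgebraicClosure ℚ) * ((Nat.gcdA n ℓ : ℤ) : AlgebraicClosure ℚ))
        < 1 := by
      rw [map_mul]; exact mul_lt_one_of_lt_of_le hlt (hint _)
    have h2 : A.valuation ((ℓ : AlgebraicClosure ℚ) * ((Nat.gcdB n ℓ : ℤ) : AlgebraicClosure ℚ))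
        < 1 := by
      rw [map_mul]; exact mul_lt_one_of_lt_of_le hℓ (hint _)
    have h3 := lt_of_le_of_lt (Valuation.map_add A.valuation _ _) (max_lt h1 h2)
    rw [hbL, map_one] at h3
    exact lt_irrefl _ h3
  rw [← A.valuation_le_one_iff, map_inv₀, hn1, inv_one]

variable {A} in
/-- If `ζ ∈ ℚ̄` is a primitive `n`-th root of unity, `1 < n`, `ℓ ∤ n`, then `ζ - 1` is a unit
of `A`. -/
theorem sub_one_inv_mem_of_isPrimitiveRoot (hA : A.LiesOverPrime ℓ) {n : ℕ} (hn1 : 1 < n)
    (hn : ¬ ℓ ∣ n) {ζ : AlgebraicClosure ℚ} (hζ : IsPrimitiveRoot ζ n) : (ζ - 1)⁻¹ ∈ A := by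
  obtain ⟨z, hz, hzn⟩ := hζ.self_sub_one_pow_dvd_order (k := 1) hn1
  rw [pow_one] at hzn
  have hζA : ζ ∈ A := mem_of_isIntegral_int (hζ.isIntegral (by omega))
  have hzA : z ∈ A := by
    have hle : Algebra.adjoin ℤ {ζ} ≤ subalgebraOfSubring A.toSubring :=
      Algebra.adjoin_le (by
        intro x hx
        rw [Set.mem_singleton_iff] at hx
        rw [hx]
        exact hζA)
    exact hle hz
  have hninv := natCast_inv_mem hA hn
  have hn0 : (n : AlgebraicClosure ℚ) ≠ 0 := by
    exact_mod_cast (by omega : n ≠ 0)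
  have hζ1 : ζ - 1 ≠ 0 := by
    intro h0
    rw [h0, mul_zero] at hzn
    exact hn0 hzn
  have hz0 : z ≠ 0 := by
    intro h0
    rw [h0, zero_mul] at hzn
    exact hn0 hzn
  have : (ζ - 1)⁻¹ = z * ((n : AlgebraicClosure ℚ))⁻¹ := by
    rw [hzn, mul_inv, ← mul_assoc, mul_inv_cancel₀ hz0, one_mul]
  rw [this]
  exact A.mul_mem _ _ hzA hninv

/-! ### The same unit statements inside `K` -/

variable {A K} in
theorem natCast_inv_mem_lam (hA : A.LiesOverPrime ℓ) {n : ℕ} (hn : ¬ ℓ ∣ n) :
    ((n : K))⁻¹ ∈ lam A K := by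
  rw [mem_lam_iff]
  have h := natCast_inv_mem hA hn
  simpa using h

variable {A K} in
theorem mem_lam_of_isPrimitiveRoot {n : ℕ} (hn : 0 < n) {ζ : K} (hζ : IsPrimitiveRoot ζ n) :
    ζ ∈ lam A K := by
  rw [mem_lam_iff]
  exact mem_of_isIntegral_int
    ((hζ.isIntegral hn).map (IsScalarTower.toAlgHom ℤ K (AlgebraicClosure ℚ)))

variable {A K} in
/-- If `ζ ∈ K` is a primitive `n`-th root of unity, `1 < n`, `ℓ ∤ n`, then `ζ - 1` is a unit of
`Λ = A ∩ K`. -/
theorem sub_one_inv_mem_lam_of_isPrimitiveRoot (hA : A.LiesOverPrime ℓ) {n : ℕ} (hn1 : 1 < n)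
    (hn : ¬ ℓ ∣ n) {ζ : K} (hζ : IsPrimitiveRoot ζ n) : (ζ - 1)⁻¹ ∈ lam A K := by
  rw [mem_lam_iff]
  have hζ' : IsPrimitiveRoot ((ζ : K) : AlgebraicClosure ℚ) n :=
    hζ.map_of_injective (f := algebraMap K (AlgebraicClosure ℚ)) (algebraMap K _).injective
  have h := sub_one_inv_mem_of_isPrimitiveRoot hA hn1 hn hζ'
  simpa using h

variable {A K} in
/-- A unit of `Λ` divided by a uniformiser is not in `Λ`. -/
theorem unit_div_irreducible_not_mem {ϖ : lam A K} (hϖ : Irreducible ϖ) {u : K}
    (hu' : u⁻¹ ∈ lam A K) (hu0 : u ≠ 0) : u / (ϖ : K) ∉ lam A K := by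
  intro h
  apply hϖ.not_isUnit
  have hϖ0 : (ϖ : K) ≠ 0 := fun h0 => hϖ.ne_zero (Subtype.ext h0)
  refine IsUnit.of_mul_eq_one (M := lam A K) (⟨u⁻¹, hu'⟩ * ⟨u / (ϖ : K), h⟩) ?_
  apply Subtype.ext
  show (ϖ : K) * (u⁻¹ * (u / (ϖ : K))) = 1
  field_simp

/-! ### Further exports: integral elements, units, change of number field -/

variable {A K} in
/-- Elements of `K` integral over `ℤ` lie in `Λ = A ∩ K`. -/
theorem mem_lam_of_isIntegral {x : K} (hx : IsIntegral ℤ x) : x ∈ lam A K := by
  rw [mem_lam_iff]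
  exact mem_of_isIntegral_int (hx.map (IsScalarTower.toAlgHom ℤ K (AlgebraicClosure ℚ)))

variable {A K} in
/-- A root of unity of `K` lies in `Λ`. -/
theorem mem_lam_of_pow_eq_one {n : ℕ} (hn : 0 < n) {ζ : K} (hζ : ζ ^ n = 1) : ζ ∈ lam A K := by
  refine mem_lam_of_isIntegral ⟨Polynomial.X ^ n - 1, Polynomial.monic_X_pow_sub_C 1 hn.ne', ?_⟩
  simp [hζ]

variable {A K} in
/-- `x ∈ Λ` is a unit of `Λ` iff `x⁻¹ ∈ Λ` (for `x ≠ 0`). -/
theorem isUnit_lam_of_inv_mem {x : lam A K} (hx0 : (x : K) ≠ 0) (hx : ((x : K))⁻¹ ∈ lam A K) :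
    IsUnit x :=
  IsUnit.of_mul_eq_one (M := lam A K) ⟨(x : K)⁻¹, hx⟩ (Subtype.ext (by simp [hx0]))

variable {A K} in
/-- A natural number prime to `ℓ` is a unit of `Λ`. -/
theorem isUnit_natCast_lam (hA : A.LiesOverPrime ℓ) {n : ℕ} (hn : ¬ ℓ ∣ n) :
    IsUnit ((n : ℕ) : lam A K) := by
  have hn0 : n ≠ 0 := fun h0 => hn (h0 ▸ dvd_zero ℓ)
  refine isUnit_lam_of_inv_mem (x := ((n : ℕ) : lam A K)) ?_ ?_
  · show ((n : ℕ) : K) ≠ 0
    exact_mod_cast hn0
  · exact natCast_inv_mem_lam hA hn

variable {A K} in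
/-- A prime `p ≠ ℓ` is a unit of `Λ`. -/
theorem isUnit_prime_lam (hA : A.LiesOverPrime ℓ) {p : ℕ} (hp : p.Prime) (hpℓ : p ≠ ℓ) :
    IsUnit ((p : ℕ) : lam A K) :=
  isUnit_natCast_lam hA (fun h => hpℓ ((Nat.prime_dvd_prime_iff_eq (Fact.out : ℓ.Prime) hp).mp h).symm)

variable {A K} in
/-- For a primitive `n`-th root of unity `ζ ∈ K` with `1 < n`, `ℓ ∤ n`: `ζ - 1` is a unit of `Λ`
(as an element of `Λ`). -/
theorem isUnit_sub_one_lam (hA : A.LiesOverPrime ℓ) {n : ℕ} (hn1 : 1 < n) (hn : ¬ ℓ ∣ n)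
    {ζ : K} (hζ : IsPrimitiveRoot ζ n) (hζm : ζ - 1 ∈ lam A K) :
    IsUnit (⟨ζ - 1, hζm⟩ : lam A K) := by
  refine isUnit_lam_of_inv_mem ?_ (sub_one_inv_mem_lam_of_isPrimitiveRoot hA hn1 hn hζ)
  show ζ - 1 ≠ 0
  intro h0
  have h1 : ζ = 1 := sub_eq_zero.mp h0
  exact absurd (hζ.eq_orderOf ▸ (by rw [h1, orderOf_one] : orderOf ζ = 1)) (by omega)

section ChangeOfField

variable {K} {K' : IntermediateField ℚ (AlgebraicClosure ℚ)} (h : K ≤ K')

/-- For `K ≤ K'` the inclusion `Λ_K = A ∩ K → Λ_{K'} = A ∩ K'`. -/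
def lamMap : lam A K →+* lam A K' where
  toFun x := ⟨IntermediateField.inclusion h (x : K), by
    rw [mem_lam_iff]; exact mem_lam_iff.mp x.2⟩
  map_one' := rfl
  map_mul' _ _ := rfl
  map_zero' := rfl
  map_add' _ _ := rfl

@[simp]
theorem coe_lamMap (x : lam A K) :
    (((lamMap A h x : lam A K') : K') : AlgebraicClosure ℚ) = ((x : K) : AlgebraicClosure ℚ) :=
  rfl

theorem lamIncl_lamMap (x : lam A K) : lamIncl A K' (lamMap A h x) = lamIncl A K x := rfl

theorem lamMap_injective : Function.Injective (lamMap A h) := by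
  intro x y hxy
  exact lamIncl_injective A K (by rw [← lamIncl_lamMap A h, ← lamIncl_lamMap A h, hxy])

instance lamMap_isLocalHom : IsLocalHom (lamMap A h) where
  map_nonunit x hx := by
    have h1 : IsUnit (lamIncl A K' (lamMap A h x)) := hx.map (lamIncl A K')
    rw [lamIncl_lamMap] at h1
    exact (isUnit_map_iff (lamIncl A K) x).mp h1

/-- The induced map of residue fields `κ_K → κ_{K'}`. -/
def lamResFieldMap : IsLocalRing.ResidueField (lam A K) →+* IsLocalRing.ResidueField (lam A K') :=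
  IsLocalRing.ResidueField.map (lamMap A h)

theorem lamResFieldMap_residue (x : lam A K) :
    lamResFieldMap A h (IsLocalRing.residue (lam A K) x) =
      IsLocalRing.residue (lam A K') (lamMap A h x) := rfl

/-- Compatibility with the residue maps into the residue field of `A`. -/
theorem lamResMap_lamResFieldMap (y : IsLocalRing.ResidueField (lam A K)) :
    lamResMap A K' (lamResFieldMap A h y) = lamResMap A K y := by
  obtain ⟨x, rfl⟩ := IsLocalRing.residue_surjective y
  rfl

theorem lamResMap_comp_lamResFieldMap :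
    (lamResMap A K').comp (lamResFieldMap A h) = lamResMap A K :=
  RingHom.ext (lamResMap_lamResFieldMap A h)

/-- Compatibility at the level of `Λ`: `res_A ∘ (Λ_K → Λ_{K'}) = res_A`. -/
theorem lamResA_lamMap (x : ↥(lam A K).toSubring) :
    lamResA A K' (lamMap A h x) = lamResA A K x := rfl

end ChangeOfField

end Lam

end Fermat.Agent.S18.NumField
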