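import Mathlib
import Fermat.Agent.S18.CoverDefs
import Fermat.Agent.S18.Cover
import Fermat.Agent.S18.NumField

/-!
P11 / S18 — the two instances of `GoodCover ℓ A` (see `CoverDefs`):

* `goodCover_lam hA h2 : GoodCover ℓ A` for `ℓ ≠ 2`: the `λ`-cover
  `256 (X² - X + 1)³ / (X² (X - 1)²)`, `m = 2`, `cusps = cusps' = {0, 1}`;
* `goodCover_mu hA h3 : GoodCover ℓ A` for `ℓ ≠ 3`: the Hesse cover
  `27 X³ (X³ + 8)³ / (X³ - 1)³`, `m = 3`, `cusps = {1, ω, ω²}`, `cusps' = {0, 1, ω, ω²}`, with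
  `ω = omega` a fixed root of `X² + X + 1` in `ℚ̄`.
-/

set_option autoImplicit false

namespace Fermat.Agent.S18

open Polynomial

namespace CoverInst

/-! ### A primitive cube root of unity in `ℚ̄` -/

theorem exists_omega : ∃ ω : AlgebraicClosure ℚ, ω ^ 2 + ω + 1 = 0 := by
  have hdeg : (X ^ 2 + X + 1 : (AlgebraicClosure ℚ)[X]).degree ≠ 0 := by
    have h : (X ^ 2 + X + 1 : (AlgebraicClosure ℚ)[X]).natDegree = 2 := by compute_degree!
    intro h0
    have h1 := natDegree_eq_zero_iff_degree_le_zero.mpr (le_of_eq h0)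
    omega
  obtain ⟨ω, hω⟩ := IsAlgClosed.exists_root (X ^ 2 + X + 1 : (AlgebraicClosure ℚ)[X]) hdeg
  exact ⟨ω, by simpa using hω⟩

/-- A fixed root of `X² + X + 1` in `ℚ̄`. -/
noncomputable def omega : AlgebraicClosure ℚ := exists_omega.choose

theorem omega_spec : omega ^ 2 + omega + 1 = 0 := exists_omega.choose_spec

theorem omega_pow_three : omega ^ 3 = 1 := Cover.omega_cube _ omega omega_spec

theorem omega_inv : omega⁻¹ = omega ^ 2 :=
  inv_eq_of_mul_eq_one_right (by rw [← pow_succ']; exact omega_pow_three)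

theorem omega_sq_inv : (omega ^ 2)⁻¹ = omega :=
  inv_eq_of_mul_eq_one_right (by rw [← pow_succ]; exact omega_pow_three)

theorem omega_ne_zero : omega ≠ 0 := by
  intro h
  have h1 := omega_pow_three
  rw [h] at h1
  norm_num at h1

/-! ### Units of `A` -/

section Units

variable {A : ValuationSubring (AlgebraicClosure ℚ)}

theorem inv_mem_of_mul_eq {z y c : AlgebraicClosure ℚ} (hy : y ∈ A) (hc : c⁻¹ ∈ A)
    (hc0 : c ≠ 0) (h : z * y = c) : z⁻¹ ∈ A := by
  have hz : z ≠ 0 := by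
    rintro rfl
    rw [zero_mul] at h
    exact hc0 h.symm
  have h1 : z⁻¹ = y * c⁻¹ := by
    rw [eq_mul_inv_iff_mul_eq₀ hc0, ← h, inv_mul_cancel_left₀ hz]
  rw [h1]
  exact A.mul_mem _ _ hy hc

theorem inv_sub_mem_symm {a b : AlgebraicClosure ℚ} (h : (a - b)⁻¹ ∈ A) : (b - a)⁻¹ ∈ A := by
  have h1 : (b - a)⁻¹ = -(a - b)⁻¹ := by rw [← neg_sub a b, inv_neg]
  rw [h1]
  exact A.neg_mem _ h

theorem omega_mem : omega ∈ A :=
  NumField.mem_of_isIntegral_int
    ⟨X ^ 2 + X + 1, by monicity!, by simpa using omega_spec⟩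

theorem omega_sq_mem : omega ^ 2 ∈ A := pow_mem omega_mem 2

variable {ℓ : ℕ} [Fact ℓ.Prime]

theorem three_inv_mem (hA : A.LiesOverPrime ℓ) (h3 : ℓ ≠ 3) :
    (3 : AlgebraicClosure ℚ)⁻¹ ∈ A := by
  have h : ¬ ℓ ∣ 3 := fun h =>
    h3 ((Nat.prime_dvd_prime_iff_eq (Fact.out : ℓ.Prime) Nat.prime_three).mp h)
  have := NumField.natCast_inv_mem hA h
  simpa using this

theorem omega_sub_one_inv_mem (hA : A.LiesOverPrime ℓ) (h3 : ℓ ≠ 3) : (omega - 1)⁻¹ ∈ A :=
  inv_mem_of_mul_eq (y := omega ^ 2 - 1) (sub_mem omega_sq_mem A.one_mem)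
    (three_inv_mem hA h3) (by norm_num) (Cover.omega_sub_one_mul _ omega omega_spec)

theorem omega_sq_sub_one_inv_mem (hA : A.LiesOverPrime ℓ) (h3 : ℓ ≠ 3) :
    (omega ^ 2 - 1)⁻¹ ∈ A :=
  inv_mem_of_mul_eq (y := omega - 1) (sub_mem omega_mem A.one_mem)
    (three_inv_mem hA h3) (by norm_num)
    (by rw [mul_comm]; exact Cover.omega_sub_one_mul _ omega omega_spec)

theorem omega_sq_sub_omega_inv_mem (hA : A.LiesOverPrime ℓ) (h3 : ℓ ≠ 3) :
    (omega ^ 2 - omega)⁻¹ ∈ A := by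
  have h1 : (omega ^ 2 - omega)⁻¹ = omega ^ 2 * (omega - 1)⁻¹ := by
    have h2 : omega ^ 2 - omega = omega * (omega - 1) := by ring
    rw [h2, mul_inv, omega_inv]
  rw [h1]
  exact A.mul_mem _ _ omega_sq_mem (omega_sub_one_inv_mem hA h3)

open Classical in
/-- The cusps `0, 1, ω, ω²` have differences which are units of `A` when `ℓ ≠ 3`. -/
theorem mu_cusps'_inv_sub_mem (hA : A.LiesOverPrime ℓ) (h3 : ℓ ≠ 3) :
    ∀ a ∈ ({0, 1, omega, omega ^ 2} : Finset (AlgebraicClosure ℚ)),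
      ∀ b ∈ ({0, 1, omega, omega ^ 2} : Finset (AlgebraicClosure ℚ)), a ≠ b →
        (a - b)⁻¹ ∈ A := by
  have h1 := omega_sub_one_inv_mem hA h3
  have h2 := omega_sq_sub_one_inv_mem hA h3
  have h12 := omega_sq_sub_omega_inv_mem hA h3
  have e1 : ((1 : AlgebraicClosure ℚ) - 0)⁻¹ ∈ A := by
    rw [sub_zero, inv_one]; exact A.one_mem
  have e2 : (omega - 0)⁻¹ ∈ A := by
    rw [sub_zero, omega_inv]; exact omega_sq_mem
  have e3 : (omega ^ 2 - 0)⁻¹ ∈ A := by
    rw [sub_zero, omega_sq_inv]; exact omega_mem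
  intro a ha b hb hne
  simp only [Finset.mem_insert, Finset.mem_singleton] at ha hb
  rcases ha with rfl | rfl | rfl | rfl <;> rcases hb with rfl | rfl | rfl | rfl
  · exact absurd rfl hne
  · exact inv_sub_mem_symm e1
  · exact inv_sub_mem_symm e2
  · exact inv_sub_mem_symm e3
  · exact e1
  · exact absurd rfl hne
  · exact inv_sub_mem_symm h1
  · exact inv_sub_mem_symm h2
  · exact e2
  · exact h1
  · exact absurd rfl hne
  · exact inv_sub_mem_symm h12
  · exact e3
  · exact h2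
  · exact h12
  · exact absurd rfl hne

end Units

end CoverInst

/-! ### The `λ`-cover (`ℓ ≠ 2`) -/

section Lam

variable {ℓ : ℕ} [Fact ℓ.Prime] {A : ValuationSubring (AlgebraicClosure ℚ)}

open Classical in
/-- The `λ`-cover `256 (X² - X + 1)³ / (X² (X - 1)²)` is a good cover when `ℓ ≠ 2`. -/
noncomputable def goodCover_lam (_hA : A.LiesOverPrime ℓ) (h2 : ℓ ≠ 2) : GoodCover ℓ A where
  Ng := Cover.lamN ℤ
  Dg := Cover.lamD ℤ
  m := 2
  hm := fun h => h2 ((Nat.prime_dvd_prime_iff_eq (Fact.out : ℓ.Prime) Nat.prime_two).mp h)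
  basic := by
    intro R _ _ hu
    have hu2 : IsUnit (2 : R) := by simpa using hu
    have h256 : (256 : R) ≠ 0 := by
      have h : (256 : R) = 2 ^ 8 := by norm_num
      rw [h]
      exact (hu2.pow 8).ne_zero
    rw [Cover.map_lamN, Cover.map_lamD]
    exact ⟨Cover.natDegree_lamD_lt_natDegree_lamN R h256, Cover.isUnit_leadingCoeff_lamN R hu2,
      Cover.isCoprime_lamN_lamD_of_isUnit R hu2⟩
  Q₃ := Cover.lamQ3 (AlgebraicClosure ℚ)
  Q₂ := Cover.lamQ2 (AlgebraicClosure ℚ)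
  c₃ := 256
  c₂ := 64
  hN := by rw [Cover.map_lamN]; exact Cover.lamN_eq _
  hN' := by rw [Cover.map_lamN, Cover.map_lamD]; exact Cover.lamN_sub _
  cusps := {0, 1}
  cusps' := {0, 1}
  hcusps := by
    intro a ha
    rw [Cover.map_lamD, Cover.eval_lamD_eq_zero_iff] at ha
    simpa using ha
  hzero := by simp
  hinv := by
    intro a ha _
    simp only [Finset.mem_insert, Finset.mem_singleton] at ha ⊢
    rcases ha with rfl | rfl
    · left; simp
    · right; simp
  hmem := by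
    intro a ha
    simp only [Finset.mem_insert, Finset.mem_singleton] at ha
    rcases ha with rfl | rfl
    · exact A.zero_mem
    · exact A.one_mem
  hmem' := by
    intro a ha
    simp only [Finset.mem_insert, Finset.mem_singleton] at ha
    rcases ha with rfl | rfl
    · exact A.zero_mem
    · exact A.one_mem
  hunit := by
    intro a ha b hb hne
    simp only [Finset.mem_insert, Finset.mem_singleton] at ha hb
    rcases ha with rfl | rfl <;> rcases hb with rfl | rfl
    · exact absurd rfl hne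
    · rw [zero_sub, inv_neg, inv_one]; exact A.neg_mem _ A.one_mem
    · rw [sub_zero, inv_one]; exact A.one_mem
    · exact absurd rfl hne
  hunit' := by
    intro a ha b hb hne
    simp only [Finset.mem_insert, Finset.mem_singleton] at ha hb
    rcases ha with rfl | rfl <;> rcases hb with rfl | rfl
    · exact absurd rfl hne
    · rw [zero_sub, inv_neg, inv_one]; exact A.neg_mem _ A.one_mem
    · rw [sub_zero, inv_one]; exact A.one_mem
    · exact absurd rfl hne

@[simp] theorem goodCover_lam_Ng (hA : A.LiesOverPrime ℓ) (h2 : ℓ ≠ 2) :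
    (goodCover_lam hA h2).Ng = Cover.lamN ℤ := rfl

@[simp] theorem goodCover_lam_Dg (hA : A.LiesOverPrime ℓ) (h2 : ℓ ≠ 2) :
    (goodCover_lam hA h2).Dg = Cover.lamD ℤ := rfl

@[simp] theorem goodCover_lam_m (hA : A.LiesOverPrime ℓ) (h2 : ℓ ≠ 2) :
    (goodCover_lam hA h2).m = 2 := rfl

theorem mem_goodCover_lam_cusps (hA : A.LiesOverPrime ℓ) (h2 : ℓ ≠ 2)
    {a : AlgebraicClosure ℚ} : a ∈ (goodCover_lam hA h2).cusps ↔ a = 0 ∨ a = 1 := by
  simp [goodCover_lam]

theorem mem_goodCover_lam_cusps' (hA : A.LiesOverPrime ℓ) (h2 : ℓ ≠ 2)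
    {a : AlgebraicClosure ℚ} : a ∈ (goodCover_lam hA h2).cusps' ↔ a = 0 ∨ a = 1 := by
  simp [goodCover_lam]

end Lam

/-! ### The Hesse cover (`ℓ ≠ 3`) -/

section Mu

variable {ℓ : ℕ} [Fact ℓ.Prime] {A : ValuationSubring (AlgebraicClosure ℚ)}

open Classical in
/-- The Hesse cover `27 X³ (X³ + 8)³ / (X³ - 1)³` is a good cover when `ℓ ≠ 3`. -/
noncomputable def goodCover_mu (hA : A.LiesOverPrime ℓ) (h3 : ℓ ≠ 3) : GoodCover ℓ A where
  Ng := Cover.muN ℤ
  Dg := Cover.muD ℤ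
  m := 3
  hm := fun h => h3 ((Nat.prime_dvd_prime_iff_eq (Fact.out : ℓ.Prime) Nat.prime_three).mp h)
  basic := by
    intro R _ _ hu
    have hu3 : IsUnit (3 : R) := by simpa using hu
    have h27 : (27 : R) ≠ 0 := by
      have h : (27 : R) = 3 ^ 3 := by norm_num
      rw [h]
      exact (hu3.pow 3).ne_zero
    rw [Cover.map_muN, Cover.map_muD]
    exact ⟨Cover.natDegree_muD_lt_natDegree_muN R h27, Cover.isUnit_leadingCoeff_muN R hu3,
      Cover.isCoprime_muN_muD_of_isUnit R hu3⟩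
  Q₃ := Cover.muQ3 (AlgebraicClosure ℚ)
  Q₂ := Cover.muQ2 (AlgebraicClosure ℚ)
  c₃ := 27
  c₂ := 27
  hN := by rw [Cover.map_muN]; exact Cover.muN_eq _
  hN' := by rw [Cover.map_muN, Cover.map_muD]; exact Cover.muN_sub _
  cusps := {1, CoverInst.omega, CoverInst.omega ^ 2}
  cusps' := {0, 1, CoverInst.omega, CoverInst.omega ^ 2}
  hcusps := by
    intro a ha
    rw [Cover.map_muD, Cover.eval_muD_eq_zero_iff _ CoverInst.omega CoverInst.omega_spec] at ha
    simpa using ha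
  hzero := by simp
  hinv := by
    intro a ha _
    simp only [Finset.mem_insert, Finset.mem_singleton] at ha ⊢
    rcases ha with rfl | rfl | rfl
    · right; left; simp
    · right; right; right; exact CoverInst.omega_inv
    · right; right; left; exact CoverInst.omega_sq_inv
  hmem := by
    intro a ha
    simp only [Finset.mem_insert, Finset.mem_singleton] at ha
    rcases ha with rfl | rfl | rfl
    · exact A.one_mem
    · exact CoverInst.omega_mem
    · exact CoverInst.omega_sq_mem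
  hmem' := by
    intro a ha
    simp only [Finset.mem_insert, Finset.mem_singleton] at ha
    rcases ha with rfl | rfl | rfl | rfl
    · exact A.zero_mem
    · exact A.one_mem
    · exact CoverInst.omega_mem
    · exact CoverInst.omega_sq_mem
  hunit := by
    intro a ha b hb hne
    exact CoverInst.mu_cusps'_inv_sub_mem hA h3 a (Finset.mem_insert_of_mem ha) b
      (Finset.mem_insert_of_mem hb) hne
  hunit' := CoverInst.mu_cusps'_inv_sub_mem hA h3

@[simp] theorem goodCover_mu_Ng (hA : A.LiesOverPrime ℓ) (h3 : ℓ ≠ 3) :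
    (goodCover_mu hA h3).Ng = Cover.muN ℤ := rfl

@[simp] theorem goodCover_mu_Dg (hA : A.LiesOverPrime ℓ) (h3 : ℓ ≠ 3) :
    (goodCover_mu hA h3).Dg = Cover.muD ℤ := rfl

@[simp] theorem goodCover_mu_m (hA : A.LiesOverPrime ℓ) (h3 : ℓ ≠ 3) :
    (goodCover_mu hA h3).m = 3 := rfl

theorem mem_goodCover_mu_cusps (hA : A.LiesOverPrime ℓ) (h3 : ℓ ≠ 3)
    {a : AlgebraicClosure ℚ} :
    a ∈ (goodCover_mu hA h3).cusps ↔ a = 1 ∨ a = CoverInst.omega ∨ a = CoverInst.omega ^ 2 := by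
  simp [goodCover_mu]

theorem mem_goodCover_mu_cusps' (hA : A.LiesOverPrime ℓ) (h3 : ℓ ≠ 3)
    {a : AlgebraicClosure ℚ} :
    a ∈ (goodCover_mu hA h3).cusps' ↔
      a = 0 ∨ a = 1 ∨ a = CoverInst.omega ∨ a = CoverInst.omega ^ 2 := by
  simp [goodCover_mu]

end Mu

end Fermat.Agent.S18
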