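import Mathlib
import Fermat.Prelude.Def_ModularCurve_X0ModL
import Fermat.Prelude.Def_ModularCurve_IgusaScheme
import Fermat.Agent.S28.TowerDefs
import Fermat.Agent.S28.TowerKT
import Fermat.Agent.S28.Char0Deg

/-!
P11 / P12 (S18, S37): the degree of `F_M(K) = K(j(q^d) : d ∣ M)` over `K(j)` is at most `ψ(M)`
for every field `K` of characteristic zero (transfer of `S28/Char0Deg.lean` from `ℚ` to `K`), in
several forms: `relfinrank`, finite-dimensionality, `finrank`, and cardinality of linearly
independent families.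
-/

set_option autoImplicit false

namespace Fermat.Agent.S18

open ModularCurve IntermediateField Polynomial
open Fermat.Agent.S28
open ModularCurve.IgusaScheme (jFull)

namespace Char0DegK

/-- Over `ℚ`: the monomials in the `j(q^d)` lie in the `ℚ(j)`-span of a family of `≤ ψ(M)`
elements. -/
theorem exists_span_rat (M : ℕ) [NeZero M] :
    ∃ (n : ℕ) (v : Fin n → LaurentSeries ℚ), n ≤ dedekindPsi M ∧
      ∀ m ∈ Submonoid.closure (divisorExpansionsC ℚ M),
        m ∈ Submodule.span ↥(Kj ℚ) (Set.range v) := by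
  have := finiteDimensional_jFull M
  let B := Module.finBasis ↥(ℚ⟮jFull M⟯) ↥(modularFunctionFieldFull M)
  refine ⟨_, fun i => ((B i : ↥(modularFunctionFieldFull M)) : LaurentSeries ℚ),
    finrank_jFull_le M, ?_⟩
  intro m hm
  have hmF : m ∈ modularFunctionFieldFull M := by
    rw [← modularFunctionFieldFullC_rat]
    have hle : (Submonoid.closure (divisorExpansionsC ℚ M)) ≤
        (modularFunctionFieldFullC ℚ M).toSubalgebra.toSubmonoid := by
      rw [Submonoid.closure_le]
      intro x hx
      exact subset_adjoin ℚ _ hx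
    exact hle hm
  have key : ∀ c : ↥(modularFunctionFieldFull M), c ∈ ℚ⟮jFull M⟯ →
      (c : LaurentSeries ℚ) ∈ Kj ℚ := by
    intro c hc
    induction hc using IntermediateField.adjoin_induction with
    | mem x hx =>
      rw [Set.mem_singleton_iff] at hx
      subst hx
      exact Tower.jqModC_mem_Kj ℚ
    | algebraMap x =>
      have : ((algebraMap ℚ ↥(modularFunctionFieldFull M) x : ↥(modularFunctionFieldFull M)) :
          LaurentSeries ℚ) = algebraMap ℚ (LaurentSeries ℚ) x := by
        rw [eq_ratCast, eq_ratCast]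
        rfl
      rw [this]
      exact (Kj ℚ).algebraMap_mem x
    | add x y _ _ hx hy => exact (Kj ℚ).add_mem hx hy
    | inv x _ hx => exact (Kj ℚ).inv_mem hx
    | mul x y _ _ hx hy => exact (Kj ℚ).mul_mem hx hy
  have hrepr := B.sum_repr ⟨m, hmF⟩
  have hm' : m = ∑ i, ((B.repr ⟨m, hmF⟩ i : ↥(ℚ⟮jFull M⟯)) : ↥(modularFunctionFieldFull M)) *
      ((B i : ↥(modularFunctionFieldFull M)) : LaurentSeries ℚ) := by
    have h := congrArg (fun z : ↥(modularFunctionFieldFull M) => (z : LaurentSeries ℚ)) hrepr
    simp only [AddSubmonoidClass.coe_finsetSum] at h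
    exact h.symm.trans (Finset.sum_congr rfl fun i _ => rfl)
  rw [hm']
  refine Submodule.sum_mem _ fun i _ => ?_
  have hc := key _ (B.repr ⟨m, hmF⟩ i).2
  exact Submodule.smul_mem (Submodule.span ↥(Kj ℚ) (Set.range fun i =>
    ((B i : ↥(modularFunctionFieldFull M)) : LaurentSeries ℚ))) ⟨_, hc⟩
    (Submodule.subset_span ⟨i, rfl⟩)

section Transfer
variable {k₀ K : Type*} [Field k₀] [Field K]

/-- Transfer of a finite family spanning the monomials: if the monomials in the `j(q^d)`,
`d ∣ N`, over `k₀` lie in the `k₀(j)`-span of a finite family `v`, then the whole field `F_N(K)`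
lies in the `K(j)`-span of the image of `v`. -/
theorem full_le_span (f : k₀ →+* K) {ι : Type*} [Fintype ι] (N : ℕ) [NeZero N]
    (v : ι → LaurentSeries k₀)
    (hv : ∀ m ∈ Submonoid.closure (divisorExpansionsC k₀ N),
      m ∈ Submodule.span ↥(Kj k₀) (Set.range v)) :
    ∀ x ∈ modularFunctionFieldFullC K N,
      x ∈ Submodule.span ↥(Kj K) (Set.range fun i => coeffMap f (v i)) := by
  classical
  let W : Submodule ↥(Kj K) (LaurentSeries K) :=
    Submodule.span ↥(Kj K) (Set.range fun i => coeffMap f (v i))
  have h1 : ∀ x ∈ Submodule.span ↥(Kj k₀) (Set.range v), coeffMap f x ∈ W := by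
    intro x hx
    induction hx using Submodule.span_induction with
    | mem x hx =>
      obtain ⟨i, rfl⟩ := hx
      exact Submodule.subset_span ⟨i, rfl⟩
    | zero =>
      rw [map_zero]
      exact W.zero_mem
    | add x y _ _ hx hy =>
      rw [map_add]
      exact W.add_mem hx hy
    | smul c x _ hx =>
      have h : coeffMap f (c • x) =
          (⟨coeffMap f (c : LaurentSeries k₀), TowerKT.coeffMap_mem_Kj f c.2⟩ : ↥(Kj K)) •
            coeffMap f x := by
        rw [show c • x = (c : LaurentSeries k₀) * x from rfl, map_mul]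
        rfl
      rw [h]
      exact W.smul_mem _ hx
  have h2 : ∀ m ∈ Submonoid.closure (divisorExpansionsC K N), m ∈ W := by
    intro m hm
    rw [← TowerKT.coeffMap_image_divisorExpansionsC f N] at hm
    have hm' : m ∈ (Submonoid.closure (divisorExpansionsC k₀ N)).map
        ((coeffMap f : LaurentSeries k₀ →+* LaurentSeries K) :
          LaurentSeries k₀ →* LaurentSeries K) := by
      rw [MonoidHom.map_mclosure]
      exact hm
    obtain ⟨m₀, hm₀, rfl⟩ := hm'
    exact h1 m₀ (hv m₀ hm₀)
  have h3 : Subalgebra.toSubmodule (Algebra.adjoin ↥(Kj K) (divisorExpansionsC K N)) ≤ W := by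
    rw [Algebra.adjoin_eq_span]
    exact Submodule.span_le.mpr h2
  have hWfin : FiniteDimensional ↥(Kj K) ↥W :=
    FiniteDimensional.span_of_finite _ (Set.finite_range _)
  have h4 : ∀ x ∈ divisorExpansionsC K N, IsAlgebraic ↥(Kj K) x := by
    intro x hx
    have hfg : (Subalgebra.toSubmodule
        (Algebra.adjoin ↥(Kj K) (divisorExpansionsC K N))).FG := by
      have := Submodule.finiteDimensional_of_le h3
      exact Module.Finite.iff_fg.mp inferInstance
    exact (IsIntegral.of_mem_of_fg _ hfg x (Algebra.subset_adjoin hx)).isAlgebraic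
  have h5 := adjoin_toSubalgebra_of_isAlgebraic h4
  let T : IntermediateField K (LaurentSeries K) :=
    Subfield.toIntermediateField (adjoin ↥(Kj K) (divisorExpansionsC K N)).toSubfield (by
      intro c
      exact (adjoin ↥(Kj K) (divisorExpansionsC K N)).algebraMap_mem
        ⟨algebraMap K (LaurentSeries K) c, (Kj K).algebraMap_mem c⟩)
  have hle : modularFunctionFieldFullC K N ≤ T := by
    rw [modularFunctionFieldFullC, adjoin_le_iff]
    intro y hy
    exact subset_adjoin ↥(Kj K) (divisorExpansionsC K N) hy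
  intro x hx
  have hx' : x ∈ adjoin ↥(Kj K) (divisorExpansionsC K N) := hle hx
  have hx'' : x ∈ (adjoin ↥(Kj K) (divisorExpansionsC K N)).toSubalgebra := hx'
  rw [h5] at hx''
  exact h3 hx''

end Transfer

section Main
variable (K : Type*) [Field K] [CharZero K] (M : ℕ) [NeZero M]

/-- `[F_M : K(j)] ≤ ψ(M)` in characteristic zero (`relfinrank` form). -/
theorem relfinrank_full_le_psi :
    (Kj K).relfinrank (modularFunctionFieldFullC K M) ≤ dedekindPsi M := by
  obtain ⟨n, v, hn, hv⟩ := exists_span_rat M
  have h := TowerKT.relfinrank_le_card_of_span (algebraMap ℚ K) M v hv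
  rw [Fintype.card_fin] at h
  exact h.trans hn

/-- In characteristic zero, `F_M(K)` lies in a `K(j)`-subspace of `K((q))` of dimension
`≤ ψ(M)`. -/
theorem exists_submodule_full :
    ∃ W : Submodule ↥(Kj K) (LaurentSeries K), FiniteDimensional ↥(Kj K) ↥W ∧
      Module.finrank ↥(Kj K) ↥W ≤ dedekindPsi M ∧ ∀ x ∈ modularFunctionFieldFullC K M, x ∈ W := by
  obtain ⟨n, v, hn, hv⟩ := exists_span_rat M
  refine ⟨Submodule.span ↥(Kj K) (Set.range fun i => coeffMap (algebraMap ℚ K) (v i)),
    FiniteDimensional.span_of_finite _ (Set.finite_range _), ?_,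
    full_le_span (algebraMap ℚ K) M v hv⟩
  refine (finrank_range_le_card _).trans ?_
  rw [Fintype.card_fin]
  exact hn

/-- A family of elements of `F_M(K)` which is linearly independent over `K(j)` has at most
`ψ(M)` members (characteristic zero). -/
theorem card_le_psi_of_linearIndependent {ι : Type*} [Fintype ι] (y : ι → LaurentSeries K)
    (hy : ∀ i, y i ∈ modularFunctionFieldFullC K M) (hli : LinearIndependent ↥(Kj K) y) :
    Fintype.card ι ≤ dedekindPsi M := by
  obtain ⟨W, hfin, hdim, hW⟩ := exists_submodule_full K M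
  have hli' : LinearIndependent ↥(Kj K) (fun i => (⟨y i, hW _ (hy i)⟩ : ↥W)) := by
    refine LinearIndependent.of_comp W.subtype ?_
    exact hli
  exact hli'.fintype_card_le_finrank.trans hdim

/-- `F_M(K)` is finite-dimensional over `K(j)` in characteristic zero. -/
theorem finiteDimensional_full :
    FiniteDimensional ↥(Kj K) ↥(extendScalars (Tower.Kj_le_full K M)) := by
  obtain ⟨W, hfin, -, hW⟩ := exists_submodule_full K M
  let g : ↥(extendScalars (Tower.Kj_le_full K M)) →ₗ[↥(Kj K)] ↥W :=
    { toFun := fun x => ⟨x.1, hW x.1 x.2⟩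
      map_add' := fun x y => rfl
      map_smul' := fun c x => rfl }
  have hg : Function.Injective g := by
    intro x y hxy
    exact Subtype.ext (congrArg (fun z : ↥W => (z : LaurentSeries K)) hxy)
  exact FiniteDimensional.of_injective g hg

/-- `[F_M : K(j)] ≤ ψ(M)` in characteristic zero (`finrank` form). -/
theorem finrank_full_le_psi :
    Module.finrank ↥(Kj K) ↥(extendScalars (Tower.Kj_le_full K M)) ≤ dedekindPsi M := by
  rw [← relfinrank_eq_finrank_of_le (Tower.Kj_le_full K M)]
  exact relfinrank_full_le_psi K M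

/-- `0 < [F_M : K(j)]` in characteristic zero. -/
theorem relfinrank_full_pos_of_charZero :
    0 < (Kj K).relfinrank (modularFunctionFieldFullC K M) := by
  rw [relfinrank_eq_finrank_of_le (Tower.Kj_le_full K M)]
  have := finiteDimensional_full K M
  exact Module.finrank_pos

end Main

/-- `[F_M : K(j)] = ψ(M)` for `K` algebraically closed of characteristic zero. -/
theorem relfinrank_full_eq_psi (K : Type*) [Field K] [IsAlgClosed K] [CharZero K] (M : ℕ)
    [NeZero M] : (Kj K).relfinrank (modularFunctionFieldFullC K M) = dedekindPsi M :=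
  le_antisymm (relfinrank_full_le_psi K M)
    (dedekindPsi_le_relfinrank_full K M (Nat.cast_ne_zero.mpr (NeZero.ne M)))

end Char0DegK

namespace GaussL

/-- `j` as an element of the field `F_N(K) = K(j(q^d) : d ∣ N)`. -/
noncomputable def jC (K : Type*) [Field K] (N : ℕ) [NeZero N] :
    ↥(modularFunctionFieldFullC K N) :=
  ⟨jqModC K, jqModC_mem_full K N⟩

theorem coe_jC (K : Type*) [Field K] (N : ℕ) [NeZero N] :
    ((jC K N : ↥(modularFunctionFieldFullC K N)) : LaurentSeries K) = jqModC K := rfl

end GaussL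

namespace Char0DegK

open GaussL

section Inside
variable (K : Type*) [Field K] (N : ℕ) [NeZero N]

/-- The image of `K(j) ⊆ F_N(K)` in `K((q))` is `K(j)`. -/
theorem map_adjoin_jC :
    (K⟮jC K N⟯).map (modularFunctionFieldFullC K N).val = Kj K := by
  rw [adjoin_map, Set.image_singleton]
  rfl

/-- The underlying series of an element of `K(j) ⊆ F_N(K)` lies in `K(j) ⊆ K((q))`. -/
theorem coe_mem_Kj {c : ↥(modularFunctionFieldFullC K N)} (hc : c ∈ K⟮jC K N⟯) :
    (c : LaurentSeries K) ∈ Kj K := by
  rw [← map_adjoin_jC K N]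
  exact ⟨c, hc, rfl⟩

/-- Every element of `K(j) ⊆ K((q))` is the underlying series of an element of
`K(j) ⊆ F_N(K)`. -/
theorem exists_mem_adjoin_jC {c : LaurentSeries K} (hc : c ∈ Kj K) :
    ∃ c' : ↥(modularFunctionFieldFullC K N), c' ∈ K⟮jC K N⟯ ∧ (c' : LaurentSeries K) = c := by
  rw [← map_adjoin_jC K N] at hc
  obtain ⟨c', hc', rfl⟩ := hc
  exact ⟨c', hc', rfl⟩

variable {K N} in
/-- A family of `F_N(K)` which is linearly independent over `K(j) ⊆ F_N(K)` is linearly
independent over `K(j) ⊆ K((q))` as a family of Laurent series. -/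
theorem linearIndependent_coe {ι : Type*} {x : ι → ↥(modularFunctionFieldFullC K N)}
    (h : LinearIndependent ↥(K⟮jC K N⟯) x) :
    LinearIndependent ↥(Kj K) (fun i => (x i : LaurentSeries K)) := by
  classical
  rw [linearIndependent_iff'] at h ⊢
  intro s g hg i hi
  choose c' hc' hcc' using fun i => exists_mem_adjoin_jC K N (g i).2
  have h1 : ∑ i ∈ s, (⟨c' i, hc' i⟩ : ↥(K⟮jC K N⟯)) • x i = 0 := by
    apply Subtype.ext
    rw [AddSubmonoidClass.coe_finsetSum]
    refine Eq.trans ?_ hg
    refine Finset.sum_congr rfl fun i _ => ?_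
    show ((c' i : ↥(modularFunctionFieldFullC K N)) : LaurentSeries K) * (x i : LaurentSeries K)
      = (g i : LaurentSeries K) * (x i : LaurentSeries K)
    rw [hcc' i]
  have h2 := h s _ h1 i hi
  have h3 : (c' i : ↥(modularFunctionFieldFullC K N)) = 0 := congrArg Subtype.val h2
  apply Subtype.ext
  rw [← hcc' i, h3]
  rfl

end Inside

section InsideChar0
variable (K : Type*) [Field K] [CharZero K] (N : ℕ) [NeZero N]

/-- `[F_N(K) : K(j)] ≤ ψ(N)` in characteristic zero (cardinal form, inside `F_N(K)`). -/
theorem rank_adjoin_jC_le :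
    Module.rank ↥(K⟮jC K N⟯) ↥(modularFunctionFieldFullC K N) ≤ (dedekindPsi N : Cardinal) := by
  refine rank_le fun s hs => ?_
  have h := card_le_psi_of_linearIndependent K N
    (fun i : s => (((i : ↥(modularFunctionFieldFullC K N))) : LaurentSeries K))
    (fun i => (i : ↥(modularFunctionFieldFullC K N)).2) (linearIndependent_coe hs)
  simpa using h

/-- `F_N(K)` is finite over `K(j)`, of degree `≤ ψ(N)`, in characteristic zero (inside
`F_N(K)`). -/
theorem finrank_adjoin_jC_le :
    FiniteDimensional ↥(K⟮jC K N⟯) ↥(modularFunctionFieldFullC K N) ∧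
      Module.finrank ↥(K⟮jC K N⟯) ↥(modularFunctionFieldFullC K N) ≤ dedekindPsi N := by
  have h := rank_adjoin_jC_le K N
  have hfin : FiniteDimensional ↥(K⟮jC K N⟯) ↥(modularFunctionFieldFullC K N) :=
    Module.rank_lt_aleph0_iff.mp (h.trans_lt (Cardinal.natCast_lt_aleph0))
  exact ⟨hfin, Module.finrank_le_of_rank_le h⟩

end InsideChar0

end Char0DegK

end Fermat.Agent.S18
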