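import Mathlib
import Fermat.Prelude.Def_ModularCurve_X0ModL
import Fermat.Agent.S24.Defs
import Fermat.Agent.S18.NumField
import Fermat.Agent.S18.Char0DegK

/-!
P11 / P12 (S18, S37) — descent of the function field of `X₀(N)` to number fields.

* `coeffMap_mem_full`, `mapFull`: functoriality of `F_K = K(j(q^d) : d ∣ N) ⊆ K((q))` in the
  field `K` (coefficientwise maps);
* `fullC_eq_laurentBaseChange`: `F_L` is the field `laurentBaseChange L (modularFunctionFieldFull N)`
  used in the frozen statements;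
* (D1) `toFL K N : F_K →+* F_L` for `K : IntermediateField ℚ L`, with `coe_toFL`, `toFL_injective`,
  `toFL_algebraMap`, `toFL_jC`, `toFL_jdC`;
* (D2) `exists_numberField`: every element of `F_L` (`L/ℚ` algebraic) comes from `F_K` for a
  number field `K ⊆ L`, and then from every larger subfield (`exists_numberField_ge`);
* (D4) `exists_lam`: a series `Y ∈ A((q))` whose image lies in `F_L` comes, for all large enough
  number fields `K`, from `Λ_K((q))`, `Λ_K = A ∩ K`, with image in `F_K`.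
-/

set_option autoImplicit false

namespace Fermat.Agent.S18.Descent

open ModularCurve IntermediateField

noncomputable section

section Functorial

variable {K₁ K₂ : Type*} [Field K₁] [Field K₂] (f : K₁ →+* K₂) (N : ℕ) [NeZero N]

omit [NeZero N] in
theorem coeffMap_algebraMap_field (c : K₁) :
    coeffMap f (algebraMap K₁ (LaurentSeries K₁) c) = algebraMap K₂ (LaurentSeries K₂) (f c) := by
  rw [algebraMap_laurentSeries_eq_single, algebraMap_laurentSeries_eq_single, coeffMap_single]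

omit [NeZero N] in
theorem coeffMap_field_injective : Function.Injective (coeffMap f) := by
  intro a b h
  ext n
  have hn := congrArg (fun z : LaurentSeries K₂ => z.coeff n) h
  exact f.injective hn

omit [NeZero N] in
/-- The coefficientwise map sends `F_{K₁}` into `F_{K₂}`. -/
theorem coeffMap_mem_full {y : LaurentSeries K₁} (hy : y ∈ modularFunctionFieldFullC K₁ N) :
    coeffMap f y ∈ modularFunctionFieldFullC K₂ N := by
  have hy' : y ∈ Subfield.closure
      (Set.range (algebraMap K₁ (LaurentSeries K₁)) ∪ divisorExpansionsC K₁ N) := hy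
  clear hy
  induction hy' using Subfield.closure_induction with
  | mem y hy =>
    rcases hy with ⟨c, rfl⟩ | ⟨d, hd, hdN, rfl⟩
    · rw [coeffMap_algebraMap_field]
      exact (modularFunctionFieldFullC K₂ N).algebraMap_mem _
    · rw [coeffMap_qExpand, coeffMap_jqModC]
      exact jqModCd_mem_full K₂ N hdN
  | one => simp
  | add _ _ _ _ hx hy => simpa using add_mem hx hy
  | neg _ _ hx => simpa using neg_mem hx
  | inv _ _ hx => simpa using inv_mem hx
  | mul _ _ _ _ hx hy => simpa using mul_mem hx hy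

/-- Functoriality of `F_K` in the field `K`. -/
def mapFull : ↥(modularFunctionFieldFullC K₁ N) →+* ↥(modularFunctionFieldFullC K₂ N) where
  toFun y := ⟨coeffMap f (y : LaurentSeries K₁), coeffMap_mem_full f N y.2⟩
  map_one' := Subtype.ext (map_one _)
  map_mul' _ _ := Subtype.ext (map_mul _ _ _)
  map_zero' := Subtype.ext (map_zero _)
  map_add' _ _ := Subtype.ext (map_add _ _ _)

omit [NeZero N] in
theorem coe_mapFull (y : ↥(modularFunctionFieldFullC K₁ N)) :
    ((mapFull f N y : ↥(modularFunctionFieldFullC K₂ N)) : LaurentSeries K₂) =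
      coeffMap f (y : LaurentSeries K₁) := rfl

end Functorial

section BaseChange

variable (L : Type*) [Field L] [Algebra ℚ L] (N : ℕ) [NeZero N]

omit [NeZero N] in
/-- The field `F_L` of the frozen statements is `L(j(q^d) : d ∣ N)`. -/
theorem fullC_eq_laurentBaseChange :
    modularFunctionFieldFullC L N = laurentBaseChange L (modularFunctionFieldFull N) := by
  apply le_antisymm
  · rw [modularFunctionFieldFullC, adjoin_le_iff]
    rintro x ⟨d, hd, hdN, rfl⟩
    have h : coeffEmb L (qExpand ℚ d jq) ∈ laurentBaseChange L (modularFunctionFieldFull N) :=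
      coeffEmb_mem_laurentBaseChange L (jqd_mem_full N hdN)
    have h2 : coeffEmb L (qExpand ℚ d jq) = qExpand L d (jqModC L) := by
      show coeffMap (algebraMap ℚ L) (qExpand ℚ d (jqModC ℚ)) = _
      rw [coeffMap_qExpand, coeffMap_jqModC]
    rw [← h2]
    exact h
  · rw [laurentBaseChange, adjoin_le_iff]
    rintro x ⟨y, hy, rfl⟩
    have hy' : y ∈ modularFunctionFieldFullC ℚ N := hy
    exact coeffMap_mem_full (algebraMap ℚ L) N hy'

end BaseChange

section ToFL

variable {L : Type*} [Field L] [Algebra ℚ L] (K : IntermediateField ℚ L) (N : ℕ) [NeZero N]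

omit [NeZero N] in
theorem coeffMap_mem_laurentBaseChange {y : LaurentSeries ↥K}
    (hy : y ∈ modularFunctionFieldFullC ↥K N) :
    coeffMap (algebraMap ↥K L) y ∈ laurentBaseChange L (modularFunctionFieldFull N) := by
  rw [← fullC_eq_laurentBaseChange]
  exact coeffMap_mem_full _ N hy

/-- (D1) The embedding `F_K → F_L` (coefficientwise inclusion `K ⊆ L`). -/
def toFL : ↥(modularFunctionFieldFullC ↥K N) →+*
    ↥(laurentBaseChange L (modularFunctionFieldFull N)) where
  toFun y := ⟨coeffMap (algebraMap ↥K L) (y : LaurentSeries ↥K),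
    coeffMap_mem_laurentBaseChange K N y.2⟩
  map_one' := Subtype.ext (map_one _)
  map_mul' _ _ := Subtype.ext (map_mul _ _ _)
  map_zero' := Subtype.ext (map_zero _)
  map_add' _ _ := Subtype.ext (map_add _ _ _)

omit [NeZero N] in
theorem coe_toFL (f : ↥(modularFunctionFieldFullC ↥K N)) :
    ((toFL K N f : ↥(laurentBaseChange L (modularFunctionFieldFull N))) : LaurentSeries L) =
      coeffMap (algebraMap ↥K L) (f : LaurentSeries ↥K) := rfl

omit [NeZero N] in
theorem toFL_injective : Function.Injective (toFL K N) := (toFL K N).injective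

omit [NeZero N] in
theorem toFL_algebraMap (c : ↥K) :
    toFL K N (algebraMap ↥K ↥(modularFunctionFieldFullC ↥K N) c) =
      algebraMap L ↥(laurentBaseChange L (modularFunctionFieldFull N)) (c : L) := by
  apply Subtype.ext
  rw [coe_toFL]
  exact coeffMap_algebraMap_field (algebraMap ↥K L) c

omit [NeZero N] in
theorem coeffMap_jqModC_eq_coeffEmb (d : ℕ) [NeZero d] :
    coeffMap (algebraMap ↥K L) (qExpand ↥K d (jqModC ↥K)) = coeffEmb L (qExpand ℚ d jq) := by
  show _ = coeffMap (algebraMap ℚ L) (qExpand ℚ d (jqModC ℚ))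
  rw [coeffMap_qExpand, coeffMap_jqModC, coeffMap_qExpand, coeffMap_jqModC]

theorem toFL_jC : toFL K N (GaussL.jC ↥K N) = Fermat.Agent.S24.jL L N := by
  apply Subtype.ext
  rw [coe_toFL, GaussL.coe_jC, coeffMap_jqModC]
  show jqModC L = coeffMap (algebraMap ℚ L) (jqModC ℚ)
  rw [coeffMap_jqModC]

omit [NeZero N] in
/-- `toFL` on the generators `j(q^d)`. -/
theorem toFL_jqd (d : ℕ) [NeZero d] (hd : d ∣ N) :
    toFL K N ⟨qExpand ↥K d (jqModC ↥K), jqModCd_mem_full ↥K N hd⟩ =
      ⟨coeffEmb L (qExpand ℚ d jq), coeffEmb_mem_laurentBaseChange L (jqd_mem_full N hd)⟩ := by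
  apply Subtype.ext
  rw [coe_toFL]
  exact coeffMap_jqModC_eq_coeffEmb K d

end ToFL

section NumberField

variable {L : Type*} [Field L] [Algebra ℚ L] [Algebra.IsAlgebraic ℚ L] (N : ℕ) [NeZero N]

omit [NeZero N] [Algebra.IsAlgebraic ℚ L] in
theorem coeffMap_inclusion {K₁ K₂ : IntermediateField ℚ L} (h : K₁ ≤ K₂)
    (y : LaurentSeries ↥K₁) :
    coeffMap (algebraMap ↥K₂ L) (coeffMap (IntermediateField.inclusion h : ↥K₁ →+* ↥K₂) y) =
      coeffMap (algebraMap ↥K₁ L) y := by
  rw [coeffMap_coeffMap]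
  exact coeffMap_congr (RingHom.ext fun _ => rfl) y

omit [NeZero N] in
/-- (D2) Every element of `F_L` is defined over a number field. -/
theorem exists_numberField {z : LaurentSeries L}
    (hz : z ∈ laurentBaseChange L (modularFunctionFieldFull N)) :
    ∃ K₀ : IntermediateField ℚ L, FiniteDimensional ℚ ↥K₀ ∧
      ∃ y : LaurentSeries ↥K₀, y ∈ modularFunctionFieldFullC ↥K₀ N ∧
        coeffMap (algebraMap ↥K₀ L) y = z := by
  rw [← fullC_eq_laurentBaseChange] at hz
  have hz' : z ∈ Subfield.closure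
      (Set.range (algebraMap L (LaurentSeries L)) ∪ divisorExpansionsC L N) := hz
  clear hz
  have hsup : ∀ (K₁ K₂ : IntermediateField ℚ L), FiniteDimensional ℚ ↥K₁ →
      FiniteDimensional ℚ ↥K₂ → FiniteDimensional ℚ ↥(K₁ ⊔ K₂) := by
    intro K₁ K₂ h1 h2
    exact IntermediateField.finiteDimensional_sup K₁ K₂
  induction hz' using Subfield.closure_induction with
  | mem y hy =>
    rcases hy with ⟨c, rfl⟩ | ⟨d, hd, hdN, rfl⟩
    · refine ⟨ℚ⟮c⟯, ?_, algebraMap _ _ (⟨c, mem_adjoin_simple_self ℚ c⟩ : ↥(ℚ⟮c⟯)),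
        (modularFunctionFieldFullC ↥(ℚ⟮c⟯) N).algebraMap_mem _, ?_⟩
      · exact IntermediateField.adjoin.finiteDimensional
          (Algebra.IsIntegral.isIntegral c)
      · rw [coeffMap_algebraMap_field]
        rfl
    · refine ⟨⊥, inferInstance, qExpand _ d (jqModC _), jqModCd_mem_full _ N hdN, ?_⟩
      rw [coeffMap_qExpand, coeffMap_jqModC]
  | one =>
    exact ⟨⊥, inferInstance, 1, one_mem _, map_one _⟩
  | add x y _ _ hx hy =>
    obtain ⟨K₁, h1, y₁, hy₁, rfl⟩ := hx
    obtain ⟨K₂, h2, y₂, hy₂, rfl⟩ := hy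
    refine ⟨K₁ ⊔ K₂, hsup K₁ K₂ h1 h2,
      coeffMap (IntermediateField.inclusion (le_sup_left : K₁ ≤ K₁ ⊔ K₂) : ↥K₁ →+* _) y₁ +
      coeffMap (IntermediateField.inclusion (le_sup_right : K₂ ≤ K₁ ⊔ K₂) : ↥K₂ →+* _) y₂,
      add_mem (coeffMap_mem_full _ N hy₁) (coeffMap_mem_full _ N hy₂), ?_⟩
    rw [map_add, coeffMap_inclusion, coeffMap_inclusion]
  | neg x _ hx =>
    obtain ⟨K₁, h1, y₁, hy₁, rfl⟩ := hx
    exact ⟨K₁, h1, -y₁, neg_mem hy₁, map_neg _ _⟩
  | inv x _ hx =>
    obtain ⟨K₁, h1, y₁, hy₁, rfl⟩ := hx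
    exact ⟨K₁, h1, y₁⁻¹, inv_mem hy₁, map_inv₀ _ _⟩
  | mul x y _ _ hx hy =>
    obtain ⟨K₁, h1, y₁, hy₁, rfl⟩ := hx
    obtain ⟨K₂, h2, y₂, hy₂, rfl⟩ := hy
    refine ⟨K₁ ⊔ K₂, hsup K₁ K₂ h1 h2,
      coeffMap (IntermediateField.inclusion (le_sup_left : K₁ ≤ K₁ ⊔ K₂) : ↥K₁ →+* _) y₁ *
      coeffMap (IntermediateField.inclusion (le_sup_right : K₂ ≤ K₁ ⊔ K₂) : ↥K₂ →+* _) y₂,
      mul_mem (coeffMap_mem_full _ N hy₁) (coeffMap_mem_full _ N hy₂), ?_⟩
    rw [map_mul, coeffMap_inclusion, coeffMap_inclusion]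

omit [NeZero N] in
/-- (D2') Every element of `F_L` comes from `F_K` for all large enough subfields `K`. -/
theorem exists_numberField_ge {z : LaurentSeries L}
    (hz : z ∈ laurentBaseChange L (modularFunctionFieldFull N)) :
    ∃ K₀ : IntermediateField ℚ L, FiniteDimensional ℚ ↥K₀ ∧
      ∀ K : IntermediateField ℚ L, K₀ ≤ K →
        ∃ y : LaurentSeries ↥K, y ∈ modularFunctionFieldFullC ↥K N ∧
          coeffMap (algebraMap ↥K L) y = z := by
  obtain ⟨K₀, hK₀, y₀, hy₀, rfl⟩ := exists_numberField N hz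
  refine ⟨K₀, hK₀, fun K hK => ⟨coeffMap (IntermediateField.inclusion hK : ↥K₀ →+* ↥K) y₀,
    coeffMap_mem_full _ N hy₀, coeffMap_inclusion hK y₀⟩⟩

omit [NeZero N] in
/-- (D2'') Element form: every `f ∈ F_L` is `toFL K N f'` for all large enough `K`. -/
theorem exists_toFL_eq (f : ↥(laurentBaseChange L (modularFunctionFieldFull N))) :
    ∃ K₀ : IntermediateField ℚ L, FiniteDimensional ℚ ↥K₀ ∧
      ∀ K : IntermediateField ℚ L, K₀ ≤ K →
        ∃ f' : ↥(modularFunctionFieldFullC ↥K N), toFL K N f' = f := by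
  obtain ⟨K₀, hK₀, h⟩ := exists_numberField_ge N f.2
  refine ⟨K₀, hK₀, fun K hK => ?_⟩
  obtain ⟨y, hy, hyz⟩ := h K hK
  exact ⟨⟨y, hy⟩, Subtype.ext hyz⟩

end NumberField

section Lam

open Fermat.Agent.S18.NumField

variable (A : ValuationSubring (AlgebraicClosure ℚ)) (N : ℕ) [NeZero N]

omit [NeZero N] in
/-- (D4) A series `Y ∈ A((q))` whose image in `ℚ̄((q))` lies in `F_{ℚ̄}` comes, for every large
enough number field `K`, from a series over `Λ_K = A ∩ K` whose image in `K((q))` lies in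
`F_K`. -/
theorem exists_lam (Y : LaurentSeries A)
    (hY : coeffMap A.subtype Y ∈
      laurentBaseChange (AlgebraicClosure ℚ) (modularFunctionFieldFull N)) :
    ∃ K₀ : IntermediateField ℚ (AlgebraicClosure ℚ), FiniteDimensional ℚ ↥K₀ ∧
      ∀ K : IntermediateField ℚ (AlgebraicClosure ℚ), K₀ ≤ K →
        ∃ Y' : LaurentSeries ↥(lam A K),
          coeffMap (lam A K).subtype Y' ∈ modularFunctionFieldFullC ↥K N ∧
          coeffMap (lamIncl A K) Y' = Y := by
  have : Algebra.IsAlgebraic ℚ (AlgebraicClosure ℚ) := AlgebraicClosure.isAlgebraic ℚ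
  obtain ⟨K₀, hK₀, h⟩ := exists_numberField_ge N hY
  refine ⟨K₀, hK₀, fun K hK => ?_⟩
  obtain ⟨y, hy, hyz⟩ := h K hK
  obtain ⟨Y', hY'1, hY'2⟩ := exists_coeffMap_eq_of_coeffMap_eq A K y Y hyz
  exact ⟨Y', by rw [hY'1]; exact hy, hY'2⟩

end Lam

end

end Fermat.Agent.S18.Descent
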