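import Mathlib
import Fermat.Prelude.Def_ModularCurve_X0ModL

/-!
P11 / S18 — a shortcut instance.

For a field `K` which is itself a subfield (`K = ↥K₁` for an intermediate field `K₁`), the search
for `Algebra K ↥(modularFunctionFieldFullC K N)` explores many expensive failing paths before it
finds `SubalgebraClass.toAlgebra`, and runs out of heartbeats at the default limit.  This file
declares the result of that search as an instance of higher priority; it is reducibly equal to
the instance found by the slow search, so statements elaborated with or without this file are
compatible.
-/

set_option autoImplicit false

namespace Fermat.Agent.S18

open ModularCurve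

/-- Shortcut: `F_N(K) = K(j(q^d) : d ∣ N)` as a `K`-algebra. -/
noncomputable instance (priority := 1100) algebraFullC (K : Type*) [Field K] (N : ℕ) :
    Algebra K ↥(modularFunctionFieldFullC K N) :=
  SubalgebraClass.toAlgebra (modularFunctionFieldFullC K N)

end Fermat.Agent.S18
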