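import Fermat.Agent.S18.ConstField
import Fermat.Agent.S18.Descent
import Fermat.Agent.S18.FullCInst
import Fermat.Agent.S24.FFLAlg

/-!
P11 / S18 — `Embed.lean`: the function field `F_K = K(j(q^d) : d ∣ N) ⊂ K((q))` over the constant
field `K = constField K₀ T` embeds into the model field `𝔽 = genField K₀ T ⊂ Ω`.

Setting: `L` a field containing `ℚ`, `F = FFL L N` the function field of `X₀(N)` over `L`,
`Ω` an extension field of `F` (and of `L`, compatibly).

General part (any `L`, any set `T` of generators containing the images of the `j(q^d)`):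

* `toOmega K N` : `F_K → F → Ω` (coefficientwise base change `Descent.toFL` followed by `F → Ω`);
* `embedOn K₀ T N hT : F_K →ₐ[K] 𝔽` for `K = constField K₀ T`, `𝔽 = genField K₀ T`;
* `adjoin_embedOn_eq_fieldRange`, `mem_adjoin_embedOn`, `mem_range_embedOn`;
* `isAlgebraic_toOmega`, `algebraMap_jL_mem_adjoin` : algebraicity over `K₀(x)`.

Model part (`L = AlgebraicClosure ℚ`, the signatures consumed by `ModelInst`):

* `genSet N x w` : the generators `x`, `w` and the images of the `j(q^d)`, `d ∣ N`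
  (`x_mem`, `w_mem`, `genSet_finite`);
* `embed N K₀ x w : F_K →ₐ[K] 𝔽` for `T = genSet N x w` (`coe_embed`, `coe_embed_jC`,
  `eq_or_mem_range_embed`, `gen_pow_eq_embed`);
* `isAlgebraic_genSet` : the algebraicity hypothesis of `ConstField`.
-/

set_option autoImplicit false

namespace Fermat.Agent.S18.Embed

open ModularCurve IntermediateField Polynomial Fermat.Agent.S24 Fermat.Agent.S18.Model
  Fermat.Agent.S18.GaussL Fermat.Agent.S18.Descent

variable {L : Type*} [Field L] [Algebra ℚ L]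
variable {Ω : Type*} [Field Ω] [Algebra L Ω]

/-! ### Base change of the function field, composed with `F → Ω` -/

section ToOmega

variable (K : IntermediateField ℚ L) (N : ℕ) [NeZero N] [Algebra (FFL L N) Ω]

/-- The generator `j(q^d)` of `F_K`. -/
noncomputable abbrev jd (d : ℕ) [NeZero d] (hd : d ∣ N) : ↥(modularFunctionFieldFullC ↥K N) :=
  ⟨qExpand ↥K d (jqModC ↥K), jqModCd_mem_full ↥K N hd⟩

theorem toFL_jd (d : ℕ) [NeZero d] (hd : d ∣ N) : toFL K N (jd K N d hd) = jdL N L d hd :=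
  toFL_jqd K N d hd

/-- `F_K → F → Ω`. -/
noncomputable def toOmega : ↥(modularFunctionFieldFullC ↥K N) →+* Ω :=
  (algebraMap (FFL L N) Ω).comp (toFL K N)

omit [Algebra L Ω] [NeZero N] in
theorem toOmega_apply (f : ↥(modularFunctionFieldFullC ↥K N)) :
    toOmega K N f = algebraMap (FFL L N) Ω (toFL K N f) := rfl

omit [NeZero N] in
theorem toOmega_algebraMap [IsScalarTower L (FFL L N) Ω] (c : ↥K) :
    toOmega (Ω := Ω) K N (algebraMap ↥K ↥(modularFunctionFieldFullC ↥K N) c) =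
      algebraMap L Ω (c : L) := by
  rw [toOmega_apply, toFL_algebraMap]
  exact (IsScalarTower.algebraMap_apply L (FFL L N) Ω (c : L)).symm

omit [Algebra L Ω] in
theorem toOmega_jd (d : ℕ) [NeZero d] (hd : d ∣ N) :
    toOmega (Ω := Ω) K N (jd K N d hd) = algebraMap (FFL L N) Ω (jdL N L d hd) := by
  rw [toOmega_apply, toFL_jd]

omit [Algebra L Ω] in
theorem toOmega_jC : toOmega (Ω := Ω) K N (jC ↥K N) = algebraMap (FFL L N) Ω (jL L N) := by
  rw [toOmega_apply, toFL_jC]

end ToOmega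

/-- A ring homomorphism from `F_K` to a field maps into any subfield containing the images of
the constants and of the `j(q^d)`, `d ∣ N`. -/
theorem map_mem_subfield {K' : Type*} [Field K'] (N : ℕ) [NeZero N] {S : Type*} [Field S]
    (Θ : ↥(modularFunctionFieldFullC K' N) →+* S) (R : Subfield S)
    (hC : ∀ c : K', Θ (algebraMap K' ↥(modularFunctionFieldFullC K' N) c) ∈ R)
    (hj : ∀ (d : ℕ) [NeZero d] (hd : d ∣ N),
      Θ ⟨qExpand K' d (jqModC K'), jqModCd_mem_full K' N hd⟩ ∈ R)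
    (f : ↥(modularFunctionFieldFullC K' N)) : Θ f ∈ R := by
  obtain ⟨y, hy⟩ := f
  induction hy using IntermediateField.adjoin_induction with
  | mem x hx =>
    obtain ⟨d, hd0, hd, rfl⟩ := hx
    exact hj d hd
  | algebraMap c => exact hC c
  | add x y hx hy ihx ihy =>
    have : (⟨x + y, add_mem hx hy⟩ : ↥(modularFunctionFieldFullC K' N)) = ⟨x, hx⟩ + ⟨y, hy⟩ := rfl
    rw [this, map_add]
    exact add_mem ihx ihy
  | inv x hx ihx =>
    have : (⟨x⁻¹, inv_mem hx⟩ : ↥(modularFunctionFieldFullC K' N)) = (⟨x, hx⟩)⁻¹ := rfl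
    rw [this, map_inv₀]
    exact inv_mem ihx
  | mul x y hx hy ihx ihy =>
    have : (⟨x * y, mul_mem hx hy⟩ : ↥(modularFunctionFieldFullC K' N)) = ⟨x, hx⟩ * ⟨y, hy⟩ := rfl
    rw [this, map_mul]
    exact mul_mem ihx ihy

/-! ### The embedding into the model field -/

section Embedding

variable (K₀ : IntermediateField ℚ L) (T : Set Ω) (N : ℕ) [NeZero N] [Algebra (FFL L N) Ω]
  [IsScalarTower L (FFL L N) Ω] (hT : (algebraMap (FFL L N) Ω) '' (jdLSet N L) ⊆ T)

include hT in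
theorem toOmega_mem_genField (f : ↥(modularFunctionFieldFullC ↥(constField K₀ T) N)) :
    toOmega (constField K₀ T) N f ∈ genField K₀ T := by
  refine map_mem_subfield N (toOmega (constField K₀ T) N) (genField K₀ T) ?_ ?_ f
  · intro c
    rw [toOmega_algebraMap]
    exact c.2
  · intro d _ hd
    rw [toOmega_jd (constField K₀ T) N d hd]
    exact mem_genField_of_mem K₀ (hT ⟨_, jdL_mem_jdLSet N L d hd, rfl⟩)

/-- The embedding `F_K → 𝔽` of the function field over the constant field `K = constField K₀ T`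
into the model field `𝔽 = genField K₀ T`, for a set `T` containing the images of the
`j(q^d)`, `d ∣ N`. -/
noncomputable def embedOn :
    ↥(modularFunctionFieldFullC ↥(constField K₀ T) N) →ₐ[↥(constField K₀ T)] ↥(genField K₀ T) :=
  { (toOmega (constField K₀ T) N).codRestrict (genField K₀ T)
      (toOmega_mem_genField K₀ T N hT) with
    commutes' := fun c => Subtype.ext (toOmega_algebraMap (constField K₀ T) N c) }

theorem coe_embedOn (f : ↥(modularFunctionFieldFullC ↥(constField K₀ T) N)) :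
    ((embedOn K₀ T N hT f : ↥(genField K₀ T)) : Ω) =
      algebraMap (FFL L N) Ω (toFL (constField K₀ T) N f) := rfl

theorem coe_embedOn_jd (d : ℕ) [NeZero d] (hd : d ∣ N) :
    ((embedOn K₀ T N hT (jd (constField K₀ T) N d hd) : ↥(genField K₀ T)) : Ω) =
      algebraMap (FFL L N) Ω (jdL N L d hd) := by
  rw [coe_embedOn, toFL_jd]

theorem coe_embedOn_jC :
    ((embedOn K₀ T N hT (jC ↥(constField K₀ T) N) : ↥(genField K₀ T)) : Ω) =
      algebraMap (FFL L N) Ω (jL L N) := by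
  rw [coe_embedOn, toFL_jC]

theorem embedOn_jC (h : algebraMap (FFL L N) Ω (jL L N) ∈ genField K₀ T) :
    embedOn K₀ T N hT (jC ↥(constField K₀ T) N) = ⟨algebraMap (FFL L N) Ω (jL L N), h⟩ :=
  Subtype.ext (coe_embedOn_jC K₀ T N hT)

theorem embedOn_injective : Function.Injective (embedOn K₀ T N hT) :=
  (embedOn K₀ T N hT).toRingHom.injective

/-- Every generator `j(q^d)` of the model field lies in the range of the embedding. -/
theorem exists_embedOn_eq (d : ℕ) (hd : d ∣ N) :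
    ∃ f : ↥(modularFunctionFieldFullC ↥(constField K₀ T) N),
      ((embedOn K₀ T N hT f : ↥(genField K₀ T)) : Ω) =
        algebraMap (FFL L N) Ω (jdL N L d hd) := by
  have : NeZero d := ⟨ne_zero_of_dvd_ne_zero (NeZero.ne N) hd⟩
  exact ⟨jd (constField K₀ T) N d hd, coe_embedOn_jd K₀ T N hT d hd⟩

/-- Elements of the model field lying over the images of the `j(q^d)` are in the range of the
embedding. -/
theorem mem_range_embedOn (y : ↥(genField K₀ T))
    (hy : (y : Ω) ∈ (algebraMap (FFL L N) Ω) '' (jdLSet N L)) :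
    y ∈ Set.range (embedOn K₀ T N hT) := by
  obtain ⟨_, ⟨d, hd, rfl⟩, hy⟩ := hy
  obtain ⟨f, hf⟩ := exists_embedOn_eq K₀ T N hT d hd
  exact ⟨f, Subtype.ext (hf.trans hy)⟩

/-- If `F_K = K(j, θ)` then the range of the embedding is `K(embed j, embed θ)`. -/
theorem adjoin_embedOn_eq_fieldRange (θ : ↥(modularFunctionFieldFullC ↥(constField K₀ T) N))
    (hθ : IntermediateField.adjoin ↥(constField K₀ T) {jC ↥(constField K₀ T) N, θ} = ⊤) :
    IntermediateField.adjoin ↥(constField K₀ T)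
      {embedOn K₀ T N hT (jC ↥(constField K₀ T) N), embedOn K₀ T N hT θ} =
      (embedOn K₀ T N hT).fieldRange := by
  rw [AlgHom.fieldRange_eq_map, ← hθ, IntermediateField.adjoin_map, Set.image_pair]

/-- If `F_K = K(j, θ)`, the images of all the `j(q^d)` lie in `K(embed j, embed θ)`. -/
theorem mem_adjoin_embedOn (θ : ↥(modularFunctionFieldFullC ↥(constField K₀ T) N))
    (hθ : IntermediateField.adjoin ↥(constField K₀ T) {jC ↥(constField K₀ T) N, θ} = ⊤)
    (y : ↥(genField K₀ T)) (hy : (y : Ω) ∈ (algebraMap (FFL L N) Ω) '' (jdLSet N L)) :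
    y ∈ IntermediateField.adjoin ↥(constField K₀ T)
      {embedOn K₀ T N hT (jC ↥(constField K₀ T) N), embedOn K₀ T N hT θ} := by
  rw [adjoin_embedOn_eq_fieldRange K₀ T N hT θ hθ]
  exact mem_range_embedOn K₀ T N hT y hy

/-- A `p`-th root `w ∈ T` of the image of `u ∈ F_K` is a `p`-th root of `embed u` in `𝔽`. -/
theorem gen_pow_eq_embedOn {w : Ω} (hwT : w ∈ T) (p : ℕ)
    (u : ↥(modularFunctionFieldFullC ↥(constField K₀ T) N))
    (hw : w ^ p = algebraMap (FFL L N) Ω (toFL (constField K₀ T) N u)) :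
    gen K₀ hwT ^ p = embedOn K₀ T N hT u :=
  Subtype.ext hw

end Embedding

/-! ### Algebraicity over `K₀(x)` -/

section Algebraic

variable (K₀ : IntermediateField ℚ L) (N : ℕ) [NeZero N] [Algebra (FFL L N) Ω]
  [IsScalarTower L (FFL L N) Ω]

/-- The image of `K₀(j) ⊆ F_{K₀}` in `Ω` lies in `K₀(x)` as soon as the image of `j` does. -/
theorem toOmega_mem_adjoin {x : Ω} (hj : algebraMap (FFL L N) Ω (jL L N) ∈ (↥K₀)⟮x⟯)
    (a : ↥(modularFunctionFieldFullC ↥K₀ N)) (ha : a ∈ (↥K₀)⟮jC ↥K₀ N⟯) :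
    toOmega K₀ N a ∈ (↥K₀)⟮x⟯ := by
  induction ha using IntermediateField.adjoin_induction with
  | mem y hy =>
    rw [Set.mem_singleton_iff] at hy
    subst hy
    rw [toOmega_jC]
    exact hj
  | algebraMap c =>
    rw [toOmega_algebraMap]
    exact ((↥K₀)⟮x⟯).algebraMap_mem c
  | add y z _ _ hy hz => rw [map_add]; exact add_mem hy hz
  | inv y _ hy => rw [map_inv₀]; exact inv_mem hy
  | mul y z _ _ hy hz => rw [map_mul]; exact mul_mem hy hz

/-- The image in `Ω` of every element of `F_{K₀}` is algebraic over `K₀(x)`, as soon as the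
image of `j` lies in `K₀(x)`. -/
theorem isAlgebraic_toOmega {x : Ω} (hj : algebraMap (FFL L N) Ω (jL L N) ∈ (↥K₀)⟮x⟯)
    (f : ↥(modularFunctionFieldFullC ↥K₀ N)) :
    IsAlgebraic ↥((↥K₀)⟮x⟯) (toOmega (Ω := Ω) K₀ N f) := by
  have hchar : CharZero ↥K₀ := charZero_of_injective_algebraMap (algebraMap ℚ ↥K₀).injective
  obtain ⟨hfin, -⟩ := Char0DegK.finrank_adjoin_jC_le ↥K₀ N
  have halg : IsAlgebraic ↥((↥K₀)⟮jC ↥K₀ N⟯) f := Algebra.IsAlgebraic.isAlgebraic f
  obtain ⟨p, hp0, hp⟩ := halg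
  obtain ⟨q, hq0, hq⟩ := ConstField.exists_poly_of_range_le
    ((toOmega (Ω := Ω) K₀ N).comp
      (algebraMap ↥((↥K₀)⟮jC ↥K₀ N⟯) ↥(modularFunctionFieldFullC ↥K₀ N)))
    (algebraMap ↥((↥K₀)⟮x⟯) Ω)
    (fun a => ⟨⟨_, toOmega_mem_adjoin K₀ N hj a a.2⟩, rfl⟩) p hp0
    (by rw [← hom_eval₂, ← aeval_def, hp, map_zero])
  exact ⟨q, hq0, by rw [aeval_def]; exact hq⟩

omit [IsScalarTower L (FFL L N) Ω] in
/-- The image of `j` lies in `K₀(x)` if `N_g(x) = j · D_g(x)` for coprime polynomials over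
`ℤ`. -/
theorem algebraMap_jL_mem_adjoin {x : Ω} (Ng Dg : ℤ[X])
    (hcop : IsCoprime (Ng.map (Int.castRingHom L)) (Dg.map (Int.castRingHom L)))
    (hcov : aeval x (Ng.map (Int.castRingHom L)) =
      algebraMap (FFL L N) Ω (jL L N) * aeval x (Dg.map (Int.castRingHom L))) :
    algebraMap (FFL L N) Ω (jL L N) ∈ (↥K₀)⟮x⟯ := by
  have hD : aeval x (Dg.map (Int.castRingHom L)) ≠ 0 := by
    intro h0
    obtain ⟨a, b, hab⟩ := hcop
    have h1 := congrArg (aeval x) hab
    rw [map_add, map_mul, map_mul, hcov, h0, mul_zero, mul_zero, mul_zero, add_zero,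
      map_one] at h1
    exact zero_ne_one h1
  have hmem : ∀ P : ℤ[X], aeval x (P.map (Int.castRingHom L)) ∈ (↥K₀)⟮x⟯ := by
    intro P
    have h1 : aeval x (P.map (Int.castRingHom L)) = aeval x P := by
      rw [aeval_def, eval₂_map, aeval_def]
      congr 1
      exact RingHom.ext_int _ _
    rw [h1, aeval_def, eval₂_eq_sum_range]
    refine sum_mem fun i _ => mul_mem ?_ (pow_mem (mem_adjoin_simple_self _ x) i)
    have h2 : algebraMap ℤ Ω (P.coeff i) = algebraMap ↥K₀ Ω ((P.coeff i : ℤ) : ↥K₀) := by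
      rw [map_intCast, eq_intCast]
    rw [h2]
    exact ((↥K₀)⟮x⟯).algebraMap_mem _
  have h3 : algebraMap (FFL L N) Ω (jL L N) =
      aeval x (Ng.map (Int.castRingHom L)) / aeval x (Dg.map (Int.castRingHom L)) := by
    rw [hcov, mul_div_assoc, div_self hD, mul_one]
  rw [h3]
  exact div_mem (hmem Ng) (hmem Dg)

end Algebraic

/-! ### The model over `ℚ̄`: generators `x`, `w`, `j(q^d)` -/

section Model

variable (N : ℕ) [NeZero N] {Ω : Type*} [Field Ω] [Algebra (AlgebraicClosure ℚ) Ω]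
  [Algebra (FFL (AlgebraicClosure ℚ) N) Ω]
  [IsScalarTower (AlgebraicClosure ℚ) (FFL (AlgebraicClosure ℚ) N) Ω]

omit [Algebra (AlgebraicClosure ℚ) Ω]
  [IsScalarTower (AlgebraicClosure ℚ) (FFL (AlgebraicClosure ℚ) N) Ω] in
/-- The generators of the model field: `x`, `w` and the images of the `j(q^d)`, `d ∣ N`. -/
def genSet (x w : Ω) : Set Ω :=
  {x, w} ∪ {t | ∃ (d : ℕ) (_ : NeZero d) (hd : d ∣ N),
    t = algebraMap (FFL (AlgebraicClosure ℚ) N) Ω
      ⟨coeffEmb (AlgebraicClosure ℚ) (qExpand ℚ d jq),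
        coeffEmb_mem_laurentBaseChange (AlgebraicClosure ℚ) (jqd_mem_full N hd)⟩}

omit [NeZero N] [Algebra (AlgebraicClosure ℚ) Ω]
  [IsScalarTower (AlgebraicClosure ℚ) (FFL (AlgebraicClosure ℚ) N) Ω] in
theorem x_mem (x w : Ω) : x ∈ genSet N x w := Or.inl (Set.mem_insert _ _)

omit [NeZero N] [Algebra (AlgebraicClosure ℚ) Ω]
  [IsScalarTower (AlgebraicClosure ℚ) (FFL (AlgebraicClosure ℚ) N) Ω] in
theorem w_mem (x w : Ω) : w ∈ genSet N x w := Or.inl (Set.mem_insert_of_mem _ rfl)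

omit [Algebra (AlgebraicClosure ℚ) Ω]
  [IsScalarTower (AlgebraicClosure ℚ) (FFL (AlgebraicClosure ℚ) N) Ω] in
theorem genSet_eq (x w : Ω) :
    genSet N x w = {x, w} ∪ (algebraMap (FFL (AlgebraicClosure ℚ) N) Ω) ''
      (jdLSet N (AlgebraicClosure ℚ)) := by
  unfold genSet
  congr 1
  ext t
  constructor
  · rintro ⟨d, hd0, hd, rfl⟩
    exact ⟨_, jdL_mem_jdLSet N (AlgebraicClosure ℚ) d hd, rfl⟩
  · rintro ⟨_, ⟨d, hd, rfl⟩, rfl⟩
    exact ⟨d, ⟨ne_zero_of_dvd_ne_zero (NeZero.ne N) hd⟩, hd, rfl⟩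

omit [Algebra (AlgebraicClosure ℚ) Ω]
  [IsScalarTower (AlgebraicClosure ℚ) (FFL (AlgebraicClosure ℚ) N) Ω] in
theorem image_jdLSet_subset_genSet (x w : Ω) :
    (algebraMap (FFL (AlgebraicClosure ℚ) N) Ω) '' (jdLSet N (AlgebraicClosure ℚ)) ⊆
      genSet N x w := by
  rw [genSet_eq]
  exact Set.subset_union_right

omit [Algebra (AlgebraicClosure ℚ) Ω]
  [IsScalarTower (AlgebraicClosure ℚ) (FFL (AlgebraicClosure ℚ) N) Ω] in
theorem algebraMap_jdL_mem_genSet (x w : Ω) (d : ℕ) (hd : d ∣ N) :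
    algebraMap (FFL (AlgebraicClosure ℚ) N) Ω (jdL N (AlgebraicClosure ℚ) d hd) ∈
      genSet N x w :=
  image_jdLSet_subset_genSet N x w ⟨_, jdL_mem_jdLSet N (AlgebraicClosure ℚ) d hd, rfl⟩

omit [Algebra (AlgebraicClosure ℚ) Ω]
  [IsScalarTower (AlgebraicClosure ℚ) (FFL (AlgebraicClosure ℚ) N) Ω] in
theorem algebraMap_jL_mem_genSet (x w : Ω) :
    algebraMap (FFL (AlgebraicClosure ℚ) N) Ω (jL (AlgebraicClosure ℚ) N) ∈ genSet N x w :=
  image_jdLSet_subset_genSet N x w ⟨_, jL_mem_jdLSet N (AlgebraicClosure ℚ), rfl⟩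

omit [Algebra (AlgebraicClosure ℚ) Ω]
  [IsScalarTower (AlgebraicClosure ℚ) (FFL (AlgebraicClosure ℚ) N) Ω] in
theorem genSet_finite (x w : Ω) : (genSet N x w).Finite := by
  rw [genSet_eq]
  exact (Set.toFinite {x, w}).union ((finite_jdLSet N (AlgebraicClosure ℚ)).image _)

/-- The embedding `F_K → 𝔽` for `T = genSet N x w`, `K = constField K₀ T`,
`𝔽 = genField K₀ T`. -/
noncomputable def embed (K₀ : IntermediateField ℚ (AlgebraicClosure ℚ)) (x w : Ω) :
    ↥(modularFunctionFieldFullC ↥(constField K₀ (genSet N x w)) N) →ₐ[↥(constField K₀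
      (genSet N x w))] ↥(genField K₀ (genSet N x w)) :=
  embedOn K₀ (genSet N x w) N (image_jdLSet_subset_genSet N x w)

theorem embed_eq_embedOn (K₀ : IntermediateField ℚ (AlgebraicClosure ℚ)) (x w : Ω) :
    embed N K₀ x w = embedOn K₀ (genSet N x w) N (image_jdLSet_subset_genSet N x w) := rfl

theorem coe_embed (K₀ : IntermediateField ℚ (AlgebraicClosure ℚ)) (x w : Ω)
    (f : ↥(modularFunctionFieldFullC ↥(constField K₀ (genSet N x w)) N)) :
    ((embed N K₀ x w f : ↥(genField K₀ (genSet N x w))) : Ω) =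
      algebraMap (FFL (AlgebraicClosure ℚ) N) Ω
        (Descent.toFL (constField K₀ (genSet N x w)) N f) := rfl

theorem coe_embed_jC (K₀ : IntermediateField ℚ (AlgebraicClosure ℚ)) (x w : Ω) :
    ((embed N K₀ x w (jC ↥(constField K₀ (genSet N x w)) N) :
      ↥(genField K₀ (genSet N x w))) : Ω) =
      algebraMap (FFL (AlgebraicClosure ℚ) N) Ω (jL (AlgebraicClosure ℚ) N) :=
  coe_embedOn_jC K₀ (genSet N x w) N (image_jdLSet_subset_genSet N x w)

theorem embed_injective (K₀ : IntermediateField ℚ (AlgebraicClosure ℚ)) (x w : Ω) :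
    Function.Injective (embed N K₀ x w) :=
  embedOn_injective K₀ (genSet N x w) N (image_jdLSet_subset_genSet N x w)

/-- The hypothesis `hTsub` of `Transport.adjoin_eq_top` / `model_abs_transport` for
`Tgen = {t | (t : Ω) ∈ genSet N x w}` (which generates by `adjoin_constField_eq_top`). -/
theorem eq_or_mem_range_embed (K₀ : IntermediateField ℚ (AlgebraicClosure ℚ)) (x w : Ω)
    (t : ↥(genField K₀ (genSet N x w))) (ht : (t : Ω) ∈ genSet N x w) :
    t = gen K₀ (x_mem N x w) ∨ t = gen K₀ (w_mem N x w) ∨ t ∈ Set.range (embed N K₀ x w) := by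
  have ht' := (Set.ext_iff.mp (genSet_eq N x w) (t : Ω)).mp ht
  rcases ht' with ht | ht
  · rcases ht with ht | ht
    · exact Or.inl (Subtype.ext ht)
    · exact Or.inr (Or.inl (Subtype.ext ht))
  · exact Or.inr (Or.inr (mem_range_embedOn K₀ _ N _ t ht))

/-- A `p`-th root `w` of the image of `u ∈ F_K` is a `p`-th root of `embed u` in `𝔽`. -/
theorem gen_pow_eq_embed (K₀ : IntermediateField ℚ (AlgebraicClosure ℚ)) (x w : Ω) (p : ℕ)
    (u : ↥(modularFunctionFieldFullC ↥(constField K₀ (genSet N x w)) N))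
    (hw : w ^ p = algebraMap (FFL (AlgebraicClosure ℚ) N) Ω
      (Descent.toFL (constField K₀ (genSet N x w)) N u)) :
    gen K₀ (w_mem N x w) ^ p = embed N K₀ x w u :=
  Subtype.ext hw

/-- **Algebraicity hypothesis of `ConstField`** for `T = genSet N x w`: every generator is
algebraic over `K₀(x)`, by the cover equation `N_g(x) = j · D_g(x)` and `w ^ p = u`. -/
theorem isAlgebraic_genSet (K₀ : IntermediateField ℚ (AlgebraicClosure ℚ)) (x w : Ω)
    (Ng Dg : ℤ[X])
    (hcop : IsCoprime (Ng.map (Int.castRingHom (AlgebraicClosure ℚ)))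
      (Dg.map (Int.castRingHom (AlgebraicClosure ℚ))))
    (hcov : aeval x (Ng.map (Int.castRingHom (AlgebraicClosure ℚ))) =
      algebraMap (FFL (AlgebraicClosure ℚ) N) Ω (jL (AlgebraicClosure ℚ) N) *
        aeval x (Dg.map (Int.castRingHom (AlgebraicClosure ℚ))))
    {p : ℕ} (hp : 0 < p) (u₀ : ↥(modularFunctionFieldFullC ↥K₀ N))
    (hw : w ^ p = algebraMap (FFL (AlgebraicClosure ℚ) N) Ω (Descent.toFL K₀ N u₀)) :
    ∀ t ∈ genSet N x w, IsAlgebraic ↥((↥K₀)⟮x⟯) t := by
  have hj := algebraMap_jL_mem_adjoin K₀ N Ng Dg hcop hcov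
  intro t ht
  rw [genSet_eq] at ht
  rcases ht with (ht | ht) | ⟨_, ⟨d, hd, rfl⟩, rfl⟩
  · subst ht
    exact isAlgebraic_algebraMap (⟨t, mem_adjoin_simple_self _ t⟩ : ↥((↥K₀)⟮t⟯))
  · rw [Set.mem_singleton_iff] at ht
    subst ht
    refine IsAlgebraic.of_pow hp ?_
    rw [hw, ← toOmega_apply]
    exact isAlgebraic_toOmega K₀ N hj u₀
  · have : NeZero d := ⟨ne_zero_of_dvd_ne_zero (NeZero.ne N) hd⟩
    rw [← toOmega_jd K₀ N d hd]
    exact isAlgebraic_toOmega K₀ N hj _

end Model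

end Fermat.Agent.S18.Embed
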