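import Mathlib

/-!
P11 / S18 — shared definitions of the abstract "engine" (see notes P11-MASTER, P11-MASTER-ALG).

Everything lives inside one ambient field `𝔽` and is stated elementwise (`IsIntegral` over
subrings of `𝔽`).

* `gaussSub π hπ t` : the Gauss ring `{a(t)/b(t) : a, b ∈ Λ[X], π ∤ b}` of `Λ(t) ⊂ 𝔽`.
* `HasIntegralDualBasis V K₁ M` : `M / K₁` has a pair of trace-dual families which are integral
  over the subring `V` of the ambient field (= "`V` is unramified in `M`").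
* `UnramAway K x C` : the integral closure of `K[x]` in `𝔽` is unramified over every closed
  point of the affine `x`-line outside the finite set `C` (elementwise form: `p` generates a
  radical ideal).
* `IdemTrivial V ϖ` : the ring (integral closure of `V`) mod `ϖ` has only trivial idempotents.
-/

set_option autoImplicit false

namespace Fermat.Agent.S18

open Polynomial

section GaussSub

variable {Λ 𝔽 : Type*} [CommRing Λ] [Field 𝔽] [Algebra Λ 𝔽]

theorem not_C_dvd_mul {π : Λ} (hπ : Prime π) {b b' : Λ[X]} (hb : ¬ C π ∣ b) (hb' : ¬ C π ∣ b') :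
    ¬ C π ∣ b * b' := fun h =>
  ((Polynomial.prime_C_iff.mpr hπ).dvd_or_dvd h).elim hb hb'

theorem not_C_dvd_one {π : Λ} (hπ : Prime π) : ¬ C π ∣ (1 : Λ[X]) := fun h =>
  (Polynomial.prime_C_iff.mpr hπ).not_isUnit (isUnit_of_dvd_one h)

/-- The Gauss ring of `Λ(t) ⊂ 𝔽` with respect to the prime `π`: the elements `a(t)/b(t)` with
`a, b ∈ Λ[X]` and `π ∤ b`. -/
def gaussSub (π : Λ) (hπ : Prime π) (t : 𝔽) : Subring 𝔽 where
  carrier := {v | ∃ a b : Λ[X], ¬ C π ∣ b ∧ v * aeval t b = aeval t a}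
  mul_mem' := by
    rintro v v' ⟨a, b, hb, h⟩ ⟨a', b', hb', h'⟩
    refine ⟨a * a', b * b', not_C_dvd_mul hπ hb hb', ?_⟩
    rw [map_mul, map_mul, ← h, ← h']; ring
  one_mem' := ⟨1, 1, not_C_dvd_one hπ, by simp⟩
  add_mem' := by
    rintro v v' ⟨a, b, hb, h⟩ ⟨a', b', hb', h'⟩
    refine ⟨a * b' + a' * b, b * b', not_C_dvd_mul hπ hb hb', ?_⟩
    rw [map_add, map_mul, map_mul, map_mul, ← h, ← h']; ring
  zero_mem' := ⟨0, 1, not_C_dvd_one hπ, by simp⟩
  neg_mem' := by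
    rintro v ⟨a, b, hb, h⟩
    exact ⟨-a, b, hb, by rw [map_neg, ← h]; ring⟩

theorem mem_gaussSub {π : Λ} {hπ : Prime π} {t v : 𝔽} :
    v ∈ gaussSub π hπ t ↔ ∃ a b : Λ[X], ¬ C π ∣ b ∧ v * aeval t b = aeval t a :=
  Iff.rfl

theorem aeval_mem_gaussSub (π : Λ) (hπ : Prime π) (t : 𝔽) (a : Λ[X]) :
    aeval t a ∈ gaussSub π hπ t :=
  ⟨a, 1, not_C_dvd_one hπ, by simp⟩

theorem algebraMap_mem_gaussSub (π : Λ) (hπ : Prime π) (t : 𝔽) (c : Λ) :
    algebraMap Λ 𝔽 c ∈ gaussSub π hπ t := by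
  simpa using aeval_mem_gaussSub π hπ t (C c)

theorem self_mem_gaussSub (π : Λ) (hπ : Prime π) (t : 𝔽) : t ∈ gaussSub π hπ t := by
  simpa using aeval_mem_gaussSub π hπ t (X : Λ[X])

end GaussSub

section Predicates

variable {𝔽 : Type*} [Field 𝔽]

/-- `M / K₁` has trace-dual families which are integral over the subring `V` of the ambient
field `𝔽`. -/
def HasIntegralDualBasis (V : Subring 𝔽) (K₁ M : Type*) [Field K₁] [Field M] [Algebra K₁ M]
    [Algebra M 𝔽] : Prop :=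
  ∃ (ι : Type) (_ : Fintype ι) (_ : DecidableEq ι) (b b' : ι → M),
    (∀ i, IsIntegral V (algebraMap M 𝔽 (b i))) ∧ (∀ i, IsIntegral V (algebraMap M 𝔽 (b' i))) ∧
    Fintype.card ι = Module.finrank K₁ M ∧
    ∀ i j, Algebra.trace K₁ M (b i * b' j) = if i = j then 1 else 0

/-- The integral closure of `K[x]` in `𝔽` is unramified over all closed points of the affine
`x`-line outside `C` (elementwise: such an irreducible `p` generates a radical ideal). -/
def UnramAway (K : Type*) [Field K] [Algebra K 𝔽] (x : 𝔽) (C : Set K) : Prop :=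
  ∀ p : K[X], Irreducible p → (∀ c ∈ C, p.eval c ≠ 0) →
    ∀ z : 𝔽, IsIntegral (Algebra.adjoin K {x}) z →
      IsIntegral (Algebra.adjoin K {x}) (z ^ 2 / aeval x p) →
      IsIntegral (Algebra.adjoin K {x}) (z / aeval x p)

/-- Modulo `π`, the integral closure of `V` in `𝔽` has only the trivial idempotents
(division-free form). -/
def IdemTrivial (V : Subring 𝔽) {Λ : Type*} [CommRing Λ] [Algebra Λ 𝔽] (π : Λ) : Prop :=
  ∀ ε : 𝔽, IsIntegral V ε → (∃ δ : 𝔽, IsIntegral V δ ∧ ε ^ 2 - ε = π • δ) →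
    (∃ δ : 𝔽, IsIntegral V δ ∧ ε = π • δ) ∨ (∃ δ : 𝔽, IsIntegral V δ ∧ ε - 1 = π • δ)

/-- Local form at one chart `t`: an idempotent mod `π` of the integral closure of `V` is
congruent mod `π` to an element integral over `Λ[t]`. -/
def IdemLifts (V : Subring 𝔽) {Λ : Type*} [CommRing Λ] [Algebra Λ 𝔽] (π : Λ) (t : 𝔽) : Prop :=
  ∀ ε : 𝔽, IsIntegral V ε → (∃ δ : 𝔽, IsIntegral V δ ∧ ε ^ 2 - ε = π • δ) →
    ∃ e : 𝔽, IsIntegral (Algebra.adjoin Λ {t}) e ∧ ∃ δ : 𝔽, IsIntegral V δ ∧ ε - e = π • δ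

end Predicates

end Fermat.Agent.S18
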