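import Fermat.Agent.S18.GaussLVal
import Fermat.Agent.S18.Char0DegK
import Fermat.Agent.S28.TowerKT
import Fermat.Agent.S28.FreeBasisRed

/-!
P11/P12 (S18, S37), module FLD-G `GaussL` part (C): the Gauss valuation ring of the function
field `F = K(j(q^d) : d ∣ N) = modularFunctionFieldFullC K N ⊂ K((q))` over an abstract discrete
valuation datum `(Λ ⊂ K, π, res : Λ →+* k)`; port of `S28/GaussVal.lean` (second half),
`S28/FreeBasisRed.lean` and `S28/FreeBasis.lean`.

* `full_le_gaussK`, `isGaussRing_full`: `V_F := gaussV Λ res F` is an abstract Gauss ring;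
* `jdC_mem_gaussV`, `gaussRed_jdC`, ...: the generators lie in `V_F`, with the expected reduction;
* `gaussRed_mem_Kj`: the reduction of `V_F ∩ K(j)` lies in `k(j)`;
* `mem_gaussV_adjoin_iff`: `V_F ∩ K(j) = {a(j)/b(j) : a, b ∈ Λ[X], b ≠ 0 mod π}`;
* `isIntegral_gaussR`: every element of `V_F` is integral over `V_j = V_F ∩ K(j)` (if `N ≠ 0` in
  `k` and `[F : K(j)] ≤ ψ(N)`).
-/

set_option autoImplicit false
set_option linter.unusedSectionVars false
set_option linter.style.haveILetI false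

namespace Fermat.Agent.S18.GaussL

open ModularCurve IntermediateField Polynomial Fermat.Agent.S28 Fermat.Agent.S28.FreeBasisAbs

variable {K k : Type*} [Field K] [Field k] {Λ : Subring K} {π : K} {res : ↥Λ →+* k}

section Generators

variable (K) (N : ℕ) [NeZero N]

/-- `j(q^d)`, `d ∣ N`, as an element of `F`. -/
noncomputable def jdC (d : ℕ) [NeZero d] (hd : d ∣ N) : ↥(modularFunctionFieldFullC K N) :=
  ⟨qExpand K d (jqModC K), jqModCd_mem_full K N hd⟩

theorem coe_jdC (d : ℕ) [NeZero d] (hd : d ∣ N) :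
    (jdC K N d hd : LaurentSeries K) = qExpand K d (jqModC K) := rfl

theorem jdC_one : jdC K N 1 (one_dvd N) = jC K N := Subtype.ext (qExpand_one_apply _)

theorem jC_ne_zero : jC K N ≠ 0 := fun h =>
  jqModC_ne_zero_of_nontrivial K (congrArg Subtype.val h)

variable {K} in
theorem qExpand_jqModC_eq (d : ℕ) [NeZero d] :
    qExpand K d (jqModC K) = coeffMap Λ.subtype (jqNModC ↥Λ d) := by
  rw [coeffMap_jqNModC]
  rfl

end Generators

section Gauss

variable (hΛ : IsGaussRing Λ π res) (N : ℕ) [NeZero N]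

include hΛ in
/-- The function field lies in the fraction field of the series with coefficients in `Λ`. -/
theorem full_le_gaussK : modularFunctionFieldFullC K N ≤ gaussK hΛ := by
  rw [modularFunctionFieldFullC, adjoin_le_iff]
  rintro x ⟨d, hd, -, rfl⟩
  haveI := hd
  rw [qExpand_jqModC_eq (Λ := Λ) d]
  exact coeffMap_subtype_mem_gaussK hΛ _

include hΛ in
/-- `V_F` is an abstract Gauss ring. -/
theorem isGaussRing_full :
    IsGaussRing (gaussV Λ res (modularFunctionFieldFullC K N)).toSubring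
      (algebraMap K ↥(modularFunctionFieldFullC K N) π)
      (gaussRed Λ res (modularFunctionFieldFullC K N)) :=
  isGaussRing_gaussV _ hΛ (full_le_gaussK hΛ N)

variable (Λ res) in
theorem jdC_mem_gaussV (d : ℕ) [NeZero d] (hd : d ∣ N) :
    jdC K N d hd ∈ gaussV Λ res (modularFunctionFieldFullC K N) :=
  mem_gaussV_of_coeffMap _ (jqNModC ↥Λ d) (qExpand_jqModC_eq d).symm

variable (Λ res) in
theorem gaussRed_jdC (d : ℕ) [NeZero d] (hd : d ∣ N) :
    gaussRed Λ res (modularFunctionFieldFullC K N) ⟨jdC K N d hd, jdC_mem_gaussV Λ res N d hd⟩ =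
      qExpand k d (jqModC k) := by
  have h := gaussRed_of_coeffMap (res := res) (modularFunctionFieldFullC K N)
    (x := jdC K N d hd) (jqNModC ↥Λ d) (qExpand_jqModC_eq d).symm
  exact h.trans (coeffMap_jqNModC res d)

variable (Λ res) in
theorem jC_mem_gaussV : jC K N ∈ gaussV Λ res (modularFunctionFieldFullC K N) := by
  rw [← jdC_one]
  exact jdC_mem_gaussV Λ res N 1 (one_dvd N)

variable (Λ res) in
theorem gaussRed_jC :
    gaussRed Λ res (modularFunctionFieldFullC K N) ⟨jC K N, jC_mem_gaussV Λ res N⟩ =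
      jqModC k := by
  have h := gaussRed_jdC Λ res N 1 (one_dvd N)
  rw [qExpand_one_apply] at h
  rw [← h]
  congr 1
  exact Subtype.ext (jdC_one K N).symm

variable (Λ res) in
theorem jC_inv_mem_gaussV : (jC K N)⁻¹ ∈ gaussV Λ res (modularFunctionFieldFullC K N) := by
  refine inv_mem_gaussV _ (jC_mem_gaussV Λ res N) ?_
  rw [gaussRed_jC]
  exact jqModC_ne_zero_of_nontrivial k

variable (Λ res) in
theorem gaussRed_jC_inv :
    gaussRed Λ res (modularFunctionFieldFullC K N) ⟨(jC K N)⁻¹, jC_inv_mem_gaussV Λ res N⟩ =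
      (jqModC k)⁻¹ := by
  rw [gaussRed_inv _ (jC_mem_gaussV Λ res N) _ (jC_ne_zero K N), gaussRed_jC]

variable (Λ res) in
/-- Lifting the monomials in the `j(q^d)` to the Gauss valuation ring. -/
theorem exists_lift_of_mem_closure {x : LaurentSeries k}
    (hx : x ∈ Submonoid.closure (divisorExpansionsC k N)) :
    ∃ v : ↥(gaussV Λ res (modularFunctionFieldFullC K N)),
      gaussRed Λ res (modularFunctionFieldFullC K N) v = x := by
  induction hx using Submonoid.closure_induction with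
  | mem x hx =>
    obtain ⟨d, hne, hd, rfl⟩ := hx
    haveI := hne
    exact ⟨⟨jdC K N d hd, jdC_mem_gaussV Λ res N d hd⟩, gaussRed_jdC Λ res N d hd⟩
  | one => exact ⟨1, map_one _⟩
  | mul x y _ _ hx hy =>
    obtain ⟨v, rfl⟩ := hx
    obtain ⟨w, rfl⟩ := hy
    exact ⟨v * w, map_mul _ _ _⟩

end Gauss

section Scaling

variable (hΛ : IsGaussRing Λ π res)

open Classical in
/-- A chosen `π`-adic order of an element of `K` (junk value `0` at `0`). -/
noncomputable def ordL (c : K) : ℤ := if h : c = 0 then 0 else (hΛ.unit c h).choose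

open Classical in
theorem ordL_spec {c : K} (hc : c ≠ 0) :
    ∃ u : K, u ∈ Λ ∧ u⁻¹ ∈ Λ ∧ c = π ^ ordL hΛ c * u := by
  unfold ordL
  rw [dif_neg hc]
  exact (hΛ.unit c hc).choose_spec

include hΛ in
/-- Every nonzero polynomial over `K` is `π ^ n` times a polynomial over `Λ` with nonzero
reduction mod `π`. -/
theorem exists_scaling (b : K[X]) (hb : b ≠ 0) :
    ∃ (n : ℤ) (b' : (↥Λ)[X]), b'.map res ≠ 0 ∧ b = C (π ^ n) * b'.map Λ.subtype := by
  obtain ⟨i₀, hi₀, hmin⟩ := Finset.exists_min_image b.support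
    (fun i => ordL hΛ (b.coeff i)) (nonempty_support_iff.mpr hb)
  set n : ℤ := ordL hΛ (b.coeff i₀) with hn
  have hπ := hΛ.pi_ne_zero
  have hcoeff : ∀ i, (C (π ^ (-n)) * b).coeff i ∈ Λ := by
    intro i
    rw [coeff_C_mul]
    by_cases hi : b.coeff i = 0
    · rw [hi, mul_zero]
      exact zero_mem _
    · obtain ⟨u, hu, -, hbu⟩ := ordL_spec hΛ hi
      have h3 : n ≤ ordL hΛ (b.coeff i) := hmin i (mem_support_iff.mpr hi)
      have h4 : π ^ (-n) * b.coeff i = π ^ (ordL hΛ (b.coeff i) - n) * u := by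
        conv_lhs => rw [hbu]
        rw [← mul_assoc, ← zpow_add₀ hπ, neg_add_eq_sub]
      rw [h4]
      exact mul_mem (hΛ.zpow_mem (by omega)) hu
  have hsub : (↑(C (π ^ (-n)) * b).coeffs : Set K) ⊆ Λ := by
    intro c hc
    obtain ⟨i, -, rfl⟩ := mem_coeffs_iff.mp (Finset.mem_coe.mp hc)
    exact hcoeff i
  refine ⟨n, (C (π ^ (-n)) * b).toSubring Λ hsub, ?_, ?_⟩
  · intro h0
    have h1 := congrArg (fun p => p.coeff i₀) h0
    simp only [coeff_map, coeff_zero] at h1
    have hi₀' : b.coeff i₀ ≠ 0 := mem_support_iff.mp hi₀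
    obtain ⟨u, hu, hu', hbu⟩ := ordL_spec hΛ hi₀'
    have hu0 : u ≠ 0 := by
      rintro rfl
      exact hi₀' (by rw [hbu, mul_zero])
    have h5 : ((C (π ^ (-n)) * b).toSubring Λ hsub).coeff i₀ = ⟨u, hu⟩ := by
      apply Subtype.ext
      rw [coeff_toSubring, coeff_C_mul]
      conv_lhs => rw [hbu]
      rw [← mul_assoc, ← zpow_add₀ hπ, neg_add_cancel, zpow_zero, one_mul]
    rw [h5] at h1
    exact hΛ.red_ne_zero_of_unit hu hu' hu0 h1
  · rw [map_toSubring, ← mul_assoc, ← C_mul, ← zpow_add₀ hπ, add_neg_cancel, zpow_zero, C_1,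
      one_mul]

include hΛ in
/-- `π` is a prime element of `Λ`. -/
theorem prime_piL : Prime (piL hΛ) := by
  refine ⟨piL_ne_zero hΛ, ?_, ?_⟩
  · intro hu
    have h1 : res (piL hΛ) ≠ 0 := (hu.map res).ne_zero
    exact h1 (res_piL hΛ)
  · intro a b hab
    have h1 : res (a * b) = 0 := by
      obtain ⟨c, hc⟩ := hab
      rw [hc, map_mul, res_piL, zero_mul]
    rw [map_mul] at h1
    rcases mul_eq_zero.mp h1 with h | h
    · left
      obtain ⟨c, rfl⟩ := (res_eq_zero_iff hΛ a).mp h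
      exact dvd_mul_right _ _
    · right
      obtain ⟨c, rfl⟩ := (res_eq_zero_iff hΛ b).mp h
      exact dvd_mul_right _ _

include hΛ in
/-- A polynomial over `Λ` is divisible by `π` iff its reduction vanishes. -/
theorem C_piL_dvd_iff (b : (↥Λ)[X]) : C (piL hΛ) ∣ b ↔ b.map res = 0 := by
  rw [C_dvd_iff_dvd_coeff]
  constructor
  · intro h
    ext i
    rw [coeff_map, coeff_zero]
    obtain ⟨c, hc⟩ := h i
    rw [hc, map_mul, res_piL, zero_mul]
  · intro h i
    have h1 : res (b.coeff i) = 0 := by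
      have := congrArg (fun p => p.coeff i) h
      simpa using this
    obtain ⟨c, hc⟩ := (res_eq_zero_iff hΛ _).mp h1
    exact ⟨c, hc⟩

end Scaling

section Main

variable (hΛ : IsGaussRing Λ π res) (N : ℕ) [NeZero N]

variable (Λ res) in
/-- `j` as an element of the Gauss valuation ring. -/
noncomputable def jV : ↥(gaussV Λ res (modularFunctionFieldFullC K N)) :=
  ⟨jC K N, jC_mem_gaussV Λ res N⟩

variable (Λ res) in
/-- The reduction of a polynomial in `j` over `Λ` is the reduced polynomial in `j̄`. -/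
theorem gaussRed_aeval (a : (↥Λ)[X]) :
    gaussRed Λ res (modularFunctionFieldFullC K N) (aeval (jV Λ res N) a) =
      aeval (jqModC k) (a.map res) := by
  have hcomp : (gaussRed Λ res (modularFunctionFieldFullC K N)).comp
      (algebraMap ↥Λ ↥(gaussV Λ res (modularFunctionFieldFullC K N))) =
      (algebraMap k (LaurentSeries k)).comp res := by
    ext a : 1
    rw [RingHom.comp_apply, gaussRed_algebraMap, RingHom.comp_apply, algebraMap_eq_C (res a)]
  rw [aeval_def, hom_eval₂, aeval_def, eval₂_map, hcomp]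
  congr 1
  exact gaussRed_jC Λ res N

variable (Λ res) in
/-- Polynomials in `j` over `Λ`, computed in `F` over `K`. -/
theorem coe_aeval_jV (a : (↥Λ)[X]) :
    ((aeval (jV Λ res N) a : ↥(gaussV Λ res (modularFunctionFieldFullC K N))) :
      ↥(modularFunctionFieldFullC K N)) = aeval (jC K N) (a.map Λ.subtype) := by
  rw [aeval_subalgebra_coe, aeval_def, aeval_def, eval₂_map]
  rfl

variable (Λ res) in
theorem aeval_map_mem_gaussV (a : (↥Λ)[X]) :
    aeval (jC K N) (a.map Λ.subtype) ∈ gaussV Λ res (modularFunctionFieldFullC K N) := by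
  rw [← coe_aeval_jV Λ res N a]
  exact (aeval (jV Λ res N) a).2

variable (Λ res) in
theorem gaussRed_aeval_map (a : (↥Λ)[X]) :
    gaussRed Λ res (modularFunctionFieldFullC K N)
      ⟨aeval (jC K N) (a.map Λ.subtype), aeval_map_mem_gaussV Λ res N a⟩ =
      aeval (jqModC k) (a.map res) := by
  rw [← gaussRed_aeval Λ res N a]
  congr 1
  exact Subtype.ext (coe_aeval_jV Λ res N a).symm

variable (Λ res) in
theorem gaussRed_aeval_map_ne_zero {a : (↥Λ)[X]} (ha : a.map res ≠ 0) :
    gaussRed Λ res (modularFunctionFieldFullC K N)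
      ⟨aeval (jC K N) (a.map Λ.subtype), aeval_map_mem_gaussV Λ res N a⟩ ≠ 0 := by
  rw [gaussRed_aeval_map]
  exact FreeBasisRed.aeval_jqModC_ne_zero k ha

variable (Λ res) in
theorem aeval_map_ne_zero {a : (↥Λ)[X]} (ha : a.map res ≠ 0) :
    aeval (jC K N) (a.map Λ.subtype) ≠ 0 := by
  intro h0
  apply gaussRed_aeval_map_ne_zero Λ res N ha
  have : (⟨aeval (jC K N) (a.map Λ.subtype), aeval_map_mem_gaussV Λ res N a⟩ :
      ↥(gaussV Λ res (modularFunctionFieldFullC K N))) = 0 := Subtype.ext h0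
  rw [this, map_zero]

variable (Λ res) in
/-- The quotients `a(j)/b(j)`, `b ≠ 0 mod π`, lie in the Gauss valuation ring. -/
theorem div_mem_gaussV (a b : (↥Λ)[X]) (hb : b.map res ≠ 0) :
    aeval (jC K N) (a.map Λ.subtype) / aeval (jC K N) (b.map Λ.subtype) ∈
      gaussV Λ res (modularFunctionFieldFullC K N) := by
  rw [div_eq_mul_inv]
  exact mul_mem (aeval_map_mem_gaussV Λ res N a)
    (inv_mem_gaussV _ (aeval_map_mem_gaussV Λ res N b) (gaussRed_aeval_map_ne_zero Λ res N hb))

variable (Λ res) in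
theorem gaussRed_div (a b : (↥Λ)[X]) (hb : b.map res ≠ 0) :
    gaussRed Λ res (modularFunctionFieldFullC K N) ⟨_, div_mem_gaussV Λ res N a b hb⟩ =
      aeval (jqModC k) (a.map res) / aeval (jqModC k) (b.map res) := by
  have hbinv := inv_mem_gaussV _ (aeval_map_mem_gaussV Λ res N b)
    (gaussRed_aeval_map_ne_zero Λ res N hb)
  have h1 : (⟨_, div_mem_gaussV Λ res N a b hb⟩ :
      ↥(gaussV Λ res (modularFunctionFieldFullC K N))) =
      ⟨_, aeval_map_mem_gaussV Λ res N a⟩ * ⟨_, hbinv⟩ := Subtype.ext (div_eq_mul_inv _ _)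
  rw [h1, map_mul, gaussRed_inv _ (aeval_map_mem_gaussV Λ res N b) hbinv
    (aeval_map_ne_zero Λ res N hb), gaussRed_aeval_map, gaussRed_aeval_map, div_eq_mul_inv]

include hΛ in
/-- Every nonzero polynomial in `j` over `K` is `π ^ n` times a polynomial in `j` over `Λ` with
nonzero reduction. -/
theorem exists_zpow_mul_aeval (b : K[X]) (hb : b ≠ 0) :
    ∃ (n : ℤ) (b' : (↥Λ)[X]), b'.map res ≠ 0 ∧
      aeval (jC K N) b = algebraMap K ↥(modularFunctionFieldFullC K N) π ^ n *
        aeval (jC K N) (b'.map Λ.subtype) := by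
  obtain ⟨n, b', hb', hbb'⟩ := exists_scaling hΛ b hb
  refine ⟨n, b', hb', ?_⟩
  conv_lhs => rw [hbb']
  rw [map_mul, aeval_C, map_zpow₀]

include hΛ in
/-- Normal form of the nonzero elements of `K(j)`: `π ^ n * a(j) / b(j)` with `a, b ∈ Λ[X]`
nonzero mod `π`. -/
theorem exists_zpow_mul_div {c : ↥(modularFunctionFieldFullC K N)} (hcE : c ∈ K⟮jC K N⟯)
    (hc0 : c ≠ 0) :
    ∃ (n : ℤ) (a b : (↥Λ)[X]), a.map res ≠ 0 ∧ b.map res ≠ 0 ∧
      c = algebraMap K ↥(modularFunctionFieldFullC K N) π ^ n *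
        (aeval (jC K N) (a.map Λ.subtype) / aeval (jC K N) (b.map Λ.subtype)) := by
  obtain ⟨r, s, hrs⟩ := (IntermediateField.mem_adjoin_simple_iff K c).mp hcE
  have hr : r ≠ 0 := by
    rintro rfl
    rw [map_zero, zero_div] at hrs
    exact hc0 hrs
  have hs : s ≠ 0 := by
    rintro rfl
    rw [map_zero, div_zero] at hrs
    exact hc0 hrs
  obtain ⟨m, r', hr', hrr'⟩ := exists_zpow_mul_aeval hΛ N r hr
  obtain ⟨n, s', hs', hss'⟩ := exists_zpow_mul_aeval hΛ N s hs
  refine ⟨m - n, r', s', hr', hs', ?_⟩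
  rw [hrs, hrr', hss', zpow_sub₀ (algebraMap_pi_ne_zero _ hΛ), mul_div_mul_comm]

include hΛ in
/-- **The reduction of an element of `V_F ∩ K(j)` lies in `k(j̄)`.** -/
theorem gaussRed_mem_Kj {c : ↥(modularFunctionFieldFullC K N)}
    (hc : c ∈ gaussV Λ res (modularFunctionFieldFullC K N)) (hcE : c ∈ K⟮jC K N⟯) :
    gaussRed Λ res (modularFunctionFieldFullC K N) ⟨c, hc⟩ ∈ Kj k := by
  by_cases hc0 : c = 0
  · subst hc0
    have h0 : (⟨0, hc⟩ : ↥(gaussV Λ res (modularFunctionFieldFullC K N))) = 0 := rfl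
    rw [h0, map_zero]
    exact zero_mem _
  · obtain ⟨n, a, b, ha, hb, hcu⟩ := exists_zpow_mul_div hΛ N hcE hc0
    have hu := div_mem_gaussV Λ res N a b hb
    have hured := gaussRed_div Λ res N a b hb
    have hu0 : gaussRed Λ res (modularFunctionFieldFullC K N) ⟨_, hu⟩ ≠ 0 := by
      rw [hured]
      exact div_ne_zero (FreeBasisRed.aeval_jqModC_ne_zero k ha)
        (FreeBasisRed.aeval_jqModC_ne_zero k hb)
    have huK : gaussRed Λ res (modularFunctionFieldFullC K N) ⟨_, hu⟩ ∈ Kj k := by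
      rw [hured]
      exact div_mem (S24.DegreeAbs.aeval_mem_adjoin_simple _ _)
        (S24.DegreeAbs.aeval_mem_adjoin_simple _ _)
    have hn : 0 ≤ n := (mem_gaussV_iff_of_eq_zpow_mul _ hΛ hu hu0 hcu).mp hc
    obtain ⟨m, rfl⟩ := Int.eq_ofNat_of_zero_le hn
    have h1 : (⟨c, hc⟩ : ↥(gaussV Λ res (modularFunctionFieldFullC K N))) =
        ⟨_, algebraMap_pi_mem_gaussV _ hΛ⟩ ^ m * ⟨_, hu⟩ := by
      apply Subtype.ext
      show c = algebraMap K ↥(modularFunctionFieldFullC K N) π ^ m *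
        (aeval (jC K N) (a.map Λ.subtype) / aeval (jC K N) (b.map Λ.subtype))
      rw [hcu, zpow_natCast]
    rw [h1, map_mul, map_pow, gaussRed_algebraMap_pi _ hΛ]
    exact mul_mem (pow_mem (zero_mem _) m) huK

include hΛ in
/-- **`V_j = V_F ∩ K(j)` consists of the quotients `a(j)/b(j)`, `a, b ∈ Λ[X]`, `b ≠ 0 mod π`.** -/
theorem mem_gaussV_adjoin_iff (c : ↥(modularFunctionFieldFullC K N)) :
    (c ∈ gaussV Λ res (modularFunctionFieldFullC K N) ∧ c ∈ K⟮jC K N⟯) ↔
      ∃ a b : (↥Λ)[X], b.map res ≠ 0 ∧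
        c * aeval (jC K N) (b.map Λ.subtype) = aeval (jC K N) (a.map Λ.subtype) := by
  constructor
  · rintro ⟨hc, hcE⟩
    by_cases hc0 : c = 0
    · refine ⟨0, 1, ?_, by rw [hc0, zero_mul, Polynomial.map_zero, map_zero]⟩
      rw [Polynomial.map_one]
      exact one_ne_zero
    · obtain ⟨n, a, b, ha, hb, hcu⟩ := exists_zpow_mul_div hΛ N hcE hc0
      have hu := div_mem_gaussV Λ res N a b hb
      have hu0 : gaussRed Λ res (modularFunctionFieldFullC K N) ⟨_, hu⟩ ≠ 0 := by
        rw [gaussRed_div Λ res N a b hb]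
        exact div_ne_zero (FreeBasisRed.aeval_jqModC_ne_zero k ha)
          (FreeBasisRed.aeval_jqModC_ne_zero k hb)
      have hn : 0 ≤ n := (mem_gaussV_iff_of_eq_zpow_mul _ hΛ hu hu0 hcu).mp hc
      obtain ⟨m, rfl⟩ := Int.eq_ofNat_of_zero_le hn
      refine ⟨C (piL hΛ ^ m) * a, b, hb, ?_⟩
      have hb0 := aeval_map_ne_zero Λ res N (K := K) hb
      have hpi : algebraMap K ↥(modularFunctionFieldFullC K N) (Λ.subtype (piL hΛ ^ m)) =
          algebraMap K ↥(modularFunctionFieldFullC K N) π ^ m := by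
        rw [map_pow, map_pow]
        rfl
      rw [hcu, zpow_natCast, Polynomial.map_mul, Polynomial.map_C, map_mul, aeval_C, mul_assoc,
        div_mul_cancel₀ _ hb0, hpi]
  · rintro ⟨a, b, hb, h⟩
    have hb0 := aeval_map_ne_zero Λ res N (K := K) hb
    have hc : c = aeval (jC K N) (a.map Λ.subtype) / aeval (jC K N) (b.map Λ.subtype) := by
      rw [eq_div_iff hb0, h]
    rw [hc]
    exact ⟨div_mem_gaussV Λ res N a b hb,
      div_mem (S24.DegreeAbs.aeval_mem_adjoin_simple _ _)
        (S24.DegreeAbs.aeval_mem_adjoin_simple _ _)⟩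

end Main

section Free

variable (hΛ : IsGaussRing Λ π res) (N : ℕ) [NeZero N]

variable (Λ res) in
/-- `V_j = V_F ∩ K(j)`, as a subring of `K(j)`. -/
noncomputable def gaussR : Subring ↥(K⟮jC K N⟯) :=
  RE (gaussV Λ res (modularFunctionFieldFullC K N)).toSubring K⟮jC K N⟯

theorem mem_gaussR_iff (x : ↥(K⟮jC K N⟯)) :
    x ∈ gaussR Λ res N ↔
      (x : ↥(modularFunctionFieldFullC K N)) ∈ gaussV Λ res (modularFunctionFieldFullC K N) :=
  Iff.rfl

variable (Λ res) in
/-- Shortcut instance (the generic instance search is slow here). -/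
noncomputable instance instAlgebraGaussR : Algebra ↥(gaussR Λ res N) ↥(K⟮jC K N⟯) :=
  Algebra.ofSubsemiring (gaussR Λ res N)

variable (Λ res) in
/-- Shortcut instance (the generic instance search is slow here). -/
noncomputable instance instAlgebraGaussRFull :
    Algebra ↥(gaussR Λ res N) ↥(modularFunctionFieldFullC K N) :=
  Algebra.ofSubsemiring (gaussR Λ res N)

variable (Λ res) in
instance instIsScalarTowerGaussR :
    IsScalarTower ↥(gaussR Λ res N) ↥(K⟮jC K N⟯) ↥(modularFunctionFieldFullC K N) :=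
  IsScalarTower.of_algebraMap_eq fun _ => rfl

theorem algebraMap_gaussR_apply (x : ↥(gaussR Λ res N)) :
    algebraMap ↥(gaussR Λ res N) ↥(modularFunctionFieldFullC K N) x =
      ((x : ↥(K⟮jC K N⟯)) : ↥(modularFunctionFieldFullC K N)) := rfl

include hΛ in
/-- `K(j)` is the fraction field of `V_j`. -/
theorem isFractionRing_gaussR : IsFractionRing ↥(gaussR Λ res N) ↥(K⟮jC K N⟯) :=
  (isGaussRing_full hΛ N).isFractionRing_RE (IntermediateField.algebraMap_mem _ π)

include hΛ in
/-- `V_j` is integrally closed. -/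
theorem isIntegrallyClosed_gaussR : IsIntegrallyClosed ↥(gaussR Λ res N) :=
  (isGaussRing_full hΛ N).isIntegrallyClosed_RE (IntermediateField.algebraMap_mem _ π)

include hΛ in
/-- The monomials of `TowerKT`, lifted to `V_F`, have reductions independent over the reduction
of `V_j`. -/
theorem exists_redIndep (hN : (N : k) ≠ 0) :
    ∃ b : Fin (dedekindPsi N) → ↥(gaussV Λ res (modularFunctionFieldFullC K N)).toSubring,
      RedIndep (gaussRed Λ res (modularFunctionFieldFullC K N)) K⟮jC K N⟯ b ∧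
      ∀ i, gaussRed Λ res (modularFunctionFieldFullC K N) (b i) ∈
        Submonoid.closure (divisorExpansionsC k N) := by
  obtain ⟨m, hm, hli⟩ := exists_linearIndependent_monomials k N hN
  choose v hv using fun i => exists_lift_of_mem_closure Λ res N (K := K) (hm i)
  refine ⟨v, ?_, fun i => by rw [hv i]; exact hm i⟩
  intro c hcE hsum i
  rw [Fintype.linearIndependent_iff] at hli
  have h1 := hli (fun i => ⟨gaussRed Λ res (modularFunctionFieldFullC K N) (c i),
    gaussRed_mem_Kj hΛ N (c i).2 (hcE i)⟩) (by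
    rw [← hsum]
    refine Finset.sum_congr rfl fun i _ => ?_
    rw [← hv i]
    rfl) i
  exact congrArg Subtype.val h1

include hΛ in
/-- **Every element of the Gauss valuation ring `V_F` is integral over `V_j = V_F ∩ K(j)`**
(for `N ≠ 0` in `k`, `K` of characteristic `0`). -/
theorem isIntegral_gaussR [CharZero K] (hN : (N : k) ≠ 0)
    {s : ↥(modularFunctionFieldFullC K N)}
    (hs : s ∈ gaussV Λ res (modularFunctionFieldFullC K N)) :
    IsIntegral ↥(gaussR Λ res N) s := by
  obtain ⟨hfin, hdeg⟩ := Char0DegK.finrank_adjoin_jC_le K N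
  obtain ⟨b, hb, -⟩ := exists_redIndep hΛ N hN
  exact (isGaussRing_full hΛ N).isIntegral_RE (IntermediateField.algebraMap_mem _ π) hb
    (by simpa using hdeg) hs

include hΛ in
/-- Elementwise form: every element of `V_F` is a root of a monic polynomial with coefficients in
`V_F ∩ K(j)`. -/
theorem exists_monic_of_mem_gaussV [CharZero K] (hN : (N : k) ≠ 0)
    {s : ↥(modularFunctionFieldFullC K N)}
    (hs : s ∈ gaussV Λ res (modularFunctionFieldFullC K N)) :
    ∃ p : Polynomial ↥(modularFunctionFieldFullC K N), p.Monic ∧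
      (∀ i, p.coeff i ∈ gaussV Λ res (modularFunctionFieldFullC K N) ∧ p.coeff i ∈ K⟮jC K N⟯) ∧
      p.eval s = 0 := by
  obtain ⟨q, hq, hqs⟩ := isIntegral_gaussR hΛ N hN hs
  refine ⟨q.map (algebraMap ↥(gaussR Λ res N) ↥(modularFunctionFieldFullC K N)), hq.map _,
    fun i => ?_, ?_⟩
  · rw [Polynomial.coeff_map]
    exact ⟨(q.coeff i).2, (q.coeff i).1.2⟩
  · rw [Polynomial.eval_map]
    exact hqs

include hΛ in
/-- The reduction of `V_F` lies in `F_k = k(j(q^d) : d ∣ N)`. -/
theorem gaussRed_mem_full [CharZero K] (hN : (N : k) ≠ 0)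
    (v : ↥(gaussV Λ res (modularFunctionFieldFullC K N))) :
    gaussRed Λ res (modularFunctionFieldFullC K N) v ∈ modularFunctionFieldFullC k N := by
  obtain ⟨hfin, hdeg⟩ := Char0DegK.finrank_adjoin_jC_le K N
  obtain ⟨b, hb, hbm⟩ := exists_redIndep hΛ N hN
  obtain ⟨c, hc, hv⟩ := (isGaussRing_full hΛ N).exists_coeff
    (IntermediateField.algebraMap_mem _ π) hb
    (by simpa using hdeg) (v := (v : ↥(modularFunctionFieldFullC K N))) v.2
  have hv' : v = ∑ i, (⟨c i, (hc i).1⟩ : ↥(gaussV Λ res (modularFunctionFieldFullC K N))) *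
      b i := by
    apply Subtype.ext
    rw [hv]
    simp
  rw [hv', map_sum]
  refine sum_mem fun i _ => ?_
  rw [map_mul]
  refine mul_mem (Tower.Kj_le_full k N (gaussRed_mem_Kj hΛ N (hc i).1 (hc i).2)) ?_
  have hle : Submonoid.closure (divisorExpansionsC k N) ≤
      (modularFunctionFieldFullC k N).toSubalgebra.toSubmonoid := by
    rw [Submonoid.closure_le]
    intro x hx
    exact subset_adjoin k _ hx
  exact hle (hbm i)

/-- If `res` is surjective, every element of `F_k` is the reduction of an element of `V_F`. -/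
theorem exists_gaussRed_eq (hres : Function.Surjective res) {y : LaurentSeries k}
    (hy : y ∈ modularFunctionFieldFullC k N) :
    ∃ v : ↥(gaussV Λ res (modularFunctionFieldFullC K N)),
      gaussRed Λ res (modularFunctionFieldFullC K N) v = y := by
  unfold modularFunctionFieldFullC at hy
  induction hy using IntermediateField.adjoin_induction with
  | mem x hx =>
    obtain ⟨d, hne, hd, rfl⟩ := hx
    haveI := hne
    exact ⟨⟨jdC K N d hd, jdC_mem_gaussV Λ res N d hd⟩, gaussRed_jdC Λ res N d hd⟩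
  | algebraMap c =>
    obtain ⟨a, rfl⟩ := hres c
    exact ⟨algebraMap ↥Λ _ a, by rw [gaussRed_algebraMap, algebraMap_eq_C (res a)]⟩
  | add x y _ _ hx hy =>
    obtain ⟨v, rfl⟩ := hx
    obtain ⟨w, rfl⟩ := hy
    exact ⟨v + w, map_add _ _ _⟩
  | inv x _ hx =>
    obtain ⟨v, rfl⟩ := hx
    by_cases h0 : gaussRed Λ res (modularFunctionFieldFullC K N) v = 0
    · exact ⟨0, by rw [h0, inv_zero, map_zero]⟩
    · have hv0 : (v : ↥(modularFunctionFieldFullC K N)) ≠ 0 := by
        intro h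
        apply h0
        have : v = 0 := Subtype.ext h
        rw [this, map_zero]
      exact ⟨⟨_, inv_mem_gaussV _ v.2 h0⟩, gaussRed_inv _ v.2 _ hv0⟩
  | mul x y _ _ hx hy =>
    obtain ⟨v, rfl⟩ := hx
    obtain ⟨w, rfl⟩ := hy
    exact ⟨v * w, map_mul _ _ _⟩

end Free

section Quot

variable (hΛ : IsGaussRing Λ π res) (E : IntermediateField K (LaurentSeries K))

/-- A quotient `u = Y₁ / Y₂` of series with coefficients in `Λ` and nonzero reduction of the
denominator lies in the Gauss valuation ring; its reduction is the quotient of the reductions. -/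
theorem mem_gaussV_of_quot {u : ↥E} {Y₁ Y₂ : LaurentSeries ↥Λ} (hY₂ : coeffMap res Y₂ ≠ 0)
    (hu : (u : LaurentSeries K) * coeffMap Λ.subtype Y₂ = coeffMap Λ.subtype Y₁) :
    u ∈ gaussV Λ res E :=
  ⟨Y₁, Y₂, hY₂, hu⟩

theorem gaussRed_of_quot {u : ↥E} {Y₁ Y₂ : LaurentSeries ↥Λ} (hY₂ : coeffMap res Y₂ ≠ 0)
    (hu : (u : LaurentSeries K) * coeffMap Λ.subtype Y₂ = coeffMap Λ.subtype Y₁) :
    gaussRed Λ res E ⟨u, mem_gaussV_of_quot E hY₂ hu⟩ = coeffMap res Y₁ / coeffMap res Y₂ := by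
  rw [eq_div_iff hY₂]
  exact gaussRed_mul_eq E ⟨u, mem_gaussV_of_quot E hY₂ hu⟩ Y₁ Y₂ hu

include hΛ in
/-- **(G3)** If `u = Y₁ / Y₂` with `Y₁, Y₂ ∈ Λ((q))` having the same nonzero reduction, then
`u` and `u⁻¹` lie in the Gauss valuation ring and `u - 1 ∈ π V`. -/
theorem unit_of_quot {u : ↥E} {Y₁ Y₂ : LaurentSeries ↥Λ} (hY₂ : coeffMap res Y₂ ≠ 0)
    (hY : coeffMap res Y₁ = coeffMap res Y₂)
    (hu : (u : LaurentSeries K) * coeffMap Λ.subtype Y₂ = coeffMap Λ.subtype Y₁) :
    u ∈ gaussV Λ res E ∧ u⁻¹ ∈ gaussV Λ res E ∧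
      ∃ y : ↥E, y ∈ gaussV Λ res E ∧ u - 1 = algebraMap K ↥E π * y := by
  have huV := mem_gaussV_of_quot E hY₂ hu
  have hred : gaussRed Λ res E ⟨u, huV⟩ = 1 := by
    rw [gaussRed_of_quot E hY₂ hu, hY, div_self hY₂]
  refine ⟨huV, inv_mem_gaussV E huV (by rw [hred]; exact one_ne_zero), ?_⟩
  have h0 : gaussRed Λ res E (⟨u, huV⟩ - 1) = 0 := by rw [map_sub, hred, map_one, sub_self]
  obtain ⟨y, hy⟩ := (gaussRed_eq_zero_iff E hΛ _).mp h0
  exact ⟨y, y.2, hy⟩

end Quot

end Fermat.Agent.S18.GaussL
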