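import Mathlib
import Fermat.Prelude.Def_ModularCurve_X0ModL
import Fermat.Agent.S28.TowerDefs
import Fermat.Agent.S28.TowerAux

/-!
P11 (S18), module SepRes, part 1 (residue side, no valuation rings): for every field `k₀` in
which `N` is invertible, the field `F_N(k₀) = k₀(j(q^d) : d ∣ N) ⊆ k₀((q))` is a finite
separable extension of `k₀(j)`.

Proof: `j(q^(d p))` is a simple root of the modular polynomial `Φ_p(X, j(q^d))` (the roots of
`Φ_p(X, j(q^p))` in `k((q))`, `k` the algebraic closure, are pairwise distinct); the relation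
and the non-vanishing of the derivative descend from `k` to `k₀` by applying a `k₀`-linear
functional `k → k₀` to the coefficients of `Φ_p`.
-/

set_option autoImplicit false

namespace Fermat.Agent.S18.SepK

open ModularCurve IntermediateField Polynomial
open Fermat.Agent.S28
open Fermat.Agent.S24 (laurentRot)

section Criterion

/-- Simple root criterion: a root of a polynomial at which the derivative does not vanish is
separable. -/
theorem isSeparable_of_simple_root {A E : Type*} [Field A] [Field E] [Algebra A E] (G : A[X])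
    (x : E) (h0 : aeval x G = 0) (h1 : aeval x (derivative G) ≠ 0) : IsSeparable A x := by
  have hG : G ≠ 0 := by
    rintro rfl
    exact h1 (by simp)
  have hint : IsIntegral A x := isAlgebraic_iff_isIntegral.mp ⟨G, hG, h0⟩
  obtain ⟨h, hh⟩ := minpoly.dvd A x h0
  have hm' : derivative (minpoly A x) ≠ 0 := by
    intro hd
    apply h1
    rw [hh, derivative_mul, hd, zero_mul, zero_add, map_mul, minpoly.aeval, zero_mul]
  exact (separable_iff_derivative_ne_zero (minpoly.irreducible hint)).mpr hm'

/-- The simple root criterion for a polynomial given through a ring homomorphism. -/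
theorem isSeparable_of_eval₂ {R A E : Type*} [CommRing R] [Field A] [Field E] [Algebra A E]
    (f : R →+* A) (g : R[X]) (x : E) (h0 : g.eval₂ ((algebraMap A E).comp f) x = 0)
    (h1 : (derivative g).eval₂ ((algebraMap A E).comp f) x ≠ 0) : IsSeparable A x := by
  refine isSeparable_of_simple_root (g.map f) x ?_ ?_
  · rw [aeval_def, eval₂_map]
    exact h0
  · rw [derivative_map, aeval_def, eval₂_map]
    exact h1

end Criterion

section Root
variable {k : Type*} [Field k]

/-- `j(q^(d p))` is a simple root of `Φ(X, j(q^d))` for any `Φ` satisfying the modular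
equation. -/
theorem modEq_derivative_ne_zero (p : ℕ) [Fact p.Prime] (ω : kˣ) (Φ : Polynomial (Polynomial k))
    (hΦ : Φ.map (Polynomial.aeval (qExpand k p (jqModC k))).toRingHom =
        (X - C (qExpand k (p * p) (jqModC k))) *
          ∏ b ∈ Finset.range p, (X - C (laurentRot (ω ^ b) (jqModC k))))
    (d : ℕ) [NeZero d] :
    (derivative Φ).eval₂ (Polynomial.aeval (qExpand k d (jqModC k))).toRingHom
      (qExpand k (d * p) (jqModC k)) ≠ 0 := by
  have hp : p.Prime := Fact.out
  have hp2 : 2 ≤ p * p := by nlinarith [hp.two_le]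
  have h1 : (derivative Φ).eval₂ (Polynomial.aeval (jqModC k)).toRingHom
      (qExpand k p (jqModC k)) ≠ 0 := by
    intro h0
    have h2 := congrArg (qExpand k p) h0
    rw [map_zero, Polynomial.hom_eval₂, Tower.qExpand_comp_aeval, Polynomial.eval₂_eq_eval_map,
      ← Polynomial.derivative_map, hΦ, qExpand_qExpand] at h2
    rw [derivative_mul, eval_add, eval_mul, eval_mul, eval_sub, eval_X, eval_C, sub_self,
      zero_mul, add_zero, derivative_sub, derivative_X, derivative_C, sub_zero, eval_one,
      one_mul, eval_prod, Finset.prod_eq_zero_iff] at h2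
    obtain ⟨b, -, hb0⟩ := h2
    rw [eval_sub, eval_X, eval_C, sub_eq_zero] at hb0
    exact Tower.rot_j_ne_qExpand (k := k) hp2 (ω ^ b) hb0.symm
  intro h0
  apply h1
  apply qExpand_injective (R := k) d
  rw [map_zero, Polynomial.hom_eval₂, Tower.qExpand_comp_aeval, qExpand_qExpand]
  exact h0

end Root

section Descent
variable {k₀ k : Type*} [Field k₀] [Field k] [Algebra k₀ k]

/-- Coefficientwise application of a `k₀`-linear functional `k → k₀` to a Laurent series. -/
noncomputable def coordMap (lam : k →ₗ[k₀] k₀) : LaurentSeries k →+ LaurentSeries k₀ where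
  toFun y := y.map lam
  map_zero' := by
    ext n
    simp
  map_add' x y := by
    ext n
    simp

theorem coordMap_coeff (lam : k →ₗ[k₀] k₀) (y : LaurentSeries k) (n : ℤ) :
    (coordMap lam y).coeff n = lam (y.coeff n) := rfl

theorem coeff_algebraMap_mul {K : Type*} [Field K] (a : K) (y : LaurentSeries K) (m : ℤ) :
    (algebraMap K (LaurentSeries K) a * y).coeff m = a * y.coeff m := by
  rw [algebraMap_laurentSeries_eq_single, ← HahnSeries.C_apply, HahnSeries.C_mul_eq_smul,
    HahnSeries.coeff_smul, smul_eq_mul]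

theorem coordMap_algebraMap_mul (lam : k →ₗ[k₀] k₀) (c : k) (u : LaurentSeries k₀) :
    coordMap lam (algebraMap k (LaurentSeries k) c * coeffMap (algebraMap k₀ k) u) =
      algebraMap k₀ (LaurentSeries k₀) (lam c) * u := by
  ext n
  rw [coordMap_coeff, coeff_algebraMap_mul, coeff_algebraMap_mul, coeffMap_coeff, mul_comm,
    ← Algebra.smul_def, map_smul, smul_eq_mul, mul_comm]

/-- Application of a functional to the coefficients of a polynomial. -/
noncomputable def lamPoly (lam : k →ₗ[k₀] k₀) (P : k[X]) : k₀[X] :=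
  ∑ m ∈ Finset.range (P.natDegree + 1), monomial m (lam (P.coeff m))

theorem coordMap_aeval_mul (lam : k →ₗ[k₀] k₀) (P : k[X]) (y z : LaurentSeries k₀) :
    coordMap lam (aeval (coeffMap (algebraMap k₀ k) y) P * coeffMap (algebraMap k₀ k) z) =
      aeval y (lamPoly lam P) * z := by
  rw [lamPoly, map_sum, aeval_eq_sum_range, Finset.sum_mul, Finset.sum_mul, map_sum]
  refine Finset.sum_congr rfl fun m _ => ?_
  rw [aeval_monomial, Algebra.smul_def, mul_assoc, mul_assoc, ← map_pow, ← map_mul,
    coordMap_algebraMap_mul]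

/-- Descent of a relation with a simple root from `k` to `k₀`. -/
theorem exists_descent (Φ : Polynomial (Polynomial k)) (x y : LaurentSeries k₀)
    (h0 : Φ.eval₂ (aeval (coeffMap (algebraMap k₀ k) y)).toRingHom
      (coeffMap (algebraMap k₀ k) x) = 0)
    (h1 : (derivative Φ).eval₂ (aeval (coeffMap (algebraMap k₀ k) y)).toRingHom
      (coeffMap (algebraMap k₀ k) x) ≠ 0) :
    ∃ g : Polynomial (Polynomial k₀), g.eval₂ (aeval y).toRingHom x = 0 ∧
      (derivative g).eval₂ (aeval y).toRingHom x ≠ 0 := by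
  classical
  have hE : ∀ lam : k →ₗ[k₀] k₀,
      coordMap lam (Φ.eval₂ (aeval (coeffMap (algebraMap k₀ k) y)).toRingHom
        (coeffMap (algebraMap k₀ k) x)) =
      ∑ i ∈ Finset.range (Φ.natDegree + 1), aeval y (lamPoly lam (Φ.coeff i)) * x ^ i := by
    intro lam
    rw [eval₂_eq_sum_range, map_sum]
    refine Finset.sum_congr rfl fun i _ => ?_
    rw [← map_pow]
    exact coordMap_aeval_mul lam _ y _
  have hD : ∀ lam : k →ₗ[k₀] k₀,
      coordMap lam ((derivative Φ).eval₂ (aeval (coeffMap (algebraMap k₀ k) y)).toRingHom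
        (coeffMap (algebraMap k₀ k) x)) =
      ∑ i ∈ Finset.range (Φ.natDegree + 1),
        aeval y (lamPoly lam (Φ.coeff i)) * ((i : LaurentSeries k₀) * x ^ (i - 1)) := by
    intro lam
    rw [eval₂_eq_eval_map, ← derivative_map, derivative_eval,
      sum_over_range' _ (by intro n; simp) (Φ.natDegree + 1)
        (lt_of_le_of_lt natDegree_map_le (Nat.lt_succ_self _)), map_sum]
    refine Finset.sum_congr rfl fun i _ => ?_
    rw [coeff_map, mul_assoc]
    have h : ((i : LaurentSeries k) * coeffMap (algebraMap k₀ k) x ^ (i - 1)) =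
        coeffMap (algebraMap k₀ k) ((i : LaurentSeries k₀) * x ^ (i - 1)) := by
      rw [map_mul, map_natCast, map_pow]
    rw [h]
    exact coordMap_aeval_mul lam _ y _
  obtain ⟨n, hn⟩ : ∃ n, ((derivative Φ).eval₂
      (aeval (coeffMap (algebraMap k₀ k) y)).toRingHom
        (coeffMap (algebraMap k₀ k) x)).coeff n ≠ 0 := by
    by_contra hcon
    push Not at hcon
    exact h1 (HahnSeries.ext (funext hcon))
  obtain ⟨lam, hlam⟩ : ∃ lam : k →ₗ[k₀] k₀, lam (((derivative Φ).eval₂
      (aeval (coeffMap (algebraMap k₀ k) y)).toRingHom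
        (coeffMap (algebraMap k₀ k) x)).coeff n) ≠ 0 := by
    by_contra hcon
    push Not at hcon
    exact hn ((Module.forall_dual_apply_eq_zero_iff k₀ _).mp hcon)
  refine ⟨∑ i ∈ Finset.range (Φ.natDegree + 1), C (lamPoly lam (Φ.coeff i)) * X ^ i, ?_, ?_⟩
  · rw [eval₂_finsetSum]
    simp only [eval₂_mul, eval₂_C, eval₂_pow, eval₂_X, AlgHom.toRingHom_eq_coe, RingHom.coe_coe]
    rw [← hE lam, h0, map_zero]
  · rw [derivative_sum, eval₂_finsetSum]
    simp only [derivative_C_mul_X_pow, eval₂_mul, eval₂_C, eval₂_pow, eval₂_X,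
      AlgHom.toRingHom_eq_coe, RingHom.coe_coe, map_mul, map_natCast, eval₂_natCast]
    intro h
    apply hlam
    have h2 := hD lam
    simp only [mul_assoc] at h h2
    rw [h] at h2
    have h3 := congrArg (fun s : LaurentSeries k₀ => s.coeff n) h2
    simpa [coordMap_coeff] using h3

end Descent

section Main
variable (k₀ : Type*) [Field k₀]

/-- Over any field `k₀` in which the prime `p` is invertible there is a polynomial relation
between `j(q^(d p))` and `j(q^d)` for which `j(q^(d p))` is a simple root. -/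
theorem exists_poly_simple_root (p : ℕ) [Fact p.Prime] (hp : (p : k₀) ≠ 0) (d : ℕ) [NeZero d] :
    ∃ g : Polynomial (Polynomial k₀),
      g.eval₂ (aeval (qExpand k₀ d (jqModC k₀))).toRingHom
        (qExpand k₀ (d * p) (jqModC k₀)) = 0 ∧
      (derivative g).eval₂ (aeval (qExpand k₀ d (jqModC k₀))).toRingHom
        (qExpand k₀ (d * p) (jqModC k₀)) ≠ 0 := by
  have hpk : (p : AlgebraicClosure k₀) ≠ 0 := by
    intro h
    apply hp
    have h0 : algebraMap k₀ (AlgebraicClosure k₀) (p : k₀) = 0 := by
      rw [map_natCast]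
      exact h
    exact (map_eq_zero_iff _ (algebraMap k₀ (AlgebraicClosure k₀)).injective).mp h0
  have : NeZero (p : AlgebraicClosure k₀) := ⟨hpk⟩
  obtain ⟨ζ, hζ⟩ := HasEnoughRootsOfUnity.exists_primitiveRoot (AlgebraicClosure k₀) p
  have hζ0 : ζ ≠ 0 := hζ.ne_zero (Fact.out : p.Prime).ne_zero
  have hω : IsPrimitiveRoot (Units.mk0 ζ hζ0) p := IsPrimitiveRoot.coe_units_iff.mp hζ
  obtain ⟨Φ, -, -, hΦ⟩ := exists_modEq (AlgebraicClosure k₀) p (Units.mk0 ζ hζ0) hω
  have h0 := Tower.modEq_root_qExpand p _ Φ hΦ d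
  have h1 := modEq_derivative_ne_zero p _ Φ hΦ d
  have e1 : coeffMap (algebraMap k₀ (AlgebraicClosure k₀)) (qExpand k₀ d (jqModC k₀)) =
      qExpand (AlgebraicClosure k₀) d (jqModC (AlgebraicClosure k₀)) := by
    rw [coeffMap_qExpand, coeffMap_jqModC]
  have e2 : coeffMap (algebraMap k₀ (AlgebraicClosure k₀)) (qExpand k₀ (d * p) (jqModC k₀)) =
      qExpand (AlgebraicClosure k₀) (d * p) (jqModC (AlgebraicClosure k₀)) := by
    rw [coeffMap_qExpand, coeffMap_jqModC]
  exact exists_descent Φ _ _ (by rw [e1, e2]; exact h0) (by rw [e1, e2]; exact h1)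

/-- `j(q^d)` is separable over `k₀(j)` when `d` is invertible in `k₀`. -/
theorem isSeparable_qExpand_jqModC :
    ∀ (d : ℕ) [NeZero d], (d : k₀) ≠ 0 → IsSeparable (Kj k₀) (qExpand k₀ d (jqModC k₀)) := by
  intro d
  induction d using Nat.strong_induction_on with
  | _ d ih =>
    intro hne hd
    rcases eq_or_ne d 1 with rfl | hd1
    · rw [qExpand_one_apply]
      exact isSeparable_algebraMap (⟨jqModC k₀, Tower.jqModC_mem_Kj k₀⟩ : Kj k₀)
    have hpr : d.minFac.Prime := Nat.minFac_prime hd1
    have : Fact d.minFac.Prime := ⟨hpr⟩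
    obtain ⟨d', hd'⟩ : ∃ d', d = d' * d.minFac := ⟨d / d.minFac,
      (Nat.div_mul_cancel (Nat.minFac_dvd d)).symm⟩
    have hd'0 : d' ≠ 0 := by
      rintro rfl
      rw [zero_mul] at hd'
      exact NeZero.ne d hd'
    have : NeZero d' := ⟨hd'0⟩
    have hd'lt : d' < d := by
      have h2 := hpr.two_le
      nlinarith [Nat.pos_of_ne_zero hd'0]
    have hcast : (d : k₀) = (d' : k₀) * (d.minFac : k₀) := by
      conv_lhs => rw [hd']
      push_cast
      rfl
    have hd'k : (d' : k₀) ≠ 0 := fun h0 => hd (by rw [hcast, h0, zero_mul])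
    have hpk : (d.minFac : k₀) ≠ 0 := fun h0 => hd (by rw [hcast, h0, mul_zero])
    have ih' : IsSeparable (Kj k₀) (qExpand k₀ d' (jqModC k₀)) := ih d' hd'lt hd'k
    obtain ⟨g, hg0, hg1⟩ := exists_poly_simple_root k₀ d.minFac hpk d'
    rw [qExpand_congr (R := k₀) hd' (jqModC k₀)]
    have : Algebra.IsSeparable (Kj k₀) (adjoin (Kj k₀) {qExpand k₀ d' (jqModC k₀)}) :=
      (isSeparable_adjoin_simple_iff_isSeparable (Kj k₀) (LaurentSeries k₀)).mpr ih'
    refine IsSeparable.of_algebra_isSeparable_of_isSeparable (Kj k₀)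
      (E := adjoin (Kj k₀) {qExpand k₀ d' (jqModC k₀)}) ?_
    let φ : Polynomial k₀ →+* adjoin (Kj k₀) {qExpand k₀ d' (jqModC k₀)} :=
      Polynomial.eval₂RingHom
        ((algebraMap (Kj k₀) (adjoin (Kj k₀) {qExpand k₀ d' (jqModC k₀)})).comp
          (algebraMap k₀ (Kj k₀)))
        ⟨qExpand k₀ d' (jqModC k₀), mem_adjoin_simple_self _ _⟩
    have hφ : (algebraMap (adjoin (Kj k₀) {qExpand k₀ d' (jqModC k₀)}) (LaurentSeries k₀)).comp φ =
        (Polynomial.aeval (qExpand k₀ d' (jqModC k₀)) :
          Polynomial k₀ →ₐ[k₀] LaurentSeries k₀).toRingHom := by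
      refine Polynomial.ringHom_ext (fun a => ?_) ?_
      · simp only [φ, RingHom.comp_apply, Polynomial.coe_eval₂RingHom, Polynomial.eval₂_C,
          AlgHom.toRingHom_eq_coe, RingHom.coe_coe, aeval_C]
        rfl
      · simp only [φ, RingHom.comp_apply, Polynomial.coe_eval₂RingHom, Polynomial.eval₂_X,
          AlgHom.toRingHom_eq_coe, RingHom.coe_coe, aeval_X]
        rfl
    exact isSeparable_of_eval₂ φ g _ (by rw [hφ]; exact hg0) (by rw [hφ]; exact hg1)

variable (N : ℕ) [NeZero N]

/-- **Separability of the residue tower**: every element of `F_N(k₀) = k₀(j(q^d) : d ∣ N)` is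
separable over `k₀(j)`, for any field `k₀` in which `N` is invertible. -/
theorem isSeparable_full (hN : (N : k₀) ≠ 0) :
    ∀ x ∈ modularFunctionFieldFullC k₀ N, IsSeparable (Kj k₀) x := by
  have hle : modularFunctionFieldFullC k₀ N ≤
      (separableClosure (Kj k₀) (LaurentSeries k₀)).restrictScalars k₀ := by
    rw [modularFunctionFieldFullC, adjoin_le_iff]
    rintro x ⟨d, hne, hd, rfl⟩
    have := hne
    show qExpand k₀ d (jqModC k₀) ∈ separableClosure (Kj k₀) (LaurentSeries k₀)
    rw [mem_separableClosure_iff]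
    refine isSeparable_qExpand_jqModC k₀ d ?_
    intro h0
    obtain ⟨c, rfl⟩ := hd
    exact hN (by push_cast; rw [h0, zero_mul])
  intro x hx
  exact mem_separableClosure_iff.mp (hle hx)

/-- `F_N(k₀)` is a separable extension of `k₀(j)`. -/
theorem algebra_isSeparable_full (hN : (N : k₀) ≠ 0) :
    Algebra.IsSeparable ↥(Kj k₀) ↥(extendScalars (Tower.Kj_le_full k₀ N)) := by
  refine ⟨fun x => ?_⟩
  have h := isSeparable_full k₀ N hN x.1 x.2
  rw [IsSeparable] at h ⊢
  rwa [← IntermediateField.minpoly_eq] at h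

/-- `0 < [F_N(k₀) : k₀(j)]`, i.e. the extension is finite, for any field `k₀` in which `N` is
invertible. -/
theorem relfinrank_full_pos (hN : (N : k₀) ≠ 0) :
    0 < (Kj k₀).relfinrank (modularFunctionFieldFullC k₀ N) := by
  refine Tower.relfinrank_adjoin_pos (Kj k₀) _ (divisorExpansionsC k₀ N)
    (Tower.divisorExpansionsC_finite k₀ N) ?_ ?_
  · intro x hx
    exact (isSeparable_full k₀ N hN x (subset_adjoin k₀ _ hx)).isIntegral
  · rw [adjoin_adjoin_left, modularFunctionFieldFullC]
    congr 1
    have hmem : jqModC k₀ ∈ divisorExpansionsC k₀ N :=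
      ⟨1, inferInstance, one_dvd N, (qExpand_one_apply _).symm⟩
    exact (Set.union_eq_self_of_subset_left (Set.singleton_subset_iff.mpr hmem)).symm

/-- `F_N(k₀)` is finite-dimensional over `k₀(j)`. -/
theorem finiteDimensional_full (hN : (N : k₀) ≠ 0) :
    FiniteDimensional ↥(Kj k₀) ↥(extendScalars (Tower.Kj_le_full k₀ N)) := by
  have h := relfinrank_full_pos k₀ N hN
  rw [relfinrank_eq_finrank_of_le (Tower.Kj_le_full k₀ N)] at h
  exact FiniteDimensional.of_finrank_pos h

end Main

end Fermat.Agent.S18.SepK
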