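import Mathlib
import Fermat.Agent.S28.FreeBasisAbs

/-!
P11 (S18), module SepRes, part 2 (abstract): in the setting of `S28/FreeBasisAbs.lean` (an
abstract Gauss valuation ring `V ⊆ F` with reduction `red : V →+* L`, an intermediate field `E`
containing the uniformiser, `R = V ∩ E`), suppose that `V` is integral over `R` and that the
residue field of `V` is a finite separable extension `𝕍` of a field `𝕜` containing the residue
field of `R`, of degree `≥ [F : E]`.  Then there is a primitive element `θ ∈ V` of `F / E` whose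
minimal polynomial `H` has coefficients in `R` and satisfies `H'(θ) ∈ Vˣ`.
-/

set_option autoImplicit false

namespace Fermat.Agent.S18.SepResAbs

open Polynomial IntermediateField Fermat.Agent.S28.FreeBasisAbs

variable {F L : Type*} [Field F] [Field L]
variable {K₀ : Type*} [Field K₀] [Algebra K₀ F]
variable {V : Subring F} {π : F} {red : V →+* L} {E : IntermediateField K₀ F}

/-- An element of an abstract Gauss ring with nonzero reduction is a unit. -/
theorem inv_mem_of_red_ne_zero (h : IsGaussRing V π red) {x : F} (hx : x ∈ V)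
    (hred : red ⟨x, hx⟩ ≠ 0) : x⁻¹ ∈ V := by
  have hx0 : x ≠ 0 := by
    rintro rfl
    apply hred
    have : (⟨0, hx⟩ : V) = 0 := rfl
    rw [this, map_zero]
  obtain ⟨n, u, hu, hu', hxu⟩ := h.unit x hx0
  rcases le_or_gt n 0 with hn | hn
  · rw [hxu, mul_inv, ← zpow_neg]
    exact mul_mem (h.zpow_mem (by omega)) hu'
  · exfalso
    apply hred
    have h1 : x = π * (π ^ (n - 1) * u) := by
      rw [hxu, ← mul_assoc, ← zpow_one_add₀ h.pi_ne_zero]
      congr 2
      ring
    have h2 : π ^ (n - 1) * u ∈ V := mul_mem (h.zpow_mem (by omega)) hu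
    have h3 : (⟨x, hx⟩ : V) = ⟨π * (π ^ (n - 1) * u), h1 ▸ hx⟩ := Subtype.ext h1
    rw [h3]
    exact h.red_pi_mul h2 _

/-- The inclusion `R = V ∩ E → V`. -/
def inclRE (V : Subring F) (E : IntermediateField K₀ F) : RE V E →+* V where
  toFun r := ⟨((r : E) : F), r.2⟩
  map_one' := rfl
  map_mul' _ _ := rfl
  map_zero' := rfl
  map_add' _ _ := rfl

theorem coe_inclRE (r : RE V E) : ((inclRE V E r : V) : F) = ((r : E) : F) := rfl

/-- Evaluating a polynomial over `R` at an element of `V`, inside `V`. -/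
theorem coe_eval_map_inclRE (P : Polynomial (RE V E)) (v : V) :
    (((P.map (inclRE V E)).eval v : V) : F) = aeval (v : F) P := by
  have h := Polynomial.hom_eval₂ (P.map (inclRE V E)) (RingHom.id V) V.subtype v
  rw [RingHom.comp_id] at h
  have h' : V.subtype ((P.map (inclRE V E)).eval v) =
      eval₂ V.subtype (V.subtype v) (P.map (inclRE V E)) := h
  rw [eval₂_map] at h'
  exact h'

/-- **Abstract SepRes.** -/
theorem exists_theta_abs (h : IsGaussRing V π red) (hπE : π ∈ E) [FiniteDimensional E F]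
    (hint : ∀ s ∈ V, IsIntegral (RE V E) s)
    {𝕜 : Type*} [Field 𝕜] [Algebra 𝕜 L] (𝕍 : IntermediateField 𝕜 L)
    [FiniteDimensional 𝕜 𝕍] [Algebra.IsSeparable 𝕜 𝕍]
    (hdeg : Module.finrank E F ≤ Module.finrank 𝕜 𝕍)
    (hsurj : ∀ y ∈ 𝕍, ∃ v : V, red v = y)
    (hR : ∀ r : V, (r : F) ∈ E → red r ∈ (algebraMap 𝕜 L).range) :
    ∃ θ : F, θ ∈ V ∧ E⟮θ⟯ = ⊤ ∧ (∀ n, (((minpoly E θ).coeff n : E) : F) ∈ V) ∧
      aeval θ (derivative (minpoly E θ)) ≠ 0 ∧
      (aeval θ (derivative (minpoly E θ)))⁻¹ ∈ V := by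
  classical
  -- a primitive element of the residue extension and a lift
  obtain ⟨α, hα⟩ := Field.exists_primitive_element 𝕜 𝕍
  obtain ⟨θ', hθ'⟩ := hsurj (α : L) α.2
  have hic : IsIntegrallyClosed (RE V E) := h.isIntegrallyClosed_RE hπE
  have hfr : IsFractionRing (RE V E) E := h.isFractionRing_RE hπE
  have hθint : IsIntegral (RE V E) (θ' : F) := hint _ θ'.2
  have hmin : minpoly E (θ' : F) = (minpoly (RE V E) (θ' : F)).map (algebraMap (RE V E) E) :=
    minpoly.isIntegrallyClosed_eq_field_fractions' E hθint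
  have hmonic : (minpoly (RE V E) (θ' : F)).Monic := minpoly.monic hθint
  -- the reduced polynomial
  set mR := minpoly (RE V E) (θ' : F) with hmR
  set mbar : Polynomial L := mR.map (red.comp (inclRE V E)) with hmbar
  have hmbar_monic : mbar.Monic := hmonic.map _
  have hlift : mbar ∈ Polynomial.lifts (algebraMap 𝕜 L) := by
    rw [Polynomial.lifts_iff_coeff_lifts]
    intro n
    rw [hmbar, coeff_map]
    exact hR (inclRE V E (mR.coeff n)) (mR.coeff n).1.2
  obtain ⟨m₀, hm₀map, hm₀deg, hm₀monic⟩ :=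
    Polynomial.lifts_and_natDegree_eq_and_monic hlift hmbar_monic
  -- evaluation of reductions
  have hev : ∀ P : Polynomial (RE V E),
      (P.map (red.comp (inclRE V E))).eval (red θ') = red ((P.map (inclRE V E)).eval θ') := by
    intro P
    rw [← Polynomial.map_map, Polynomial.eval_map, Polynomial.eval₂_at_apply]
  have hzero : (mR.map (inclRE V E)).eval θ' = 0 := by
    apply Subtype.ext
    rw [coe_eval_map_inclRE]
    exact minpoly.aeval _ _
  have hroot : aeval (α : L) m₀ = 0 := by
    rw [aeval_def, ← eval_map, hm₀map, hmbar, ← hθ', hev, hzero, map_zero]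
  -- degrees
  have hαdeg : (minpoly 𝕜 (α : L)).natDegree = Module.finrank 𝕜 𝕍 := by
    rw [← IntermediateField.minpoly_eq]
    exact (Field.primitive_element_iff_minpoly_natDegree_eq 𝕜 α).mp hα
  have hdvd : minpoly 𝕜 (α : L) ∣ m₀ := minpoly.dvd 𝕜 _ hroot
  have hαint : IsIntegral 𝕜 (α : L) := by
    have := IsIntegral.of_finite 𝕜 α
    exact (IntermediateField.isIntegral_iff).mp this
  have hdegmR : mR.natDegree = (minpoly E (θ' : F)).natDegree := by
    rw [hmin, hmonic.natDegree_map]
  have hle1 : (minpoly E (θ' : F)).natDegree ≤ Module.finrank E F := minpoly.natDegree_le _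
  have hm₀deg' : m₀.natDegree = mR.natDegree := by
    rw [hm₀deg, hmbar, hmonic.natDegree_map]
  have hm₀eq : m₀ = minpoly 𝕜 (α : L) :=
    Polynomial.eq_of_monic_of_dvd_of_natDegree_le (minpoly.monic hαint) hm₀monic hdvd
      (by rw [hm₀deg', hdegmR, hαdeg]; exact hle1.trans hdeg)
  have hdegθ : (minpoly E (θ' : F)).natDegree = Module.finrank E F := by
    apply le_antisymm hle1
    rw [← hdegmR, ← hm₀deg', hm₀eq, hαdeg]
    exact hdeg
  -- separability
  have hsep : (minpoly 𝕜 (α : L)).Separable := by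
    rw [← IntermediateField.minpoly_eq]
    exact Algebra.IsSeparable.isSeparable 𝕜 α
  have hder : aeval (α : L) (derivative m₀) ≠ 0 := by
    rw [hm₀eq]
    exact hsep.aeval_derivative_ne_zero (minpoly.aeval _ _)
  have hder' : red (((derivative mR).map (inclRE V E)).eval θ') ≠ 0 := by
    rw [← hev, hθ', ← derivative_map, ← hmbar, ← hm₀map, derivative_map, eval_map, ← aeval_def]
    exact hder
  have hDcoe : ((((derivative mR).map (inclRE V E)).eval θ' : V) : F) =
      aeval (θ' : F) (derivative (minpoly E (θ' : F))) := by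
    rw [coe_eval_map_inclRE, hmin, derivative_map, aeval_map_algebraMap]
  refine ⟨(θ' : F), θ'.2, ?_, ?_, ?_, ?_⟩
  · exact (Field.primitive_element_iff_minpoly_natDegree_eq E (θ' : F)).mpr hdegθ
  · intro n
    rw [hmin, coeff_map]
    exact (mR.coeff n).2
  · rw [← hDcoe]
    intro h0
    apply hder'
    have : ((derivative mR).map (inclRE V E)).eval θ' = 0 := Subtype.ext h0
    rw [this, map_zero]
  · rw [← hDcoe]
    exact inv_mem_of_red_ne_zero h _ hder'

end Fermat.Agent.S18.SepResAbs
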