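import Mathlib
import Fermat.Agent.S18.GaussLFull
import Fermat.Agent.S18.Char0DegK
import Fermat.Agent.S18.SepK
import Fermat.Agent.S18.SepResAbs
import Fermat.Agent.S28.TowerKT

/-!
P11 (S18), module SepRes, part 3 (concrete): for an abstract Gauss datum `(Λ ⊂ K, π, res)` with
`K` of characteristic zero, `res : Λ →+* k` surjective and `N` invertible in `k`, the Gauss
valuation ring `V` of `F = F_N(K) = K(j(q^d) : d ∣ N)` contains a primitive element `θ` of
`F / K(j)` whose minimal polynomial `H` has coefficients in `V ∩ K(j)` and `H'(θ) ∈ Vˣ`.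
-/

set_option autoImplicit false

namespace Fermat.Agent.S18.SepRes

open ModularCurve IntermediateField Polynomial
open Fermat.Agent.S28 Fermat.Agent.S28.FreeBasisAbs Fermat.Agent.S18.GaussL

section Degree

/-- `ψ(N) ≤ [F_N(k) : k(j)]` for every field `k` in which `N` is invertible. -/
theorem psi_le_finrank_full (k : Type*) [Field k] (N : ℕ) [NeZero N] (hN : (N : k) ≠ 0) :
    dedekindPsi N ≤ Module.finrank ↥(Kj k) ↥(extendScalars (Tower.Kj_le_full k N)) := by
  have hfin := SepK.finiteDimensional_full k N hN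
  obtain ⟨b, hb, hli⟩ := exists_linearIndependent_monomials k N hN
  have hle : (Submonoid.closure (divisorExpansionsC k N)) ≤
      (modularFunctionFieldFullC k N).toSubalgebra.toSubmonoid := by
    rw [Submonoid.closure_le]
    intro x hx
    exact subset_adjoin k _ hx
  have hli' : LinearIndependent ↥(Kj k)
      (fun i => (⟨b i, hle (hb i)⟩ : ↥(extendScalars (Tower.Kj_le_full k N)))) := by
    refine LinearIndependent.of_comp (extendScalars (Tower.Kj_le_full k N)).val.toLinearMap ?_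
    exact hli
  have h := hli'.fintype_card_le_finrank
  simpa using h

end Degree


section Corestrict

variable {K k : Type*} [Field K] [Field k] {Λ : Subring K} {π : K} {res : ↥Λ →+* k}

/-- The range of the residue map of an abstract Gauss ring, as a subfield. -/
def resField (hΛ : IsGaussRing Λ π res) : Subfield k :=
  { res.range with
    inv_mem' := by
      rintro _ ⟨a, rfl⟩
      by_cases h0 : res a = 0
      · exact ⟨0, by rw [h0, inv_zero, map_zero]⟩
      · have hinv : (a : K)⁻¹ ∈ Λ := SepResAbs.inv_mem_of_red_ne_zero hΛ a.2 h0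
        have ha0 : (a : K) ≠ 0 := by
          intro h
          apply h0
          have : a = 0 := Subtype.ext h
          rw [this, map_zero]
        refine ⟨⟨(a : K)⁻¹, hinv⟩, ?_⟩
        have h1 : res a * res ⟨(a : K)⁻¹, hinv⟩ = 1 := by
          rw [← map_mul]
          have : a * ⟨(a : K)⁻¹, hinv⟩ = 1 := Subtype.ext (mul_inv_cancel₀ ha0)
          rw [this, map_one]
        exact eq_inv_of_mul_eq_one_right h1 }

/-- The residue map, corestricted to its range. -/
def resCo (hΛ : IsGaussRing Λ π res) : ↥Λ →+* ↥(resField hΛ) where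
  toFun a := ⟨res a, ⟨a, rfl⟩⟩
  map_one' := Subtype.ext (map_one res)
  map_mul' a b := Subtype.ext (map_mul res a b)
  map_zero' := Subtype.ext (map_zero res)
  map_add' a b := Subtype.ext (map_add res a b)

theorem coe_resCo (hΛ : IsGaussRing Λ π res) (a : ↥Λ) : ((resCo hΛ a : ↥(resField hΛ)) : k) = res a :=
  rfl

theorem resCo_surjective (hΛ : IsGaussRing Λ π res) : Function.Surjective (resCo hΛ) := by
  rintro ⟨_, ⟨a, rfl⟩⟩
  exact ⟨a, rfl⟩

theorem resCo_eq_zero_iff (hΛ : IsGaussRing Λ π res) (a : ↥Λ) : resCo hΛ a = 0 ↔ res a = 0 := by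
  constructor
  · intro h
    exact congrArg Subtype.val h
  · intro h
    exact Subtype.ext h

theorem isGaussRing_resCo (hΛ : IsGaussRing Λ π res) : IsGaussRing Λ π (resCo hΛ) where
  pi_mem := hΛ.pi_mem
  pi_ne_zero := hΛ.pi_ne_zero
  red_pi := fun h => (resCo_eq_zero_iff hΛ _).mpr (hΛ.red_pi h)
  ker := fun x hx => hΛ.ker x ((resCo_eq_zero_iff hΛ x).mp hx)
  unit := hΛ.unit

theorem coeffMap_resCo_eq_zero_iff (hΛ : IsGaussRing Λ π res) (b : LaurentSeries ↥Λ) :
    coeffMap (resCo hΛ) b = 0 ↔ coeffMap res b = 0 := by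
  constructor
  · intro h
    ext n
    have h1 := congrArg (fun z : LaurentSeries ↥(resField hΛ) => z.coeff n) h
    simp only [coeffMap_coeff, HahnSeries.coeff_zero] at h1 ⊢
    exact (resCo_eq_zero_iff hΛ _).mp h1
  · intro h
    ext n
    have h1 := congrArg (fun z : LaurentSeries k => z.coeff n) h
    simp only [coeffMap_coeff, HahnSeries.coeff_zero] at h1
    exact h1

theorem mem_gaussO_resCo_iff (hΛ : IsGaussRing Λ π res) (x : LaurentSeries K) :
    x ∈ gaussO Λ (resCo hΛ) ↔ x ∈ gaussO Λ res := by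
  constructor
  · rintro ⟨a, b, hb, h⟩
    exact ⟨a, b, fun h0 => hb ((coeffMap_resCo_eq_zero_iff hΛ b).mpr h0), h⟩
  · rintro ⟨a, b, hb, h⟩
    exact ⟨a, b, fun h0 => hb ((coeffMap_resCo_eq_zero_iff hΛ b).mp h0), h⟩

theorem mem_gaussV_resCo_iff (hΛ : IsGaussRing Λ π res) (E : IntermediateField K (LaurentSeries K))
    (x : ↥E) : x ∈ gaussV Λ (resCo hΛ) E ↔ x ∈ gaussV Λ res E :=
  mem_gaussO_resCo_iff hΛ _

theorem natCast_resField_ne_zero (hΛ : IsGaussRing Λ π res) {N : ℕ} (hN : (N : k) ≠ 0) :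
    (N : ↥(resField hΛ)) ≠ 0 := by
  intro h
  apply hN
  have := congrArg (fun z : ↥(resField hΛ) => (z : k)) h
  simpa using this

end Corestrict

section Theta

variable {K k : Type*} [Field K] [Field k] {Λ : Subring K} {π : K} {res : ↥Λ →+* k}

/-- SepRes for a surjective residue map, fine form (`H` = minimal polynomial of `θ` over
`K(j)`). -/
theorem exists_theta_minpoly_of_surjective (hΛ : IsGaussRing Λ π res) [CharZero K]
    (hres : Function.Surjective res) (N : ℕ) [NeZero N] (hN : (N : k) ≠ 0) :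
    ∃ θ : ↥(modularFunctionFieldFullC K N),
      θ ∈ gaussV Λ res (modularFunctionFieldFullC K N) ∧
      (K⟮jC K N⟯)⟮θ⟯ = ⊤ ∧
      (∀ n, (((minpoly ↥(K⟮jC K N⟯) θ).coeff n : ↥(K⟮jC K N⟯)) :
        ↥(modularFunctionFieldFullC K N)) ∈ gaussV Λ res (modularFunctionFieldFullC K N)) ∧
      aeval θ (derivative (minpoly ↥(K⟮jC K N⟯) θ)) ≠ 0 ∧
      (aeval θ (derivative (minpoly ↥(K⟮jC K N⟯) θ)))⁻¹ ∈
        gaussV Λ res (modularFunctionFieldFullC K N) := by
  obtain ⟨hfin, hdegK⟩ := Char0DegK.finrank_adjoin_jC_le K N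
  have hG := isGaussRing_full hΛ N
  have hπE : algebraMap K ↥(modularFunctionFieldFullC K N) π ∈ K⟮jC K N⟯ :=
    (K⟮jC K N⟯).algebraMap_mem π
  have hfin_k := SepK.finiteDimensional_full k N hN
  have hsep_k := SepK.algebra_isSeparable_full k N hN
  exact SepResAbs.exists_theta_abs hG hπE
    (fun s hs => isIntegral_gaussR hΛ N hN hs)
    (extendScalars (Tower.Kj_le_full k N))
    (hdegK.trans (psi_le_finrank_full k N hN))
    (fun y hy => exists_gaussRed_eq N hres hy)
    (fun r hr => ⟨⟨_, gaussRed_mem_Kj hΛ N r.2 hr⟩, rfl⟩)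

/-- SepRes, fine form, for an arbitrary abstract Gauss datum. -/
theorem exists_theta_minpoly (hΛ : IsGaussRing Λ π res) [CharZero K]
    (N : ℕ) [NeZero N] (hN : (N : k) ≠ 0) :
    ∃ θ : ↥(modularFunctionFieldFullC K N),
      θ ∈ gaussV Λ res (modularFunctionFieldFullC K N) ∧
      (K⟮jC K N⟯)⟮θ⟯ = ⊤ ∧
      (∀ n, (((minpoly ↥(K⟮jC K N⟯) θ).coeff n : ↥(K⟮jC K N⟯)) :
        ↥(modularFunctionFieldFullC K N)) ∈ gaussV Λ res (modularFunctionFieldFullC K N)) ∧
      aeval θ (derivative (minpoly ↥(K⟮jC K N⟯) θ)) ≠ 0 ∧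
      (aeval θ (derivative (minpoly ↥(K⟮jC K N⟯) θ)))⁻¹ ∈
        gaussV Λ res (modularFunctionFieldFullC K N) := by
  obtain ⟨θ, h1, h2, h3, h4, h5⟩ := exists_theta_minpoly_of_surjective (isGaussRing_resCo hΛ)
    (resCo_surjective hΛ) N (natCast_resField_ne_zero hΛ hN)
  exact ⟨θ, (mem_gaussV_resCo_iff hΛ _ _).mp h1, h2,
    fun n => (mem_gaussV_resCo_iff hΛ _ _).mp (h3 n), h4, (mem_gaussV_resCo_iff hΛ _ _).mp h5⟩

/-- **SepRes** (P11): for an abstract Gauss datum `(Λ ⊂ K, π, res : Λ →+* k)` with `K` of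
characteristic zero and `N` invertible in `k`, there are `θ` in the Gauss valuation ring `V` of
`F = F_N(K)` and a monic polynomial `H` with coefficients in `V ∩ K(j)` such that `H(θ) = 0`,
`H'(θ)` is a unit of `V`, and `F = K(j, θ)`. -/
theorem exists_theta (hΛ : IsGaussRing Λ π res) [CharZero K] (N : ℕ) [NeZero N]
    (hN : (N : k) ≠ 0) :
    ∃ (θ : ↥(modularFunctionFieldFullC K N)) (H : Polynomial ↥(modularFunctionFieldFullC K N)),
      θ ∈ gaussV Λ res (modularFunctionFieldFullC K N) ∧ H.Monic ∧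
      (∀ i, H.coeff i ∈ K⟮jC K N⟯ ∧ H.coeff i ∈ gaussV Λ res (modularFunctionFieldFullC K N)) ∧
      H.eval θ = 0 ∧ H.derivative.eval θ ≠ 0 ∧
      (H.derivative.eval θ)⁻¹ ∈ gaussV Λ res (modularFunctionFieldFullC K N) ∧
      IntermediateField.adjoin K {jC K N, θ} = ⊤ := by
  obtain ⟨θ, hθV, htop, hcoeff, hd0, hdinv⟩ := exists_theta_minpoly hΛ N hN
  have hfin := (Char0DegK.finrank_adjoin_jC_le K N).1
  have hint : IsIntegral ↥(K⟮jC K N⟯) θ := IsIntegral.of_finite _ θ
  refine ⟨θ, (minpoly ↥(K⟮jC K N⟯) θ).map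
    (algebraMap ↥(K⟮jC K N⟯) ↥(modularFunctionFieldFullC K N)), hθV, (minpoly.monic hint).map _,
    ?_, ?_, ?_, ?_, ?_⟩
  · intro i
    rw [coeff_map]
    exact ⟨((minpoly ↥(K⟮jC K N⟯) θ).coeff i).2, hcoeff i⟩
  · rw [eval_map, ← aeval_def, minpoly.aeval]
  · rw [derivative_map, eval_map, ← aeval_def]
    exact hd0
  · rw [derivative_map, eval_map, ← aeval_def]
    exact hdinv
  · have hle : K⟮jC K N⟯ ≤ IntermediateField.adjoin K {jC K N, θ} :=
      IntermediateField.adjoin.mono K _ _ (by simp)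
    have hθmem : θ ∈ IntermediateField.adjoin K {jC K N, θ} :=
      subset_adjoin K _ (by simp)
    rw [eq_top_iff]
    intro x _
    have hx : x ∈ (K⟮jC K N⟯)⟮θ⟯ := by
      rw [htop]
      trivial
    induction hx using IntermediateField.adjoin_induction with
    | mem y hy =>
      rw [Set.mem_singleton_iff] at hy
      subst hy
      exact hθmem
    | algebraMap c => exact hle c.2
    | add y z _ _ hy hz => exact add_mem (hy trivial) (hz trivial)
    | inv y _ hy => exact inv_mem (hy trivial)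
    | mul y z _ _ hy hz => exact mul_mem (hy trivial) (hz trivial)

end Theta

end Fermat.Agent.S18.SepRes
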