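/-
P11 (S18), MODEL part — `GaussOut.lean` (owner: helper7).

The `gaussSub`-form outputs (G1)–(G3) of the Gauss valuation ring of `F_N(K)` (notes 204, 352):

* General base datum `hΛ : IsGaussRing Λ π res` (`Λ : Subring K`), `F = modularFunctionFieldFullC K N`,
  `V_j = gaussSub (piL hΛ) (prime_piL hΛ) (jC K N)`:
  - `mem_gaussSub_iff`      : `c ∈ V_j ↔ c ∈ gaussV ∧ c ∈ K⟮jC⟯` (bridge);
  - `isIntegral_gaussSub`   : (G1) every element of `gaussV` is integral over `V_j`;
  - `exists_theta_gaussSub` : (G2) `θ`, `H` monic over `V_j`, `H(θ) = 0`, `1/H'(θ)` integral;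
  - `unit_of_quot_gaussSub` : (G3) `u = Y₁/Y₂`, same nonzero reduction ⇒ `u, u⁻¹` integral,
    `u - 1 = π • δ`.
* Number field form (`Λ = NumField.lam A K`, `ϖ` a uniformiser, `ℓ ∤ N`), in the exact shape
  consumed by `ModelInst`: `isIntegral_lam`, `exists_theta`, `unit_facts` (`unit_facts_of_eq`).

Instance note: on these concrete fields the generic instance search exceeds the default
`synthInstance` heartbeats; the statements below are elaborated with a raised limit, so all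
instance terms are the canonical ones (`Algebra.ofSubsemiring _` etc.).
-/
import Fermat.Agent.S18.GaussLFull
import Fermat.Agent.S18.SepRes
import Fermat.Agent.S18.NumField
import Fermat.Agent.S18.Basic

set_option autoImplicit false

namespace Fermat.Agent.S18.GaussOut

open ModularCurve IntermediateField Polynomial Fermat.Agent.S28 Fermat.Agent.S28.FreeBasisAbs
open Fermat.Agent.S18.GaussL

section General

variable {K k : Type*} [Field K] [Field k] {Λ : Subring K} {π : K} {res : ↥Λ →+* k}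
variable (hΛ : IsGaussRing Λ π res) (N : ℕ) [NeZero N]

set_option synthInstance.maxHeartbeats 400000 in
omit [NeZero N] in
theorem aeval_map_subtype (x : ↥(modularFunctionFieldFullC K N)) (a : (↥Λ)[X]) :
    aeval x (a.map Λ.subtype) = aeval x a :=
  Polynomial.aeval_map_algebraMap (A := K) x a

/-- **Bridge.**  `gaussSub π j` inside `F_N(K)` is `V_F ∩ K(j)`. -/
theorem mem_gaussSub_iff (c : ↥(modularFunctionFieldFullC K N)) :
    c ∈ gaussSub (piL hΛ) (prime_piL hΛ) (jC K N) ↔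
      (c ∈ gaussV Λ res (modularFunctionFieldFullC K N) ∧ c ∈ K⟮jC K N⟯) := by
  rw [mem_gaussV_adjoin_iff hΛ N c, mem_gaussSub]
  constructor
  · rintro ⟨a, b, hb, h⟩
    refine ⟨a, b, fun h0 => hb ((C_piL_dvd_iff hΛ b).2 h0), ?_⟩
    rw [aeval_map_subtype, aeval_map_subtype]
    exact h
  · rintro ⟨a, b, hb, h⟩
    refine ⟨a, b, fun h0 => hb ((C_piL_dvd_iff hΛ b).1 h0), ?_⟩
    rw [aeval_map_subtype, aeval_map_subtype] at h
    exact h

set_option synthInstance.maxHeartbeats 400000 in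
/-- A monic polynomial with coefficients in `gaussSub π j` killing `s` makes `s` integral. -/
theorem isIntegral_gaussSub_of_monic {s : ↥(modularFunctionFieldFullC K N)}
    (p : Polynomial ↥(modularFunctionFieldFullC K N)) (hp : p.Monic)
    (hc : ∀ i, p.coeff i ∈ gaussSub (piL hΛ) (prime_piL hΛ) (jC K N)) (hps : p.eval s = 0) :
    IsIntegral (gaussSub (piL hΛ) (prime_piL hΛ) (jC K N)) s := by
  have hsub : (↑p.coeffs : Set ↥(modularFunctionFieldFullC K N)) ⊆
      gaussSub (piL hΛ) (prime_piL hΛ) (jC K N) := by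
    intro c hc'
    obtain ⟨i, -, rfl⟩ := Polynomial.mem_coeffs_iff.mp hc'
    exact hc i
  refine ⟨p.toSubring _ hsub, (Polynomial.monic_toSubring p _ hsub).2 hp, ?_⟩
  rw [← Polynomial.eval_map]
  have : (p.toSubring _ hsub).map (algebraMap _ _) = p := Polynomial.map_toSubring p _ hsub
  rw [this]
  exact hps

set_option synthInstance.maxHeartbeats 400000 in
/-- **(G1)** every element of the Gauss valuation ring `V_F` is integral over `gaussSub π j`. -/
theorem isIntegral_gaussSub [CharZero K] (hN : (N : k) ≠ 0)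
    {s : ↥(modularFunctionFieldFullC K N)}
    (hs : s ∈ gaussV Λ res (modularFunctionFieldFullC K N)) :
    IsIntegral (gaussSub (piL hΛ) (prime_piL hΛ) (jC K N)) s := by
  obtain ⟨p, hp, hc, hps⟩ := exists_monic_of_mem_gaussV hΛ N hN hs
  exact isIntegral_gaussSub_of_monic hΛ N p hp (fun i => (mem_gaussSub_iff hΛ N _).2 (hc i)) hps

set_option synthInstance.maxHeartbeats 400000 in
/-- **(G2)** a primitive element `θ` of `F_N(K)` over `K(j)` with an étale integral equation. -/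
theorem exists_theta_gaussSub [CharZero K] (hN : (N : k) ≠ 0) :
    ∃ (θ : ↥(modularFunctionFieldFullC K N)) (H : Polynomial ↥(modularFunctionFieldFullC K N)),
      IntermediateField.adjoin K {jC K N, θ} = ⊤ ∧ H.Monic ∧
      (∀ i, H.coeff i ∈ gaussSub (piL hΛ) (prime_piL hΛ) (jC K N)) ∧
      H.eval θ = 0 ∧ H.derivative.eval θ ≠ 0 ∧
      IsIntegral (gaussSub (piL hΛ) (prime_piL hΛ) (jC K N)) (H.derivative.eval θ)⁻¹ ∧
      θ ∈ gaussV Λ res (modularFunctionFieldFullC K N) := by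
  obtain ⟨θ, H, hθ, hH, hc, hHθ, hd, hdinv, htop⟩ := SepRes.exists_theta hΛ N hN
  exact ⟨θ, H, htop, hH, fun i => (mem_gaussSub_iff hΛ N _).2 ⟨(hc i).2, (hc i).1⟩, hHθ, hd,
    isIntegral_gaussSub hΛ N hN hdinv, hθ⟩

set_option synthInstance.maxHeartbeats 400000 in
/-- **(G3)** a quotient `u = Y₁ / Y₂` of series over `Λ` with the same nonzero reduction:
`u`, `u⁻¹` are integral over `gaussSub π j` and `u - 1 ∈ π • (integral elements)`. -/
theorem unit_of_quot_gaussSub [CharZero K] (hN : (N : k) ≠ 0)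
    {u : ↥(modularFunctionFieldFullC K N)} {Y₁ Y₂ : LaurentSeries ↥Λ}
    (hY₂ : coeffMap res Y₂ ≠ 0) (hY : coeffMap res Y₁ = coeffMap res Y₂)
    (hu : (u : LaurentSeries K) * coeffMap Λ.subtype Y₂ = coeffMap Λ.subtype Y₁) :
    IsIntegral (gaussSub (piL hΛ) (prime_piL hΛ) (jC K N)) u ∧
    IsIntegral (gaussSub (piL hΛ) (prime_piL hΛ) (jC K N)) u⁻¹ ∧
    ∃ δ : ↥(modularFunctionFieldFullC K N),
      IsIntegral (gaussSub (piL hΛ) (prime_piL hΛ) (jC K N)) δ ∧ u - 1 = piL hΛ • δ := by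
  obtain ⟨h1, h2, y, hy, hy'⟩ := unit_of_quot hΛ (modularFunctionFieldFullC K N) hY₂ hY hu
  refine ⟨isIntegral_gaussSub hΛ N hN h1, isIntegral_gaussSub hΛ N hN h2, y,
    isIntegral_gaussSub hΛ N hN hy, ?_⟩
  rw [hy', Algebra.smul_def]
  rfl

end General

/-! ### Specialisation to a number field `K ⊆ ℚ̄` and `Λ = A ∩ K`

The statements `exists_theta` and `unit_facts` are in the exact shape consumed by
`S18/ModelInst.lean` (note P11-MASTER-INST). -/

section NumField

open Fermat.Agent.S18.NumField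

variable (N : ℕ) [NeZero N] {ℓ : ℕ} [Fact ℓ.Prime] {A : ValuationSubring (AlgebraicClosure ℚ)}
  (hA : A.LiesOverPrime ℓ) (hℓN : ¬ ℓ ∣ N) (K : IntermediateField ℚ (AlgebraicClosure ℚ))
  [FiniteDimensional ℚ ↥K] (ϖ : ↥(NumField.lam A K)) (hϖ : Irreducible ϖ)

include hA hℓN in
omit [NeZero N] [FiniteDimensional ℚ ↥K] in
/-- `N` is nonzero in the residue field of `Λ = A ∩ K` when `ℓ ∤ N`. -/
theorem natCast_residue_lam_ne_zero :
    ((N : ℕ) : IsLocalRing.ResidueField (lam A K)) ≠ 0 := by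
  have hu : IsUnit ((N : ℕ) : lam A K) := isUnit_natCast_lam hA hℓN
  have h2 := (hu.map (IsLocalRing.residue (lam A K))).ne_zero
  rwa [map_natCast] at h2

set_option synthInstance.maxHeartbeats 400000 in
set_option maxHeartbeats 2000000 in
include hA hℓN hϖ in
/-- **(G1), number field form**: elements of the Gauss valuation ring of `F_N(K)` are integral
over `V_j = gaussSub ϖ j`. -/
theorem isIntegral_lam (hp : Prime ϖ) {s : ↥(modularFunctionFieldFullC ↥K N)}
    (hs : s ∈ gaussV (lam A K).toSubring (lamRes A K) (modularFunctionFieldFullC ↥K N)) :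
    IsIntegral (gaussSub ϖ hp (jC ↥K N)) s :=
  isIntegral_gaussSub (isGaussRing_lam hA hϖ) N (natCast_residue_lam_ne_zero N hA hℓN K) hs

set_option synthInstance.maxHeartbeats 400000 in
set_option maxHeartbeats 2000000 in
include hA hℓN in
/-- **(G2), number field form.** -/
theorem exists_theta :
    ∃ (θ : ↥(modularFunctionFieldFullC ↥K N)) (H : (↥(modularFunctionFieldFullC ↥K N))[X]),
      IntermediateField.adjoin ↥K {GaussL.jC ↥K N, θ} = ⊤ ∧ H.Monic ∧
      (∀ i, H.coeff i ∈ gaussSub ϖ hϖ.prime (GaussL.jC ↥K N)) ∧ H.eval θ = 0 ∧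
      H.derivative.eval θ ≠ 0 ∧
      IsIntegral (gaussSub ϖ hϖ.prime (GaussL.jC ↥K N)) (H.derivative.eval θ)⁻¹ := by
  have h := exists_theta_gaussSub (isGaussRing_lam hA hϖ) N
    (natCast_residue_lam_ne_zero N hA hℓN K)
  obtain ⟨θ, H, h1, h2, h3, h4, h5, h6, -⟩ := h
  refine ⟨θ, H, ?_, ?_, ?_, ?_, ?_, ?_⟩
  · exact h1
  · exact h2
  · exact h3
  · exact h4
  · exact h5
  · exact h6

set_option synthInstance.maxHeartbeats 400000 in
set_option maxHeartbeats 2000000 in
include hA hℓN in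
/-- **(G3), number field form**, for any `u` with `u = Y₁ / Y₂`. -/
theorem unit_facts_of_eq (Y₁ Y₂ : LaurentSeries ↥(NumField.lam A K))
    (h₁ : coeffMap (NumField.lam A K).subtype Y₁ ∈ modularFunctionFieldFullC ↥K N)
    (h₂ : coeffMap (NumField.lam A K).subtype Y₂ ∈ modularFunctionFieldFullC ↥K N)
    (hne : coeffMap (IsLocalRing.residue ↥(NumField.lam A K)) Y₁ ≠ 0)
    (heq : coeffMap (IsLocalRing.residue ↥(NumField.lam A K)) Y₁ =
      coeffMap (IsLocalRing.residue ↥(NumField.lam A K)) Y₂)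
    (u : ↥(modularFunctionFieldFullC ↥K N))
    (hu : u = (⟨_, h₁⟩ : ↥(modularFunctionFieldFullC ↥K N)) / ⟨_, h₂⟩) :
    IsIntegral (gaussSub ϖ hϖ.prime (GaussL.jC ↥K N)) u ∧
      IsIntegral (gaussSub ϖ hϖ.prime (GaussL.jC ↥K N)) u⁻¹ ∧
      ∃ δ : ↥(modularFunctionFieldFullC ↥K N),
        IsIntegral (gaussSub ϖ hϖ.prime (GaussL.jC ↥K N)) δ ∧ u - 1 = ϖ • δ := by
  have hΛ := isGaussRing_lam hA hϖ
  have hY₂ : coeffMap (lamRes A K) Y₂ ≠ 0 := fun h0 => hne (heq.trans h0)
  have hY20 : (⟨_, h₂⟩ : ↥(modularFunctionFieldFullC ↥K N)) ≠ 0 := by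
    intro h0
    have h0' : coeffMap (lam A K).subtype Y₂ = 0 := congrArg Subtype.val h0
    have hY2z : Y₂ = 0 := (incl_eq_zero_iff (Λ := (lam A K).toSubring) Y₂).mp h0'
    exact hY₂ (by rw [hY2z, map_zero])
  have hu' : (u : LaurentSeries ↥K) *
      coeffMap (lam A K).toSubring.subtype Y₂ = coeffMap (lam A K).toSubring.subtype Y₁ := by
    have h3 : u * ⟨_, h₂⟩ = ⟨_, h₁⟩ := by rw [hu]; exact div_mul_cancel₀ _ hY20
    exact congrArg Subtype.val h3
  have h := unit_of_quot_gaussSub hΛ N (natCast_residue_lam_ne_zero N hA hℓN K) hY₂ heq hu'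
  obtain ⟨g1, g2, δ, g3, g4⟩ := h
  refine ⟨?_, ?_, δ, ?_, ?_⟩
  · exact g1
  · exact g2
  · exact g3
  · exact g4

set_option synthInstance.maxHeartbeats 400000 in
set_option maxHeartbeats 2000000 in
include hA hℓN in
/-- **(G3), number field form** (the shape consumed by `ModelInst`). -/
theorem unit_facts (Y₁ Y₂ : LaurentSeries ↥(NumField.lam A K))
    (h₁ : coeffMap (NumField.lam A K).subtype Y₁ ∈ modularFunctionFieldFullC ↥K N)
    (h₂ : coeffMap (NumField.lam A K).subtype Y₂ ∈ modularFunctionFieldFullC ↥K N)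
    (hne : coeffMap (IsLocalRing.residue ↥(NumField.lam A K)) Y₁ ≠ 0)
    (heq : coeffMap (IsLocalRing.residue ↥(NumField.lam A K)) Y₁ =
      coeffMap (IsLocalRing.residue ↥(NumField.lam A K)) Y₂) :
    IsIntegral (gaussSub ϖ hϖ.prime (GaussL.jC ↥K N))
        ((⟨_, h₁⟩ : ↥(modularFunctionFieldFullC ↥K N)) / ⟨_, h₂⟩) ∧
      IsIntegral (gaussSub ϖ hϖ.prime (GaussL.jC ↥K N))
        ((⟨_, h₁⟩ : ↥(modularFunctionFieldFullC ↥K N)) / ⟨_, h₂⟩)⁻¹ ∧
      ∃ δ : ↥(modularFunctionFieldFullC ↥K N),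
        IsIntegral (gaussSub ϖ hϖ.prime (GaussL.jC ↥K N)) δ ∧
          (⟨_, h₁⟩ : ↥(modularFunctionFieldFullC ↥K N)) / ⟨_, h₂⟩ - 1 = ϖ • δ :=
  unit_facts_of_eq N hA hℓN K ϖ hϖ Y₁ Y₂ h₁ h₂ hne heq _ rfl

end NumField

end Fermat.Agent.S18.GaussOut
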