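import Fermat.Agent.S18.RamW

/-!
P11 (S18), module RamFF: function-field facts for `Ω ⊇ F_L` with a coordinate `x` of the
auxiliary cover `Ng(x) = j · Dg(x)`:

* `RamFF.transcendental_x`: `x` is transcendental over `L`;
* `RamFF.finiteDimensional_adjoin_x`: `Ω` is finite over `L(x)`;
* `RamFF.finiteDimensional_adjoin_jL`: `Ω` is finite over `L(j)`.
-/

set_option autoImplicit false

namespace Fermat.Agent.S18.RamFF

open AlgebraicCurve IntermediateField Polynomial
open Fermat.Agent.S24

section

variable (N : ℕ) [NeZero N] {L : Type*} [Field L] [Algebra ℚ L] [IsAlgClosed L] [CharZero L]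
  [Nonempty (L →+* ℂ)] {Ω : Type*} [Field Ω] [Algebra L Ω] [Algebra (FFL L N) Ω]
  [IsScalarTower L (FFL L N) Ω] [FiniteDimensional (FFL L N) Ω]

omit [CharZero L] in
/-- `Ω` is finite over `L(j)`. -/
theorem finiteDimensional_adjoin_jL :
    FiniteDimensional L⟮algebraMap (FFL L N) Ω (jL L N)⟯ Ω := by
  have := finiteDimensional_jL N L
  exact RamJ.finiteDimensional_adjoin_algebraMap (jL L N)

/-- A coordinate `x` of the cover `Ng(x) = j · Dg(x)` (`Ng`, `Dg` coprime) is transcendental over
the constant field `L`. -/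
theorem transcendental_x (Ng Dg : L[X]) (hcop : IsCoprime Ng Dg) (x : Ω)
    (hcov : aeval x Ng = algebraMap (FFL L N) Ω (jL L N) * aeval x Dg) : Transcendental L x := by
  have hj : Transcendental L (algebraMap (FFL L N) Ω (jL L N)) :=
    RamW.transcendental_algebraMap_jL N
  have := finiteDimensional_adjoin_jL N (L := L) (Ω := Ω)
  apply transcendental_of_not_mem_range hj
  rintro ⟨c, rfl⟩
  rw [Polynomial.aeval_algebraMap_apply, Polynomial.aeval_algebraMap_apply,
    Polynomial.aeval_def, Polynomial.aeval_def, Algebra.algebraMap_self, Polynomial.eval₂_id,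
    Polynomial.eval₂_id] at hcov
  by_cases hD : Dg.eval c = 0
  · rw [hD, map_zero, mul_zero, map_eq_zero] at hcov
    obtain ⟨A, B, hAB⟩ := hcop
    have h := congrArg (Polynomial.eval c) hAB
    rw [Polynomial.eval_add, Polynomial.eval_mul, Polynomial.eval_mul, hcov, hD, mul_zero,
      mul_zero, add_zero, Polynomial.eval_one] at h
    exact zero_ne_one h
  · apply hj
    have h1 : algebraMap (FFL L N) Ω (jL L N) = algebraMap L Ω (Ng.eval c / Dg.eval c) := by
      rw [map_div₀, hcov, mul_div_cancel_right₀]
      rw [Ne, map_eq_zero]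
      exact hD
    rw [h1]
    exact isAlgebraic_algebraMap _

/-- `Ω` is finite over `L(x)` for a coordinate `x` of the cover. -/
theorem finiteDimensional_adjoin_x (Ng Dg : L[X]) (hcop : IsCoprime Ng Dg) (x : Ω)
    (hcov : aeval x Ng = algebraMap (FFL L N) Ω (jL L N) * aeval x Dg) :
    FiniteDimensional L⟮x⟯ Ω := by
  have hj : Transcendental L (algebraMap (FFL L N) Ω (jL L N)) :=
    RamW.transcendental_algebraMap_jL N
  have := finiteDimensional_adjoin_jL N (L := L) (Ω := Ω)
  exact finiteDimensional_adjoin_of_transcendental hj (transcendental_x N Ng Dg hcop x hcov)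

end

end Fermat.Agent.S18.RamFF
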