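import Mathlib

/-!
P11 / S18 — carriers for the model instantiation (ModelInst).

`L` is a field containing `ℚ` (in practice `AlgebraicClosure ℚ`), `Ω` a field extension of `L`
(in practice `F_L(x, w)`).  For a subfield `K₀` of `L` and a set `T ⊆ Ω`:

* `genField K₀ T : Subfield Ω` — the subfield generated by the image of `K₀` and by `T`;
* `constField K₀ T : IntermediateField ℚ L` — its field of constants `L ∩ genField K₀ T`;
* `↥(genField K₀ T)` is an algebra over `↥(constField K₀ T)` (global instance), compatibly with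
  `L → Ω`.
-/

set_option autoImplicit false

namespace Fermat.Agent.S18.Model

variable {L Ω : Type*} [Field L] [Algebra ℚ L] [Field Ω] [Algebra L Ω]

/-- The subfield of `Ω` generated by the image of `K₀` and by `T`. -/
def genField (K₀ : IntermediateField ℚ L) (T : Set Ω) : Subfield Ω :=
  Subfield.closure ((algebraMap L Ω) '' (K₀ : Set L) ∪ T)

theorem algebraMap_mem_genField (K₀ : IntermediateField ℚ L) (T : Set Ω) {c : L} (hc : c ∈ K₀) :
    algebraMap L Ω c ∈ genField K₀ T :=
  Subfield.subset_closure (Or.inl ⟨c, hc, rfl⟩)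

theorem mem_genField_of_mem (K₀ : IntermediateField ℚ L) {T : Set Ω} {t : Ω} (ht : t ∈ T) :
    t ∈ genField K₀ T :=
  Subfield.subset_closure (Or.inr ht)

/-- The field of constants of `genField K₀ T`: the elements of `L` whose image lies in it. -/
def constField (K₀ : IntermediateField ℚ L) (T : Set Ω) : IntermediateField ℚ L :=
  Subfield.toIntermediateField ((genField K₀ T).comap (algebraMap L Ω)) (fun q => by
    show algebraMap L Ω (algebraMap ℚ L q) ∈ genField K₀ T
    exact algebraMap_mem_genField K₀ T (K₀.algebraMap_mem q))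

theorem mem_constField_iff {K₀ : IntermediateField ℚ L} {T : Set Ω} {c : L} :
    c ∈ constField K₀ T ↔ algebraMap L Ω c ∈ genField K₀ T :=
  Iff.rfl

theorem le_constField (K₀ : IntermediateField ℚ L) (T : Set Ω) : K₀ ≤ constField K₀ T :=
  fun _ hc => algebraMap_mem_genField K₀ T hc

/-- `genField K₀ T` is an algebra over its field of constants. -/
instance algebraConstField (K₀ : IntermediateField ℚ L) (T : Set Ω) :
    Algebra ↥(constField K₀ T) ↥(genField K₀ T) :=
  (((algebraMap L Ω).comp (algebraMap ↥(constField K₀ T) L)).codRestrict (genField K₀ T)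
    (fun c => c.2)).toAlgebra

@[simp]
theorem coe_algebraMap_constField (K₀ : IntermediateField ℚ L) (T : Set Ω)
    (c : ↥(constField K₀ T)) :
    ((algebraMap ↥(constField K₀ T) ↥(genField K₀ T) c : ↥(genField K₀ T)) : Ω) =
      algebraMap L Ω (c : L) :=
  rfl

/-- The generators, as elements of `genField K₀ T`. -/
def gen (K₀ : IntermediateField ℚ L) {T : Set Ω} {t : Ω} (ht : t ∈ T) : ↥(genField K₀ T) :=
  ⟨t, mem_genField_of_mem K₀ ht⟩

@[simp]
theorem coe_gen (K₀ : IntermediateField ℚ L) {T : Set Ω} {t : Ω} (ht : t ∈ T) :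
    ((gen K₀ ht : ↥(genField K₀ T)) : Ω) = t :=
  rfl

end Fermat.Agent.S18.Model
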