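import Fermat.Agent.S18.Basic
import Fermat.Agent.S18.ModelDefs
import Fermat.Agent.S24.Places

/-!
P11 (S18) — `UnramConv.lean` (B2-CONV): from "unramified at the level of places of `Ω / L`"
to the elementwise predicate `UnramAway K x C` for a subfield `𝔽 ⊆ Ω` over a subfield `K ⊆ L`.

* `UnramConv.isIntegral_of_forall_ord_nonneg` : `z ∈ Ω` is integral over `L[x]` as soon as
  `ord_W z ≥ 0` at all places `W` with `ord_W x ≥ 0`.
* `UnramConv.unramAway_of_ord_eq_one` : the abstract conversion.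
* `unramAway_gen`, `unramAway_gen_inv` : the two statements for the carriers of `ModelDefs`.
-/

set_option autoImplicit false

namespace Fermat.Agent.S18

open AlgebraicCurve IntermediateField Polynomial IsDedekindDomain
open Fermat.Agent.S24

namespace UnramConv

/-! ### Transfer of integrality along ring homomorphisms with comparable ranges -/

/-- If the range of `g` is contained in the range of `f`, integrality with respect to `g`
implies integrality with respect to `f`. -/
theorem isIntegralElem_of_range_le {R S A : Type*} [CommRing R] [CommRing S] [CommRing A]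
    (f : R →+* A) (g : S →+* A) (h : ∀ s : S, ∃ r : R, f r = g s) {y : A}
    (hy : g.IsIntegralElem y) : f.IsIntegralElem y := by
  obtain ⟨q, hqm, hq⟩ := hy
  have hl : q.map g ∈ lifts f := by
    rw [lifts_iff_coeff_lifts]
    intro n
    rw [coeff_map]
    obtain ⟨r, hr⟩ := h (q.coeff n)
    exact ⟨r, hr⟩
  obtain ⟨q', hq', -, hq'm⟩ := lifts_and_natDegree_eq_and_monic hl (hqm.map g)
  refine ⟨q', hq'm, ?_⟩
  rw [← eval_map, hq', eval_map]
  exact hq

/-! ### Local computations at a place -/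

section Local

variable {L Ω : Type*} [Field L] [Field Ω] [Algebra L Ω]

theorem aeval_mem (W : Place L Ω) {X : Ω} (hX : X ∈ W.toValuationSubring) (q : L[X]) :
    aeval X q ∈ W.toValuationSubring := by
  induction q using Polynomial.induction_on' with
  | add p q hp hq => rw [map_add]; exact add_mem hp hq
  | monomial n a =>
    rw [aeval_monomial]
    exact mul_mem (W.algebraMap_mem' a) (pow_mem hX n)

theorem mem_of_ord_sub_pos (W : Place L Ω) {X : Ω} {a : L}
    (ha : 0 < W.ord (X - algebraMap L Ω a)) : X ∈ W.toValuationSubring := by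
  have hne : X - algebraMap L Ω a ≠ 0 := by
    intro h
    rw [h, W.ord_zero] at ha
    exact lt_irrefl _ ha
  have h1 : X - algebraMap L Ω a ∈ W.toValuationSubring :=
    (PlacesBasic.mem_iff_ord_nonneg W hne).2 ha.le
  have h2 := add_mem h1 (W.algebraMap_mem' a)
  rwa [sub_add_cancel] at h2

/-- If `x ≡ a` at `W` and `q(a) ≠ 0`, then `q(x)` is a unit at `W`. -/
theorem ord_aeval_eq_zero (W : Place L Ω) {X : Ω} {a : L}
    (ha : 0 < W.ord (X - algebraMap L Ω a)) (q : L[X]) (hq : q.eval a ≠ 0) :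
    aeval X q ≠ 0 ∧ W.ord (aeval X q) = 0 := by
  have hXmem := mem_of_ord_sub_pos W ha
  have hne : X - algebraMap L Ω a ≠ 0 := by
    intro h
    rw [h, W.ord_zero] at ha
    exact lt_irrefl _ ha
  obtain ⟨q', hq'⟩ := X_sub_C_dvd_sub_C_eval (p := q) (a := a)
  have hexp : aeval X q = algebraMap L Ω (q.eval a) + (X - algebraMap L Ω a) * aeval X q' := by
    have := congrArg (aeval X) hq'
    rw [map_sub, aeval_C, map_mul, map_sub, aeval_X, aeval_C] at this
    rw [← this]; ring
  have hc : algebraMap L Ω (q.eval a) ≠ 0 := by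
    rw [Ne, map_eq_zero]; exact hq
  have hc0 : W.ord (algebraMap L Ω (q.eval a)) = 0 := PlacesBasic.ord_algebraMap W _
  by_cases hs : aeval X q' = 0
  · rw [hexp, hs, mul_zero, add_zero]
    exact ⟨hc, hc0⟩
  · have hs' : (X - algebraMap L Ω a) * aeval X q' ≠ 0 := mul_ne_zero hne hs
    have hq'0 : 0 ≤ W.ord (aeval X q') :=
      (PlacesBasic.mem_iff_ord_nonneg W hs).1 (aeval_mem W hXmem q')
    have hspos : 0 < W.ord ((X - algebraMap L Ω a) * aeval X q') := by
      rw [W.ord_mul hne hs]; omega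
    have hmin := PlacesBasic.ord_add_eq_min W hc hs' (by rw [hc0]; omega)
    rw [hc0, min_eq_left hspos.le] at hmin
    refine ⟨?_, by rw [hexp]; exact hmin⟩
    rw [hexp]
    intro h0
    have : (X - algebraMap L Ω a) * aeval X q' = -algebraMap L Ω (q.eval a) := by
      rw [eq_neg_iff_add_eq_zero, add_comm]; exact h0
    rw [this, PlacesBasic.ord_neg, hc0] at hspos
    exact lt_irrefl _ hspos

/-- A simple root splits off with a cofactor not vanishing at the root. -/
theorem exists_factor_of_simple_root (Q : L[X]) (a : L) (h0 : Q.eval a = 0)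
    (h1 : (derivative Q).eval a ≠ 0) :
    ∃ V : L[X], Q = (X - C a) * V ∧ V.eval a ≠ 0 := by
  obtain ⟨V, hV⟩ := dvd_iff_isRoot.2 h0
  refine ⟨V, hV, fun hVa => h1 ?_⟩
  rw [hV, derivative_mul, eval_add, eval_mul, eval_mul, hVa, eval_sub, eval_X, eval_C]
  simp

variable [IsAlgClosed L]

/-- The value of a separable polynomial at `x` has order `0` or `1` at every place where `x`
is regular, provided `x - a` is a uniformiser at the places over the roots `a`. -/
theorem ord_aeval_le_one {X : Ω} (hX : Transcendental L X) [FiniteDimensional L⟮X⟯ Ω]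
    (W : Place L Ω) (hW : 0 ≤ W.ord X) (pL : L[X]) (hsep : pL.Separable)
    (hram : ∀ a : L, pL.eval a = 0 → 0 < W.ord (X - algebraMap L Ω a) →
      W.ord (X - algebraMap L Ω a) = 1) :
    aeval X pL ≠ 0 ∧ 0 ≤ W.ord (aeval X pL) ∧ W.ord (aeval X pL) ≤ 1 := by
  obtain ⟨a, h | h⟩ := PlacesDeg.exists_sub_mem_maximal hX W hW
  · exact absurd (h ▸ isAlgebraic_algebraMap a) hX
  have hne : X - algebraMap L Ω a ≠ 0 := by
    intro h0
    rw [h0, W.ord_zero] at h
    exact lt_irrefl _ h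
  by_cases hroot : pL.eval a = 0
  · have hder : (derivative pL).eval a ≠ 0 := by
      have := hsep.eval₂_derivative_ne_zero (RingHom.id L) (x := a) (by rwa [eval₂_id])
      rwa [eval₂_id] at this
    obtain ⟨V, hV, hVa⟩ := exists_factor_of_simple_root pL a hroot hder
    obtain ⟨hV0, hVord⟩ := ord_aeval_eq_zero W h V hVa
    have hexp : aeval X pL = (X - algebraMap L Ω a) * aeval X V := by
      have := congrArg (aeval X) hV
      rwa [map_mul, map_sub, aeval_X, aeval_C] at this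
    have h1 := hram a hroot h
    rw [hexp, W.ord_mul hne hV0, hVord, h1]
    exact ⟨mul_ne_zero hne hV0, by norm_num, by norm_num⟩
  · obtain ⟨h0, hord⟩ := ord_aeval_eq_zero W h pL hroot
    rw [hord]
    exact ⟨h0, le_refl _, by norm_num⟩

variable [CharZero L]

omit [IsAlgClosed L] in
/-- An element with nonnegative order at all places where `x` is regular is integral over
`L[x]`. -/
theorem isIntegral_of_forall_ord_nonneg {X : Ω} (hX : Transcendental L X)
    [FiniteDimensional L⟮X⟯ Ω] (y : Ω)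
    (hy : ∀ W : Place L Ω, 0 ≤ W.ord X → 0 ≤ W.ord y) :
    IsIntegral (Algebra.adjoin L {X}) y := by
  have := PlacesSetup.isDedekindDomain hX
  have := PlacesSetup.isFractionRing (K := L) (F := Ω) (y := X)
  rcases eq_or_ne y 0 with rfl | hy0
  · exact isIntegral_zero
  have hXB : IsIntegral (Algebra.adjoin L {X}) X :=
    isIntegral_algebraMap (x := PlacesSetup.gen L X)
  have h : ∀ v : HeightOneSpectrum (integralClosure (Algebra.adjoin L {X}) Ω),
      v.valuation Ω y ≤ 1 := by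
    intro v
    have h0 : 0 ≤ (Place.ofHeightOneSpectrum (K := L) v).ord X :=
      PlacesHOS.ord_algebraMap_nonneg (K := L) v
        (⟨X, hXB⟩ : integralClosure (Algebra.adjoin L {X}) Ω)
    have h1 := hy _ h0
    rw [PlacesHOS.ord_ofHeightOneSpectrum v hy0] at h1
    have hne : v.valuation Ω y ≠ 0 := (Valuation.ne_zero_iff _).2 hy0
    have h2 : WithZero.log (v.valuation Ω y) ≤ 0 := by omega
    rwa [WithZero.log_le_iff_le_exp hne, WithZero.exp_zero] at h2
  obtain ⟨b, hb⟩ := HeightOneSpectrum.mem_integers_of_valuation_le_one Ω y h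
  rw [← hb]
  exact b.2

/-- The heart of the conversion, over `L`. -/
theorem isIntegral_div_of_sq {X : Ω} (hX : Transcendental L X) [FiniteDimensional L⟮X⟯ Ω]
    (pL : L[X]) (hsep : pL.Separable)
    (hram : ∀ a : L, pL.eval a = 0 → ∀ W : Place L Ω, 0 < W.ord (X - algebraMap L Ω a) →
      W.ord (X - algebraMap L Ω a) = 1)
    (Z : Ω) (hZ : IsIntegral (Algebra.adjoin L {X}) Z)
    (hZ2 : IsIntegral (Algebra.adjoin L {X}) (Z ^ 2 / aeval X pL)) :
    IsIntegral (Algebra.adjoin L {X}) (Z / aeval X pL) := by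
  refine isIntegral_of_forall_ord_nonneg hX _ fun W hW => ?_
  rcases eq_or_ne Z 0 with rfl | hZ0
  · rw [zero_div, W.ord_zero]
  obtain ⟨hP0, hP1, hP2⟩ := ord_aeval_le_one hX W hW pL hsep (fun a ha => hram a ha W)
  have hXmem : X ∈ W.toValuationSubring := by
    rcases eq_or_ne X 0 with rfl | hX0
    · exact zero_mem _
    · exact (PlacesBasic.mem_iff_ord_nonneg W hX0).2 hW
  have h1 : Z ∈ W.toValuationSubring :=
    PlacesSetup.coe_mem_of_mem W hXmem (⟨Z, hZ⟩ : integralClosure (Algebra.adjoin L {X}) Ω)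
  have h2 : Z ^ 2 / aeval X pL ∈ W.toValuationSubring :=
    PlacesSetup.coe_mem_of_mem W hXmem
      (⟨Z ^ 2 / aeval X pL, hZ2⟩ : integralClosure (Algebra.adjoin L {X}) Ω)
  have hPi : (aeval X pL)⁻¹ ≠ 0 := inv_ne_zero hP0
  have h1' : 0 ≤ W.ord Z := (PlacesBasic.mem_iff_ord_nonneg W hZ0).1 h1
  have h2' : 0 ≤ W.ord (Z ^ 2 / aeval X pL) :=
    (PlacesBasic.mem_iff_ord_nonneg W (div_ne_zero (pow_ne_zero 2 hZ0) hP0)).1 h2
  rw [div_eq_mul_inv, W.ord_mul (pow_ne_zero 2 hZ0) hPi, W.ord_inv, pow_two,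
    W.ord_mul hZ0 hZ0] at h2'
  rw [div_eq_mul_inv, W.ord_mul hZ0 hPi, W.ord_inv]
  omega

end Local

/-! ### The abstract conversion -/

section Abstract

variable {K L 𝔽 Ω : Type*} [Field K] [Field L] [Field 𝔽] [Field Ω] [Algebra K L] [Algebra L Ω]
  [Algebra K 𝔽] [Algebra 𝔽 Ω] [Algebra K Ω] [IsScalarTower K L Ω] [IsScalarTower K 𝔽 Ω]

/-- The image of `K[x] ⊆ 𝔽` lies in `L[x] ⊆ Ω`. -/
theorem algebraMap_mem_adjoin (x a : 𝔽) (ha : a ∈ Algebra.adjoin K {x}) :
    algebraMap 𝔽 Ω a ∈ Algebra.adjoin L {algebraMap 𝔽 Ω x} := by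
  obtain ⟨q, rfl⟩ := Algebra.adjoin_mem_exists_aeval K x ha
  rw [← aeval_algebraMap_apply, ← aeval_map_algebraMap L]
  exact aeval_mem_adjoin_singleton L _

omit [Algebra K L] [Algebra L Ω] [IsScalarTower K L Ω] in
/-- Every element of `K[x] ⊆ Ω` comes from `K[x] ⊆ 𝔽`. -/
theorem exists_algebraMap_eq_of_mem_adjoin (x : 𝔽) (b : Ω)
    (hb : b ∈ Algebra.adjoin K {algebraMap 𝔽 Ω x}) :
    ∃ a ∈ Algebra.adjoin K {x}, algebraMap 𝔽 Ω a = b := by
  obtain ⟨q, rfl⟩ := Algebra.adjoin_mem_exists_aeval K _ hb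
  exact ⟨aeval x q, aeval_mem_adjoin_singleton K x, (aeval_algebraMap_apply Ω x q).symm⟩

omit [Algebra K 𝔽] [Algebra 𝔽 Ω] [IsScalarTower K 𝔽 Ω] in
/-- `L[X]` is integral over `K[X]` when `L / K` is algebraic; hence integrality over `L[X]`
implies integrality over `K[X]`. -/
theorem isIntegral_adjoin_of_isAlgebraic [Algebra.IsAlgebraic K L] (X y : Ω)
    (hy : IsIntegral (Algebra.adjoin L {X}) y) : IsIntegral (Algebra.adjoin K {X}) y := by
  have hB : ∀ b ∈ Algebra.adjoin L {X}, IsIntegral (Algebra.adjoin K {X}) b := by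
    intro b hb
    induction hb using Algebra.adjoin_induction with
    | mem z hz =>
      rw [Set.mem_singleton_iff] at hz
      subst hz
      exact isIntegral_algebraMap (x := (⟨z, Algebra.self_mem_adjoin_singleton K z⟩ :
        Algebra.adjoin K {z}))
    | algebraMap l =>
      have h1 : IsIntegral K l := Algebra.IsIntegral.isIntegral l
      have h2 : IsIntegral K (algebraMap L Ω l) := h1.map (IsScalarTower.toAlgHom K L Ω)
      exact h2.tower_top
    | add u v _ _ hu hv => exact hu.add hv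
    | mul u v _ _ hu hv => exact hu.mul hv
  have h1 : (algebraMap (integralClosure (Algebra.adjoin K {X}) Ω) Ω).IsIntegralElem y := by
    refine isIntegralElem_of_range_le _ (algebraMap (Algebra.adjoin L {X}) Ω) (fun s => ?_) hy
    exact ⟨⟨(s : Ω), hB s s.2⟩, rfl⟩
  have h2 : y ∈ integralClosure (integralClosure (Algebra.adjoin K {X}) Ω) Ω := h1
  rw [integralClosure_idem, Algebra.mem_bot] at h2
  obtain ⟨b, rfl⟩ := h2
  exact b.2

/-- **B2-CONV, abstract form.**  `K ⊆ L` algebraic, `L` algebraically closed of characteristic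
zero, `𝔽 ⊆ Ω` a `K`-subfield containing `x`, `Ω / L(x)` finite.  If `x - a` is a uniformiser
at every place of `Ω / L` over a point `a ∈ L` outside the image of `C`, then
`UnramAway K x C` holds in `𝔽`. -/
theorem unramAway_of_ord_eq_one [IsAlgClosed L] [CharZero L] [Algebra.IsAlgebraic K L]
    (x : 𝔽) (hx : Transcendental L (algebraMap 𝔽 Ω x))
    [FiniteDimensional L⟮algebraMap 𝔽 Ω x⟯ Ω] (C : Set K)
    (hram : ∀ a : L, a ∉ algebraMap K L '' C → ∀ W : Place L Ω,
      0 < W.ord (algebraMap 𝔽 Ω x - algebraMap L Ω a) →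
      W.ord (algebraMap 𝔽 Ω x - algebraMap L Ω a) = 1) :
    UnramAway K x C := by
  intro p hp hC z hz hz2
  have hK0 : CharZero K := (algebraMap K L).charZero
  have hsep : (p.map (algebraMap K L)).Separable := (hp.separable).map
  have haev : algebraMap 𝔽 Ω (aeval x p) = aeval (algebraMap 𝔽 Ω x) (p.map (algebraMap K L)) := by
    rw [aeval_map_algebraMap, aeval_algebraMap_apply]
  -- the composite `K[x] → 𝔽 → Ω`
  have up : ∀ y : 𝔽, IsIntegral (Algebra.adjoin K {x}) y →
      IsIntegral (Algebra.adjoin L {algebraMap 𝔽 Ω x}) (algebraMap 𝔽 Ω y) := by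
    intro y hy
    refine isIntegralElem_of_range_le _
      ((algebraMap 𝔽 Ω).comp (algebraMap (Algebra.adjoin K {x}) 𝔽)) (fun s => ?_) ?_
    · exact ⟨⟨_, algebraMap_mem_adjoin (L := L) x s s.2⟩, rfl⟩
    · obtain ⟨q, hqm, hq⟩ := hy
      refine ⟨q, hqm, ?_⟩
      rw [← hom_eval₂, hq, map_zero]
  have hZ := up z hz
  have hZ2 := up _ hz2
  rw [map_div₀, map_pow, haev] at hZ2
  have hroots : ∀ a : L, (p.map (algebraMap K L)).eval a = 0 → ∀ W : Place L Ω,
      0 < W.ord (algebraMap 𝔽 Ω x - algebraMap L Ω a) →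
      W.ord (algebraMap 𝔽 Ω x - algebraMap L Ω a) = 1 := by
    intro a ha
    refine hram a ?_
    rintro ⟨c, hcC, rfl⟩
    apply hC c hcC
    rw [eval_map, eval₂_at_apply] at ha
    exact (map_eq_zero (algebraMap K L)).1 ha
  have key := isIntegral_div_of_sq hx _ hsep hroots (algebraMap 𝔽 Ω z) hZ hZ2
  have hdown := isIntegral_adjoin_of_isAlgebraic (K := K) _ _ key
  rw [← haev, ← map_div₀] at hdown
  have h2 : ((algebraMap 𝔽 Ω).comp (algebraMap (Algebra.adjoin K {x}) 𝔽)).IsIntegralElem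
      (algebraMap 𝔽 Ω (z / aeval x p)) := by
    refine isIntegralElem_of_range_le _ (algebraMap (Algebra.adjoin K {algebraMap 𝔽 Ω x}) Ω)
      (fun s => ?_) hdown
    obtain ⟨a, ha, hab⟩ := exists_algebraMap_eq_of_mem_adjoin (K := K) x (s : Ω) s.2
    exact ⟨⟨a, ha⟩, hab⟩
  obtain ⟨q, hqm, hq⟩ := h2
  refine ⟨q, hqm, (algebraMap 𝔽 Ω).injective ?_⟩
  rw [hom_eval₂, map_zero]
  exact hq

end Abstract

/-! ### The coordinate `1/x` -/

section Inv

variable {L Ω : Type*} [Field L] [Field Ω] [Algebra L Ω]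

/-- If `x - a` is a uniformiser over every point `a ∉ S`, then `x⁻¹ - a` is a uniformiser over
every point `a ∉ S'`, as soon as `0 ∈ S'` and `S'` contains the inverses of the nonzero
elements of `S`. -/
theorem ord_inv_sub_eq_one (x : Ω) (S S' : Set L) (h0 : (0 : L) ∈ S')
    (hinv : ∀ c ∈ S, c ≠ 0 → c⁻¹ ∈ S')
    (hram : ∀ a : L, a ∉ S → ∀ W : Place L Ω, 0 < W.ord (x - algebraMap L Ω a) →
      W.ord (x - algebraMap L Ω a) = 1) :
    ∀ a : L, a ∉ S' → ∀ W : Place L Ω, 0 < W.ord (x⁻¹ - algebraMap L Ω a) →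
      W.ord (x⁻¹ - algebraMap L Ω a) = 1 := by
  intro a ha W hW
  have ha0 : a ≠ 0 := fun h => ha (h ▸ h0)
  have haS : a⁻¹ ∉ S := fun h => ha (by simpa using hinv _ h (inv_ne_zero ha0))
  have haΩ : algebraMap L Ω a ≠ 0 := by rw [Ne, map_eq_zero]; exact ha0
  have hconst : W.ord (algebraMap L Ω a) = 0 := PlacesBasic.ord_algebraMap W a
  have hx0 : x ≠ 0 := by
    rintro rfl
    rw [inv_zero, zero_sub, PlacesBasic.ord_neg, hconst] at hW
    exact lt_irrefl _ hW
  have hxi : x⁻¹ ≠ 0 := inv_ne_zero hx0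
  -- `ord x = 0`
  have hordx : W.ord x = 0 := by
    by_contra hne
    have hne' : W.ord x⁻¹ ≠ W.ord (-algebraMap L Ω a) := by
      rw [W.ord_inv, PlacesBasic.ord_neg, hconst]; omega
    have hmin := PlacesBasic.ord_add_eq_min W hxi (neg_ne_zero.2 haΩ) hne'
    rw [← sub_eq_add_neg, W.ord_inv, PlacesBasic.ord_neg, hconst] at hmin
    rw [hmin] at hW
    have : min (-W.ord x) 0 ≤ 0 := min_le_right _ _
    omega
  have hfac : x⁻¹ - algebraMap L Ω a =
      -algebraMap L Ω a * x⁻¹ * (x - algebraMap L Ω a⁻¹) := by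
    rw [map_inv₀]
    field_simp
    ring
  have hsub : x - algebraMap L Ω a⁻¹ ≠ 0 := by
    intro h
    rw [hfac, h, mul_zero, W.ord_zero] at hW
    exact lt_irrefl _ hW
  have hord : W.ord (x⁻¹ - algebraMap L Ω a) = W.ord (x - algebraMap L Ω a⁻¹) := by
    rw [hfac, W.ord_mul (mul_ne_zero (neg_ne_zero.2 haΩ) hxi) hsub,
      W.ord_mul (neg_ne_zero.2 haΩ) hxi, PlacesBasic.ord_neg, hconst, W.ord_inv, hordx]
    ring
  rw [hord] at hW ⊢
  exact hram a⁻¹ haS W hW

end Inv

end UnramConv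

/-! ### The statements for the carriers of `ModelDefs` -/

section Model

open Model

variable {L Ω : Type*} [Field L] [Algebra ℚ L] [Field Ω] [Algebra L Ω]
  [IsAlgClosed L] [CharZero L] [Algebra.IsAlgebraic ℚ L]

instance UnramConv.isScalarTower_constField_genField (K₀ : IntermediateField ℚ L) (T : Set Ω) :
    IsScalarTower ↥(constField K₀ T) ↥(genField K₀ T) Ω :=
  IsScalarTower.of_algebraMap_eq fun _ => rfl

/-- **B2-CONV (i).**  If `x - a` is a uniformiser at every place of `Ω / L` over a point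
`a ∉ cusps`, then the integral closure of `K[x]` in `genField K₀ T` (`K = constField K₀ T`) is
unramified away from any `C ⊆ K` covering `cusps`. -/
theorem unramAway_gen (K₀ : IntermediateField ℚ L) (T : Set Ω) {x : Ω} (hxT : x ∈ T)
    (hx : Transcendental L x) [FiniteDimensional L⟮x⟯ Ω] (cusps : Set L)
    (hram : ∀ a : L, a ∉ cusps → ∀ W : Place L Ω, 0 < W.ord (x - algebraMap L Ω a) →
      W.ord (x - algebraMap L Ω a) = 1)
    (C : Set ↥(constField K₀ T)) (hC : ∀ a ∈ cusps, ∃ c ∈ C, (c : L) = a) :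
    UnramAway ↥(constField K₀ T) (gen K₀ hxT) C := by
  have hx' : Transcendental L (algebraMap ↥(genField K₀ T) Ω (gen K₀ hxT)) := hx
  have hfin : FiniteDimensional L⟮algebraMap ↥(genField K₀ T) Ω (gen K₀ hxT)⟯ Ω :=
    ‹FiniteDimensional L⟮x⟯ Ω›
  refine UnramConv.unramAway_of_ord_eq_one (L := L) (Ω := Ω) (gen K₀ hxT) hx' C ?_
  intro a ha W hW
  refine hram a (fun hcusp => ha ?_) W hW
  obtain ⟨c, hcC, hca⟩ := hC a hcusp
  exact ⟨c, hcC, hca⟩

/-- **B2-CONV (ii).**  The same in the coordinate `x⁻¹`, away from any `C' ⊆ K` containing `0`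
and the inverses of the nonzero elements of `cusps`. -/
theorem unramAway_gen_inv (K₀ : IntermediateField ℚ L) (T : Set Ω) {x : Ω} (hxT : x ∈ T)
    (hx : Transcendental L x) [FiniteDimensional L⟮x⟯ Ω] (cusps : Set L)
    (hram : ∀ a : L, a ∉ cusps → ∀ W : Place L Ω, 0 < W.ord (x - algebraMap L Ω a) →
      W.ord (x - algebraMap L Ω a) = 1)
    (C' : Set ↥(constField K₀ T)) (h0 : (0 : ↥(constField K₀ T)) ∈ C')
    (hC' : ∀ a ∈ cusps, a ≠ 0 → ∃ c ∈ C', (c : L) = a⁻¹) :
    UnramAway ↥(constField K₀ T) (gen K₀ hxT)⁻¹ C' := by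
  have hcoe : algebraMap ↥(genField K₀ T) Ω (gen K₀ hxT)⁻¹ = x⁻¹ := by
    rw [map_inv₀]; rfl
  have hx' : Transcendental L (algebraMap ↥(genField K₀ T) Ω (gen K₀ hxT)⁻¹) := by
    rw [hcoe]; exact transcendental_inv hx
  have hfin : FiniteDimensional L⟮algebraMap ↥(genField K₀ T) Ω (gen K₀ hxT)⁻¹⟯ Ω := by
    rw [hcoe, adjoin_inv]; infer_instance
  refine UnramConv.unramAway_of_ord_eq_one (L := L) (Ω := Ω) (gen K₀ hxT)⁻¹ hx' C' ?_
  rw [hcoe]
  refine UnramConv.ord_inv_sub_eq_one x cusps _ ⟨0, h0, by simp⟩ ?_ hram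
  intro c hc hc0
  obtain ⟨c', hc'C, hc'⟩ := hC' c hc hc0
  exact ⟨c', hc'C, hc'⟩

end Model

end Fermat.Agent.S18
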