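import Fermat.Agent.S18.CoverDefs
import Fermat.Agent.S18.NumField
import Fermat.Agent.S18.RamFF
import Fermat.Agent.S18.UnramConv

/-!
P11 (S18), module ModelCover: the cover / cusp / ramification hypotheses of the abstract model
theorem `model_abs`, for the carriers of `ModelDefs`.

Setting: `Lb = ℚ̄`, `F = F_{Lb}` the function field of `X₀(N)`, `Ω = F(x, w)` a finite extension
with `Ng(x) = j · Dg(x)` (`(Ng, Dg)` a `GoodCover`) and `w ^ p = u`, `p ∣ ord_P u` for all `P`;
`K = constField K₀ T`, `𝔽 = genField K₀ T`, `Λ = A ∩ K`.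

Main result `ModelCover.exists_cover_data`: the hypotheses `hdeg`, `hlead`, `hcop`, `hcov`, `hC`,
`hC'`, `hB2`, `hB2'` of `model_abs`.  Variants: `exists_cover_data_of_ram` (ramification input
abstract) and `exists_cover_data_E` (`Ω = F(x)`, no Kummer generator).
-/

set_option autoImplicit false

namespace Fermat.Agent.S18

open AlgebraicCurve IntermediateField Polynomial
open Fermat.Agent.S24

namespace ModelCover

/-! ### Evaluation of integral polynomials -/

section Eval

variable {Ω : Type*} [Field Ω]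

/-- Evaluation of (the base change of) an integral polynomial in a subfield, computed in the
ambient field. -/
theorem coe_aeval_map_int (S : Subfield Ω) {R : Type*} [CommRing R] [Algebra R ↥S] (y : ↥S)
    (P : ℤ[X]) : ((aeval y (P.map (Int.castRingHom R)) : ↥S) : Ω) = aeval (y : Ω) P := by
  rw [aeval_def, eval₂_map, aeval_def]
  have h := hom_eval₂ P ((algebraMap R ↥S).comp (Int.castRingHom R)) S.subtype y
  have h1 : S.subtype.comp ((algebraMap R ↥S).comp (Int.castRingHom R)) = algebraMap ℤ Ω :=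
    RingHom.ext_int _ _
  rw [h1] at h
  exact h

/-- Evaluation of the base change of an integral polynomial. -/
theorem aeval_map_int {R : Type*} [CommRing R] [Algebra R Ω] (y : Ω) (P : ℤ[X]) :
    aeval y (P.map (Int.castRingHom R)) = aeval y P := by
  rw [aeval_def, eval₂_map, aeval_def]
  have h1 : (algebraMap R Ω).comp (Int.castRingHom R) = algebraMap ℤ Ω := RingHom.ext_int _ _
  rw [h1]

end Eval

/-! ### Lifting finite sets of `ℚ̄` to `Λ` -/

section Lift

variable {A : ValuationSubring (AlgebraicClosure ℚ)}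
  {K : IntermediateField ℚ (AlgebraicClosure ℚ)}

theorem coe_injective_lam :
    Function.Injective (fun c : ↥(NumField.lam A K) => (((c : ↥K) : AlgebraicClosure ℚ))) :=
  fun _ _ h => Subtype.ext (Subtype.ext h)

/-- The elements of `Λ = A ∩ K` lying in a given finite subset of `ℚ̄`. -/
noncomputable def liftFinset (A : ValuationSubring (AlgebraicClosure ℚ))
    (K : IntermediateField ℚ (AlgebraicClosure ℚ)) (s : Finset (AlgebraicClosure ℚ)) :
    Finset ↥(NumField.lam A K) :=
  s.preimage (fun c : ↥(NumField.lam A K) => (((c : ↥K) : AlgebraicClosure ℚ)))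
    (coe_injective_lam.injOn)

theorem mem_liftFinset {s : Finset (AlgebraicClosure ℚ)} {c : ↥(NumField.lam A K)} :
    c ∈ liftFinset A K s ↔ (((c : ↥K) : AlgebraicClosure ℚ)) ∈ s :=
  Finset.mem_preimage

/-- Pairwise unit differences lift. -/
theorem isUnit_sub_of_mem_liftFinset {s : Finset (AlgebraicClosure ℚ)}
    (hunit : ∀ a ∈ s, ∀ b ∈ s, a ≠ b → (a - b)⁻¹ ∈ A) :
    ∀ c ∈ liftFinset A K s, ∀ c' ∈ liftFinset A K s, c ≠ c' → IsUnit (c - c') := by
  intro c hc c' hc' hne
  have hne' : (((c : ↥K) : AlgebraicClosure ℚ)) ≠ (((c' : ↥K) : AlgebraicClosure ℚ)) :=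
    fun h => hne (coe_injective_lam h)
  refine NumField.isUnit_lam_of_inv_mem (x := c - c') ?_ ?_
  · intro h0
    apply hne
    have h1 : c - c' = 0 := Subtype.ext h0
    exact sub_eq_zero.mp h1
  · rw [NumField.mem_lam_iff]
    have h := hunit _ (mem_liftFinset.mp hc) _ (mem_liftFinset.mp hc') hne'
    simpa using h

/-- Every element of `s` lying in `K` and in `A` is the image of an element of the lift. -/
theorem exists_mem_liftFinset {s : Finset (AlgebraicClosure ℚ)} {a : AlgebraicClosure ℚ}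
    (has : a ∈ s) (haK : a ∈ K) (haA : a ∈ A) :
    ∃ c ∈ (algebraMap ↥(NumField.lam A K) ↥K) '' (liftFinset A K s : Set ↥(NumField.lam A K)),
      (c : AlgebraicClosure ℚ) = a := by
  have hmem : (⟨a, haK⟩ : ↥K) ∈ NumField.lam A K := NumField.mem_lam_iff.mpr haA
  refine ⟨⟨a, haK⟩, ⟨⟨⟨a, haK⟩, hmem⟩, ?_, rfl⟩, rfl⟩
  rw [Finset.mem_coe, mem_liftFinset]
  exact has

end Lift

/-! ### The cover data -/

section Main

variable {N : ℕ} [NeZero N] {ℓ : ℕ} [Fact ℓ.Prime] {A : ValuationSubring (AlgebraicClosure ℚ)}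
  {Ω : Type*} [Field Ω] [Algebra (AlgebraicClosure ℚ) Ω]
  [Algebra (FFL (AlgebraicClosure ℚ) N) Ω]
  [IsScalarTower (AlgebraicClosure ℚ) (FFL (AlgebraicClosure ℚ) N) Ω]
  [FiniteDimensional (FFL (AlgebraicClosure ℚ) N) Ω]

omit [Fact ℓ.Prime] in
/-- The integer `m` of a good cover is nonzero. -/
theorem m_ne_zero (cov : GoodCover ℓ A) : cov.m ≠ 0 :=
  fun h0 => cov.hm (h0 ▸ dvd_zero ℓ)

omit [Fact ℓ.Prime] in
/-- Coprimality of the cover polynomials over `ℚ̄`. -/
theorem isCoprime_algClosure (cov : GoodCover ℓ A) :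
    IsCoprime (cov.Ng.map (Int.castRingHom (AlgebraicClosure ℚ)))
      (cov.Dg.map (Int.castRingHom (AlgebraicClosure ℚ))) :=
  (cov.basic (AlgebraicClosure ℚ)
    (isUnit_iff_ne_zero.mpr (Nat.cast_ne_zero.mpr (m_ne_zero cov)))).2.2

/-- The cover and cusp hypotheses of `model_abs` for `𝔽 = genField K₀ T` over
`K = constField K₀ T`, `Λ = A ∩ K`, given that `x - a` is a uniformiser at every place of `Ω`
over a point `a` of the `x`-line outside the cusps. -/
theorem exists_cover_data_of_ram (cov : GoodCover ℓ A) (hA : A.LiesOverPrime ℓ)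
    (K₀ : IntermediateField ℚ (AlgebraicClosure ℚ)) (T : Set Ω) (x : Ω) (hxT : x ∈ T)
    (hK₀ : ∀ a ∈ cov.cusps ∪ cov.cusps', a ∈ K₀)
    (hcov : aeval x (cov.Ng.map (Int.castRingHom (AlgebraicClosure ℚ))) =
      algebraMap (FFL (AlgebraicClosure ℚ) N) Ω (jL (AlgebraicClosure ℚ) N) *
        aeval x (cov.Dg.map (Int.castRingHom (AlgebraicClosure ℚ))))
    (hram : ∀ a : AlgebraicClosure ℚ, a ∉ (cov.cusps : Set (AlgebraicClosure ℚ)) →
      ∀ W : Place (AlgebraicClosure ℚ) Ω,
        0 < W.ord (x - algebraMap (AlgebraicClosure ℚ) Ω a) →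
        W.ord (x - algebraMap (AlgebraicClosure ℚ) Ω a) = 1)
    (ϖ : ↥(NumField.lam A (Model.constField K₀ T)))
    (j : ↥(Model.genField K₀ T))
    (hj : (j : Ω) =
      algebraMap (FFL (AlgebraicClosure ℚ) N) Ω (jL (AlgebraicClosure ℚ) N)) :
    ((cov.Dg.map (Int.castRingHom ↥(NumField.lam A (Model.constField K₀ T)))).natDegree <
        (cov.Ng.map (Int.castRingHom ↥(NumField.lam A (Model.constField K₀ T)))).natDegree) ∧
    IsUnit (cov.Ng.map
        (Int.castRingHom ↥(NumField.lam A (Model.constField K₀ T)))).leadingCoeff ∧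
    IsCoprime
      ((cov.Ng.map (Int.castRingHom ↥(NumField.lam A (Model.constField K₀ T)))).map
        (Ideal.Quotient.mk (Ideal.span {ϖ})))
      ((cov.Dg.map (Int.castRingHom ↥(NumField.lam A (Model.constField K₀ T)))).map
        (Ideal.Quotient.mk (Ideal.span {ϖ}))) ∧
    aeval (Model.gen K₀ hxT)
        (cov.Ng.map (Int.castRingHom ↥(NumField.lam A (Model.constField K₀ T)))) =
      j * aeval (Model.gen K₀ hxT)
        (cov.Dg.map (Int.castRingHom ↥(NumField.lam A (Model.constField K₀ T)))) ∧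
    ∃ C C' : Finset ↥(NumField.lam A (Model.constField K₀ T)),
      (∀ c ∈ C, ∀ c' ∈ C, c ≠ c' → IsUnit (c - c')) ∧
      (∀ c ∈ C', ∀ c' ∈ C', c ≠ c' → IsUnit (c - c')) ∧
      UnramAway ↥(Model.constField K₀ T) (Model.gen K₀ hxT)
        ((algebraMap ↥(NumField.lam A (Model.constField K₀ T)) ↥(Model.constField K₀ T)) ''
          (C : Set ↥(NumField.lam A (Model.constField K₀ T)))) ∧
      UnramAway ↥(Model.constField K₀ T) (Model.gen K₀ hxT)⁻¹
        ((algebraMap ↥(NumField.lam A (Model.constField K₀ T)) ↥(Model.constField K₀ T)) ''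
          (C' : Set ↥(NumField.lam A (Model.constField K₀ T)))) := by
  have : Algebra.IsAlgebraic ℚ (AlgebraicClosure ℚ) := AlgebraicClosure.isAlgebraic ℚ
  have hbasic := cov.basic ↥(NumField.lam A (Model.constField K₀ T))
    (NumField.isUnit_natCast_lam hA cov.hm)
  have hcopL := isCoprime_algClosure cov
  have hx : Transcendental (AlgebraicClosure ℚ) x :=
    RamFF.transcendental_x N _ _ hcopL x hcov
  have hfin : FiniteDimensional (AlgebraicClosure ℚ)⟮x⟯ Ω :=
    RamFF.finiteDimensional_adjoin_x N _ _ hcopL x hcov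
  refine ⟨hbasic.1, hbasic.2.1, ?_, ?_, ?_⟩
  · exact hbasic.2.2.map (Polynomial.mapRingHom (Ideal.Quotient.mk (Ideal.span {ϖ})))
  · apply Subtype.ext
    have h1 := coe_aeval_map_int (Model.genField K₀ T)
      (R := ↥(NumField.lam A (Model.constField K₀ T))) (Model.gen K₀ hxT) cov.Ng
    have h2 := coe_aeval_map_int (Model.genField K₀ T)
      (R := ↥(NumField.lam A (Model.constField K₀ T))) (Model.gen K₀ hxT) cov.Dg
    rw [h1]
    show aeval x cov.Ng = (j : Ω) * _
    rw [h2, hj]
    show aeval x cov.Ng = _ * aeval x cov.Dg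
    rw [← aeval_map_int (R := AlgebraicClosure ℚ) x cov.Ng,
      ← aeval_map_int (R := AlgebraicClosure ℚ) x cov.Dg]
    exact hcov
  · refine ⟨liftFinset A (Model.constField K₀ T) cov.cusps,
      liftFinset A (Model.constField K₀ T) cov.cusps',
      isUnit_sub_of_mem_liftFinset cov.hunit, isUnit_sub_of_mem_liftFinset cov.hunit', ?_, ?_⟩
    · refine unramAway_gen K₀ T hxT hx (cov.cusps : Set (AlgebraicClosure ℚ)) hram _ ?_
      intro a ha
      exact exists_mem_liftFinset (Finset.mem_coe.mp ha)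
        (Model.le_constField K₀ T (hK₀ a (Finset.mem_union_left _ (Finset.mem_coe.mp ha))))
        (cov.hmem a (Finset.mem_coe.mp ha))
    · refine unramAway_gen_inv K₀ T hxT hx (cov.cusps : Set (AlgebraicClosure ℚ)) hram _ ?_ ?_
      · refine ⟨0, ?_, map_zero _⟩
        rw [Finset.mem_coe, mem_liftFinset]
        exact cov.hzero
      · intro a ha ha0
        have ha' : a⁻¹ ∈ cov.cusps' := cov.hinv a (Finset.mem_coe.mp ha) ha0
        exact exists_mem_liftFinset ha'
          (Model.le_constField K₀ T (hK₀ _ (Finset.mem_union_right _ ha')))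
          (cov.hmem' _ ha')

/-- **ModelCover.**  The cover, cusp and ramification hypotheses `hdeg`, `hlead`, `hcop`, `hcov`,
`hC`, `hC'`, `hB2`, `hB2'` of `model_abs` for `𝔽 = genField K₀ T` over `K = constField K₀ T`,
`Λ = A ∩ K`, when `Ω = F(x, w)` with `w ^ p = u`, `p ∣ ord_P u` for all places `P` of `F`. -/
theorem exists_cover_data (cov : GoodCover ℓ A) (hA : A.LiesOverPrime ℓ)
    (K₀ : IntermediateField ℚ (AlgebraicClosure ℚ)) (T : Set Ω) (x w : Ω) (hxT : x ∈ T)
    [FiniteDimensional ℚ ↥(Model.constField K₀ T)]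
    (hK₀ : ∀ a ∈ cov.cusps ∪ cov.cusps', a ∈ K₀)
    (hcov : aeval x (cov.Ng.map (Int.castRingHom (AlgebraicClosure ℚ))) =
      algebraMap (FFL (AlgebraicClosure ℚ) N) Ω (jL (AlgebraicClosure ℚ) N) *
        aeval x (cov.Dg.map (Int.castRingHom (AlgebraicClosure ℚ))))
    (hgen : IntermediateField.adjoin (FFL (AlgebraicClosure ℚ) N) {x, w} = ⊤)
    {p : ℕ} (hp : p.Prime) (u : FFL (AlgebraicClosure ℚ) N) (hu : u ≠ 0)
    (hw : w ^ p = algebraMap (FFL (AlgebraicClosure ℚ) N) Ω u)
    (hdiv : ∀ P : Place (AlgebraicClosure ℚ) (FFL (AlgebraicClosure ℚ) N), (p : ℤ) ∣ P.ord u)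
    (ϖ : ↥(NumField.lam A (Model.constField K₀ T))) (_hϖ : Irreducible ϖ)
    (j : ↥(Model.genField K₀ T))
    (hj : (j : Ω) =
      algebraMap (FFL (AlgebraicClosure ℚ) N) Ω (jL (AlgebraicClosure ℚ) N)) :
    ((cov.Dg.map (Int.castRingHom ↥(NumField.lam A (Model.constField K₀ T)))).natDegree <
        (cov.Ng.map (Int.castRingHom ↥(NumField.lam A (Model.constField K₀ T)))).natDegree) ∧
    IsUnit (cov.Ng.map
        (Int.castRingHom ↥(NumField.lam A (Model.constField K₀ T)))).leadingCoeff ∧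
    IsCoprime
      ((cov.Ng.map (Int.castRingHom ↥(NumField.lam A (Model.constField K₀ T)))).map
        (Ideal.Quotient.mk (Ideal.span {ϖ})))
      ((cov.Dg.map (Int.castRingHom ↥(NumField.lam A (Model.constField K₀ T)))).map
        (Ideal.Quotient.mk (Ideal.span {ϖ}))) ∧
    aeval (Model.gen K₀ hxT)
        (cov.Ng.map (Int.castRingHom ↥(NumField.lam A (Model.constField K₀ T)))) =
      j * aeval (Model.gen K₀ hxT)
        (cov.Dg.map (Int.castRingHom ↥(NumField.lam A (Model.constField K₀ T)))) ∧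
    ∃ C C' : Finset ↥(NumField.lam A (Model.constField K₀ T)),
      (∀ c ∈ C, ∀ c' ∈ C, c ≠ c' → IsUnit (c - c')) ∧
      (∀ c ∈ C', ∀ c' ∈ C', c ≠ c' → IsUnit (c - c')) ∧
      UnramAway ↥(Model.constField K₀ T) (Model.gen K₀ hxT)
        ((algebraMap ↥(NumField.lam A (Model.constField K₀ T)) ↥(Model.constField K₀ T)) ''
          (C : Set ↥(NumField.lam A (Model.constField K₀ T)))) ∧
      UnramAway ↥(Model.constField K₀ T) (Model.gen K₀ hxT)⁻¹
        ((algebraMap ↥(NumField.lam A (Model.constField K₀ T)) ↥(Model.constField K₀ T)) ''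
          (C' : Set ↥(NumField.lam A (Model.constField K₀ T)))) :=
  exists_cover_data_of_ram cov hA K₀ T x hxT hK₀ hcov
    (fun a ha W hW =>
      ram_out_of_factor N _ _ cov.Q₃ cov.Q₂ cov.c₃ cov.c₂ cov.hN cov.hN' x w hcov hgen p hp u
        hu hw hdiv a (fun h0 => ha (Finset.mem_coe.mpr (cov.hcusps a h0))) W hW)
    ϖ j hj

/-- **ModelCover**, the case without Kummer generator: the same statement for `Ω = F(x)`. -/
theorem exists_cover_data_E (cov : GoodCover ℓ A) (hA : A.LiesOverPrime ℓ)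
    (K₀ : IntermediateField ℚ (AlgebraicClosure ℚ)) (T : Set Ω) (x : Ω) (hxT : x ∈ T)
    (hK₀ : ∀ a ∈ cov.cusps ∪ cov.cusps', a ∈ K₀)
    (hcov : aeval x (cov.Ng.map (Int.castRingHom (AlgebraicClosure ℚ))) =
      algebraMap (FFL (AlgebraicClosure ℚ) N) Ω (jL (AlgebraicClosure ℚ) N) *
        aeval x (cov.Dg.map (Int.castRingHom (AlgebraicClosure ℚ))))
    (hgen : IntermediateField.adjoin (FFL (AlgebraicClosure ℚ) N) {x} = ⊤)
    (ϖ : ↥(NumField.lam A (Model.constField K₀ T)))
    (j : ↥(Model.genField K₀ T))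
    (hj : (j : Ω) =
      algebraMap (FFL (AlgebraicClosure ℚ) N) Ω (jL (AlgebraicClosure ℚ) N)) :
    ((cov.Dg.map (Int.castRingHom ↥(NumField.lam A (Model.constField K₀ T)))).natDegree <
        (cov.Ng.map (Int.castRingHom ↥(NumField.lam A (Model.constField K₀ T)))).natDegree) ∧
    IsUnit (cov.Ng.map
        (Int.castRingHom ↥(NumField.lam A (Model.constField K₀ T)))).leadingCoeff ∧
    IsCoprime
      ((cov.Ng.map (Int.castRingHom ↥(NumField.lam A (Model.constField K₀ T)))).map
        (Ideal.Quotient.mk (Ideal.span {ϖ})))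
      ((cov.Dg.map (Int.castRingHom ↥(NumField.lam A (Model.constField K₀ T)))).map
        (Ideal.Quotient.mk (Ideal.span {ϖ}))) ∧
    aeval (Model.gen K₀ hxT)
        (cov.Ng.map (Int.castRingHom ↥(NumField.lam A (Model.constField K₀ T)))) =
      j * aeval (Model.gen K₀ hxT)
        (cov.Dg.map (Int.castRingHom ↥(NumField.lam A (Model.constField K₀ T)))) ∧
    ∃ C C' : Finset ↥(NumField.lam A (Model.constField K₀ T)),
      (∀ c ∈ C, ∀ c' ∈ C, c ≠ c' → IsUnit (c - c')) ∧
      (∀ c ∈ C', ∀ c' ∈ C', c ≠ c' → IsUnit (c - c')) ∧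
      UnramAway ↥(Model.constField K₀ T) (Model.gen K₀ hxT)
        ((algebraMap ↥(NumField.lam A (Model.constField K₀ T)) ↥(Model.constField K₀ T)) ''
          (C : Set ↥(NumField.lam A (Model.constField K₀ T)))) ∧
      UnramAway ↥(Model.constField K₀ T) (Model.gen K₀ hxT)⁻¹
        ((algebraMap ↥(NumField.lam A (Model.constField K₀ T)) ↥(Model.constField K₀ T)) ''
          (C' : Set ↥(NumField.lam A (Model.constField K₀ T)))) :=
  exists_cover_data_of_ram cov hA K₀ T x hxT hK₀ hcov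
    (fun a ha W hW =>
      RamE.ord_sub_eq_one_of_factor N _ _ cov.Q₃ cov.Q₂ cov.c₃ cov.c₂ cov.hN cov.hN' x hcov hgen
        a (fun h0 => ha (Finset.mem_coe.mpr (cov.hcusps a h0))) W hW)
    ϖ j hj

end Main

end ModelCover

end Fermat.Agent.S18
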