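import Mathlib
import Fermat.Agent.S24.Defs

/-!
P11 / S18 — model instantiation, slice (6) (`OmegaField`): construction of the field `Ω`.

Given a field extension `F / L`, `j ∈ F`, a cover `N_g / D_g` (`deg D_g < deg N_g`), an integer
`p > 0` and `u ∈ F`, there is a finite extension `Ω = F(x, w)` of `F` with `N_g(x) = j · D_g(x)`
and `w ^ p = u` (take roots `x₀`, `w₀` in an algebraic closure of `F` and
`Ω := F(x₀, w₀)`).  The statement is given in "continuation" form so that `Ω` is a type variable
for the consumer.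
-/

set_option autoImplicit false

namespace Fermat.Agent.S18

namespace OmegaField

open Polynomial

/-- General form: any statement `core` about all finite extensions `Ω = F(x, w)` with
`N_g(x) = j · D_g(x)` and `w ^ p = u` which ends in `False` gives `False`. -/
theorem false_of_forall_omega_gen {L F : Type} [Field L] [Field F] [Algebra L F] (j : F)
    (NgL DgL : L[X]) (hdeg : DgL.natDegree < NgL.natDegree) (p : ℕ) (hp : 0 < p) (u : F)
    (core : ∀ (Ω : Type) [Field Ω] [Algebra L Ω] [Algebra F Ω] [IsScalarTower L F Ω]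
      [FiniteDimensional F Ω] (x w : Ω), IntermediateField.adjoin F {x, w} = ⊤ →
      aeval x NgL = algebraMap F Ω j * aeval x DgL → w ^ p = algebraMap F Ω u → False) :
    False := by
  classical
  -- a root `x₀` of `N_g - j D_g` in an algebraic closure of `F`
  obtain ⟨P, hP⟩ : ∃ P : F[X], P = NgL.map (algebraMap L F) - C j * DgL.map (algebraMap L F) :=
    ⟨_, rfl⟩
  have hPnat : P.natDegree = NgL.natDegree := by
    have h1 : (NgL.map (algebraMap L F)).natDegree = NgL.natDegree := natDegree_map _
    have h2 : (DgL.map (algebraMap L F)).natDegree = DgL.natDegree := natDegree_map _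
    have h3 : (C j * DgL.map (algebraMap L F)).natDegree < (NgL.map (algebraMap L F)).natDegree :=
      lt_of_le_of_lt (natDegree_C_mul_le _ _) (by rw [h1, h2]; exact hdeg)
    rw [hP, natDegree_sub_eq_left_of_natDegree_lt h3, h1]
  have hPdeg : P.degree ≠ 0 := by
    intro h0
    have h1 : P.natDegree = 0 := natDegree_eq_of_degree_eq_some h0
    omega
  obtain ⟨x₀, hx₀⟩ := IsAlgClosed.exists_aeval_eq_zero (AlgebraicClosure F) P hPdeg
  have hQdeg : (X ^ p - C u : F[X]).degree ≠ 0 := by
    rw [degree_X_pow_sub_C hp]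
    exact_mod_cast hp.ne'
  obtain ⟨w₀, hw₀⟩ := IsAlgClosed.exists_aeval_eq_zero (AlgebraicClosure F) (X ^ p - C u) hQdeg
  have hx₀' : aeval x₀ NgL = algebraMap F (AlgebraicClosure F) j * aeval x₀ DgL := by
    rw [hP, map_sub, map_mul, aeval_C, aeval_map_algebraMap, aeval_map_algebraMap,
      sub_eq_zero] at hx₀
    exact hx₀
  have hw₀' : w₀ ^ p = algebraMap F (AlgebraicClosure F) u := by
    rw [map_sub, map_pow, aeval_X, aeval_C, sub_eq_zero] at hw₀
    exact hw₀
  -- the field `Ω = F(x₀, w₀)`
  have hfin : FiniteDimensional F ↥(IntermediateField.adjoin F ({x₀, w₀} : Set (AlgebraicClosure F))) :=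
    IntermediateField.finiteDimensional_adjoin (fun y _ => Algebra.IsIntegral.isIntegral y)
  have hxmem : x₀ ∈ IntermediateField.adjoin F ({x₀, w₀} : Set (AlgebraicClosure F)) :=
    IntermediateField.subset_adjoin F _ (by simp)
  have hwmem : w₀ ∈ IntermediateField.adjoin F ({x₀, w₀} : Set (AlgebraicClosure F)) :=
    IntermediateField.subset_adjoin F _ (by simp)
  refine core ↥(IntermediateField.adjoin F ({x₀, w₀} : Set (AlgebraicClosure F)))
    ⟨x₀, hxmem⟩ ⟨w₀, hwmem⟩ ?_ ?_ ?_
  · apply IntermediateField.lift_injective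
    rw [IntermediateField.lift_adjoin, IntermediateField.lift_top]
    congr 1
    ext y
    simp only [Set.mem_image, Set.mem_insert_iff, Set.mem_singleton_iff]
    constructor
    · rintro ⟨z, hz | hz, rfl⟩
      · left; rw [hz]
      · right; rw [hz]
    · rintro (rfl | rfl)
      · exact ⟨⟨y, hxmem⟩, Or.inl rfl, rfl⟩
      · exact ⟨⟨y, hwmem⟩, Or.inr rfl, rfl⟩
  · have htower : IsScalarTower L
        ↥(IntermediateField.adjoin F ({x₀, w₀} : Set (AlgebraicClosure F))) (AlgebraicClosure F) :=
      IsScalarTower.of_algebraMap_eq (fun c => rfl)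
    apply (algebraMap ↥(IntermediateField.adjoin F ({x₀, w₀} : Set (AlgebraicClosure F)))
      (AlgebraicClosure F)).injective
    rw [map_mul, ← aeval_algebraMap_apply, ← aeval_algebraMap_apply,
      ← IsScalarTower.algebraMap_apply]
    exact hx₀'
  · apply (algebraMap ↥(IntermediateField.adjoin F ({x₀, w₀} : Set (AlgebraicClosure F)))
      (AlgebraicClosure F)).injective
    rw [map_pow, ← IsScalarTower.algebraMap_apply]
    exact hw₀'

end OmegaField

open Polynomial Fermat.Agent.S24 in
/-- **OmegaField** (slice (6) of the model instantiation), for the function field `F = FFL L N`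
of `X₀(N)` and `j = jL L N`. -/
theorem false_of_forall_omega (N : ℕ) [NeZero N] {L : Type} [Field L] [Algebra ℚ L]
    (NgL DgL : L[X]) (hdeg : DgL.natDegree < NgL.natDegree) (p : ℕ) (hp : 0 < p) (u : FFL L N)
    (core : ∀ (Ω : Type) [Field Ω] [Algebra L Ω] [Algebra (FFL L N) Ω]
      [IsScalarTower L (FFL L N) Ω] [FiniteDimensional (FFL L N) Ω] (x w : Ω),
      IntermediateField.adjoin (FFL L N) {x, w} = ⊤ →
      aeval x NgL = algebraMap (FFL L N) Ω (jL L N) * aeval x DgL →
      w ^ p = algebraMap (FFL L N) Ω u → False) : False :=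
  OmegaField.false_of_forall_omega_gen (jL L N) NgL DgL hdeg p hp u core

end Fermat.Agent.S18
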