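import Fermat.Agent.S18.ModelAbs

/-!
P11 / S18 — Transport (helper16).  Abstract transport of the Gauss data (G2), (G3) from a field
`FK` (in practice `F_N(K) ⊂ K((q))`) to the model field `𝔽` along a `K`-embedding `e : FK → 𝔽`
(in practice `Embed.embed`), and the resulting form of the abstract model theorem.

Everything is stated for abstract fields; nothing about modular functions is used.

* `Transport.map_G2` : `H`, `θ` with `H` monic over `gaussSub π jK`, `H(θ) = 0`, `H'(θ) ≠ 0`,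
  `H'(θ)⁻¹` integral  ⟹  the same for `H.map e`, `e θ` over `gaussSub π (e jK)`.
* `Transport.map_G3` : `u, u⁻¹` integral over `gaussSub π jK`, `u ≡ 1 mod π` ⟹ the same for `e u`.
* `Transport.map_mem_adjoin`, `Transport.forall_pow_ne` : `huF` and `hirr` of `model_abs`.
* `Transport.adjoin_eq_top` : `hgen` of `model_abs`.
* `model_abs_transport` : `model_abs` with all hypotheses on `θ, H, u` stated in `FK`.
-/

set_option autoImplicit false

namespace Fermat.Agent.S18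

open Polynomial IntermediateField

namespace Transport

section Gauss

variable {Λ FK 𝔽 : Type*} [CommRing Λ] [IsDomain Λ] [Field FK] [Field 𝔽] [Algebra Λ FK]
  [Algebra Λ 𝔽] (π : Λ) (hπ : Prime π) (e : FK →+* 𝔽)
  (he : ∀ c : Λ, e (algebraMap Λ FK c) = algebraMap Λ 𝔽 c)

include he in
/-- Transport of (G2). -/
theorem map_G2 (jK θ : FK) (H : FK[X]) (hHm : H.Monic)
    (hHc : ∀ i, H.coeff i ∈ gaussSub π hπ jK) (hHθ : H.eval θ = 0)
    (hHd0 : H.derivative.eval θ ≠ 0)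
    (hHd : IsIntegral (gaussSub π hπ jK) (H.derivative.eval θ)⁻¹) :
    (H.map e).Monic ∧ (∀ i, (H.map e).coeff i ∈ gaussSub π hπ (e jK)) ∧
      (H.map e).eval (e θ) = 0 ∧ (H.map e).derivative.eval (e θ) ≠ 0 ∧
      IsIntegral (gaussSub π hπ (e jK)) ((H.map e).derivative.eval (e θ))⁻¹ := by
  have hder : (H.map e).derivative.eval (e θ) = e (H.derivative.eval θ) := by
    rw [derivative_map, eval_map, eval₂_at_apply]
  refine ⟨hHm.map e, fun i => ?_, ?_, ?_, ?_⟩
  · rw [coeff_map]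
    exact GaussLineK.map_mem_gaussSub' π hπ e he (hHc i)
  · rw [eval_map, eval₂_at_apply, hHθ, map_zero]
  · rw [hder]
    exact fun h0 => hHd0 (e.injective (by rw [h0, map_zero]))
  · rw [hder, ← map_inv₀]
    exact GaussLineK.isIntegral_map_gaussSub' π hπ e he hHd

include he in
/-- Transport of (G3). -/
theorem map_G3 (jK u : FK) (hu : IsIntegral (gaussSub π hπ jK) u)
    (hu' : IsIntegral (gaussSub π hπ jK) u⁻¹)
    (hu1 : ∃ δ : FK, IsIntegral (gaussSub π hπ jK) δ ∧ u - 1 = π • δ) :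
    IsIntegral (gaussSub π hπ (e jK)) (e u) ∧ IsIntegral (gaussSub π hπ (e jK)) (e u)⁻¹ ∧
      ∃ δ : 𝔽, IsIntegral (gaussSub π hπ (e jK)) δ ∧ e u - 1 = π • δ := by
  refine ⟨GaussLineK.isIntegral_map_gaussSub' π hπ e he hu, ?_, ?_⟩
  · rw [← map_inv₀]
    exact GaussLineK.isIntegral_map_gaussSub' π hπ e he hu'
  · obtain ⟨δ, hδ, hδu⟩ := hu1
    refine ⟨e δ, GaussLineK.isIntegral_map_gaussSub' π hπ e he hδ, ?_⟩
    have h1 := congrArg e hδu
    rw [map_sub, map_one, Algebra.smul_def, map_mul, he] at h1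
    rw [h1, Algebra.smul_def]

end Gauss

section Fields

variable {K FK 𝔽 : Type*} [Field K] [Field FK] [Field 𝔽] [Algebra K FK] [Algebra K 𝔽]
  (e : FK →ₐ[K] 𝔽)

/-- `huF`: if `jK, θ` generate `FK` then every `e u` lies in `K(e jK, e θ)`. -/
theorem map_mem_adjoin (jK θ : FK) (hjθ : IntermediateField.adjoin K {jK, θ} = ⊤) (u : FK) :
    e u ∈ IntermediateField.adjoin K {e jK, e θ} := by
  have h1 : IntermediateField.adjoin K {e jK, e θ} =
      (IntermediateField.adjoin K {jK, θ}).map e := by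
    rw [IntermediateField.adjoin_map, Set.image_pair]
  rw [h1, hjθ]
  exact ⟨u, IntermediateField.mem_top, rfl⟩

/-- Every element of `K(e jK, e θ)` comes from `FK`. -/
theorem exists_of_mem_adjoin (jK θ : FK) {v : 𝔽}
    (hv : v ∈ IntermediateField.adjoin K {e jK, e θ}) : ∃ v₀ : FK, e v₀ = v := by
  have h1 : IntermediateField.adjoin K {e jK, e θ} =
      (IntermediateField.adjoin K {jK, θ}).map e := by
    rw [IntermediateField.adjoin_map, Set.image_pair]
  rw [h1] at hv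
  obtain ⟨v₀, -, hv₀⟩ := hv
  exact ⟨v₀, hv₀⟩

/-- `hirr`: `u` is not a `p`-th power in `FK` ⟹ `e u` is not a `p`-th power in `K(e jK, e θ)`. -/
theorem forall_pow_ne (jK θ u : FK) (p : ℕ) (hno : ∀ v : FK, v ^ p ≠ u) :
    ∀ v ∈ IntermediateField.adjoin K {e jK, e θ}, v ^ p ≠ e u := by
  intro v hv hvu
  obtain ⟨v₀, rfl⟩ := exists_of_mem_adjoin e jK θ hv
  rw [← map_pow] at hvu
  exact hno v₀ (e.injective hvu)

/-- Variant of `hno` through a further ring embedding `τ` (e.g. `toFL`). -/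
theorem forall_pow_ne_of_map {F : Type*} [Semiring F] (τ : FK →+* F) (u : FK) (p : ℕ)
    (hno : ∀ v : F, v ^ p ≠ τ u) : ∀ v : FK, v ^ p ≠ u := by
  intro v hv
  exact hno (τ v) (by rw [← map_pow, hv])

/-- `hgen`: `𝔽` is generated over `K` by a set `Tgen ⊆ {x, w} ∪ range e`, `FK = K(jK, θ)` and
`e jK ∈ K(x)`  ⟹  `𝔽 = K(x, e θ, w)`. -/
theorem adjoin_eq_top (jK θ : FK) (hjθ : IntermediateField.adjoin K {jK, θ} = ⊤) (x w : 𝔽)
    (hjx : e jK ∈ K⟮x⟯) (Tgen : Set 𝔽) (hTgen : IntermediateField.adjoin K Tgen = ⊤)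
    (hTsub : ∀ t ∈ Tgen, t = x ∨ t = w ∨ t ∈ Set.range e) :
    IntermediateField.adjoin K {x, e θ, w} = ⊤ := by
  have hxM : x ∈ IntermediateField.adjoin K {x, e θ, w} :=
    IntermediateField.subset_adjoin K _ (by simp)
  have hθM : e θ ∈ IntermediateField.adjoin K {x, e θ, w} :=
    IntermediateField.subset_adjoin K _ (by simp)
  have hwM : w ∈ IntermediateField.adjoin K {x, e θ, w} :=
    IntermediateField.subset_adjoin K _ (by simp)
  have hjM : e jK ∈ IntermediateField.adjoin K {x, e θ, w} := by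
    have hle : K⟮x⟯ ≤ IntermediateField.adjoin K {x, e θ, w} := by
      rw [IntermediateField.adjoin_le_iff]
      rintro s rfl
      exact hxM
    exact hle hjx
  have hrange : ∀ v₀ : FK, e v₀ ∈ IntermediateField.adjoin K {x, e θ, w} := by
    intro v₀
    have h1 : IntermediateField.adjoin K {e jK, e θ} ≤ IntermediateField.adjoin K {x, e θ, w} := by
      rw [IntermediateField.adjoin_le_iff]
      rintro s (rfl | rfl)
      exacts [hjM, hθM]
    exact h1 (map_mem_adjoin e jK θ hjθ v₀)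
  rw [eq_top_iff, ← hTgen, IntermediateField.adjoin_le_iff]
  intro t ht
  rcases hTsub t ht with rfl | rfl | ⟨v₀, rfl⟩
  exacts [hxM, hwM, hrange v₀]

end Fields

end Transport

/-- **The model theorem, transported.**  `model_abs` with the Gauss data (G2), (G3) stated in a
field `FK` which embeds into `𝔽` over `K` by `e`, and `𝔽` generated over `K` by `x`, `w` and
elements of the image of `e`. -/
theorem model_abs_transport {Λ K FK 𝔽 : Type*} [CommRing Λ] [IsDomain Λ]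
    [IsDiscreteValuationRing Λ] [Field K] [CharZero K] [Algebra Λ K] [IsFractionRing Λ K]
    [Field 𝔽] [Algebra K 𝔽] [Algebra Λ 𝔽] [IsScalarTower Λ K 𝔽]
    [Field FK] [Algebra K FK] [Algebra Λ FK] [IsScalarTower Λ K FK]
    (π : Λ) (hπ : Irreducible π)
    (p : ℕ) (hp : p.Prime) (hpu : IsUnit (p : Λ)) (ζ : Λ) (hζ : IsPrimitiveRoot ζ p)
    (Ng Dg : Λ[X]) (hdeg : Dg.natDegree < Ng.natDegree) (hlead : IsUnit Ng.leadingCoeff)
    (hcop : IsCoprime (Ng.map (Ideal.Quotient.mk (Ideal.span {π})))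
      (Dg.map (Ideal.Quotient.mk (Ideal.span {π}))))
    (C C' : Finset Λ) (hC : ∀ c ∈ C, ∀ c' ∈ C, c ≠ c' → IsUnit (c - c'))
    (hC' : ∀ c ∈ C', ∀ c' ∈ C', c ≠ c' → IsUnit (c - c'))
    (e : FK →ₐ[K] 𝔽) (jK θ u : FK) (H : FK[X]) (x w : 𝔽)
    (hx : Transcendental K x) [FiniteDimensional K⟮x⟯ 𝔽]
    (hcov : aeval x Ng = e jK * aeval x Dg)
    (hclosed : ∀ y : 𝔽, IsAlgebraic K y → y ∈ (algebraMap K 𝔽).range)
    (Tgen : Set 𝔽) (hTgen : IntermediateField.adjoin K Tgen = ⊤)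
    (hTsub : ∀ t ∈ Tgen, t = x ∨ t = w ∨ t ∈ Set.range e)
    (hjθ : IntermediateField.adjoin K {jK, θ} = ⊤)
    (hno : ∀ v : FK, v ^ p ≠ u)
    (hw : w ^ p = e u)
    (hHm : H.Monic) (hHc : ∀ i, H.coeff i ∈ gaussSub π hπ.prime jK) (hHθ : H.eval θ = 0)
    (hHd0 : H.derivative.eval θ ≠ 0)
    (hHd : IsIntegral (gaussSub π hπ.prime jK) (H.derivative.eval θ)⁻¹)
    (hu : IsIntegral (gaussSub π hπ.prime jK) u) (hu' : IsIntegral (gaussSub π hπ.prime jK) u⁻¹)
    (hu1 : ∃ δ : FK, IsIntegral (gaussSub π hπ.prime jK) δ ∧ u - 1 = π • δ)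
    (hB2 : UnramAway K x ((algebraMap Λ K) '' (C : Set Λ)))
    (hB2' : UnramAway K x⁻¹ ((algebraMap Λ K) '' (C' : Set Λ))) : False := by
  have he : ∀ c : Λ, (e : FK →+* 𝔽) (algebraMap Λ FK c) = algebraMap Λ 𝔽 c := by
    intro c
    rw [IsScalarTower.algebraMap_apply Λ K FK, IsScalarTower.algebraMap_apply Λ K 𝔽]
    exact e.commutes _
  obtain ⟨hHm', hHc', hHθ', hHd0', hHd'⟩ :=
    Transport.map_G2 π hπ.prime (e : FK →+* 𝔽) he jK θ H hHm hHc hHθ hHd0 hHd
  obtain ⟨hu₁, hu₂, hu₃⟩ := Transport.map_G3 π hπ.prime (e : FK →+* 𝔽) he jK u hu hu' hu1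
  obtain ⟨-, hjx⟩ := ModelAbs.cover_facts Ng Dg hdeg hlead x (e jK) hx hcov
  exact model_abs π hπ p hp hpu ζ hζ Ng Dg hdeg hlead hcop C C' hC hC' (e jK) x w (e u) (e θ)
    (H.map (e : FK →+* 𝔽)) hx hcov hclosed
    (Transport.adjoin_eq_top e jK θ hjθ x w hjx Tgen hTgen hTsub)
    (Transport.map_mem_adjoin e jK θ hjθ u)
    (Transport.forall_pow_ne e jK θ u p hno) hw hHm' hHc' hHθ' hHd' hHd0' hu₁ hu₂ hu₃ hB2 hB2'

end Fermat.Agent.S18
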