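import Fermat.Agent.S18.ConstField
import Fermat.Agent.S18.RamFF
import Fermat.Agent.S18.NumField
import Fermat.Agent.S18.CoverDefs
import Fermat.Agent.S18.Descent
import Fermat.Agent.S18.Embed
import Fermat.Agent.S18.GaussOut
import Fermat.Agent.S18.ModelCover
import Fermat.Agent.S18.Transport
import Fermat.Agent.S18.OmegaField

/-!
P11 / S18 — ModelInst: the model instantiation (assembly).

Let `ℓ` be a prime not dividing `N`, `A ⊂ ℚ̄` a valuation ring over `ℓ`, `p ≠ ℓ` a prime and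
`cov` a good cover of the `j`-line (`CoverDefs`, `CoverInst`).  Let `Y₁, Y₂ ∈ A((q))` lie in
`F = ℚ̄ · F_N` with the same nonzero reduction, such that all orders of `u = Y₁ / Y₂` at the
places of `F` are divisible by `p`.  Then `u` is a `p`-th power in `F` (`false_of_cover`, stated
as: assuming the contrary leads to `False`).

Proof (assembly only): `OmegaField` provides `Ω = F(x, w)` with `N_g(x) = j · D_g(x)` and
`w ^ p = u`; `Descent` and `NumField` provide a number field `K₀` over which everything is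
defined; `ConstField` the constant field `K` of `𝔽 = K₀(x, w, j_d)`, `Λ = A ∩ K`;
`GaussOut` the Gauss data (G2), (G3) over `K`; `Embed` the embedding `F_K → 𝔽`; `ModelCover` the
cover and ramification data; finally `Transport.model_abs_transport` (the abstract model
theorem `ModelAbs`) gives the contradiction.
-/

set_option autoImplicit false

open ModularCurve AlgebraicCurve Polynomial IntermediateField
open Fermat.Agent.S24

noncomputable section

namespace Fermat.Agent.S18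

open Model

namespace ModelInst

section Aux

variable {A : ValuationSubring (AlgebraicClosure ℚ)}

/-- compatibility of the two routes `Λ_K((q)) → ℚ̄((q))`. -/
theorem coeffMap_algebraMap_subtype (K : IntermediateField ℚ (AlgebraicClosure ℚ))
    (Y' : LaurentSeries ↥(NumField.lam A K)) :
    coeffMap (algebraMap ↥K (AlgebraicClosure ℚ)) (coeffMap (NumField.lam A K).subtype Y') =
      coeffMap A.subtype (coeffMap (NumField.lamIncl A K) Y') := by
  ext n
  rfl

variable (N : ℕ) [NeZero N]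

/-- The quotient `u = y₁ / y₂ ∈ F_L` is the image of the quotient of the descended series. -/
theorem toFL_div (K : IntermediateField ℚ (AlgebraicClosure ℚ))
    (Y₁ Y₂ : LaurentSeries A)
    (h₁ : coeffMap A.subtype Y₁ ∈
      laurentBaseChange (AlgebraicClosure ℚ) (modularFunctionFieldFull N))
    (h₂ : coeffMap A.subtype Y₂ ∈
      laurentBaseChange (AlgebraicClosure ℚ) (modularFunctionFieldFull N))
    (Y₁' Y₂' : LaurentSeries ↥(NumField.lam A K))
    (h₁' : coeffMap (NumField.lam A K).subtype Y₁' ∈ modularFunctionFieldFullC ↥K N)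
    (h₂' : coeffMap (NumField.lam A K).subtype Y₂' ∈ modularFunctionFieldFullC ↥K N)
    (e₁ : coeffMap (NumField.lamIncl A K) Y₁' = Y₁)
    (e₂ : coeffMap (NumField.lamIncl A K) Y₂' = Y₂) :
    Descent.toFL K N ((⟨_, h₁'⟩ : ↥(modularFunctionFieldFullC ↥K N)) / ⟨_, h₂'⟩) =
      (⟨_, h₁⟩ : ↥(laurentBaseChange (AlgebraicClosure ℚ) (modularFunctionFieldFull N))) /
        ⟨_, h₂⟩ := by
  rw [map_div₀]
  congr 1
  · apply Subtype.ext
    rw [Descent.coe_toFL]
    show coeffMap (algebraMap ↥K (AlgebraicClosure ℚ))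
      (coeffMap (NumField.lam A K).subtype Y₁') = coeffMap A.subtype Y₁
    rw [coeffMap_algebraMap_subtype, e₁]
  · apply Subtype.ext
    rw [Descent.coe_toFL]
    show coeffMap (algebraMap ↥K (AlgebraicClosure ℚ))
      (coeffMap (NumField.lam A K).subtype Y₂') = coeffMap A.subtype Y₂
    rw [coeffMap_algebraMap_subtype, e₂]

/-- reductions of the descended series -/
theorem coeffMap_residue_ne_zero (K : IntermediateField ℚ (AlgebraicClosure ℚ))
    (Y : LaurentSeries A) (Y' : LaurentSeries ↥(NumField.lam A K))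
    (e : coeffMap (NumField.lamIncl A K) Y' = Y)
    (hne : coeffMap (IsLocalRing.residue A) Y ≠ 0) :
    coeffMap (IsLocalRing.residue ↥(NumField.lam A K)) Y' ≠ 0 := by
  intro h0
  apply hne
  rw [← e, ← NumField.coeffMap_lamResMap, h0, map_zero]

theorem coeffMap_residue_eq (K : IntermediateField ℚ (AlgebraicClosure ℚ))
    (Y₁ Y₂ : LaurentSeries A) (Y₁' Y₂' : LaurentSeries ↥(NumField.lam A K))
    (e₁ : coeffMap (NumField.lamIncl A K) Y₁' = Y₁)
    (e₂ : coeffMap (NumField.lamIncl A K) Y₂' = Y₂)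
    (heq : coeffMap (IsLocalRing.residue A) Y₁ = coeffMap (IsLocalRing.residue A) Y₂) :
    coeffMap (IsLocalRing.residue ↥(NumField.lam A K)) Y₁' =
      coeffMap (IsLocalRing.residue ↥(NumField.lam A K)) Y₂' := by
  apply NumField.coeffMap_lamResMap_injective A K
  rw [NumField.coeffMap_lamResMap, NumField.coeffMap_lamResMap, e₁, e₂, heq]

end Aux

section Core

variable {N : ℕ} [NeZero N] {ℓ : ℕ} [Fact ℓ.Prime] {A : ValuationSubring (AlgebraicClosure ℚ)}

/-- The cover polynomials over `ℚ̄` are coprime. -/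
theorem isCoprime_cover (cov : GoodCover ℓ A) :
    IsCoprime (cov.Ng.map (Int.castRingHom (AlgebraicClosure ℚ)))
      (cov.Dg.map (Int.castRingHom (AlgebraicClosure ℚ))) := by
  have hm0 : cov.m ≠ 0 := fun h0 => cov.hm (h0 ▸ dvd_zero ℓ)
  exact (cov.basic (AlgebraicClosure ℚ)
    (isUnit_iff_ne_zero.2 (by exact_mod_cast hm0))).2.2

theorem natDegree_cover_lt (cov : GoodCover ℓ A) :
    (cov.Dg.map (Int.castRingHom (AlgebraicClosure ℚ))).natDegree <
      (cov.Ng.map (Int.castRingHom (AlgebraicClosure ℚ))).natDegree := by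
  have hm0 : cov.m ≠ 0 := fun h0 => cov.hm (h0 ▸ dvd_zero ℓ)
  exact (cov.basic (AlgebraicClosure ℚ)
    (isUnit_iff_ne_zero.2 (by exact_mod_cast hm0))).1

set_option synthInstance.maxHeartbeats 400000 in
set_option maxHeartbeats 1600000 in
/-- The core of the model instantiation, for a given `Ω = F_L(x, w)`. -/
theorem false_of_omega (cov : GoodCover ℓ A) (hA : A.LiesOverPrime ℓ) (hℓN : ¬ ℓ ∣ N)
    {p : ℕ} (hp : p.Prime) (hpℓ : p ≠ ℓ) (Y₁ Y₂ : LaurentSeries A)
    (h₁ : coeffMap A.subtype Y₁ ∈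
      laurentBaseChange (AlgebraicClosure ℚ) (modularFunctionFieldFull N))
    (h₂ : coeffMap A.subtype Y₂ ∈
      laurentBaseChange (AlgebraicClosure ℚ) (modularFunctionFieldFull N))
    (hne : coeffMap (IsLocalRing.residue A) Y₁ ≠ 0)
    (heq : coeffMap (IsLocalRing.residue A) Y₁ = coeffMap (IsLocalRing.residue A) Y₂)
    (hord : ∀ P : Place (AlgebraicClosure ℚ)
        (laurentBaseChange (AlgebraicClosure ℚ) (modularFunctionFieldFull N)),
      (p : ℤ) ∣ P.ord ((⟨_, h₁⟩ :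
        laurentBaseChange (AlgebraicClosure ℚ) (modularFunctionFieldFull N)) / ⟨_, h₂⟩))
    (hno : ∀ w : laurentBaseChange (AlgebraicClosure ℚ) (modularFunctionFieldFull N),
      w ^ p ≠ (⟨_, h₁⟩ :
        laurentBaseChange (AlgebraicClosure ℚ) (modularFunctionFieldFull N)) / ⟨_, h₂⟩)
    (Ω : Type) [Field Ω] [Algebra (AlgebraicClosure ℚ) Ω]
    [Algebra (FFL (AlgebraicClosure ℚ) N) Ω]
    [IsScalarTower (AlgebraicClosure ℚ) (FFL (AlgebraicClosure ℚ) N) Ω]
    [FiniteDimensional (FFL (AlgebraicClosure ℚ) N) Ω] (x w : Ω)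
    (hgen : IntermediateField.adjoin (FFL (AlgebraicClosure ℚ) N) {x, w} = ⊤)
    (hcov : aeval x (cov.Ng.map (Int.castRingHom (AlgebraicClosure ℚ))) =
      algebraMap (FFL (AlgebraicClosure ℚ) N) Ω (jL (AlgebraicClosure ℚ) N) *
        aeval x (cov.Dg.map (Int.castRingHom (AlgebraicClosure ℚ))))
    (hw : w ^ p = algebraMap (FFL (AlgebraicClosure ℚ) N) Ω
      ((⟨_, h₁⟩ : laurentBaseChange (AlgebraicClosure ℚ) (modularFunctionFieldFull N)) /
        ⟨_, h₂⟩)) : False := by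
  classical
  -- the number field `K₀`
  obtain ⟨K₁, hK₁fd, hK₁⟩ := Descent.exists_lam A N Y₁ h₁
  obtain ⟨K₂, hK₂fd, hK₂⟩ := Descent.exists_lam A N Y₂ h₂
  obtain ⟨ζ, hζ⟩ : ∃ ζ : AlgebraicClosure ℚ, IsPrimitiveRoot ζ p := by
    haveI : NeZero ((p : ℕ) : AlgebraicClosure ℚ) := ⟨by exact_mod_cast hp.ne_zero⟩
    exact HasEnoughRootsOfUnity.exists_primitiveRoot (AlgebraicClosure ℚ) p
  obtain ⟨K₃, hK₃fd, hK₃⟩ := NumField.exists_finiteDimensional_intermediateField
    ({ζ} ∪ ((cov.cusps ∪ cov.cusps' : Finset (AlgebraicClosure ℚ)) :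
      Set (AlgebraicClosure ℚ)))
    ((Set.finite_singleton ζ).union (Finset.finite_toSet _))
  obtain ⟨K₀, hK₀def⟩ : ∃ K₀ : IntermediateField ℚ (AlgebraicClosure ℚ), K₀ = K₁ ⊔ K₂ ⊔ K₃ :=
    ⟨_, rfl⟩
  have hK₀fd : FiniteDimensional ℚ ↥K₀ := by
    rw [hK₀def]
    have := IntermediateField.finiteDimensional_sup K₁ K₂
    exact IntermediateField.finiteDimensional_sup (K₁ ⊔ K₂) K₃
  have h1K₀ : K₁ ≤ K₀ := by rw [hK₀def]; exact le_sup_left.trans le_sup_left
  have h2K₀ : K₂ ≤ K₀ := by rw [hK₀def]; exact le_sup_right.trans le_sup_left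
  have h3K₀ : K₃ ≤ K₀ := by rw [hK₀def]; exact le_sup_right
  have hζK₀ : ζ ∈ K₀ := h3K₀ (hK₃ (Or.inl rfl))
  have hcuspsK₀ : ∀ a ∈ cov.cusps ∪ cov.cusps', a ∈ K₀ := fun a ha => h3K₀ (hK₃ (Or.inr ha))
  -- `u` over `K₀`
  obtain ⟨Z₁, hZ₁, eZ₁⟩ := hK₁ K₀ h1K₀
  obtain ⟨Z₂, hZ₂, eZ₂⟩ := hK₂ K₀ h2K₀
  have hu₀ := toFL_div N K₀ Y₁ Y₂ h₁ h₂ Z₁ Z₂ hZ₁ hZ₂ eZ₁ eZ₂
  -- the generators and the constant field
  have hx : Transcendental (AlgebraicClosure ℚ) x :=
    RamFF.transcendental_x N _ _ (isCoprime_cover cov) x hcov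
  have hTalg := Embed.isAlgebraic_genSet N K₀ x w cov.Ng cov.Dg (isCoprime_cover cov) hcov
    hp.pos _ (by rw [hu₀]; exact hw)
  have hTfin := Embed.genSet_finite N x w
  have hKfd : FiniteDimensional ℚ ↥(constField K₀ (Embed.genSet N x w)) :=
    Model.finiteDimensional_constField K₀ hx hTfin hTalg
  have hK₀K : K₀ ≤ constField K₀ (Embed.genSet N x w) := le_constField K₀ _
  obtain ⟨Y₁', hY₁', eY₁'⟩ := hK₁ _ (h1K₀.trans hK₀K)
  obtain ⟨Y₂', hY₂', eY₂'⟩ := hK₂ _ (h2K₀.trans hK₀K)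
  have hu := toFL_div N _ Y₁ Y₂ h₁ h₂ Y₁' Y₂' hY₁' hY₂' eY₁' eY₂'
  have hDVR : IsDiscreteValuationRing ↥(NumField.lam A (constField K₀ (Embed.genSet N x w))) :=
    NumField.isDiscreteValuationRing_lam (constField K₀ (Embed.genSet N x w)) hA
  obtain ⟨ϖ, hϖ⟩ := NumField.exists_irreducible_lam
    (K := constField K₀ (Embed.genSet N x w)) hA
  -- Gauss data over `K`
  obtain ⟨θ, H, hjθ, hHm, hHc, hHθ, hHd0, hHd⟩ := GaussOut.exists_theta N hA hℓN _ ϖ hϖ
  obtain ⟨hu1, hu2, hu3⟩ := GaussOut.unit_facts N hA hℓN _ ϖ hϖ Y₁' Y₂' hY₁' hY₂'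
    (coeffMap_residue_ne_zero _ Y₁ Y₁' eY₁' hne)
    (coeffMap_residue_eq _ Y₁ Y₂ Y₁' Y₂' eY₁' eY₂' heq)
  -- cover data
  have hu0 : ((⟨_, h₁⟩ : laurentBaseChange (AlgebraicClosure ℚ) (modularFunctionFieldFull N)) /
      ⟨_, h₂⟩) ≠ 0 := by
    intro h0
    exact hno 0 (by rw [h0, zero_pow hp.ne_zero])
  obtain ⟨hdeg, hlead, hcop, hcov', C, C', hC, hC', hB2, hB2'⟩ :=
    ModelCover.exists_cover_data cov hA K₀ (Embed.genSet N x w) x w (Embed.x_mem N x w)
      hcuspsK₀ hcov hgen hp _ hu0 hw hord ϖ hϖ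
      (Embed.embed N K₀ x w (GaussL.jC _ N))
      (by rw [Embed.coe_embed, Descent.toFL_jC])
  -- the root of unity
  have hζA : ζ ∈ A := NumField.mem_of_isIntegral_int (hζ.isIntegral hp.pos)
  obtain ⟨ζ', hζ'⟩ : ∃ ζ' : ↥(NumField.lam A (constField K₀ (Embed.genSet N x w))),
      IsPrimitiveRoot ζ' p := by
    refine ⟨⟨⟨ζ, hK₀K hζK₀⟩, NumField.mem_lam_iff.mpr hζA⟩, ?_⟩
    refine IsPrimitiveRoot.of_map_of_injective
      (f := (algebraMap ↥(constField K₀ (Embed.genSet N x w)) (AlgebraicClosure ℚ)).comp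
        (NumField.lam A (constField K₀ (Embed.genSet N x w))).subtype) hζ ?_
    exact (algebraMap ↥(constField K₀ (Embed.genSet N x w)) (AlgebraicClosure ℚ)).injective.comp
      Subtype.val_injective
  have hpu : IsUnit ((p : ℕ) : ↥(NumField.lam A (constField K₀ (Embed.genSet N x w)))) :=
    NumField.isUnit_prime_lam hA hp hpℓ
  -- function field facts
  have hxK := Model.transcendental_gen K₀ (Embed.x_mem N x w) hx
  have hfin := Model.finiteDimensional_genField K₀ (Embed.x_mem N x w) hTfin hTalg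
  have hclosed := Model.constField_closed K₀ (Embed.genSet N x w)
  have hTgen := Model.adjoin_constField_eq_top K₀ (Embed.genSet N x w)
  have hno' := Transport.forall_pow_ne_of_map
    (Descent.toFL (constField K₀ (Embed.genSet N x w)) N)
    ((⟨_, hY₁'⟩ : ↥(modularFunctionFieldFullC ↥(constField K₀ (Embed.genSet N x w)) N)) /
      ⟨_, hY₂'⟩) p (by rw [hu]; exact hno)
  have hw' : gen K₀ (Embed.w_mem N x w) ^ p = Embed.embed N K₀ x w
      ((⟨_, hY₁'⟩ : ↥(modularFunctionFieldFullC ↥(constField K₀ (Embed.genSet N x w)) N)) /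
        ⟨_, hY₂'⟩) := by
    apply Subtype.ext
    rw [Embed.coe_embed, hu, ← hw]
    rfl
  exact model_abs_transport ϖ hϖ p hp hpu ζ' hζ' _ _ hdeg hlead hcop C C' hC hC'
    (Embed.embed N K₀ x w) (GaussL.jC _ N) θ _ H (gen K₀ (Embed.x_mem N x w))
    (gen K₀ (Embed.w_mem N x w)) hxK hcov' hclosed _ hTgen
    (fun t ht => Embed.eq_or_mem_range_embed N K₀ x w t ht) hjθ hno' hw' hHm hHc hHθ hHd0 hHd
    hu1 hu2 hu3 hB2 hB2'

/-- **ModelInst.**  For a good cover: if `Y₁, Y₂ ∈ A((q))` lie in `F_L`, have the same nonzero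
reduction, and all orders of `u = Y₁ / Y₂` are divisible by the prime `p ≠ ℓ`, then `u` is a
`p`-th power in `F_L` (contrapositive form). -/
theorem false_of_cover (cov : GoodCover ℓ A) (hA : A.LiesOverPrime ℓ) (hℓN : ¬ ℓ ∣ N)
    {p : ℕ} (hp : p.Prime) (hpℓ : p ≠ ℓ) (Y₁ Y₂ : LaurentSeries A)
    (h₁ : coeffMap A.subtype Y₁ ∈
      laurentBaseChange (AlgebraicClosure ℚ) (modularFunctionFieldFull N))
    (h₂ : coeffMap A.subtype Y₂ ∈
      laurentBaseChange (AlgebraicClosure ℚ) (modularFunctionFieldFull N))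
    (hne : coeffMap (IsLocalRing.residue A) Y₁ ≠ 0)
    (heq : coeffMap (IsLocalRing.residue A) Y₁ = coeffMap (IsLocalRing.residue A) Y₂)
    (hord : ∀ P : Place (AlgebraicClosure ℚ)
        (laurentBaseChange (AlgebraicClosure ℚ) (modularFunctionFieldFull N)),
      (p : ℤ) ∣ P.ord ((⟨_, h₁⟩ :
        laurentBaseChange (AlgebraicClosure ℚ) (modularFunctionFieldFull N)) / ⟨_, h₂⟩))
    (hno : ∀ w : laurentBaseChange (AlgebraicClosure ℚ) (modularFunctionFieldFull N),
      w ^ p ≠ (⟨_, h₁⟩ :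
        laurentBaseChange (AlgebraicClosure ℚ) (modularFunctionFieldFull N)) / ⟨_, h₂⟩) :
    False := by
  refine false_of_forall_omega N (cov.Ng.map (Int.castRingHom (AlgebraicClosure ℚ)))
    (cov.Dg.map (Int.castRingHom (AlgebraicClosure ℚ))) (natDegree_cover_lt cov) p hp.pos
    ((⟨_, h₁⟩ : laurentBaseChange (AlgebraicClosure ℚ) (modularFunctionFieldFull N)) / ⟨_, h₂⟩)
    (fun Ω _ _ _ _ _ x w hgen hcov hw => ?_)
  exact false_of_omega cov hA hℓN hp hpℓ Y₁ Y₂ h₁ h₂ hne heq hord hno Ω x w hgen hcov hw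

end Core

end ModelInst

end Fermat.Agent.S18
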