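import Fermat.Agent.S18.RedA
import Fermat.Agent.S18.CoverInst
import Fermat.Agent.S18.ModelInst

/-!
P11 (S18): the Kummer property (★) (`StepA.Star`) for every prime `p ≠ ℓ`, from the model
instantiation `ModelInst.false_of_cover` applied to the `λ`-cover (`ℓ ≠ 2`) or the Hesse cover
(`ℓ = 2`).
-/

set_option autoImplicit false

open ModularCurve AlgebraicCurve HahnSeries

namespace Fermat.Agent.S18

namespace StarInst

/-- A good cover exists at every residue characteristic: the `λ`-cover for `ℓ ≠ 2`, the Hesse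
cover for `ℓ = 2`. -/
theorem nonempty_goodCover {ℓ : ℕ} [Fact ℓ.Prime] (A : ValuationSubring (AlgebraicClosure ℚ))
    (hA : A.LiesOverPrime ℓ) : Nonempty (GoodCover ℓ A) := by
  by_cases h2 : ℓ = 2
  · exact ⟨goodCover_mu hA (by rw [h2]; decide)⟩
  · exact ⟨goodCover_lam hA h2⟩

/-- **(★)** for every prime `p ≠ ℓ`: if `Y₁, Y₂ ∈ A((q))` lie in `F`, have the same nonzero
reduction, and all orders of `u = Y₁ / Y₂` are divisible by `p`, then `u` is a `p`-th power in
`F`. -/
theorem star (N : ℕ) [NeZero N] {ℓ : ℕ} [Fact ℓ.Prime] (hℓN : ¬ ℓ ∣ N)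
    (A : ValuationSubring (AlgebraicClosure ℚ)) (hA : A.LiesOverPrime ℓ)
    {p : ℕ} (hp : p.Prime) (hpℓ : p ≠ ℓ) :
    StepA.Star A (IsLocalRing.residue A) N p := by
  obtain ⟨cov⟩ := nonempty_goodCover A hA
  refine StepA.star_of_forall ?_
  intro Y₁ Y₂ h₁ h₂ _ hne heq hord
  by_contra hno
  push Not at hno
  exact ModelInst.false_of_cover cov hA hℓN hp hpℓ Y₁ Y₂ h₁ h₂ hne heq hord hno

end StarInst

end Fermat.Agent.S18
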