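/-
P11 / S18, module ALG-Local (helper16; `exists_unit_lift` is due to helper22, note 187).

Abstract commutative algebra, Mathlib only.  Everything is in `namespace Fermat.Agent.S18.AlgLocal`.

* `isPrincipal_of_notMem_of_quotient` (and `_local`): `R` noetherian, `π` in the Jacobson
  radical, `R ⧸ (π)` a principal ideal ring, `P` prime with `π ∉ P`  ⟹  `P` principal (Nakayama).
* `ufm_of_quotient_isPrincipalIdealRing` (and `_local`): if moreover `R` is a domain and `π` is a
  prime element, then `R` is a UFD (Kaplansky's criterion).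
* `exists_unit_mul_pow_of_forall_prime_dvd`, `exists_unit_mul_pow_div_pow` (L2a): in a UFD with
  fraction field `E`, an element `u ∈ Eˣ` all of whose prime orders are divisible by `m` is
  `ε (a / b) ^ m`, `ε` a unit, `a`, `b` coprime.
* `exists_unit_lift` (L2b): `ε a ^ m ≡ b ^ m mod π`, `R ⧸ (π)` integrally closed domain
  ⟹ `a ≡ h₀ b mod π`, `h₀` a unit.
* `exists_local_kummer_data`, `exists_integral_approx_of_pow_eq`: the assembled local statement
  used in Step E (Kummer cover): `w ^ m = u`, `u ≡ 1 mod π` ⟹ `w ≡ s₀ mod π`, `s₀` integral.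
* `exists_integral_sub_mem_of_forall_maximal`: the local-global patching of these approximations.
-/
import Mathlib

namespace Fermat.Agent.S18.AlgLocal

/-- Nakayama step: a prime ideal not containing `π` is principal as soon as the quotient by `π`
is a principal ideal ring and `π` lies in the Jacobson radical. -/
theorem isPrincipal_of_notMem_of_quotient {R : Type*} [CommRing R] [IsNoetherianRing R]
    (π : R) (hπJ : π ∈ Ideal.jacobson (⊥ : Ideal R))
    (hpir : IsPrincipalIdealRing (R ⧸ Ideal.span {π}))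
    (P : Ideal R) [hPprime : P.IsPrime] (hP : π ∉ P) : P.IsPrincipal := by
  classical
  -- the image of `P` in the quotient is principal
  have hsurj : Function.Surjective (Ideal.Quotient.mk (Ideal.span {π})) :=
    Ideal.Quotient.mk_surjective
  obtain ⟨g, hg⟩ := (hpir.principal (P.map (Ideal.Quotient.mk (Ideal.span {π})))).principal
  have hgmem : g ∈ P.map (Ideal.Quotient.mk (Ideal.span {π})) := by
    rw [hg]; exact Submodule.mem_span_singleton_self g
  obtain ⟨f, hfP, hfg⟩ := (Ideal.mem_map_iff_of_surjective _ hsurj).1 hgmem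
  refine ⟨f, le_antisymm ?_ ?_⟩
  · -- `P ≤ (f)` by Nakayama
    have hle : P ≤ Ideal.span {f} ⊔ Ideal.span {π} • P := by
      intro p hp
      have hp' : Ideal.Quotient.mk (Ideal.span {π}) p ∈
          P.map (Ideal.Quotient.mk (Ideal.span {π})) := Ideal.mem_map_of_mem _ hp
      rw [hg] at hp'
      obtain ⟨a', ha'⟩ := Ideal.mem_span_singleton'.1 hp'
      obtain ⟨a, rfl⟩ := hsurj a'
      rw [← hfg, ← map_mul] at ha'
      have hsub : a * f - p ∈ Ideal.span {π} := Ideal.Quotient.eq.1 ha'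
      obtain ⟨b, hb⟩ := Ideal.mem_span_singleton'.1 hsub
      -- `b * π = a * f - p`, hence `b * π ∈ P`, hence `b ∈ P`
      have hbπ : b * π ∈ P := by
        rw [hb]; exact P.sub_mem (P.mul_mem_left a hfP) hp
      have hbP : b ∈ P := (hPprime.mem_or_mem hbπ).resolve_right hP
      have hp_eq : p = a * f + π * (-b) := by
        have : p = a * f - b * π := by rw [hb]; ring
        rw [this]; ring
      rw [hp_eq]
      refine Submodule.add_mem_sup (Ideal.mem_span_singleton'.2 ⟨a, rfl⟩) ?_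
      exact Ideal.mul_mem_mul (Ideal.mem_span_singleton_self π) (P.neg_mem hbP)
    have hJ : Ideal.span {π} ≤ Ideal.jacobson (⊥ : Ideal R) := by
      rw [Ideal.span_le]; simpa using hπJ
    have := Submodule.le_of_le_smul_of_le_jacobson_bot (N := Ideal.span {f}) (N' := P)
      (IsNoetherian.noetherian P) hJ hle
    simpa using this
  · change Ideal.span {f} ≤ P
    rw [Ideal.span_le]; simpa using hfP

/-- Local-ring version of `isPrincipal_of_notMem_of_quotient`. -/
theorem isPrincipal_of_notMem_of_quotient_local {R : Type*} [CommRing R] [IsNoetherianRing R]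
    [IsLocalRing R] (π : R) (hπ : ¬ IsUnit π)
    (hpir : IsPrincipalIdealRing (R ⧸ Ideal.span {π}))
    (P : Ideal R) [P.IsPrime] (hP : π ∉ P) : P.IsPrincipal := by
  refine isPrincipal_of_notMem_of_quotient π ?_ hpir P hP
  rw [IsLocalRing.jacobson_eq_maximalIdeal _ bot_ne_top]
  exact (IsLocalRing.mem_maximalIdeal π).2 hπ

/-- A noetherian domain with a prime element `π` in the Jacobson radical such that `R ⧸ (π)` is a
principal ideal ring is a UFD. -/
theorem ufm_of_quotient_isPrincipalIdealRing {R : Type*} [CommRing R] [IsDomain R]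
    [IsNoetherianRing R] (π : R) (hπJ : π ∈ Ideal.jacobson (⊥ : Ideal R)) (hπ : Prime π)
    (hpir : IsPrincipalIdealRing (R ⧸ Ideal.span {π})) : UniqueFactorizationMonoid R := by
  refine UniqueFactorizationMonoid.iff_exists_prime_mem_of_isPrime.2 fun I hI hIprime => ?_
  by_cases hπI : π ∈ I
  · exact ⟨π, hπI, hπ⟩
  · have := hIprime
    obtain ⟨f, hf⟩ := (isPrincipal_of_notMem_of_quotient π hπJ hpir I hπI).principal
    have hf' : I = Ideal.span {f} := hf
    have hf0 : f ≠ 0 := by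
      rintro rfl
      apply hI
      rw [hf']; simp
    refine ⟨f, ?_, ?_⟩
    · rw [hf']; exact Ideal.mem_span_singleton_self f
    · rw [← Ideal.span_singleton_prime hf0, ← hf']; exact hIprime

/-- Local version: a noetherian local domain `R` with a non-unit prime element `π` such that
`R ⧸ (π)` is a principal ideal ring (e.g. a DVR) is a UFD. -/
theorem ufm_of_quotient_isPrincipalIdealRing_local {R : Type*} [CommRing R] [IsDomain R]
    [IsNoetherianRing R] [IsLocalRing R] (π : R) (hπ : Prime π)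
    (hpir : IsPrincipalIdealRing (R ⧸ Ideal.span {π})) : UniqueFactorizationMonoid R := by
  refine ufm_of_quotient_isPrincipalIdealRing π ?_ hπ hpir
  rw [IsLocalRing.jacobson_eq_maximalIdeal _ bot_ne_top]
  exact (IsLocalRing.mem_maximalIdeal π).2 hπ.not_isUnit

section UnitPow

/-- In a UFD, an element all of whose prime multiplicities are divisible by `m` is a unit times
an `m`-th power. -/
theorem exists_unit_mul_pow_of_forall_prime_dvd {R : Type*} [CommRing R] [IsDomain R]
    [UniqueFactorizationMonoid R] (m : ℕ) (x : R) (hx : x ≠ 0)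
    (H : ∀ p : R, Prime p → p ∣ x → ∃ (k : ℕ) (x' : R), x = p ^ (m * k) * x' ∧ ¬ p ∣ x') :
    ∃ ε a : R, IsUnit ε ∧ x = ε * a ^ m := by
  revert hx H
  induction x using UniqueFactorizationMonoid.induction_on_coprime with
  | h0 => intro hx; exact absurd rfl hx
  | h1 hunit => intro _ _; exact ⟨_, 1, hunit, by simp⟩
  | hpr i hp =>
    rename_i p
    intro _ H
    rcases Nat.eq_zero_or_pos i with hi | hi
    · subst hi; exact ⟨1, 1, isUnit_one, by simp⟩
    · obtain ⟨k, x', hx', hpx'⟩ := H p hp (dvd_pow_self p hi.ne')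
      have hik : i = m * k := by
        rcases lt_trichotomy i (m * k) with hlt | heq | hgt
        · exfalso
          have h1 : p ^ i * 1 = p ^ i * (p ^ (m * k - i) * x') := by
            rw [mul_one, ← mul_assoc, ← pow_add]
            have : i + (m * k - i) = m * k := by omega
            rw [this]; exact hx'
          have h2 := mul_left_cancel₀ (pow_ne_zero i hp.ne_zero) h1
          have h3 : p ∣ 1 := by
            rw [h2]
            exact Dvd.dvd.mul_right (dvd_pow_self p (by omega)) x'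
          exact hp.not_isUnit (isUnit_of_dvd_one h3)
        · exact heq
        · exfalso
          have h1 : p ^ (m * k) * p ^ (i - m * k) = p ^ (m * k) * x' := by
            rw [← pow_add]
            have : m * k + (i - m * k) = i := by omega
            rw [this]; exact hx'
          have h2 := mul_left_cancel₀ (pow_ne_zero (m * k) hp.ne_zero) h1
          exact hpx' (h2 ▸ dvd_pow_self p (by omega))
      refine ⟨1, p ^ k, isUnit_one, ?_⟩
      rw [one_mul, ← pow_mul, hik, mul_comm]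
  | hcp hcop ihx ihy =>
    rename_i x y
    intro hxy H
    have hx0 : x ≠ 0 := left_ne_zero_of_mul hxy
    have hy0 : y ≠ 0 := right_ne_zero_of_mul hxy
    have key : ∀ (x y : R), IsRelPrime x y → x ≠ 0 → y ≠ 0 →
        (∀ p : R, Prime p → p ∣ x * y → ∃ (k : ℕ) (x' : R), x * y = p ^ (m * k) * x' ∧ ¬ p ∣ x') →
        ∀ p : R, Prime p → p ∣ x → ∃ (k : ℕ) (x' : R), x = p ^ (m * k) * x' ∧ ¬ p ∣ x' := by
      intro x y hcop hx0 hy0 H p hp hpx
      obtain ⟨k, z, hz, hpz⟩ := H p hp (Dvd.dvd.mul_right hpx y)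
      have hpy : ¬ p ∣ y := fun hpy => hp.not_isUnit (hcop hpx hpy)
      have hdvd : p ^ (m * k) ∣ x := hp.pow_dvd_of_dvd_mul_right _ hpy ⟨z, hz⟩
      obtain ⟨x', rfl⟩ := hdvd
      refine ⟨k, x', rfl, fun hpx' => hpz ?_⟩
      have h1 : p ^ (m * k) * (x' * y) = p ^ (m * k) * z := by rw [← hz]; ring
      have h2 := mul_left_cancel₀ (pow_ne_zero (m * k) hp.ne_zero) h1
      rw [← h2]
      exact Dvd.dvd.mul_right hpx' y
    obtain ⟨ε₁, a₁, hε₁, h₁⟩ := ihx hx0 (key x y hcop hx0 hy0 H)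
    obtain ⟨ε₂, a₂, hε₂, h₂⟩ := ihy hy0
      (key y x hcop.symm hy0 hx0 (by rw [mul_comm]; exact H))
    refine ⟨ε₁ * ε₂, a₁ * a₂, hε₁.mul hε₂, ?_⟩
    rw [h₁, h₂]; ring

variable {R E : Type*} [CommRing R] [IsDomain R] [Field E] [Algebra R E] [IsFractionRing R E]

/-- Numerator side of `exists_unit_mul_pow_div_pow`. -/
theorem exists_pow_mul_of_reduced (m : ℕ) (hm : 0 < m) (u : E) {x₀ y₀ : R}
    (hcop : IsRelPrime x₀ y₀)
    (hu : u * algebraMap R E y₀ = algebraMap R E x₀)
    (p : R) (hp : Prime p) (hpx : p ∣ x₀) (k : ℤ) (x y : R) (hx : ¬ p ∣ x) (hy : ¬ p ∣ y)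
    (h : u * algebraMap R E y = algebraMap R E p ^ ((m : ℤ) * k) * algebraMap R E x) :
    ∃ (k' : ℕ) (x' : R), x₀ = p ^ (m * k') * x' ∧ ¬ p ∣ x' := by
  have hinj : Function.Injective (algebraMap R E) := IsFractionRing.injective R E
  have hpE : algebraMap R E p ≠ 0 := fun h0 => hp.ne_zero (hinj (by rw [h0, map_zero]))
  have hpy₀ : ¬ p ∣ y₀ := fun hpy => hp.not_isUnit (hcop hpx hpy)
  have hxy₀ : ¬ p ∣ x * y₀ := fun hdiv => (hp.dvd_or_dvd hdiv).elim hx hpy₀
  -- identity in `E`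
  have hE : algebraMap R E x₀ * algebraMap R E y =
      algebraMap R E p ^ ((m : ℤ) * k) * (algebraMap R E x * algebraMap R E y₀) := by
    rw [← hu]
    calc u * algebraMap R E y₀ * algebraMap R E y
        = (u * algebraMap R E y) * algebraMap R E y₀ := by ring
      _ = _ := by rw [h]; ring
  rcases le_or_gt 0 k with hk | hk
  · obtain ⟨k', rfl⟩ := Int.eq_ofNat_of_zero_le hk
    have hR : x₀ * y = p ^ (m * k') * (x * y₀) := by
      apply hinj
      rw [map_mul, map_mul, map_pow, map_mul, hE]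
      congr 1
      rw [← zpow_natCast]
      congr 1
    have hdvd : p ^ (m * k') ∣ x₀ := hp.pow_dvd_of_dvd_mul_right _ hy ⟨_, hR⟩
    obtain ⟨x', rfl⟩ := hdvd
    refine ⟨k', x', rfl, fun hpx' => hxy₀ ?_⟩
    have h1 : p ^ (m * k') * (x' * y) = p ^ (m * k') * (x * y₀) := by rw [← hR]; ring
    have h2 := mul_left_cancel₀ (pow_ne_zero (m * k') hp.ne_zero) h1
    rw [← h2]
    exact Dvd.dvd.mul_right hpx' y
  · exfalso
    obtain ⟨k', hk'⟩ : ∃ k' : ℕ, k = -((k' : ℤ) + 1) := ⟨(-k - 1).toNat, by omega⟩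
    subst hk'
    have hR : p ^ (m * (k' + 1)) * (x₀ * y) = x * y₀ := by
      apply hinj
      rw [map_mul, map_mul, map_pow, map_mul, hE, ← mul_assoc, ← zpow_natCast, ← zpow_add₀ hpE]
      have : ((m * (k' + 1) : ℕ) : ℤ) + (m : ℤ) * -((k' : ℤ) + 1) = 0 := by push_cast; ring
      rw [this, zpow_zero, one_mul]
    apply hxy₀
    rw [← hR]
    exact Dvd.dvd.mul_right (dvd_pow_self p (by positivity)) _

/-- **L2a.** `R` a UFD with fraction field `E`, `u ∈ Eˣ` such that the order of `u` at every prime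
element of `R` is divisible by `m`.  Then `u = ε (a / b) ^ m` with `ε` a unit and `a`, `b`
coprime. -/
theorem exists_unit_mul_pow_div_pow [UniqueFactorizationMonoid R]
    (m : ℕ) (hm : 0 < m) (u : E) (hu : u ≠ 0)
    (H : ∀ p : R, Prime p → ∃ (k : ℤ) (x y : R), ¬ p ∣ x ∧ ¬ p ∣ y ∧
      u * algebraMap R E y = algebraMap R E p ^ ((m : ℤ) * k) * algebraMap R E x) :
    ∃ ε a b : R, IsUnit ε ∧ a ≠ 0 ∧ b ≠ 0 ∧ IsRelPrime a b ∧
      u * algebraMap R E b ^ m = algebraMap R E ε * algebraMap R E a ^ m := by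
  have hinj : Function.Injective (algebraMap R E) := IsFractionRing.injective R E
  obtain ⟨x₀, ⟨y₀, hy₀mem⟩, hcop, hxy⟩ := IsFractionRing.exists_reduced_fraction (A := R) u
  have hy₀ : y₀ ≠ 0 := nonZeroDivisors.ne_zero hy₀mem
  have hy₀E : algebraMap R E y₀ ≠ 0 := fun h0 => hy₀ (hinj (by rw [h0, map_zero]))
  have hu' : u * algebraMap R E y₀ = algebraMap R E x₀ := by
    rw [← hxy]; exact IsLocalization.mk'_spec E x₀ ⟨y₀, hy₀mem⟩
  have hx₀ : x₀ ≠ 0 := by
    rintro rfl
    rw [map_zero] at hu'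
    exact (mul_ne_zero hu hy₀E) hu'
  have hx₀E : algebraMap R E x₀ ≠ 0 := fun h0 => hx₀ (hinj (by rw [h0, map_zero]))
  -- numerator
  have Hx : ∀ p : R, Prime p → p ∣ x₀ → ∃ (k : ℕ) (x' : R), x₀ = p ^ (m * k) * x' ∧ ¬ p ∣ x' := by
    intro p hp hpx
    obtain ⟨k, x, y, hx, hy, h⟩ := H p hp
    exact exists_pow_mul_of_reduced m hm u hcop hu' p hp hpx k x y hx hy h
  -- denominator, via `u⁻¹`
  have hu'' : u⁻¹ * algebraMap R E x₀ = algebraMap R E y₀ := by
    rw [← hu', ← mul_assoc, inv_mul_cancel₀ hu, one_mul]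
  have Hy : ∀ p : R, Prime p → p ∣ y₀ → ∃ (k : ℕ) (x' : R), y₀ = p ^ (m * k) * x' ∧ ¬ p ∣ x' := by
    intro p hp hpy
    obtain ⟨k, x, y, hx, hy, h⟩ := H p hp
    have hpE : algebraMap R E p ≠ 0 := fun h0 => hp.ne_zero (hinj (by rw [h0, map_zero]))
    refine exists_pow_mul_of_reduced m hm u⁻¹ hcop.symm hu'' p hp hpy (-k) y x hy hx ?_
    have hz : algebraMap R E p ^ ((m : ℤ) * -k) * algebraMap R E p ^ ((m : ℤ) * k) = 1 := by
      rw [← zpow_add₀ hpE]
      have : (m : ℤ) * -k + (m : ℤ) * k = 0 := by ring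
      rw [this, zpow_zero]
    calc u⁻¹ * algebraMap R E x
        = u⁻¹ * (algebraMap R E p ^ ((m : ℤ) * -k) * algebraMap R E p ^ ((m : ℤ) * k)) *
            algebraMap R E x := by rw [hz, mul_one]
      _ = u⁻¹ * algebraMap R E p ^ ((m : ℤ) * -k) *
            (algebraMap R E p ^ ((m : ℤ) * k) * algebraMap R E x) := by ring
      _ = u⁻¹ * algebraMap R E p ^ ((m : ℤ) * -k) * (u * algebraMap R E y) := by rw [h]
      _ = (u⁻¹ * u) * (algebraMap R E p ^ ((m : ℤ) * -k) * algebraMap R E y) := by ring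
      _ = _ := by rw [inv_mul_cancel₀ hu, one_mul]
  obtain ⟨ε₁, a, hε₁, ha⟩ := exists_unit_mul_pow_of_forall_prime_dvd m x₀ hx₀ Hx
  obtain ⟨ε₂, b, hε₂, hb⟩ := exists_unit_mul_pow_of_forall_prime_dvd m y₀ hy₀ Hy
  obtain ⟨v₂, rfl⟩ := hε₂
  have ha0 : a ≠ 0 := by
    rintro rfl
    rw [zero_pow hm.ne', mul_zero] at ha
    exact hx₀ ha
  have hb0 : b ≠ 0 := by
    rintro rfl
    rw [zero_pow hm.ne', mul_zero] at hb
    exact hy₀ hb
  refine ⟨ε₁ * (↑v₂⁻¹ : R), a, b, hε₁.mul v₂⁻¹.isUnit, ha0, hb0, ?_, ?_⟩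
  · intro d hda hdb
    refine hcop ?_ ?_
    · rw [ha]
      exact Dvd.dvd.mul_left (hda.trans (dvd_pow_self a hm.ne')) _
    · change d ∣ y₀
      rw [hb]
      exact Dvd.dvd.mul_left (hdb.trans (dvd_pow_self b hm.ne')) _
  · have hv : algebraMap R E (v₂ : R) ≠ 0 := fun h0 => v₂.ne_zero (hinj (by rw [h0, map_zero]))
    apply mul_right_cancel₀ hv
    calc u * algebraMap R E b ^ m * algebraMap R E (v₂ : R)
        = u * algebraMap R E ((v₂ : R) * b ^ m) := by rw [map_mul, map_pow]; ring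
      _ = algebraMap R E x₀ := by rw [← hb, hu']
      _ = algebraMap R E (ε₁ * a ^ m) := by rw [← ha]
      _ = algebraMap R E (ε₁ * (↑v₂⁻¹ : R) * a ^ m * (v₂ : R)) := by
          congr 1
          calc ε₁ * a ^ m = ε₁ * a ^ m * ((↑v₂⁻¹ : R) * (v₂ : R)) := by simp
            _ = _ := by ring
      _ = _ := by rw [map_mul, map_mul, map_pow]

end UnitPow

section UnitLift

/-- **L2b (helper22).** Local Kummer normalisation.  `R` local, `π` a non-unit with `R ⧸ (π)` an
integrally closed domain; `ε` a unit; `a b ∉ (π)` with `ε a^m ≡ b^m mod π`.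
Then `a ≡ h₀ b mod π` for a unit `h₀`. -/
theorem exists_unit_lift {R : Type*} [CommRing R] [IsLocalRing R]
    (π : R) (hπ : ¬ IsUnit π)
    (hdom : IsDomain (R ⧸ Ideal.span {π})) (hic : IsIntegrallyClosed (R ⧸ Ideal.span {π}))
    (m : ℕ) (hm : 0 < m) (ε : R) (hε : IsUnit ε) (a b : R) (ha : ¬ π ∣ a) (hb : ¬ π ∣ b)
    (hu : π ∣ ε * a ^ m - b ^ m) :
    ∃ h₀ g : R, IsUnit h₀ ∧ a - h₀ * b = π * g := by
  have hπmem : π ∈ IsLocalRing.maximalIdeal R := (IsLocalRing.mem_maximalIdeal π).2 hπ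
  set D := R ⧸ Ideal.span {π}
  set q : R →+* D := Ideal.Quotient.mk (Ideal.span {π}) with hq
  have hq0 : ∀ r : R, q r = 0 ↔ π ∣ r := fun r => by
    rw [hq, Ideal.Quotient.eq_zero_iff_mem, Ideal.mem_span_singleton]
  have ha' : q a ≠ 0 := fun h => ha ((hq0 a).1 h)
  have hb' : q b ≠ 0 := fun h => hb ((hq0 b).1 h)
  have hrel : q ε * q a ^ m = q b ^ m := by
    have := (hq0 _).2 hu
    rw [map_sub, map_mul, map_pow, map_pow, sub_eq_zero] at this
    exact this
  -- work in the fraction field of D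
  set Kd := FractionRing D
  have hinj : Function.Injective (algebraMap D Kd) := IsFractionRing.injective D Kd
  have haK : algebraMap D Kd (q a) ≠ 0 := fun h => ha' (hinj (by rw [h, map_zero]))
  have hbK : algebraMap D Kd (q b) ≠ 0 := fun h => hb' (hinj (by rw [h, map_zero]))
  have hεD : IsUnit (q ε) := hε.map q
  obtain ⟨εi, hεi⟩ := hεD.exists_left_inv
  -- x = a / b is integral over D: x^m = ε⁻¹
  have hrelK : algebraMap D Kd (q ε) * algebraMap D Kd (q a) ^ m = algebraMap D Kd (q b) ^ m := by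
    have := congrArg (algebraMap D Kd) hrel
    rwa [map_mul, map_pow, map_pow] at this
  have hεiK : algebraMap D Kd εi * algebraMap D Kd (q ε) = 1 := by
    rw [← map_mul, hεi, map_one]
  have hx : IsIntegral D (algebraMap D Kd (q a) / algebraMap D Kd (q b)) := by
    refine ⟨Polynomial.X ^ m - Polynomial.C εi, Polynomial.monic_X_pow_sub_C εi hm.ne', ?_⟩
    rw [Polynomial.eval₂_sub, Polynomial.eval₂_pow, Polynomial.eval₂_X, Polynomial.eval₂_C,
      div_pow, sub_eq_zero, div_eq_iff (pow_ne_zero _ hbK), ← hrelK, ← mul_assoc, hεiK, one_mul]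
  obtain ⟨y, hy⟩ := IsIntegrallyClosed.isIntegral_iff.1 hx
  -- y * b = a in D
  have hyb : y * q b = q a := by
    apply hinj
    rw [map_mul, hy, div_mul_cancel₀ _ hbK]
  -- y is a unit: y^m * ε = 1
  have hyu : IsUnit y := by
    have h1 : y ^ m * q ε * q b ^ m = q b ^ m := by
      calc y ^ m * q ε * q b ^ m = q ε * (y * q b) ^ m := by ring
        _ = q b ^ m := by rw [hyb, hrel]
    have h2 : y ^ m * q ε = 1 := by
      have hbm : q b ^ m ≠ 0 := pow_ne_zero _ hb'
      exact mul_right_cancel₀ hbm (by rw [h1, one_mul])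
    have : IsUnit (y ^ m) := IsUnit.of_mul_eq_one _ h2
    exact (isUnit_pow_iff hm.ne').1 this
  obtain ⟨h₀, rfl⟩ := Ideal.Quotient.mk_surjective y
  have hh₀ : IsUnit h₀ := by
    by_contra hnu
    have hmem : h₀ ∈ IsLocalRing.maximalIdeal R := (IsLocalRing.mem_maximalIdeal h₀).2 hnu
    obtain ⟨yi, hyi⟩ := hyu.exists_left_inv
    obtain ⟨hi, rfl⟩ := Ideal.Quotient.mk_surjective yi
    have : π ∣ hi * h₀ - 1 := by
      rw [← hq0, map_sub, map_mul, map_one, sub_eq_zero]; exact hyi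
    obtain ⟨c, hc⟩ := this
    have h1 : (1 : R) ∈ IsLocalRing.maximalIdeal R := by
      have : (1 : R) = hi * h₀ - π * c := by rw [← hc]; ring
      rw [this]
      exact Ideal.sub_mem _ (Ideal.mul_mem_left _ _ hmem) (Ideal.mul_mem_right _ _ hπmem)
    exact (IsLocalRing.maximalIdeal R).ne_top_iff_one.1
      (IsLocalRing.maximalIdeal.isMaximal R).ne_top h1
  have hdiv : π ∣ a - h₀ * b := by
    rw [← hq0, map_sub, map_mul, sub_eq_zero]; exact hyb.symm
  obtain ⟨g, hg⟩ := hdiv
  exact ⟨h₀, g, hh₀, hg⟩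

end UnitLift

section Pack

variable {R E : Type*} [CommRing R] [IsDomain R] [IsNoetherianRing R] [IsLocalRing R]
  [Field E] [Algebra R E] [IsFractionRing R E]

/-- **ALG-Local package.**  `R` a noetherian local domain with fraction field `E`, `π` a prime
element with `R ⧸ (π)` a principal ideal ring (e.g. a DVR).  Let `u ∈ E` be `≡ 1 mod π`
(`u = x / y`, `π ∤ y`, `π ∣ x - y`) whose order at every prime element not associated to `π` is
divisible by `m`.  Then `u = ε (a / b) ^ m` with `ε ∈ Rˣ`, `a, b ∉ (π)` and `a ≡ h₀ b mod π` for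
a unit `h₀`. -/
theorem exists_local_kummer_data (π : R) (hπ : Prime π)
    (hpir : IsPrincipalIdealRing (R ⧸ Ideal.span {π}))
    (m : ℕ) (hm : 0 < m) (u : E)
    (h1 : ∃ x y : R, ¬ π ∣ y ∧ π ∣ x - y ∧ u * algebraMap R E y = algebraMap R E x)
    (H : ∀ p : R, Prime p → ¬ Associated p π → ∃ (k : ℤ) (x y : R), ¬ p ∣ x ∧ ¬ p ∣ y ∧
      u * algebraMap R E y = algebraMap R E p ^ ((m : ℤ) * k) * algebraMap R E x) :
    ∃ (ε h₀ a b g : R), IsUnit ε ∧ IsUnit h₀ ∧ ¬ π ∣ a ∧ ¬ π ∣ b ∧
      u * algebraMap R E b ^ m = algebraMap R E ε * algebraMap R E a ^ m ∧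
      a - h₀ * b = π * g := by
  have hinj : Function.Injective (algebraMap R E) := IsFractionRing.injective R E
  have : UniqueFactorizationMonoid R := ufm_of_quotient_isPrincipalIdealRing_local π hπ hpir
  obtain ⟨x, y, hy, hxy, hux⟩ := h1
  have hx : ¬ π ∣ x := by
    intro hx
    apply hy
    have := dvd_sub hx hxy
    simpa using this
  have hx0 : x ≠ 0 := fun h0 => hx (h0 ▸ dvd_zero π)
  have hu0 : u ≠ 0 := by
    rintro rfl
    rw [zero_mul] at hux
    exact hx0 (hinj (by rw [← hux, map_zero]))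
  -- the order hypothesis at all primes
  have H' : ∀ p : R, Prime p → ∃ (k : ℤ) (x y : R), ¬ p ∣ x ∧ ¬ p ∣ y ∧
      u * algebraMap R E y = algebraMap R E p ^ ((m : ℤ) * k) * algebraMap R E x := by
    intro p hp
    by_cases hpπ : Associated p π
    · refine ⟨0, x, y, fun h => hx (hpπ.dvd_iff_dvd_left.1 h),
        fun h => hy (hpπ.dvd_iff_dvd_left.1 h), ?_⟩
      rw [mul_zero, zpow_zero, one_mul, hux]
    · exact H p hp hpπ
  obtain ⟨ε, a, b, hε, ha0, hb0, hcop, hab⟩ := exists_unit_mul_pow_div_pow m hm u hu0 H'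
  -- the relation in `R`
  have hR : x * b ^ m = ε * a ^ m * y := by
    apply hinj
    rw [map_mul, map_mul, map_mul, map_pow, map_pow, ← hab, ← hux]
    ring
  have hπa : ¬ π ∣ a := by
    intro hπa
    have h2 : π ∣ x * b ^ m := by
      rw [hR]
      exact Dvd.dvd.mul_right (Dvd.dvd.mul_left (hπa.trans (dvd_pow_self a hm.ne')) ε) y
    rcases hπ.dvd_or_dvd h2 with h3 | h3
    · exact hx h3
    · exact hπ.not_isUnit (hcop hπa (hπ.dvd_of_dvd_pow h3))
  have hπb : ¬ π ∣ b := by
    intro hπb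
    have h2 : π ∣ ε * a ^ m * y := by
      rw [← hR]
      exact Dvd.dvd.mul_left (hπb.trans (dvd_pow_self b hm.ne')) x
    rcases hπ.dvd_or_dvd h2 with h3 | h3
    · rcases hπ.dvd_or_dvd h3 with h4 | h4
      · exact hπ.not_isUnit (isUnit_of_dvd_unit h4 hε)
      · exact hπ.not_isUnit (hcop (hπ.dvd_of_dvd_pow h4) hπb)
    · exact hy h3
  have hdiv : π ∣ ε * a ^ m - b ^ m := by
    obtain ⟨c, hc⟩ := hxy
    have h2 : y * (ε * a ^ m - b ^ m) = π * (c * b ^ m) := by
      have hx' : x = y + π * c := by rw [← hc]; ring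
      rw [hx'] at hR
      linear_combination (-1 : R) * hR
    rcases hπ.dvd_or_dvd ⟨_, h2⟩ with h3 | h3
    · exact absurd h3 hy
    · exact h3
  have hprime : (Ideal.span {π}).IsPrime := (Ideal.span_singleton_prime hπ.ne_zero).2 hπ
  have hdom : IsDomain (R ⧸ Ideal.span {π}) := (Ideal.Quotient.isDomain_iff_prime _).2 hprime
  have := hpir
  have hic : IsIntegrallyClosed (R ⧸ Ideal.span {π}) := inferInstance
  obtain ⟨h₀, g, hh₀, hg⟩ := exists_unit_lift π hπ.not_isUnit hdom hic m hm ε hε a b hπa hπb hdiv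
  exact ⟨ε, h₀, a, b, g, hε, hh₀, hπa, hπb, hab, hg⟩

/-- **ALG-Local, field form.**  In the situation of `exists_local_kummer_data`, if `w ^ m = u` in
an extension `E'` of `E`, there is `s₀ = c • w` (`c ∈ E`) with `s₀ ^ m ∈ Rˣ` (so `s₀` is integral
over `R`) and `a (w - s₀) = π g w` with `a ∉ (π)`. -/
theorem exists_integral_approx_of_pow_eq {E' : Type*} [Field E'] [Algebra E E'] [Algebra R E']
    [IsScalarTower R E E'] (π : R) (hπ : Prime π)
    (hpir : IsPrincipalIdealRing (R ⧸ Ideal.span {π}))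
    (m : ℕ) (hm : 0 < m) (u : E)
    (h1 : ∃ x y : R, ¬ π ∣ y ∧ π ∣ x - y ∧ u * algebraMap R E y = algebraMap R E x)
    (H : ∀ p : R, Prime p → ¬ Associated p π → ∃ (k : ℤ) (x y : R), ¬ p ∣ x ∧ ¬ p ∣ y ∧
      u * algebraMap R E y = algebraMap R E p ^ ((m : ℤ) * k) * algebraMap R E x)
    (w : E') (hw : w ^ m = algebraMap E E' u) :
    ∃ (s₀ : E') (c : E) (η a g : R), s₀ = algebraMap E E' c * w ∧ IsUnit η ∧
      s₀ ^ m = algebraMap R E' η ∧ IsIntegral R s₀ ∧ ¬ π ∣ a ∧
      c * algebraMap R E a = algebraMap R E (a - π * g) ∧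
      algebraMap R E' a * (w - s₀) = algebraMap R E' (π * g) * w := by
  have hinj : Function.Injective (algebraMap R E) := IsFractionRing.injective R E
  obtain ⟨ε, h₀, a, b, g, hε, hh₀, hπa, hπb, hab, hg⟩ :=
    exists_local_kummer_data π hπ hpir m hm u h1 H
  have ha0 : a ≠ 0 := fun h0 => hπa (h0 ▸ dvd_zero π)
  have haE : algebraMap R E a ≠ 0 := fun h0 => ha0 (hinj (by rw [h0, map_zero]))
  set c : E := algebraMap R E (h₀ * b) / algebraMap R E a with hc
  have hca : c * algebraMap R E a = algebraMap R E (h₀ * b) := by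
    rw [hc, div_mul_cancel₀ _ haE]
  have hcm : c ^ m * u = algebraMap R E (h₀ ^ m * ε) := by
    have h2 : c ^ m * u * algebraMap R E a ^ m = algebraMap R E (h₀ ^ m * ε) * algebraMap R E a ^ m := by
      calc c ^ m * u * algebraMap R E a ^ m = (c * algebraMap R E a) ^ m * u := by ring
        _ = algebraMap R E h₀ ^ m * (u * algebraMap R E b ^ m) := by
            rw [hca, map_mul]; ring
        _ = _ := by rw [hab, map_mul, map_pow]; ring
    exact mul_right_cancel₀ (pow_ne_zero m haE) h2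
  have hs₀m : (algebraMap E E' c * w) ^ m = algebraMap R E' (h₀ ^ m * ε) := by
    rw [mul_pow, hw, ← map_pow, ← map_mul, hcm, ← IsScalarTower.algebraMap_apply]
  refine ⟨algebraMap E E' c * w, c, h₀ ^ m * ε, a, g, rfl, (hh₀.pow m).mul hε, hs₀m, ?_, hπa, ?_, ?_⟩
  · exact IsIntegral.of_pow hm (by rw [hs₀m]; exact isIntegral_algebraMap)
  · rw [hca]; congr 1; rw [← hg]; ring
  · have h3 : algebraMap R E' a * (algebraMap E E' c * w) = algebraMap R E' (h₀ * b) * w := by
      rw [IsScalarTower.algebraMap_apply R E E' a, IsScalarTower.algebraMap_apply R E E' (h₀ * b),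
        ← hca, map_mul]
      ring
    rw [mul_sub, h3, ← sub_mul, ← map_sub, hg]

end Pack

section LocalGlobal

/-- **Local-global patching.**  `A` an `S`-algebra, `V ⊆ A` an `S`-submodule, `π ∈ S`, `z ∈ V`.
If for every maximal ideal `𝔫 ∋ π` of `S` some multiple `c • z`, `c ∉ 𝔫`, is congruent modulo
`π V` to an element integral over `S`, then so is `z` itself. -/
theorem exists_integral_sub_mem_of_forall_maximal {S A : Type*} [CommRing S] [CommRing A]
    [Algebra S A] (V : Submodule S A) (π : S) (z : A) (hz : z ∈ V)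
    (hloc : ∀ 𝔫 : Ideal S, 𝔫.IsMaximal → π ∈ 𝔫 →
      ∃ c : S, c ∉ 𝔫 ∧ ∃ s : A, IsIntegral S s ∧ ∃ v ∈ V, s - c • z = π • v) :
    ∃ s : A, IsIntegral S s ∧ ∃ v ∈ V, s - z = π • v := by
  let J : Ideal S :=
    { carrier := {c | ∃ s : A, IsIntegral S s ∧ ∃ v ∈ V, s - c • z = π • v}
      add_mem' := by
        rintro c₁ c₂ ⟨s₁, hs₁, v₁, hv₁, h₁⟩ ⟨s₂, hs₂, v₂, hv₂, h₂⟩
        refine ⟨s₁ + s₂, hs₁.add hs₂, v₁ + v₂, V.add_mem hv₁ hv₂, ?_⟩
        rw [add_smul, smul_add, ← h₁, ← h₂]; abel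
      zero_mem' := ⟨0, isIntegral_zero, 0, V.zero_mem, by simp⟩
      smul_mem' := by
        rintro r c ⟨s, hs, v, hv, h⟩
        refine ⟨r • s, hs.smul r, r • v, V.smul_mem r hv, ?_⟩
        rw [smul_eq_mul, mul_smul, ← smul_sub, h, smul_comm] }
  have hπJ : π ∈ J := ⟨0, isIntegral_zero, -z, V.neg_mem hz, by simp⟩
  have htop : J = ⊤ := by
    by_contra hne
    obtain ⟨𝔫, h𝔫max, hle⟩ := Ideal.exists_le_maximal J hne
    obtain ⟨c, hc, hcJ⟩ := hloc 𝔫 h𝔫max (hle hπJ)
    exact hc (hle hcJ)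
  have h1 : (1 : S) ∈ J := by rw [htop]; exact Submodule.mem_top
  obtain ⟨s, hs, v, hv, h⟩ := h1
  exact ⟨s, hs, v, hv, by simpa using h⟩

end LocalGlobal

end Fermat.Agent.S18.AlgLocal
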