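import Mathlib

/-!
P11 (S18), Step D — the abstract "two-chart Čech lemma" (Zariski connectedness, elementary form).

Let `Λ` be a noetherian ring, `π ∈ Λ`, `S` a commutative `Λ`-algebra with two subalgebras
`S₁, S₂` such that `S / (S₁ + S₂)` is a finitely generated `Λ`-module.  If `e₁ ∈ S₁`, `e₂ ∈ S₂`
are idempotent modulo `π` (in `S₁`, resp. `S₂`) and `e₁ ≡ e₂ mod π S`, then there is
`x ∈ S₁ ∩ S₂` with `e₁ ≡ x mod π S₁` and `e₂ ≡ x mod π S₂` (`exists_common`).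

Consequently (`eq_zero_or_one`), if moreover `S₁ ∩ S₂ = Λ`, `π` is prime, `Λ / π` is a field and
`π` is not a unit of `S₁`, then `e₁ ≡ 0` or `e₁ ≡ 1 mod π S₁`.
-/

set_option autoImplicit false

namespace Fermat.Agent.S18

namespace CechAbs

section Lift

variable {R : Type*} [CommRing R]

theorem newton_sub (e : R) :
    (3 * e ^ 2 - 2 * e ^ 3) - e = (e ^ 2 - e) * (1 - 2 * e) := by ring

theorem newton_sq_sub (e : R) :
    (3 * e ^ 2 - 2 * e ^ 3) ^ 2 - (3 * e ^ 2 - 2 * e ^ 3) =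
      (e ^ 2 - e) ^ 2 * (4 * e ^ 2 - 4 * e - 3) := by ring

/-- Lifting of idempotents: an idempotent modulo `p` lifts to an idempotent modulo `p ^ (n+1)`,
congruent to the given one modulo `p`. -/
theorem exists_lift (p e : R) (he : p ∣ e ^ 2 - e) (n : ℕ) :
    ∃ e' : R, p ∣ e' - e ∧ p ^ (n + 1) ∣ e' ^ 2 - e' := by
  induction n with
  | zero => exact ⟨e, by rw [sub_self]; exact dvd_zero p, by rw [zero_add, pow_one]; exact he⟩
  | succ n ih =>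
    obtain ⟨e', h1, h2⟩ := ih
    refine ⟨3 * e' ^ 2 - 2 * e' ^ 3, ?_, ?_⟩
    · have h3 : p ∣ (3 * e' ^ 2 - 2 * e' ^ 3) - e' := by
        rw [newton_sub]
        exact Dvd.dvd.mul_right ((dvd_pow_self p (Nat.succ_ne_zero n)).trans h2) _
      have h4 : (3 * e' ^ 2 - 2 * e' ^ 3) - e = ((3 * e' ^ 2 - 2 * e' ^ 3) - e') + (e' - e) := by
        ring
      rw [h4]
      exact dvd_add h3 h1
    · rw [newton_sq_sub]
      have h5 : p ^ (n + 1 + 1) ∣ (p ^ (n + 1)) ^ 2 := by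
        rw [← pow_mul]
        exact pow_dvd_pow p (by omega)
      exact Dvd.dvd.mul_right (h5.trans (pow_dvd_pow_of_dvd h2 2)) _

theorem sub_cube_sub (e₁ e₂ : R) :
    (e₁ - e₂) ^ 3 - (e₁ - e₂) =
      (e₁ ^ 2 - e₁) * (e₁ + 1 - 3 * e₂) + (e₂ ^ 2 - e₂) * (3 * e₁ - e₂ - 1) := by ring

/-- Uniqueness of idempotent lifts: two idempotents modulo `p ^ n` which are congruent modulo
`p` are congruent modulo `p ^ n`. -/
theorem dvd_sub_of_idem (p e₁ e₂ : R) (n : ℕ) (h : p ∣ e₁ - e₂) (h₁ : p ^ n ∣ e₁ ^ 2 - e₁)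
    (h₂ : p ^ n ∣ e₂ ^ 2 - e₂) : p ^ n ∣ e₁ - e₂ := by
  have h3 : p ^ n ∣ (e₁ - e₂) ^ 3 - (e₁ - e₂) := by
    rw [sub_cube_sub]
    exact dvd_add (Dvd.dvd.mul_right h₁ _) (Dvd.dvd.mul_right h₂ _)
  have key : ∀ k : ℕ, k ≤ n → p ^ k ∣ e₁ - e₂ := by
    intro k
    induction k with
    | zero => intro _; rw [pow_zero]; exact one_dvd _
    | succ k ih =>
      intro hk
      rcases Nat.eq_zero_or_pos k with rfl | hkpos
      · rw [zero_add, pow_one]; exact h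
      · have h4 : p ^ k ∣ e₁ - e₂ := ih (by omega)
        have h5 : p ^ (k + 1) ∣ (e₁ - e₂) ^ 3 := by
          have h6 : p ^ (k + 1) ∣ (p ^ k) ^ 3 := by
            rw [← pow_mul]
            exact pow_dvd_pow p (by omega)
          exact h6.trans (pow_dvd_pow_of_dvd h4 3)
        have h7 : e₁ - e₂ = (e₁ - e₂) ^ 3 - ((e₁ - e₂) ^ 3 - (e₁ - e₂)) := by ring
        rw [h7]
        exact dvd_sub h5 ((pow_dvd_pow p hk).trans h3)
  exact key n le_rfl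

end Lift

section Torsion

variable {Λ M : Type*} [CommRing Λ] [AddCommGroup M] [Module Λ M]

/-- In a noetherian module the `π`-power torsion is killed by a fixed power of `π`. -/
theorem exists_pow_torsion_bound [IsNoetherian Λ M] (π : Λ) :
    ∃ c : ℕ, ∀ (m : M) (n : ℕ), π ^ n • m = 0 → π ^ c • m = 0 := by
  let f : ℕ →o Submodule Λ M :=
    { toFun := fun n => LinearMap.ker (LinearMap.lsmul Λ M (π ^ n))
      monotone' := by
        intro a b hab m hm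
        rw [LinearMap.mem_ker, LinearMap.lsmul_apply] at hm ⊢
        obtain ⟨d, rfl⟩ := Nat.exists_eq_add_of_le hab
        rw [pow_add, mul_comm, mul_smul, hm, smul_zero] }
  obtain ⟨c, hc⟩ := monotone_stabilizes_iff_noetherian.mpr (inferInstance : IsNoetherian Λ M) f
  refine ⟨c, fun m n hmn => ?_⟩
  have h1 : m ∈ f (max n c) := f.monotone (le_max_left n c) (by
    show m ∈ LinearMap.ker (LinearMap.lsmul Λ M (π ^ n))
    rw [LinearMap.mem_ker, LinearMap.lsmul_apply]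
    exact hmn)
  rw [← hc (max n c) (le_max_right n c)] at h1
  have h2 : m ∈ LinearMap.ker (LinearMap.lsmul Λ M (π ^ c)) := h1
  rwa [LinearMap.mem_ker, LinearMap.lsmul_apply] at h2

end Torsion

section Main

variable {Λ S : Type*} [CommRing Λ] [CommRing S] [Algebra Λ S]

/-- **Čech lemma.** Idempotents modulo `π` on the two charts which agree on the overlap come,
modulo `π`, from a common element of `S₁ ∩ S₂`. -/
theorem exists_common [IsNoetherianRing Λ] (π : Λ) (S₁ S₂ : Subalgebra Λ S)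
    (hfg : Module.Finite Λ (S ⧸ (Subalgebra.toSubmodule S₁ ⊔ Subalgebra.toSubmodule S₂)))
    (e₁ e₂ : S) (he₁ : e₁ ∈ S₁) (he₂ : e₂ ∈ S₂)
    (h₁ : ∃ a ∈ S₁, e₁ ^ 2 - e₁ = π • a) (h₂ : ∃ b ∈ S₂, e₂ ^ 2 - e₂ = π • b)
    (h : ∃ z : S, e₁ - e₂ = π • z) :
    ∃ x : S, x ∈ S₁ ∧ x ∈ S₂ ∧ (∃ a ∈ S₁, e₁ - x = π • a) ∧ (∃ b ∈ S₂, e₂ - x = π • b) := by
  have hnoeth : IsNoetherian Λ (S ⧸ (Subalgebra.toSubmodule S₁ ⊔ Subalgebra.toSubmodule S₂)) :=
    isNoetherian_of_isNoetherianRing_of_finite Λ _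
  obtain ⟨c, hc⟩ := exists_pow_torsion_bound
    (M := S ⧸ (Subalgebra.toSubmodule S₁ ⊔ Subalgebra.toSubmodule S₂)) π
  -- lift the idempotents modulo `π ^ (c + 1)` inside `S₁` and `S₂`
  obtain ⟨a, ha, ha'⟩ := h₁
  obtain ⟨b, hb, hb'⟩ := h₂
  obtain ⟨z, hz⟩ := h
  have hd₁ : algebraMap Λ ↥S₁ π ∣ (⟨e₁, he₁⟩ : ↥S₁) ^ 2 - ⟨e₁, he₁⟩ :=
    ⟨⟨a, ha⟩, Subtype.ext (by
      show e₁ ^ 2 - e₁ = algebraMap Λ S π * a
      rw [ha', Algebra.smul_def])⟩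
  have hd₂ : algebraMap Λ ↥S₂ π ∣ (⟨e₂, he₂⟩ : ↥S₂) ^ 2 - ⟨e₂, he₂⟩ :=
    ⟨⟨b, hb⟩, Subtype.ext (by
      show e₂ ^ 2 - e₂ = algebraMap Λ S π * b
      rw [hb', Algebra.smul_def])⟩
  obtain ⟨f₁, hf₁, hf₁'⟩ := exists_lift _ _ hd₁ c
  obtain ⟨f₂, hf₂, hf₂'⟩ := exists_lift _ _ hd₂ c
  obtain ⟨u₁, hu₁⟩ := hf₁
  obtain ⟨u₂, hu₂⟩ := hf₂
  have hu₁' : (f₁ : S) - e₁ = algebraMap Λ S π * (u₁ : S) := congrArg Subtype.val hu₁
  have hu₂' : (f₂ : S) - e₂ = algebraMap Λ S π * (u₂ : S) := congrArg Subtype.val hu₂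
  have hp₁ : algebraMap Λ S π ^ (c + 1) ∣ (f₁ : S) ^ 2 - (f₁ : S) := by
    obtain ⟨w, hw⟩ := hf₁'
    exact ⟨(w : S), by
      have := congrArg Subtype.val hw
      simpa using this⟩
  have hp₂ : algebraMap Λ S π ^ (c + 1) ∣ (f₂ : S) ^ 2 - (f₂ : S) := by
    obtain ⟨w, hw⟩ := hf₂'
    exact ⟨(w : S), by
      have := congrArg Subtype.val hw
      simpa using this⟩
  have hp : algebraMap Λ S π ∣ (f₁ : S) - (f₂ : S) := by
    refine ⟨(u₁ : S) + z - (u₂ : S), ?_⟩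
    have h3 : (f₁ : S) - (f₂ : S) = ((f₁ : S) - e₁) + (e₁ - e₂) - ((f₂ : S) - e₂) := by ring
    rw [h3, hu₁', hu₂', hz, Algebra.smul_def]
    ring
  obtain ⟨w, hw⟩ := dvd_sub_of_idem _ _ _ (c + 1) hp hp₁ hp₂
  -- `π ^ (c + 1) • [w] = 0` in `S / (S₁ + S₂)`
  have hmem : (f₁ : S) - (f₂ : S) ∈ Subalgebra.toSubmodule S₁ ⊔ Subalgebra.toSubmodule S₂ :=
    Submodule.sub_mem _ (Submodule.mem_sup_left f₁.2) (Submodule.mem_sup_right f₂.2)
  have hw0 : π ^ (c + 1) •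
      (Submodule.Quotient.mk w : S ⧸ (Subalgebra.toSubmodule S₁ ⊔ Subalgebra.toSubmodule S₂)) =
        0 := by
    rw [← Submodule.Quotient.mk_smul, Submodule.Quotient.mk_eq_zero, Algebra.smul_def, map_pow,
      ← hw]
    exact hmem
  have hwc := hc _ _ hw0
  rw [← Submodule.Quotient.mk_smul, Submodule.Quotient.mk_eq_zero] at hwc
  obtain ⟨a', ha', b', hb', hab⟩ := Submodule.mem_sup.mp hwc
  -- the common element
  have hkey : (f₁ : S) - algebraMap Λ S π * a' = (f₂ : S) + algebraMap Λ S π * b' := by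
    have h4 : (f₁ : S) - (f₂ : S) = algebraMap Λ S π * (a' + b') := by
      rw [hw, hab, Algebra.smul_def, map_pow, pow_succ]
      ring
    have h5 : (f₁ : S) - algebraMap Λ S π * a' =
        ((f₁ : S) - (f₂ : S)) + (f₂ : S) - algebraMap Λ S π * a' := by ring
    rw [h5, h4]
    ring
  refine ⟨(f₁ : S) - algebraMap Λ S π * a', ?_, ?_, ?_, ?_⟩
  · exact S₁.sub_mem f₁.2 (S₁.mul_mem (S₁.algebraMap_mem π) ha')
  · rw [hkey]
    exact S₂.add_mem f₂.2 (S₂.mul_mem (S₂.algebraMap_mem π) hb')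
  · refine ⟨a' - (u₁ : S), S₁.sub_mem ha' u₁.2, ?_⟩
    have h6 : e₁ - ((f₁ : S) - algebraMap Λ S π * a') =
        algebraMap Λ S π * a' - ((f₁ : S) - e₁) := by ring
    rw [h6, hu₁', Algebra.smul_def]
    ring
  · refine ⟨-b' - (u₂ : S), S₂.sub_mem (S₂.neg_mem hb') u₂.2, ?_⟩
    rw [hkey]
    have h6 : e₂ - ((f₂ : S) + algebraMap Λ S π * b') =
        -(algebraMap Λ S π * b') - ((f₂ : S) - e₂) := by ring
    rw [h6, hu₂', Algebra.smul_def]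
    ring

/-- **Čech lemma, connectedness form.** If moreover `S₁ ∩ S₂ = Λ`, the ideal `(π)` of `Λ` is
maximal and `π` is not a unit of `S₁`, then an idempotent modulo `π` of `S₁` which agrees on the
overlap with an idempotent modulo `π` of `S₂` is `0` or `1` modulo `π S₁`. -/
theorem eq_zero_or_one [IsNoetherianRing Λ] (π : Λ) (hπ : (Ideal.span {π}).IsMaximal)
    (S₁ S₂ : Subalgebra Λ S)
    (hfg : Module.Finite Λ (S ⧸ (Subalgebra.toSubmodule S₁ ⊔ Subalgebra.toSubmodule S₂)))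
    (hcap : ∀ x : S, x ∈ S₁ → x ∈ S₂ → ∃ c : Λ, x = algebraMap Λ S c)
    (hnu : ∀ a ∈ S₁, algebraMap Λ S π * a ≠ 1)
    (e₁ e₂ : S) (he₁ : e₁ ∈ S₁) (he₂ : e₂ ∈ S₂)
    (h₁ : ∃ a ∈ S₁, e₁ ^ 2 - e₁ = π • a) (h₂ : ∃ b ∈ S₂, e₂ ^ 2 - e₂ = π • b)
    (h : ∃ z : S, e₁ - e₂ = π • z) :
    (∃ a ∈ S₁, e₁ = π • a) ∨ (∃ a ∈ S₁, e₁ - 1 = π • a) := by
  obtain ⟨x, hx₁, hx₂, ⟨a₁, ha₁, hxa⟩, -⟩ := exists_common π S₁ S₂ hfg e₁ e₂ he₁ he₂ h₁ h₂ h
  obtain ⟨c, rfl⟩ := hcap x hx₁ hx₂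
  obtain ⟨a, ha, hea⟩ := h₁
  rw [Algebra.smul_def] at hxa hea
  -- `c ^ 2 - c ∈ π S₁`
  have hcc : algebraMap Λ S (c ^ 2 - c) =
      algebraMap Λ S π * (a - (a₁ * e₁ + a₁ * e₁) + algebraMap Λ S π * a₁ ^ 2 + a₁) := by
    have h3 : algebraMap Λ S c = e₁ - algebraMap Λ S π * a₁ := by rw [← hxa]; ring
    rw [map_sub, map_pow, h3]
    have h4 : (e₁ - algebraMap Λ S π * a₁) ^ 2 - (e₁ - algebraMap Λ S π * a₁) =
        (e₁ ^ 2 - e₁) + algebraMap Λ S π * (-2 * a₁ * e₁ + algebraMap Λ S π * a₁ ^ 2 + a₁) := by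
      ring
    rw [h4, hea]
    ring
  have hmemS₁ : a - (a₁ * e₁ + a₁ * e₁) + algebraMap Λ S π * a₁ ^ 2 + a₁ ∈ S₁ :=
    S₁.add_mem (S₁.add_mem (S₁.sub_mem ha (S₁.add_mem (S₁.mul_mem ha₁ he₁) (S₁.mul_mem ha₁ he₁)))
      (S₁.mul_mem (S₁.algebraMap_mem π) (S₁.pow_mem ha₁ 2))) ha₁
  have hmem : c ^ 2 - c ∈ Ideal.span {π} := by
    by_contra hnot
    obtain ⟨ν, i, hi, hνi⟩ := hπ.exists_inv hnot
    obtain ⟨τ, rfl⟩ := Ideal.mem_span_singleton'.mp hi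
    have h5 := congrArg (algebraMap Λ S) hνi
    rw [map_add, map_mul, map_mul, map_one, hcc] at h5
    refine hnu (algebraMap Λ S ν * (a - (a₁ * e₁ + a₁ * e₁) + algebraMap Λ S π * a₁ ^ 2 + a₁) +
      algebraMap Λ S τ) (S₁.add_mem (S₁.mul_mem (S₁.algebraMap_mem ν) hmemS₁)
        (S₁.algebraMap_mem τ)) ?_
    rw [← h5]
    ring
  have hprime : (Ideal.span {π}).IsPrime := hπ.isPrime
  have hfac : c * (c - 1) ∈ Ideal.span {π} := by
    have : c * (c - 1) = c ^ 2 - c := by ring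
    rw [this]
    exact hmem
  rcases hprime.mem_or_mem hfac with hc | hc
  · left
    obtain ⟨s, rfl⟩ := Ideal.mem_span_singleton'.mp hc
    refine ⟨a₁ + algebraMap Λ S s, S₁.add_mem ha₁ (S₁.algebraMap_mem s), ?_⟩
    have h6 : e₁ = (e₁ - algebraMap Λ S (s * π)) + algebraMap Λ S (s * π) := by ring
    rw [h6, hxa, Algebra.smul_def, map_mul]
    ring
  · right
    obtain ⟨s, hs⟩ := Ideal.mem_span_singleton'.mp hc
    refine ⟨a₁ + algebraMap Λ S s, S₁.add_mem ha₁ (S₁.algebraMap_mem s), ?_⟩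
    have h7 : algebraMap Λ S c - 1 = algebraMap Λ S s * algebraMap Λ S π := by
      rw [← map_mul, hs, map_sub, map_one]
    have h6 : e₁ - 1 = (e₁ - algebraMap Λ S c) + (algebraMap Λ S c - 1) := by ring
    rw [h6, hxa, h7, Algebra.smul_def]
    ring

end Main

end CechAbs

end Fermat.Agent.S18
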