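import Mathlib

/-!
P11 (S18), Step D of the blueprint (note 179): the side conditions of the two-chart Čech lemma in
the concrete setting, and the resulting concrete connectedness statement.

Setting: `Λ` a commutative ring, `E` a commutative `Λ`-algebra, `x x' : E` with `x * x' = 1`.
`S_fin`, `S_inf`, `S_mid` are the sets of elements of `E` integral over `Λ[x]`, `Λ[x']`,
`Λ[x, x']` (spelled `IsIntegral (Algebra.adjoin Λ {x}) z` etc.; as `Λ`-subalgebras of `E` they are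
`intAdjoin Λ {x}`, `intAdjoin Λ {x'}`, `intAdjoin Λ {x, x'}`).

Main results (namespace `Fermat.Agent.S18.CechAux`):

* `isIntegral_of_isIntegral_adjoin_inv` (`E` a domain): an element integral over both `Λ[x]` and
  `Λ[x⁻¹]` is integral over `Λ`  (so `S_fin ∩ S_inf = Λ` once `Λ` is integrally closed in `E`,
  see `exists_algebraMap_eq_of_isIntegral`).
* `exists_forall_isIntegral_pow_mul` and its corollaries: scaling lemmas
  (`z ∈ S_mid ⇒ x ^ e * z ∈ S_fin` for large `e`; `s ∈ S_fin ⇒ x' ^ e * s ∈ S_inf` for large `e`).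
* `exists_finset_forall_mem_sup`: if `S_fin` is spanned over `Λ[x]` by a finite set, then
  `S_mid ⊆ S_fin + S_inf + span_Λ G` for a finite `G ⊆ S_mid`  ("`H¹` is finitely generated").
* `exists_common_of_finset`, `eq_zero_or_one_of_finset`: the Čech lemma for subalgebras
  `S₁, S₂ ⊆ S_mid` of an ambient ring `E` with `S_mid ⊆ S₁ + S₂ + span_Λ G`.
* `eq_zero_or_one_of_isIntegral`, `eq_zero_or_one_of_finite`: everything combined: for `Λ`
  noetherian with `(π)` maximal, `E` a domain in which `Λ` is integrally closed, and `S_fin`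
  finite over `Λ[x]`: idempotents modulo `π` of `S_fin` and `S_inf` which agree modulo `π S_mid`
  are trivial.
-/

set_option autoImplicit false

namespace Fermat.Agent.S18

namespace CechAux

open Polynomial

section Span

variable {Λ E : Type*} [CommRing Λ] [CommRing E] [Algebra Λ E]

/-- The `Λ`-span of the monomials `x ^ k * y ^ l`, `k ≤ B`, `l < N`. -/
def monoSpan (Λ : Type*) {E : Type*} [CommRing Λ] [CommRing E] [Algebra Λ E] (x y : E) (B N : ℕ) :
    Submodule Λ E :=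
  Submodule.span Λ (Set.image2 (fun k l => x ^ k * y ^ l) (Set.Iic B) (Set.Iio N))

theorem monoSpan_fg (x y : E) (B N : ℕ) : (monoSpan Λ x y B N).FG :=
  Submodule.fg_span (Set.Finite.image2 _ (Set.finite_Iic B) (Set.finite_Iio N))

theorem mem_monoSpan (x y : E) {B N k l : ℕ} (hk : k ≤ B) (hl : l < N) :
    x ^ k * y ^ l ∈ monoSpan Λ x y B N :=
  Submodule.subset_span ⟨k, hk, l, hl, rfl⟩

theorem mul_aeval_mem_monoSpan (x y : E) {B N k l D : ℕ} (q : Λ[X]) (hq : q.natDegree ≤ D)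
    (hk : k + D ≤ B) (hl : l < N) : x ^ k * aeval x q * y ^ l ∈ monoSpan Λ x y B N := by
  rw [aeval_eq_sum_range' (Nat.lt_succ_of_le hq), Finset.mul_sum, Finset.sum_mul]
  refine Submodule.sum_mem _ fun e he => ?_
  have he' : e ≤ D := Nat.lt_succ_iff.mp (Finset.mem_range.mp he)
  have : x ^ k * (q.coeff e • x ^ e) * y ^ l = q.coeff e • (x ^ (k + e) * y ^ l) := by
    rw [pow_add, Algebra.smul_def, Algebra.smul_def]; ring
  rw [this]
  exact Submodule.smul_mem _ _ (mem_monoSpan x y (by omega) hl)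

theorem mul_aeval_inv_mem_monoSpan (x x' y : E) (hx : x * x' = 1) {B N k l D : ℕ} (q : Λ[X])
    (hq : q.natDegree ≤ D) (hk : k ≤ B) (hD : D ≤ k) (hl : l < N) :
    x ^ k * aeval x' q * y ^ l ∈ monoSpan Λ x y B N := by
  rw [aeval_eq_sum_range' (Nat.lt_succ_of_le hq), Finset.mul_sum, Finset.sum_mul]
  refine Submodule.sum_mem _ fun e he => ?_
  have he' : e ≤ D := Nat.lt_succ_iff.mp (Finset.mem_range.mp he)
  have h1 : x ^ k * x' ^ e = x ^ (k - e) := by
    have : k = (k - e) + e := by omega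
    conv_lhs => rw [this, pow_add, mul_assoc, ← mul_pow, hx, one_pow, mul_one]
  have : x ^ k * (q.coeff e • x' ^ e) * y ^ l = q.coeff e • (x ^ (k - e) * y ^ l) := by
    rw [← h1, Algebra.smul_def, Algebra.smul_def]; ring
  rw [this]
  exact Submodule.smul_mem _ _ (mem_monoSpan x y (by omega) hl)

end Span

/-- A monic relation of degree `n` over a subalgebra, written out. -/
theorem pow_eq_neg_sum_of_monic {Λ E : Type*} [CommRing Λ] [CommRing E] [Algebra Λ E]
    (R : Subalgebra Λ E) (y : E) (p : R[X]) (hp : p.Monic) (hy : aeval y p = 0) :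
    y ^ p.natDegree = - ∑ i ∈ Finset.range p.natDegree, ((p.coeff i : R) : E) * y ^ i := by
  rw [aeval_eq_sum_range, Finset.sum_range_succ, hp.coeff_natDegree, one_smul] at hy
  rw [eq_neg_iff_add_eq_zero, add_comm, ← hy]
  congr 1

/-- **Kaplansky-type lemma.** If `x` is a unit of a domain `E` and `y` is integral over both
`Λ[x]` and `Λ[x⁻¹]`, then `y` is integral over `Λ`. -/
theorem isIntegral_of_isIntegral_adjoin_inv {Λ E : Type*} [CommRing Λ] [CommRing E] [IsDomain E]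
    [Algebra Λ E] {x x' : E} (hx : x * x' = 1) {y : E}
    (h1 : IsIntegral (Algebra.adjoin Λ {x}) y) (h2 : IsIntegral (Algebra.adjoin Λ {x'}) y) :
    IsIntegral Λ y := by
  obtain ⟨p, hp, hpy⟩ := h1
  obtain ⟨p', hp', hpy'⟩ := h2
  have hpy1 : aeval y p = 0 := hpy
  have hpy1' : aeval y p' = 0 := hpy'
  have hrel := pow_eq_neg_sum_of_monic _ y p hp hpy1
  have hrel' := pow_eq_neg_sum_of_monic _ y p' hp' hpy1'
  have hq : ∀ i : ℕ, ∃ q : Λ[X], aeval x q = ((p.coeff i : Algebra.adjoin Λ {x}) : E) := by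
    intro i
    have h : ((p.coeff i : Algebra.adjoin Λ {x}) : E) ∈ (aeval x : Λ[X] →ₐ[Λ] E).range := by
      rw [← Algebra.adjoin_singleton_eq_range_aeval]
      exact (p.coeff i).2
    exact (AlgHom.mem_range _).mp h
  have hq' : ∀ i : ℕ, ∃ q : Λ[X], aeval x' q = ((p'.coeff i : Algebra.adjoin Λ {x'}) : E) := by
    intro i
    have h : ((p'.coeff i : Algebra.adjoin Λ {x'}) : E) ∈ (aeval x' : Λ[X] →ₐ[Λ] E).range := by
      rw [← Algebra.adjoin_singleton_eq_range_aeval]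
      exact (p'.coeff i).2
    exact (AlgHom.mem_range _).mp h
  choose q hq using hq
  choose q' hq' using hq'
  set n := p.natDegree with hn
  set m := p'.natDegree with hm
  set D := (Finset.range n).sup (fun i => (q i).natDegree) with hD
  set D' := (Finset.range m).sup (fun i => (q' i).natDegree) with hD'
  set N := n + m + 1 with hN
  have hqD : ∀ i < n, (q i).natDegree ≤ D := fun i hi =>
    Finset.le_sup (f := fun i => (q i).natDegree) (Finset.mem_range.mpr hi)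
  have hqD' : ∀ i < m, (q' i).natDegree ≤ D' := fun i hi =>
    Finset.le_sup (f := fun i => (q' i).natDegree) (Finset.mem_range.mpr hi)
  refine isIntegral_of_smul_mem_submodule (monoSpan Λ x y (D + D') N) ?_
    (monoSpan_fg x y _ _) y ?_
  · intro h
    have h1 : (1 : E) ∈ monoSpan Λ x y (D + D') N := by
      have := mem_monoSpan (Λ := Λ) x y (Nat.zero_le (D + D')) (show 0 < N by omega)
      simpa using this
    rw [h, Submodule.mem_bot] at h1
    exact one_ne_zero h1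
  · intro w hw
    rw [smul_eq_mul]
    induction hw using Submodule.span_induction with
    | mem w hw =>
      obtain ⟨k, hk, l, hl, rfl⟩ := hw
      rw [Set.mem_Iic] at hk
      rw [Set.mem_Iio] at hl
      by_cases hlN : l + 1 < N
      · have : y * (x ^ k * y ^ l) = x ^ k * y ^ (l + 1) := by ring
        rw [this]
        exact mem_monoSpan x y hk hlN
      · have hlN' : l + 1 = N := by omega
        by_cases hkD : k ≤ D'
        · -- use the relation over `Λ[x]`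
          have : y * (x ^ k * y ^ l) =
              - ∑ i ∈ Finset.range n, x ^ k * aeval x (q i) * y ^ (i + (N - n)) := by
            have e1 : y * (x ^ k * y ^ l) = x ^ k * (y ^ n * y ^ (N - n)) := by
              rw [← pow_add, show n + (N - n) = l + 1 by omega]; ring
            rw [e1, hrel, neg_mul, mul_neg, Finset.sum_mul, Finset.mul_sum]
            congr 1
            refine Finset.sum_congr rfl fun i _ => ?_
            rw [hq i, pow_add]; ring
          rw [this]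
          refine Submodule.neg_mem _ (Submodule.sum_mem _ fun i hi => ?_)
          have hi' := Finset.mem_range.mp hi
          exact mul_aeval_mem_monoSpan x y (q i) (hqD i hi') (by omega) (by omega)
        · -- use the relation over `Λ[x⁻¹]`
          have : y * (x ^ k * y ^ l) =
              - ∑ i ∈ Finset.range m, x ^ k * aeval x' (q' i) * y ^ (i + (N - m)) := by
            have e1 : y * (x ^ k * y ^ l) = x ^ k * (y ^ m * y ^ (N - m)) := by
              rw [← pow_add, show m + (N - m) = l + 1 by omega]; ring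
            rw [e1, hrel', neg_mul, mul_neg, Finset.sum_mul, Finset.mul_sum]
            congr 1
            refine Finset.sum_congr rfl fun i _ => ?_
            rw [hq' i, pow_add]; ring
          rw [this]
          refine Submodule.neg_mem _ (Submodule.sum_mem _ fun i hi => ?_)
          have hi' := Finset.mem_range.mp hi
          exact mul_aeval_inv_mem_monoSpan x x' y hx (q' i) (hqD' i hi') hk (by omega) (by omega)
    | zero => simp
    | add a b _ _ ha hb => rw [mul_add]; exact Submodule.add_mem _ ha hb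
    | smul c a _ ha => rw [mul_smul_comm]; exact Submodule.smul_mem _ c ha

section Scaling

variable {Λ E : Type*} [CommRing Λ] [CommRing E] [Algebra Λ E]

/-- An explicit monic relation gives integrality. -/
theorem isIntegral_of_pow_add_sum {R : Type*} [CommRing R] [Algebra R E] (z : E) (n : ℕ)
    (c : Fin n → R) (h : z ^ n + ∑ i : Fin n, algebraMap R E (c i) * z ^ (i : ℕ) = 0) :
    IsIntegral R z := by
  refine ⟨X ^ n + ∑ i : Fin n, C (c i) * X ^ (i : ℕ), monic_X_pow_add (degree_sum_fin_lt c), ?_⟩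
  rw [eval₂_add, eval₂_pow, eval₂_X, eval₂_finsetSum]
  simp only [eval₂_mul, eval₂_C, eval₂_pow, eval₂_X]
  exact h

/-- A monic relation of degree `n` over a subalgebra, written out with `Fin n`-indexed
coefficients. -/
theorem exists_pow_add_sum_of_isIntegral (R : Subalgebra Λ E) {z : E} (hz : IsIntegral R z) :
    ∃ (n : ℕ) (c : Fin n → E), (∀ i, c i ∈ R) ∧ z ^ n + ∑ i : Fin n, c i * z ^ (i : ℕ) = 0 := by
  obtain ⟨p, hp, hpz⟩ := hz
  have hpz' : aeval z p = 0 := hpz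
  refine ⟨p.natDegree, fun i => ((p.coeff i : R) : E), fun i => (p.coeff i).2, ?_⟩
  rw [aeval_eq_sum_range, Finset.sum_range_succ, hp.coeff_natDegree, one_smul, add_comm] at hpz'
  rw [← hpz', Finset.sum_range (fun i => p.coeff i • z ^ i)]
  rfl

/-- **Scaling lemma.** Let `A₁, A₂` be subalgebras of `E` and `u ∈ A₂` such that every element of
`A₁` is pushed into `A₂` by a power of `u`.  If `z` is integral over `A₁`, then `u ^ e * z` is
integral over `A₂` for all large `e`. -/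
theorem exists_forall_isIntegral_pow_mul (A₁ A₂ : Subalgebra Λ E) {u : E} (hu : u ∈ A₂)
    (h : ∀ c ∈ A₁, ∃ k : ℕ, u ^ k * c ∈ A₂) {z : E} (hz : IsIntegral A₁ z) :
    ∃ N : ℕ, ∀ e : ℕ, N ≤ e → IsIntegral A₂ (u ^ e * z) := by
  obtain ⟨n, c, hc, hrel⟩ := exists_pow_add_sum_of_isIntegral A₁ hz
  choose k hk using fun i => h (c i) (hc i)
  refine ⟨Finset.univ.sup k, fun e he => ?_⟩
  have hmem : ∀ i : Fin n, u ^ (e * (n - (i : ℕ))) * c i ∈ A₂ := by
    intro i
    have h1 : k i ≤ e * (n - (i : ℕ)) := by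
      have h2 : k i ≤ e := (Finset.le_sup (f := k) (Finset.mem_univ i)).trans he
      have h3 : 1 ≤ n - (i : ℕ) := by have := i.2; omega
      calc k i ≤ e * 1 := by omega
        _ ≤ e * (n - (i : ℕ)) := Nat.mul_le_mul_left e h3
    obtain ⟨j, hj⟩ := Nat.exists_eq_add_of_le h1
    rw [hj, add_comm, pow_add, mul_assoc]
    exact A₂.mul_mem (A₂.pow_mem hu j) (hk i)
  refine isIntegral_of_pow_add_sum (R := A₂) (u ^ e * z) n
    (fun i => ⟨u ^ (e * (n - (i : ℕ))) * c i, hmem i⟩) ?_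
  have h4 : ∀ i : Fin n, algebraMap A₂ E ⟨u ^ (e * (n - (i : ℕ))) * c i, hmem i⟩ *
      (u ^ e * z) ^ (i : ℕ) = u ^ (e * n) * (c i * z ^ (i : ℕ)) := by
    intro i
    have h5 : e * n = e * (n - (i : ℕ)) + e * (i : ℕ) := by
      rw [← Nat.mul_add]; congr 1; have := i.2; omega
    rw [h5, pow_add, mul_pow, ← pow_mul]
    show u ^ (e * (n - (i : ℕ))) * c i * (u ^ (e * (i : ℕ)) * z ^ (i : ℕ)) = _
    ring
  rw [Finset.sum_congr rfl (fun i _ => h4 i), ← Finset.mul_sum, mul_pow, ← pow_mul, ← mul_add,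
    hrel, mul_zero]

variable {x x' : E}

/-- Every element of `Λ[x]` is pushed into `Λ[x⁻¹]` by a power of `x⁻¹`. -/
theorem exists_pow_mul_mem_adjoin_inv (hx : x * x' = 1) :
    ∀ c ∈ Algebra.adjoin Λ {x}, ∃ k : ℕ, x' ^ k * c ∈ Algebra.adjoin Λ {x'} := by
  have hx' : x' ∈ Algebra.adjoin Λ {x'} := Algebra.self_mem_adjoin_singleton Λ x'
  intro c hc
  induction hc using Algebra.adjoin_induction with
  | mem y hy =>
    rw [Set.mem_singleton_iff] at hy
    subst hy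
    exact ⟨1, by rw [pow_one, mul_comm, hx]; exact Subalgebra.one_mem _⟩
  | algebraMap r => exact ⟨0, by rw [pow_zero, one_mul]; exact Subalgebra.algebraMap_mem _ r⟩
  | add a b _ _ ha hb =>
    obtain ⟨k₁, h₁⟩ := ha
    obtain ⟨k₂, h₂⟩ := hb
    refine ⟨k₁ + k₂, ?_⟩
    have : x' ^ (k₁ + k₂) * (a + b) = x' ^ k₂ * (x' ^ k₁ * a) + x' ^ k₁ * (x' ^ k₂ * b) := by
      rw [pow_add]; ring
    rw [this]
    exact Subalgebra.add_mem _ (Subalgebra.mul_mem _ (Subalgebra.pow_mem _ hx' _) h₁)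
      (Subalgebra.mul_mem _ (Subalgebra.pow_mem _ hx' _) h₂)
  | mul a b _ _ ha hb =>
    obtain ⟨k₁, h₁⟩ := ha
    obtain ⟨k₂, h₂⟩ := hb
    refine ⟨k₁ + k₂, ?_⟩
    have : x' ^ (k₁ + k₂) * (a * b) = (x' ^ k₁ * a) * (x' ^ k₂ * b) := by
      rw [pow_add]; ring
    rw [this]
    exact Subalgebra.mul_mem _ h₁ h₂

/-- Every element of `Λ[x, x⁻¹]` is pushed into `Λ[x]` by a power of `x`. -/
theorem exists_pow_mul_mem_adjoin (hx : x * x' = 1) :
    ∀ c ∈ Algebra.adjoin Λ {x, x'}, ∃ k : ℕ, x ^ k * c ∈ Algebra.adjoin Λ {x} := by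
  have hxm : x ∈ Algebra.adjoin Λ {x} := Algebra.self_mem_adjoin_singleton Λ x
  intro c hc
  induction hc using Algebra.adjoin_induction with
  | mem y hy =>
    rcases hy with rfl | hy
    · exact ⟨0, by rw [pow_zero, one_mul]; exact hxm⟩
    · rw [Set.mem_singleton_iff] at hy
      subst hy
      exact ⟨1, by rw [pow_one, hx]; exact Subalgebra.one_mem _⟩
  | algebraMap r => exact ⟨0, by rw [pow_zero, one_mul]; exact Subalgebra.algebraMap_mem _ r⟩
  | add a b _ _ ha hb =>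
    obtain ⟨k₁, h₁⟩ := ha
    obtain ⟨k₂, h₂⟩ := hb
    refine ⟨k₁ + k₂, ?_⟩
    have : x ^ (k₁ + k₂) * (a + b) = x ^ k₂ * (x ^ k₁ * a) + x ^ k₁ * (x ^ k₂ * b) := by
      rw [pow_add]; ring
    rw [this]
    exact Subalgebra.add_mem _ (Subalgebra.mul_mem _ (Subalgebra.pow_mem _ hxm _) h₁)
      (Subalgebra.mul_mem _ (Subalgebra.pow_mem _ hxm _) h₂)
  | mul a b _ _ ha hb =>
    obtain ⟨k₁, h₁⟩ := ha
    obtain ⟨k₂, h₂⟩ := hb
    refine ⟨k₁ + k₂, ?_⟩
    have : x ^ (k₁ + k₂) * (a * b) = (x ^ k₁ * a) * (x ^ k₂ * b) := by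
      rw [pow_add]; ring
    rw [this]
    exact Subalgebra.mul_mem _ h₁ h₂

/-- If `s` is integral over `Λ[x]`, then `x⁻¹ ^ e * s` is integral over `Λ[x⁻¹]` for large `e`. -/
theorem exists_forall_isIntegral_inv_pow_mul (hx : x * x' = 1) {s : E}
    (hs : IsIntegral (Algebra.adjoin Λ {x}) s) :
    ∃ N : ℕ, ∀ e : ℕ, N ≤ e → IsIntegral (Algebra.adjoin Λ {x'}) (x' ^ e * s) :=
  exists_forall_isIntegral_pow_mul _ _ (Algebra.self_mem_adjoin_singleton Λ x')
    (exists_pow_mul_mem_adjoin_inv hx) hs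

/-- If `z` is integral over `Λ[x, x⁻¹]`, then `x ^ e * z` is integral over `Λ[x]` for large
`e`. -/
theorem exists_forall_isIntegral_pow_mul_of_adjoin_pair (hx : x * x' = 1) {z : E}
    (hz : IsIntegral (Algebra.adjoin Λ {x, x'}) z) :
    ∃ N : ℕ, ∀ e : ℕ, N ≤ e → IsIntegral (Algebra.adjoin Λ {x}) (x ^ e * z) :=
  exists_forall_isIntegral_pow_mul _ _ (Algebra.self_mem_adjoin_singleton Λ x)
    (exists_pow_mul_mem_adjoin hx) hz

end Scaling

section Finiteness

variable {Λ E : Type*} [CommRing Λ] [CommRing E] [Algebra Λ E]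

/-- The `Λ`-subalgebra of `E` of all elements integral over `Λ[s]`. -/
def intAdjoin (Λ : Type*) {E : Type*} [CommRing Λ] [CommRing E] [Algebra Λ E] (s : Set E) :
    Subalgebra Λ E :=
  (integralClosure (Algebra.adjoin Λ s) E).restrictScalars Λ

theorem mem_intAdjoin {s : Set E} {z : E} :
    z ∈ intAdjoin Λ s ↔ IsIntegral (Algebra.adjoin Λ s) z := Iff.rfl

theorem isIntegral_adjoin_of_mem {s : Set E} {r : E} (hr : r ∈ Algebra.adjoin Λ s) :
    IsIntegral (Algebra.adjoin Λ s) r :=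
  isIntegral_algebraMap (R := Algebra.adjoin Λ s) (A := E) (x := ⟨r, hr⟩)

theorem isIntegral_adjoin_mono {s t : Set E} (hst : s ⊆ t) {z : E}
    (hz : IsIntegral (Algebra.adjoin Λ s) z) : IsIntegral (Algebra.adjoin Λ t) z :=
  IsIntegral.map_of_comp_eq (Subalgebra.inclusion (Algebra.adjoin_mono hst)).toRingHom
    (RingHom.id E) rfl hz

theorem intAdjoin_mono {s t : Set E} (hst : s ⊆ t) : intAdjoin Λ s ≤ intAdjoin Λ t :=
  fun _ hz => isIntegral_adjoin_mono hst hz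

variable {x x' : E}

/-- The mixed monomials `x'^N * x^j * b` lie in `S_fin + S_inf + span G`. -/
theorem inv_pow_mul_pow_mul_mem (hx : x * x' = 1) {b : E}
    (hb : IsIntegral (Algebra.adjoin Λ {x}) b) {D : ℕ}
    (hD : ∀ e : ℕ, D ≤ e → IsIntegral (Algebra.adjoin Λ {x'}) (x' ^ e * b))
    (T : Submodule Λ E) (hfin : Subalgebra.toSubmodule (intAdjoin Λ {x}) ≤ T)
    (hinf : Subalgebra.toSubmodule (intAdjoin Λ {x'}) ≤ T)
    (hG : ∀ k : ℕ, k < D → x' ^ k * b ∈ T) (N j : ℕ) : x' ^ N * x ^ j * b ∈ T := by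
  rcases Nat.lt_or_ge j N with hjN | hjN
  · have h1 : x' ^ N * x ^ j = x' ^ (N - j) := by
      have : N = (N - j) + j := by omega
      conv_lhs => rw [this, pow_add, mul_assoc, ← mul_pow, mul_comm x' x, hx, one_pow, mul_one]
    rw [h1]
    rcases Nat.lt_or_ge (N - j) D with hlt | hge
    · exact hG _ hlt
    · exact hinf (hD _ hge)
  · have h1 : x' ^ N * x ^ j = x ^ (j - N) := by
      have : j = (j - N) + N := by omega
      conv_lhs => rw [this, pow_add, mul_comm (x ^ (j - N)), ← mul_assoc, ← mul_pow,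
        mul_comm x' x, hx, one_pow, one_mul]
    rw [h1]
    refine hfin ?_
    exact IsIntegral.mul (isIntegral_adjoin_of_mem
      (Subalgebra.pow_mem _ (Algebra.self_mem_adjoin_singleton Λ x) _)) hb

/-- **`H¹` is finitely generated.**  If the integral closure `S_fin` of `Λ[x]` is spanned over
`Λ[x]` by a finite set `B`, then there is a finite set `G` of elements integral over
`Λ[x, x⁻¹]` such that every element integral over `Λ[x, x⁻¹]` lies in
`S_fin + S_inf + span_Λ G`. -/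
theorem exists_finset_forall_mem_sup (hx : x * x' = 1) (B : Finset E)
    (hB : ∀ b ∈ B, IsIntegral (Algebra.adjoin Λ {x}) b)
    (hspan : ∀ s : E, IsIntegral (Algebra.adjoin Λ {x}) s →
      s ∈ Submodule.span (Algebra.adjoin Λ {x}) (B : Set E)) :
    ∃ G : Finset E, (∀ g ∈ G, IsIntegral (Algebra.adjoin Λ {x, x'}) g) ∧
      ∀ z : E, IsIntegral (Algebra.adjoin Λ {x, x'}) z →
        z ∈ Subalgebra.toSubmodule (intAdjoin Λ {x}) ⊔
          Subalgebra.toSubmodule (intAdjoin Λ {x'}) ⊔ Submodule.span Λ (G : Set E) := by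
  classical
  have h0 : ∀ b : E, b ∈ B → ∃ N : ℕ, ∀ e : ℕ, N ≤ e →
      IsIntegral (Algebra.adjoin Λ {x'}) (x' ^ e * b) :=
    fun b hb => exists_forall_isIntegral_inv_pow_mul hx (hB b hb)
  choose! d hd using h0
  set D := B.sup d with hDdef
  have hD : ∀ b ∈ B, ∀ e : ℕ, D ≤ e → IsIntegral (Algebra.adjoin Λ {x'}) (x' ^ e * b) :=
    fun b hb e he => hd b hb e ((Finset.le_sup (f := d) hb).trans he)
  set G : Finset E := (B ×ˢ Finset.range D).image (fun p => x' ^ p.2 * p.1) with hGdef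
  have hx'mem : x' ∈ Algebra.adjoin Λ {x, x'} := Algebra.subset_adjoin (by simp)
  refine ⟨G, ?_, ?_⟩
  · intro g hg
    rw [hGdef, Finset.mem_image] at hg
    obtain ⟨⟨b, k⟩, hbk, rfl⟩ := hg
    rw [Finset.mem_product] at hbk
    exact IsIntegral.mul (isIntegral_adjoin_of_mem (Subalgebra.pow_mem _ hx'mem _))
      (isIntegral_adjoin_mono (by simp) (hB b hbk.1))
  · intro z hz
    set T := Subalgebra.toSubmodule (intAdjoin Λ {x}) ⊔
          Subalgebra.toSubmodule (intAdjoin Λ {x'}) ⊔ Submodule.span Λ (G : Set E) with hT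
    have hfin : Subalgebra.toSubmodule (intAdjoin Λ {x}) ≤ T :=
      le_sup_of_le_left le_sup_left
    have hinf : Subalgebra.toSubmodule (intAdjoin Λ {x'}) ≤ T :=
      le_sup_of_le_left le_sup_right
    have hGT : ∀ b ∈ B, ∀ k : ℕ, k < D → x' ^ k * b ∈ T := by
      intro b hb k hk
      refine (le_sup_right : Submodule.span Λ (G : Set E) ≤ T) (Submodule.subset_span ?_)
      rw [hGdef, Finset.mem_coe, Finset.mem_image]
      exact ⟨(b, k), Finset.mem_product.mpr ⟨hb, Finset.mem_range.mpr hk⟩, rfl⟩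
    obtain ⟨N, hN⟩ := exists_forall_isIntegral_pow_mul_of_adjoin_pair hx hz
    have hs := hspan _ (hN N le_rfl)
    obtain ⟨f, -, hf⟩ := Submodule.mem_span_finset.mp hs
    have hz' : z = x' ^ N * (x ^ N * z) := by
      rw [← mul_assoc, ← mul_pow, mul_comm x' x, hx, one_pow, one_mul]
    rw [hz', ← hf, Finset.mul_sum]
    refine Submodule.sum_mem _ fun b hb => ?_
    -- the coefficient `f b` is a polynomial in `x`
    have hfb : ((f b : Algebra.adjoin Λ {x}) : E) ∈ (aeval x : Λ[X] →ₐ[Λ] E).range := by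
      rw [← Algebra.adjoin_singleton_eq_range_aeval]
      exact (f b).2
    obtain ⟨q, hq⟩ := (AlgHom.mem_range _).mp hfb
    have h2 : x' ^ N * (f b • b) = ∑ j ∈ Finset.range (q.natDegree + 1),
        q.coeff j • (x' ^ N * x ^ j * b) := by
      have h3 : f b • b = ((f b : Algebra.adjoin Λ {x}) : E) * b := rfl
      rw [h3, ← hq, aeval_eq_sum_range, Finset.sum_mul, Finset.mul_sum]
      refine Finset.sum_congr rfl fun j _ => ?_
      rw [Algebra.smul_def, Algebra.smul_def]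
      ring
    rw [h2]
    exact Submodule.sum_mem _ fun j _ => Submodule.smul_mem _ _
      (inv_pow_mul_pow_mul_mem hx (hB b hb) (hD b hb) T hfin hinf (hGT b hb) N j)

end Finiteness

section Lift

/-- Lifting an idempotent modulo `t` to an idempotent modulo `t ^ n`. -/
theorem exists_lift_idem {R : Type*} [CommRing R] (t e : R) (he : t ∣ e ^ 2 - e) (n : ℕ) :
    ∃ e' : R, t ∣ e' - e ∧ t ^ n ∣ e' ^ 2 - e' := by
  induction n with
  | zero => exact ⟨e, by simp, by simp⟩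
  | succ n ih =>
    obtain ⟨e', h1, h2⟩ := ih
    rcases Nat.eq_zero_or_pos n with rfl | hn
    · exact ⟨e, by simp, by simpa using he⟩
    · refine ⟨3 * e' ^ 2 - 2 * e' ^ 3, ?_, ?_⟩
      · have h3 : t ∣ e' ^ 2 - e' := (dvd_pow_self t hn.ne').trans h2
        have : 3 * e' ^ 2 - 2 * e' ^ 3 - e = (e' ^ 2 - e') * (1 - 2 * e') + (e' - e) := by ring
        rw [this]
        exact dvd_add (Dvd.dvd.mul_right h3 _) h1
      · have : (3 * e' ^ 2 - 2 * e' ^ 3) ^ 2 - (3 * e' ^ 2 - 2 * e' ^ 3) =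
            (e' ^ 2 - e') ^ 2 * (4 * e' ^ 2 - 4 * e' - 3) := by ring
        rw [this]
        refine Dvd.dvd.mul_right ?_ _
        refine (pow_dvd_pow t (by omega : n + 1 ≤ n * 2)).trans ?_
        rw [pow_mul]
        exact pow_dvd_pow_of_dvd h2 2

/-- Idempotents modulo `t ^ n` which agree modulo `t` agree modulo `t ^ n`. -/
theorem dvd_sub_of_idem {R : Type*} [CommRing R] (t x y : R) (n : ℕ)
    (hx : t ^ n ∣ x ^ 2 - x) (hy : t ^ n ∣ y ^ 2 - y) (hxy : t ∣ x - y) : t ^ n ∣ x - y := by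
  have hx' : Ideal.Quotient.mk (Ideal.span {t ^ n}) x * Ideal.Quotient.mk (Ideal.span {t ^ n}) x =
      Ideal.Quotient.mk (Ideal.span {t ^ n}) x := by
    have := (Ideal.Quotient.eq_zero_iff_dvd (t ^ n) (x ^ 2 - x)).mpr hx
    rw [map_sub, map_pow, sub_eq_zero, pow_two] at this
    exact this
  have hy' : Ideal.Quotient.mk (Ideal.span {t ^ n}) y * Ideal.Quotient.mk (Ideal.span {t ^ n}) y =
      Ideal.Quotient.mk (Ideal.span {t ^ n}) y := by
    have := (Ideal.Quotient.eq_zero_iff_dvd (t ^ n) (y ^ 2 - y)).mpr hy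
    rw [map_sub, map_pow, sub_eq_zero, pow_two] at this
    exact this
  have hnil : IsNilpotent (Ideal.Quotient.mk (Ideal.span {t ^ n}) x -
      Ideal.Quotient.mk (Ideal.span {t ^ n}) y) := by
    refine ⟨n, ?_⟩
    rw [← map_sub, ← map_pow, Ideal.Quotient.eq_zero_iff_dvd]
    exact pow_dvd_pow_of_dvd hxy n
  have := eq_of_isNilpotent_sub_of_isIdempotentElem hx' hy' hnil
  rw [← sub_eq_zero, ← map_sub, Ideal.Quotient.eq_zero_iff_dvd] at this
  exact this

end Lift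

section Ambient

variable {Λ E : Type*} [CommRing Λ] [CommRing E] [Algebra Λ E]

/-- Divisibility by a scalar inside a subalgebra, spelled out in the ambient ring. -/
theorem algebraMap_dvd_iff (S : Subalgebra Λ E) (r : Λ) (y : ↥S) :
    algebraMap Λ ↥S r ∣ y ↔ ∃ a ∈ S, (y : E) = r • a := by
  constructor
  · rintro ⟨w, rfl⟩
    exact ⟨(w : E), w.2, by rw [Algebra.smul_def]; rfl⟩
  · rintro ⟨a, ha, h⟩
    exact ⟨⟨a, ha⟩, Subtype.ext (by rw [h, Algebra.smul_def]; rfl)⟩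

/-- Lifting an idempotent modulo `π` of a subalgebra to an idempotent modulo `π ^ n`. -/
theorem exists_lift_mem (S : Subalgebra Λ E) (π : Λ) {e : E} (he : e ∈ S)
    (h : ∃ a ∈ S, e ^ 2 - e = π • a) (n : ℕ) :
    ∃ f ∈ S, (∃ u ∈ S, f - e = π • u) ∧ ∃ v ∈ S, f ^ 2 - f = π ^ n • v := by
  have h0 : algebraMap Λ ↥S π ∣ (⟨e, he⟩ : ↥S) ^ 2 - ⟨e, he⟩ :=
    (algebraMap_dvd_iff S π _).mpr h
  obtain ⟨f, hf1, hf2⟩ := exists_lift_idem _ _ h0 n
  rw [← map_pow] at hf2
  exact ⟨(f : E), f.2, (algebraMap_dvd_iff S π _).mp hf1, (algebraMap_dvd_iff S (π ^ n) _).mp hf2⟩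

/-- Uniqueness of idempotent lifts inside a subalgebra. -/
theorem exists_sub_eq_pow_smul (S : Subalgebra Λ E) (π : Λ) {f₁ f₂ : E} (hf₁ : f₁ ∈ S)
    (hf₂ : f₂ ∈ S) (n : ℕ) (h₁ : ∃ v ∈ S, f₁ ^ 2 - f₁ = π ^ n • v)
    (h₂ : ∃ v ∈ S, f₂ ^ 2 - f₂ = π ^ n • v) (h : ∃ z ∈ S, f₁ - f₂ = π • z) :
    ∃ w ∈ S, f₁ - f₂ = π ^ n • w := by
  have k₁ : algebraMap Λ ↥S π ^ n ∣ (⟨f₁, hf₁⟩ : ↥S) ^ 2 - ⟨f₁, hf₁⟩ := by
    rw [← map_pow]; exact (algebraMap_dvd_iff S (π ^ n) _).mpr h₁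
  have k₂ : algebraMap Λ ↥S π ^ n ∣ (⟨f₂, hf₂⟩ : ↥S) ^ 2 - ⟨f₂, hf₂⟩ := by
    rw [← map_pow]; exact (algebraMap_dvd_iff S (π ^ n) _).mpr h₂
  have k : algebraMap Λ ↥S π ∣ (⟨f₁, hf₁⟩ : ↥S) - ⟨f₂, hf₂⟩ :=
    (algebraMap_dvd_iff S π _).mpr h
  have := dvd_sub_of_idem _ _ _ n k₁ k₂ k
  rw [← map_pow] at this
  exact (algebraMap_dvd_iff S (π ^ n) _).mp this

/-- In the span of a finite set over a noetherian ring, `π`-power torsion modulo a submodule `N`
is killed by a fixed power of `π`. -/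
theorem exists_pow_bound_span [IsNoetherianRing Λ] (π : Λ) (N : Submodule Λ E) (G : Finset E) :
    ∃ c : ℕ, ∀ (g : E) (n : ℕ), g ∈ Submodule.span Λ (G : Set E) → π ^ n • g ∈ N →
      π ^ c • g ∈ N := by
  have hnoeth : IsNoetherian Λ ↥(Submodule.span Λ (G : Set E)) :=
    isNoetherian_span_of_finite Λ G.finite_toSet
  let f : ℕ →o Submodule Λ ↥(Submodule.span Λ (G : Set E)) :=
    { toFun := fun n => (N.comap (LinearMap.lsmul Λ E (π ^ n))).comap
        (Submodule.span Λ (G : Set E)).subtype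
      monotone' := by
        intro a b hab m hm
        rw [Submodule.mem_comap, Submodule.mem_comap, LinearMap.lsmul_apply] at hm ⊢
        obtain ⟨d, rfl⟩ := Nat.exists_eq_add_of_le hab
        rw [pow_add, mul_comm, mul_smul]
        exact N.smul_mem _ hm }
  obtain ⟨c, hc⟩ := monotone_stabilizes_iff_noetherian.mpr hnoeth f
  refine ⟨c, fun g n hg hgn => ?_⟩
  have h1 : (⟨g, hg⟩ : ↥(Submodule.span Λ (G : Set E))) ∈ f (max n c) :=
    f.monotone (le_max_left n c) (by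
      show (⟨g, hg⟩ : ↥(Submodule.span Λ (G : Set E))) ∈
        (N.comap (LinearMap.lsmul Λ E (π ^ n))).comap (Submodule.span Λ (G : Set E)).subtype
      rw [Submodule.mem_comap, Submodule.mem_comap, LinearMap.lsmul_apply]
      exact hgn)
  rw [← hc (max n c) (le_max_right n c)] at h1
  have h2 : (⟨g, hg⟩ : ↥(Submodule.span Λ (G : Set E))) ∈
      (N.comap (LinearMap.lsmul Λ E (π ^ c))).comap (Submodule.span Λ (G : Set E)).subtype := h1
  rwa [Submodule.mem_comap, Submodule.mem_comap, LinearMap.lsmul_apply] at h2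

/-- If `M ⊆ N + span G` with `G` finite, then the `π`-power torsion of `M` modulo `N` is killed
by a fixed power of `π`. -/
theorem exists_pow_bound [IsNoetherianRing Λ] (π : Λ) (N M : Submodule Λ E) (G : Finset E)
    (hG : ∀ z ∈ M, z ∈ N ⊔ Submodule.span Λ (G : Set E)) :
    ∃ c : ℕ, ∀ (z : E) (n : ℕ), z ∈ M → π ^ n • z ∈ N → π ^ c • z ∈ N := by
  obtain ⟨c, hc⟩ := exists_pow_bound_span π N G
  refine ⟨c, fun z n hz hzn => ?_⟩
  obtain ⟨ν, hν, g, hg, rfl⟩ := Submodule.mem_sup.mp (hG z hz)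
  have h1 : π ^ n • g ∈ N := by
    have : π ^ n • g = π ^ n • (ν + g) - π ^ n • ν := by rw [smul_add]; abel
    rw [this]
    exact N.sub_mem hzn (N.smul_mem _ hν)
  rw [smul_add]
  exact N.add_mem (N.smul_mem _ hν) (hc g n hg h1)

/-- **Čech lemma, ambient form.**  `S₁, S₂ ⊆ S_mid` subalgebras of `E` over a noetherian ring `Λ`
with `S_mid ⊆ S₁ + S₂ + span_Λ G` for a finite set `G`.  Idempotents modulo `π` of `S₁` and `S₂`
which agree modulo `π S_mid` are congruent, modulo `π`, to a common element of `S₁ ∩ S₂`. -/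
theorem exists_common_of_finset [IsNoetherianRing Λ] (π : Λ) (S₁ S₂ Sm : Subalgebra Λ E)
    (h₁m : S₁ ≤ Sm) (h₂m : S₂ ≤ Sm) (G : Finset E)
    (hG : ∀ z ∈ Sm, z ∈ Subalgebra.toSubmodule S₁ ⊔ Subalgebra.toSubmodule S₂ ⊔
      Submodule.span Λ (G : Set E))
    {e₁ e₂ : E} (he₁ : e₁ ∈ S₁) (he₂ : e₂ ∈ S₂)
    (h₁ : ∃ a ∈ S₁, e₁ ^ 2 - e₁ = π • a) (h₂ : ∃ b ∈ S₂, e₂ ^ 2 - e₂ = π • b)
    (h : ∃ z ∈ Sm, e₁ - e₂ = π • z) :
    ∃ y : E, y ∈ S₁ ∧ y ∈ S₂ ∧ (∃ a ∈ S₁, e₁ - y = π • a) ∧ (∃ b ∈ S₂, e₂ - y = π • b) := by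
  obtain ⟨c, hc⟩ := exists_pow_bound π
    (Subalgebra.toSubmodule S₁ ⊔ Subalgebra.toSubmodule S₂) (Subalgebra.toSubmodule Sm) G hG
  obtain ⟨f₁, hf₁, ⟨u₁, hu₁, hfu₁⟩, ⟨v₁, hv₁, hfv₁⟩⟩ := exists_lift_mem S₁ π he₁ h₁ (c + 1)
  obtain ⟨f₂, hf₂, ⟨u₂, hu₂, hfu₂⟩, ⟨v₂, hv₂, hfv₂⟩⟩ := exists_lift_mem S₂ π he₂ h₂ (c + 1)
  obtain ⟨z, hz, hez⟩ := h
  obtain ⟨w, hw, hfw⟩ := exists_sub_eq_pow_smul Sm π (h₁m hf₁) (h₂m hf₂) (c + 1)
    ⟨v₁, h₁m hv₁, hfv₁⟩ ⟨v₂, h₂m hv₂, hfv₂⟩
    ⟨u₁ + z - u₂, Sm.sub_mem (Sm.add_mem (h₁m hu₁) hz) (h₂m hu₂), by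
      have : f₁ - f₂ = (f₁ - e₁) + (e₁ - e₂) - (f₂ - e₂) := by ring
      rw [this, hfu₁, hez, hfu₂, smul_sub, smul_add]⟩
  have hmem : π ^ (c + 1) • w ∈ Subalgebra.toSubmodule S₁ ⊔ Subalgebra.toSubmodule S₂ := by
    rw [← hfw]
    exact Submodule.sub_mem _ (Submodule.mem_sup_left hf₁) (Submodule.mem_sup_right hf₂)
  obtain ⟨a', ha', b', hb', hab⟩ := Submodule.mem_sup.mp (hc w (c + 1) hw hmem)
  have ha'' : a' ∈ S₁ := ha'
  have hb'' : b' ∈ S₂ := hb'
  have hkey : f₁ - π • a' = f₂ + π • b' := by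
    have h4 : f₁ - f₂ = π • a' + π • b' := by
      rw [hfw, pow_succ', mul_smul, ← hab, smul_add]
    have h5 : f₁ - π • a' = (f₁ - f₂) + f₂ - π • a' := by ring
    rw [h5, h4]
    ring
  refine ⟨f₁ - π • a', S₁.sub_mem hf₁ (S₁.smul_mem ha'' π), ?_, ?_, ?_⟩
  · rw [hkey]
    exact S₂.add_mem hf₂ (S₂.smul_mem hb'' π)
  · refine ⟨a' - u₁, S₁.sub_mem ha'' hu₁, ?_⟩
    have h6 : e₁ - (f₁ - π • a') = π • a' - (f₁ - e₁) := by ring
    rw [h6, hfu₁, smul_sub]
  · refine ⟨-b' - u₂, S₂.sub_mem (S₂.neg_mem hb'') hu₂, ?_⟩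
    rw [hkey]
    have h6 : e₂ - (f₂ + π • b') = -(π • b') - (f₂ - e₂) := by ring
    rw [h6, hfu₂, smul_sub, smul_neg]

/-- **Čech lemma, connectedness form.**  If moreover `S₁ ∩ S₂ = Λ` and `(π)` is a maximal ideal
of `Λ`, then an idempotent modulo `π` of `S₁` which agrees on the overlap with an idempotent
modulo `π` of `S₂` is `0` or `1` modulo `π S₁`. -/
theorem eq_zero_or_one_of_finset [IsNoetherianRing Λ] (π : Λ) (hπ : (Ideal.span {π}).IsMaximal)
    (S₁ S₂ Sm : Subalgebra Λ E) (h₁m : S₁ ≤ Sm) (h₂m : S₂ ≤ Sm) (G : Finset E)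
    (hG : ∀ z ∈ Sm, z ∈ Subalgebra.toSubmodule S₁ ⊔ Subalgebra.toSubmodule S₂ ⊔
      Submodule.span Λ (G : Set E))
    (hcap : ∀ y : E, y ∈ S₁ → y ∈ S₂ → ∃ c : Λ, y = algebraMap Λ E c)
    {e₁ e₂ : E} (he₁ : e₁ ∈ S₁) (he₂ : e₂ ∈ S₂)
    (h₁ : ∃ a ∈ S₁, e₁ ^ 2 - e₁ = π • a) (h₂ : ∃ b ∈ S₂, e₂ ^ 2 - e₂ = π • b)
    (h : ∃ z ∈ Sm, e₁ - e₂ = π • z) :
    (∃ a ∈ S₁, e₁ = π • a) ∨ (∃ a ∈ S₁, e₁ - 1 = π • a) := by
  by_cases hu : ∃ a ∈ S₁, π • a = 1
  · obtain ⟨a, ha, hπa⟩ := hu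
    exact Or.inl ⟨a * e₁, S₁.mul_mem ha he₁, by rw [← smul_mul_assoc, hπa, one_mul]⟩
  obtain ⟨y, hy₁, hy₂, ⟨a₁, ha₁, hya⟩, -⟩ :=
    exists_common_of_finset π S₁ S₂ Sm h₁m h₂m G hG he₁ he₂ h₁ h₂ h
  obtain ⟨c, rfl⟩ := hcap y hy₁ hy₂
  obtain ⟨a, ha, hea⟩ := h₁
  have hmemS₁ : a - (a₁ * e₁ + a₁ * e₁) + π • a₁ ^ 2 + a₁ ∈ S₁ :=
    S₁.add_mem (S₁.add_mem (S₁.sub_mem ha (S₁.add_mem (S₁.mul_mem ha₁ he₁) (S₁.mul_mem ha₁ he₁)))
      (S₁.smul_mem (S₁.pow_mem ha₁ 2) π)) ha₁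
  have hcc : algebraMap Λ E (c ^ 2 - c) = π • (a - (a₁ * e₁ + a₁ * e₁) + π • a₁ ^ 2 + a₁) := by
    have h3 : algebraMap Λ E c = e₁ - π • a₁ := by rw [← hya]; ring
    rw [map_sub, map_pow, h3]
    have h4 : (e₁ - π • a₁) ^ 2 - (e₁ - π • a₁) =
        (e₁ ^ 2 - e₁) + (π • a₁ * (π • a₁) - (π • a₁ * e₁ + π • a₁ * e₁) + π • a₁) := by ring
    rw [h4, hea]
    simp only [Algebra.smul_def]
    ring
  have hmem : c ^ 2 - c ∈ Ideal.span {π} := by
    by_contra hnot
    obtain ⟨ν, i, hi, hνi⟩ := hπ.exists_inv hnot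
    obtain ⟨τ, rfl⟩ := Ideal.mem_span_singleton'.mp hi
    have h5 := congrArg (algebraMap Λ E) hνi
    rw [map_add, map_mul, map_mul, map_one, hcc] at h5
    refine hu ⟨algebraMap Λ E ν * (a - (a₁ * e₁ + a₁ * e₁) + π • a₁ ^ 2 + a₁) + algebraMap Λ E τ,
      S₁.add_mem (S₁.mul_mem (S₁.algebraMap_mem ν) hmemS₁) (S₁.algebraMap_mem τ), ?_⟩
    rw [← h5]
    simp only [Algebra.smul_def]
    ring
  have hfac : c * (c - 1) ∈ Ideal.span {π} := by
    have : c * (c - 1) = c ^ 2 - c := by ring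
    rw [this]
    exact hmem
  rcases hπ.isPrime.mem_or_mem hfac with hc | hc
  · left
    obtain ⟨s, rfl⟩ := Ideal.mem_span_singleton'.mp hc
    refine ⟨a₁ + algebraMap Λ E s, S₁.add_mem ha₁ (S₁.algebraMap_mem s), ?_⟩
    have h6 : e₁ = (e₁ - algebraMap Λ E (s * π)) + algebraMap Λ E (s * π) := by ring
    rw [h6, hya, Algebra.smul_def, Algebra.smul_def, map_mul]
    ring
  · right
    obtain ⟨s, hs⟩ := Ideal.mem_span_singleton'.mp hc
    refine ⟨a₁ + algebraMap Λ E s, S₁.add_mem ha₁ (S₁.algebraMap_mem s), ?_⟩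
    have h7 : algebraMap Λ E c - 1 = algebraMap Λ E s * algebraMap Λ E π := by
      rw [← map_mul, hs, map_sub, map_one]
    have h6 : e₁ - 1 = (e₁ - algebraMap Λ E c) + (algebraMap Λ E c - 1) := by ring
    rw [h6, hya, h7, Algebra.smul_def, Algebra.smul_def]
    ring

end Ambient

section Concrete

variable {Λ E : Type*} [CommRing Λ] [CommRing E] [Algebra Λ E]

/-- A finite spanning set of the integral closure, from module-finiteness. -/
theorem exists_finset_span_of_finite (A : Subalgebra Λ E)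
    [Module.Finite A (integralClosure A E)] :
    ∃ B : Finset E, (∀ b ∈ B, IsIntegral A b) ∧
      ∀ s : E, IsIntegral A s → s ∈ Submodule.span A (B : Set E) := by
  classical
  obtain ⟨B', hB'⟩ := (Module.Finite.fg_top : (⊤ : Submodule A (integralClosure A E)).FG)
  refine ⟨B'.image Subtype.val, ?_, ?_⟩
  · intro b hb
    obtain ⟨b', -, rfl⟩ := Finset.mem_image.mp hb
    exact b'.2
  · intro s hs
    have h1 : (⟨s, hs⟩ : integralClosure A E) ∈ Submodule.span A (B' : Set (integralClosure A E)) := by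
      rw [hB']; exact Submodule.mem_top
    have h2 := Submodule.apply_mem_span_image_of_mem_span
      (integralClosure A E).val.toLinearMap h1
    rw [Finset.coe_image]
    exact h2

/-- If `K` is algebraically closed in the field `E` and `Λ` is integrally closed with fraction
field `K`, then `Λ` is integrally closed in `E`. -/
theorem exists_algebraMap_eq_of_isIntegral {Λ K E : Type*} [CommRing Λ] [IsDomain Λ]
    [IsIntegrallyClosed Λ] [Field K] [Algebra Λ K] [IsFractionRing Λ K] [Field E] [Algebra Λ E]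
    [Algebra K E] [IsScalarTower Λ K E]
    (hK : ∀ y : E, IsIntegral K y → ∃ c : K, y = algebraMap K E c) {y : E}
    (hy : IsIntegral Λ y) : ∃ c : Λ, y = algebraMap Λ E c := by
  obtain ⟨c, rfl⟩ := hK y hy.tower_top
  have hc : IsIntegral Λ c := (isIntegral_algebraMap_iff (algebraMap K E).injective).mp hy
  obtain ⟨l, rfl⟩ := IsIntegrallyClosed.isIntegral_iff.mp hc
  exact ⟨l, (IsScalarTower.algebraMap_apply Λ K E l).symm⟩

/-- **Concrete Čech lemma.**  `Λ` noetherian with `(π)` maximal, `E` a domain in which `Λ` is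
integrally closed, `x * x' = 1`, and the integral closure `S_fin` of `Λ[x]` in `E` spanned over
`Λ[x]` by a finite set `B`.  If `e₁ ∈ S_fin` is idempotent modulo `π S_fin`, `e₂ ∈ S_inf` is
idempotent modulo `π S_inf` and `e₁ ≡ e₂` modulo `π S_mid`, then `e₁ ≡ 0` or `e₁ ≡ 1` modulo
`π S_fin`. -/
theorem eq_zero_or_one_of_isIntegral [IsNoetherianRing Λ] [IsDomain E] (π : Λ)
    (hπ : (Ideal.span {π}).IsMaximal) {x x' : E} (hx : x * x' = 1)
    (hclosed : ∀ y : E, IsIntegral Λ y → ∃ c : Λ, y = algebraMap Λ E c)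
    (B : Finset E) (hB : ∀ b ∈ B, IsIntegral (Algebra.adjoin Λ {x}) b)
    (hspan : ∀ s : E, IsIntegral (Algebra.adjoin Λ {x}) s →
      s ∈ Submodule.span (Algebra.adjoin Λ {x}) (B : Set E))
    {e₁ e₂ : E} (he₁ : IsIntegral (Algebra.adjoin Λ {x}) e₁)
    (he₂ : IsIntegral (Algebra.adjoin Λ {x'}) e₂)
    (h₁ : ∃ a : E, IsIntegral (Algebra.adjoin Λ {x}) a ∧ e₁ ^ 2 - e₁ = π • a)
    (h₂ : ∃ b : E, IsIntegral (Algebra.adjoin Λ {x'}) b ∧ e₂ ^ 2 - e₂ = π • b)
    (h : ∃ z : E, IsIntegral (Algebra.adjoin Λ {x, x'}) z ∧ e₁ - e₂ = π • z) :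
    (∃ a : E, IsIntegral (Algebra.adjoin Λ {x}) a ∧ e₁ = π • a) ∨
      (∃ a : E, IsIntegral (Algebra.adjoin Λ {x}) a ∧ e₁ - 1 = π • a) := by
  obtain ⟨G, -, hG⟩ := exists_finset_forall_mem_sup hx B hB hspan
  exact eq_zero_or_one_of_finset π hπ (intAdjoin Λ {x}) (intAdjoin Λ {x'}) (intAdjoin Λ {x, x'})
    (intAdjoin_mono (by simp)) (intAdjoin_mono (by simp)) G (fun z hz => hG z hz)
    (fun y hy₁ hy₂ => hclosed y (isIntegral_of_isIntegral_adjoin_inv hx hy₁ hy₂))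
    he₁ he₂ h₁ h₂ h

/-- The concrete Čech lemma, with the finiteness of `S_fin` over `Λ[x]` as a `Module.Finite`
hypothesis. -/
theorem eq_zero_or_one_of_finite [IsNoetherianRing Λ] [IsDomain E] (π : Λ)
    (hπ : (Ideal.span {π}).IsMaximal) {x x' : E} (hx : x * x' = 1)
    (hclosed : ∀ y : E, IsIntegral Λ y → ∃ c : Λ, y = algebraMap Λ E c)
    [Module.Finite (Algebra.adjoin Λ {x}) (integralClosure (Algebra.adjoin Λ {x}) E)]
    {e₁ e₂ : E} (he₁ : IsIntegral (Algebra.adjoin Λ {x}) e₁)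
    (he₂ : IsIntegral (Algebra.adjoin Λ {x'}) e₂)
    (h₁ : ∃ a : E, IsIntegral (Algebra.adjoin Λ {x}) a ∧ e₁ ^ 2 - e₁ = π • a)
    (h₂ : ∃ b : E, IsIntegral (Algebra.adjoin Λ {x'}) b ∧ e₂ ^ 2 - e₂ = π • b)
    (h : ∃ z : E, IsIntegral (Algebra.adjoin Λ {x, x'}) z ∧ e₁ - e₂ = π • z) :
    (∃ a : E, IsIntegral (Algebra.adjoin Λ {x}) a ∧ e₁ = π • a) ∨
      (∃ a : E, IsIntegral (Algebra.adjoin Λ {x}) a ∧ e₁ - 1 = π • a) := by
  obtain ⟨B, hB, hspan⟩ := exists_finset_span_of_finite (Algebra.adjoin Λ {x})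
  exact eq_zero_or_one_of_isIntegral π hπ hx hclosed B hB hspan he₁ he₂ h₁ h₂ h

end Concrete

end CechAux

end Fermat.Agent.S18
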