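import Mathlib
import Fermat.Agent.S18.ModelDefs

/-!
# P11 (S18): the constant field of a finitely generated function field

Setting (carriers of `ModelDefs`): `L` a field containing `ℚ`, `Ω` a field extension of `L`,
`K₀` an intermediate field of `L / ℚ`, `T` a set of elements of `Ω`, `x ∈ T` transcendental over
`L`, every `t ∈ T` algebraic over `K₀(x)`.

Main results (namespace `Fermat.Agent.S18.Model`):

* `finiteDimensional_constField` : `constField K₀ T` is finite over `ℚ` (if `K₀` is, `T` finite);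
* `constField_closed` : `constField K₀ T` is algebraically closed in `genField K₀ T`
  (`L` algebraically closed);
* `transcendental_gen` : `x` is transcendental over `constField K₀ T`;
* `finiteDimensional_genField` : `genField K₀ T` is finite over `constField K₀ T (x)`;
* `adjoin_constField_eq_top`, `adjoin_constField_eq_top'` : generation over the constant field;
* `genField_eq_closure_constField` : subfield form of the generation statement.
-/

set_option autoImplicit false

namespace Fermat.Agent.S18.ConstField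

open Polynomial IntermediateField Fermat.Agent.S18.Model

variable {L Ω : Type*} [Field L] [Algebra ℚ L] [Field Ω] [Algebra L Ω]

/-- Transport of an algebraic relation along a comparison of coefficient rings inside `Ω`. -/
theorem exists_poly_of_range_le {A B Ω' : Type*} [Field A] [CommRing B] [Field Ω']
    (f : A →+* Ω') (g : B →+* Ω') (h : ∀ a : A, ∃ b : B, g b = f a) {t : Ω'} (p : A[X])
    (hp0 : p ≠ 0) (hp : eval₂ f t p = 0) : ∃ q : B[X], q ≠ 0 ∧ eval₂ g t q = 0 := by
  have hlift : p.map f ∈ Polynomial.lifts g := by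
    rw [lifts_iff_coeff_lifts]
    intro n
    obtain ⟨b, hb⟩ := h (p.coeff n)
    exact ⟨b, by rw [coeff_map]; exact hb⟩
  obtain ⟨q, hq⟩ := (mem_lifts _).1 hlift
  refine ⟨q, ?_, ?_⟩
  · rintro rfl
    rw [Polynomial.map_zero] at hq
    exact hp0 ((Polynomial.map_eq_zero_iff f.injective).1 hq.symm)
  · rw [← eval_map, hq, eval_map]
    exact hp

/-- Elements of `K₀(x)` are quotients of polynomials in `x`, with nonzero denominator. -/
theorem exists_mul_aeval_eq (K₀ : IntermediateField ℚ L) {x : Ω} (y : Ω)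
    (hy : y ∈ (↥K₀)⟮x⟯) :
    ∃ r s : (↥K₀)[X], s ≠ 0 ∧ y * aeval x s = aeval x r := by
  obtain ⟨r, s, rfl⟩ := (mem_adjoin_simple_iff (↥K₀) y).1 hy
  by_cases hs : aeval x s = 0
  · refine ⟨0, 1, one_ne_zero, ?_⟩
    simp [hs]
  · refine ⟨r, s, ?_, ?_⟩
    · rintro rfl
      exact hs (by simp)
    · field_simp

/-- A polynomial over `L` vanishing at the transcendental `x`, written as a combination of a
`K₀`-linearly independent family with polynomial coefficients over `K₀`, has zero coefficients. -/
theorem eq_zero_of_sum_aeval_eq_zero {ι : Type*} [Fintype ι] (K₀ : IntermediateField ℚ L)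
    {x : Ω} (hx : Transcendental L x) (c : ι → L) (hc : LinearIndependent ↥K₀ c)
    (R : ι → (↥K₀)[X]) (h : ∑ i, aeval x (R i) * algebraMap L Ω (c i) = 0) : ∀ i, R i = 0 := by
  classical
  set Φ : L[X] := ∑ i, C (c i) * (R i).map (algebraMap ↥K₀ L) with hΦ
  have hΦ0 : aeval x Φ = 0 := by
    rw [hΦ, map_sum, ← h]
    refine Finset.sum_congr rfl fun i _ => ?_
    rw [map_mul, aeval_C, aeval_map_algebraMap, mul_comm]
  have hΦz : Φ = 0 := by
    by_contra hne
    exact hx ⟨Φ, hne, hΦ0⟩
  have hcoef : ∀ n, ∑ i, (R i).coeff n • c i = 0 := by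
    intro n
    have := congrArg (fun p : L[X] => p.coeff n) hΦz
    simp only [hΦ, finsetSum_coeff, coeff_C_mul, coeff_map, coeff_zero] at this
    rw [← this]
    refine Finset.sum_congr rfl fun i _ => ?_
    rw [Algebra.smul_def, mul_comm]
  intro i
  refine Polynomial.ext fun n => ?_
  rw [coeff_zero]
  exact (Fintype.linearIndependent_iff.1 hc (fun i => (R i).coeff n) (hcoef n)) i

/-- `L` and `K₀(x)` are linearly disjoint over `K₀`: a `K₀`-linearly independent family of `L`
stays linearly independent over `K₀(x)` inside `Ω`. -/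
theorem linearIndependent_adjoin {ι : Type*} [Fintype ι] (K₀ : IntermediateField ℚ L)
    {x : Ω} (hx : Transcendental L x) (c : ι → L) (hc : LinearIndependent ↥K₀ c) :
    LinearIndependent ↥((↥K₀)⟮x⟯) (fun i => algebraMap L Ω (c i)) := by
  classical
  have hxK : Transcendental ↥K₀ x := hx.restrictScalars (algebraMap ↥K₀ L).injective
  rw [Fintype.linearIndependent_iff]
  intro g hg
  have hex : ∀ i, ∃ r s : (↥K₀)[X], s ≠ 0 ∧ (g i : Ω) * aeval x s = aeval x r :=
    fun i => exists_mul_aeval_eq K₀ (g i : Ω) (g i).2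
  choose r s hs hrs using hex
  set S : (↥K₀)[X] := ∏ j, s j with hS
  have hS0 : aeval x S ≠ 0 := by
    intro h0
    exact hxK ⟨S, Finset.prod_ne_zero_iff.2 (fun j _ => hs j), h0⟩
  set R : ι → (↥K₀)[X] := fun i => r i * ∏ j ∈ Finset.univ.erase i, s j with hR
  have hgR : ∀ i, (g i : Ω) * aeval x S = aeval x (R i) := by
    intro i
    rw [hS, hR, ← Finset.mul_prod_erase Finset.univ s (Finset.mem_univ i), map_mul, map_mul,
      ← mul_assoc, hrs i]
  have hsum : ∑ i, aeval x (R i) * algebraMap L Ω (c i) = 0 := by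
    have h1 : ∑ i, aeval x (R i) * algebraMap L Ω (c i)
        = aeval x S * ∑ i, g i • algebraMap L Ω (c i) := by
      rw [Finset.mul_sum]
      refine Finset.sum_congr rfl fun i _ => ?_
      rw [← hgR i, Algebra.smul_def]
      simp only [IntermediateField.algebraMap_apply]
      ring
    rw [h1, hg, mul_zero]
  have hR0 := eq_zero_of_sum_aeval_eq_zero K₀ hx c hc R hsum
  intro i
  have h2 : (g i : Ω) * aeval x S = 0 := by rw [hgR i, hR0 i, map_zero]
  have h3 : (g i : Ω) = 0 := by
    rcases mul_eq_zero.1 h2 with h | h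
    · exact h
    · exact absurd h hS0
  exact Subtype.ext h3

/-- Finiteness criterion for an intermediate field `K ≥ K₀` over a general base field:
a uniform bound on the size of `K₀`-linearly independent families of `K`. -/
theorem finiteDimensional_of_card_le_aux {k' L' : Type*} [Field k'] [Field L'] [Algebra k' L']
    (K₀ K : IntermediateField k' L') (hle : K₀ ≤ K) [FiniteDimensional k' ↥K₀] (n : ℕ)
    (key : ∀ s : Finset ↥K, LinearIndependent ↥K₀ (fun i : s => ((i : ↥K) : L')) → s.card ≤ n) :
    FiniteDimensional k' ↥K := by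
  let _ : Algebra ↥K₀ ↥K := (IntermediateField.inclusion hle).toRingHom.toAlgebra
  have : IsScalarTower k' ↥K₀ ↥K := IsScalarTower.of_algebraMap_eq (fun _ => rfl)
  let ι₀ : ↥K →ₗ[↥K₀] L' :=
    { toFun := Subtype.val
      map_add' := fun _ _ => rfl
      map_smul' := fun c y => by
        rw [Algebra.smul_def, Algebra.smul_def]
        rfl }
  have hrank : Module.rank ↥K₀ ↥K ≤ (n : ℕ) := by
    apply rank_le
    intro s hs
    exact key s (hs.map' ι₀ (LinearMap.ker_eq_bot.2 Subtype.val_injective))
  have : Module.Finite ↥K₀ ↥K :=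
    Module.rank_lt_aleph0_iff.1 (lt_of_le_of_lt hrank Cardinal.natCast_lt_aleph0)
  exact Module.Finite.trans ↥K₀ ↥K

/-- The same criterion over `ℚ` (with the ambient `ℚ`-module structures). -/
theorem finiteDimensional_of_card_le (K₀ K : IntermediateField ℚ L) (hle : K₀ ≤ K)
    [h₀ : FiniteDimensional ℚ ↥K₀] (n : ℕ)
    (key : ∀ s : Finset ↥K, LinearIndependent ↥K₀ (fun i : s => ((i : ↥K) : L)) → s.card ≤ n) :
    FiniteDimensional ℚ ↥K := by
  have h₀' : @Module.Finite ℚ ↥K₀ _ _ (IntermediateField.module' K₀) := by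
    convert h₀
  have h := @finiteDimensional_of_card_le_aux ℚ L _ _ _ K₀ K hle h₀' n key
  convert h

/-- An element of `genField K₀ T` which is algebraic over the constant field is algebraic
over `L` (as an element of `Ω`). -/
theorem isAlgebraic_coe (K₀ : IntermediateField ℚ L) (T : Set Ω)
    (y : ↥(genField K₀ T)) (hy : IsAlgebraic ↥(constField K₀ T) y) : IsAlgebraic L (y : Ω) := by
  obtain ⟨p, hp0, hp⟩ := hy
  refine ⟨p.map (algebraMap ↥(constField K₀ T) L),
    (Polynomial.map_ne_zero_iff (algebraMap ↥(constField K₀ T) L).injective).2 hp0, ?_⟩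
  rw [aeval_def, eval₂_map]
  have h := congrArg (genField K₀ T).subtype hp
  rw [aeval_def, hom_eval₂, map_zero] at h
  exact h

/-- Every element of `K₀(x)` comes from an element of `constField(x)` inside `genField`. -/
theorem exists_coe_eq_of_mem_adjoin (K₀ : IntermediateField ℚ L) {T : Set Ω} {x : Ω}
    (hxT : x ∈ T) (e : Ω) (he : e ∈ (↥K₀)⟮x⟯) :
    ∃ e' : ↥((↥(constField K₀ T))⟮gen K₀ hxT⟯), ((e' : ↥(genField K₀ T)) : Ω) = e := by
  have hle : ((↥K₀)⟮x⟯).toSubfield
      ≤ ((↥(constField K₀ T))⟮gen K₀ hxT⟯).toSubfield.map (genField K₀ T).subtype := by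
    rw [adjoin_toSubfield]
    refine Subfield.closure_le.2 ?_
    rintro z (⟨c, rfl⟩ | hz)
    · exact ⟨algebraMap ↥(constField K₀ T) ↥(genField K₀ T) ⟨c.1, le_constField K₀ T c.2⟩,
        ((↥(constField K₀ T))⟮gen K₀ hxT⟯).algebraMap_mem _, rfl⟩
    · rw [Set.mem_singleton_iff] at hz
      exact ⟨gen K₀ hxT, mem_adjoin_simple_self _ _, hz.symm⟩
  obtain ⟨a, ha, hae⟩ := hle he
  exact ⟨⟨a, ha⟩, hae⟩

/-- The subfield of `Ω` generated by the image of `K₀` and `x` is (the carrier of) `K₀(x)`:
algebraicity over the one implies algebraicity over the other. -/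
theorem isAlgebraic_adjoin_of_closure (K₀ : IntermediateField ℚ L) (x : Ω) {t : Ω}
    (ht : IsAlgebraic ↥(Subfield.closure (algebraMap L Ω '' (K₀ : Set L) ∪ {x})) t) :
    IsAlgebraic ↥((↥K₀)⟮x⟯) t := by
  obtain ⟨p, hp0, hp⟩ := ht
  have hle : Subfield.closure (algebraMap L Ω '' (K₀ : Set L) ∪ {x}) ≤ ((↥K₀)⟮x⟯).toSubfield := by
    refine Subfield.closure_le.2 ?_
    rintro z (⟨c, hc, rfl⟩ | hz)
    · exact ((↥K₀)⟮x⟯).algebraMap_mem ⟨c, hc⟩
    · rw [Set.mem_singleton_iff] at hz
      subst hz
      exact mem_adjoin_simple_self _ z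
  obtain ⟨q, hq0, hq⟩ := exists_poly_of_range_le
    (algebraMap ↥(Subfield.closure (algebraMap L Ω '' (K₀ : Set L) ∪ {x})) Ω)
    (algebraMap ↥((↥K₀)⟮x⟯) Ω) (fun a => ⟨⟨a.1, hle a.2⟩, rfl⟩) p hp0 (by rw [← aeval_def]; exact hp)
  exact ⟨q, hq0, by rw [aeval_def]; exact hq⟩

end Fermat.Agent.S18.ConstField

namespace Fermat.Agent.S18.Model

open Polynomial IntermediateField

variable {L Ω : Type*} [Field L] [Algebra ℚ L] [Field Ω] [Algebra L Ω]

/-- **(a)** The constant field is finite over `ℚ` (if `K₀` is, `x ∈ T` is transcendental over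
`L`, and `T` is a finite set of elements algebraic over `K₀(x)`). -/
theorem finiteDimensional_constField (K₀ : IntermediateField ℚ L) [FiniteDimensional ℚ ↥K₀]
    {x : Ω} (hx : Transcendental L x) {T : Set Ω} (hT : T.Finite)
    (hTalg : ∀ t ∈ T, IsAlgebraic ↥((↥K₀)⟮x⟯) t) :
    FiniteDimensional ℚ ↥(constField K₀ T) := by
  classical
  set E₀ : IntermediateField ↥K₀ Ω := (↥K₀)⟮x⟯ with hE₀
  set M : IntermediateField ↥E₀ Ω := IntermediateField.adjoin ↥E₀ T with hM
  have : Finite T := hT.to_subtype
  have hfin : FiniteDimensional ↥E₀ ↥M :=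
    finiteDimensional_adjoin (fun t ht => (hTalg t ht).isIntegral)
  have hbig : ∀ y ∈ genField K₀ T, y ∈ M := by
    have hle : genField K₀ T ≤ M.toSubfield := by
      refine Subfield.closure_le.2 ?_
      rintro z (⟨c, hc, rfl⟩ | hz)
      · exact M.algebraMap_mem ⟨algebraMap L Ω c, E₀.algebraMap_mem ⟨c, hc⟩⟩
      · exact subset_adjoin _ _ hz
    exact fun y hy => hle hy
  have key : ∀ s : Finset ↥(constField K₀ T),
      LinearIndependent ↥K₀ (fun i : s => ((i : ↥(constField K₀ T)) : L)) →
      s.card ≤ Module.finrank ↥E₀ ↥M := by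
    intro s hs
    have h1 := ConstField.linearIndependent_adjoin K₀ hx _ hs
    let v : s → ↥M := fun i =>
      ⟨algebraMap L Ω ((i : ↥(constField K₀ T)) : L), hbig _ (i : ↥(constField K₀ T)).2⟩
    have h2 : LinearIndependent ↥E₀ v := LinearIndependent.of_comp M.val.toLinearMap h1
    have h3 := h2.fintype_card_le_finrank
    simpa using h3
  have hcore := ConstField.finiteDimensional_of_card_le K₀ (constField K₀ T)
    (le_constField K₀ T) (Module.finrank ↥E₀ ↥M) key
  exact hcore

/-- **(b)** The constant field is algebraically closed in `genField K₀ T` (`L` algebraically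
closed). -/
theorem constField_closed [IsAlgClosed L] (K₀ : IntermediateField ℚ L) (T : Set Ω)
    (y : ↥(genField K₀ T)) (hy : IsAlgebraic ↥(constField K₀ T) y) :
    y ∈ (algebraMap ↥(constField K₀ T) ↥(genField K₀ T)).range := by
  have h1 := ConstField.isAlgebraic_coe K₀ T y hy
  have h2 : (y : Ω) ∈ (algebraMap L Ω).range :=
    minpoly.mem_range_of_degree_eq_one L (y : Ω)
      (IsAlgClosed.degree_eq_one_of_irreducible L (minpoly.irreducible h1.isIntegral))
  obtain ⟨c, hc⟩ := h2
  have hcm : c ∈ constField K₀ T := by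
    rw [mem_constField_iff, hc]
    exact y.2
  exact ⟨⟨c, hcm⟩, Subtype.ext hc⟩

/-- **(c1)** A generator transcendental over `L` is transcendental over the constant field. -/
theorem transcendental_gen (K₀ : IntermediateField ℚ L) {T : Set Ω} {x : Ω} (hxT : x ∈ T)
    (hx : Transcendental L x) : Transcendental ↥(constField K₀ T) (gen K₀ hxT) :=
  fun h => hx (ConstField.isAlgebraic_coe K₀ T _ h)

/-- **(d)** `genField K₀ T` is generated over the constant field by any set of its elements
covering `T`. -/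
theorem adjoin_constField_eq_top' (K₀ : IntermediateField ℚ L) (T : Set Ω)
    (S : Set ↥(genField K₀ T)) (hTS : T ⊆ Subtype.val '' S) :
    IntermediateField.adjoin ↥(constField K₀ T) S = ⊤ := by
  have hle : genField K₀ T
      ≤ (IntermediateField.adjoin ↥(constField K₀ T) S).toSubfield.map
          (genField K₀ T).subtype := by
    refine Subfield.closure_le.2 ?_
    rintro z (⟨c, hc, rfl⟩ | hz)
    · exact ⟨algebraMap ↥(constField K₀ T) ↥(genField K₀ T) ⟨c, le_constField K₀ T hc⟩,
        (IntermediateField.adjoin ↥(constField K₀ T) S).algebraMap_mem _, rfl⟩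
    · obtain ⟨s, hs, hsz⟩ := hTS hz
      exact ⟨s, subset_adjoin _ _ hs, hsz⟩
  rw [eq_top_iff]
  intro y _
  obtain ⟨a, ha, hay⟩ := hle y.2
  have hya : a = y := Subtype.ext hay
  rw [← hya]
  exact ha

/-- **(d)** `genField K₀ T` is generated over the constant field by (the elements of) `T`. -/
theorem adjoin_constField_eq_top (K₀ : IntermediateField ℚ L) (T : Set Ω) :
    IntermediateField.adjoin ↥(constField K₀ T) {t : ↥(genField K₀ T) | (t : Ω) ∈ T} = ⊤ :=
  adjoin_constField_eq_top' K₀ T _ (fun t ht => ⟨⟨t, mem_genField_of_mem K₀ ht⟩, ht, rfl⟩)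

/-- **(c2)** `genField K₀ T` is finite over `constField(x)`. -/
theorem finiteDimensional_genField (K₀ : IntermediateField ℚ L) {T : Set Ω} {x : Ω}
    (hxT : x ∈ T) (hT : T.Finite) (hTalg : ∀ t ∈ T, IsAlgebraic ↥((↥K₀)⟮x⟯) t) :
    FiniteDimensional ↥((↥(constField K₀ T))⟮gen K₀ hxT⟯) ↥(genField K₀ T) := by
  classical
  set T' : Set ↥(genField K₀ T) := {t : ↥(genField K₀ T) | (t : Ω) ∈ T} with hT'def
  have hT' : T'.Finite := hT.preimage Subtype.val_injective.injOn
  have hint : ∀ t ∈ T', IsIntegral ↥((↥(constField K₀ T))⟮gen K₀ hxT⟯) t := by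
    intro t ht
    obtain ⟨p, hp0, hp⟩ := hTalg (t : Ω) ht
    obtain ⟨q, hq0, hq⟩ := ConstField.exists_poly_of_range_le (algebraMap ↥((↥K₀)⟮x⟯) Ω)
      ((genField K₀ T).subtype.comp
        (algebraMap ↥((↥(constField K₀ T))⟮gen K₀ hxT⟯) ↥(genField K₀ T)))
      (fun e => ConstField.exists_coe_eq_of_mem_adjoin K₀ hxT (e : Ω) e.2) p hp0
      (by rw [← aeval_def]; exact hp)
    have hqt : aeval t q = 0 := by
      apply (genField K₀ T).subtype_injective
      rw [map_zero, aeval_def, hom_eval₂]
      exact hq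
    exact IsAlgebraic.isIntegral ⟨q, hq0, hqt⟩
  have : Finite T' := hT'.to_subtype
  have hfd : FiniteDimensional ↥((↥(constField K₀ T))⟮gen K₀ hxT⟯)
      ↥(IntermediateField.adjoin ↥((↥(constField K₀ T))⟮gen K₀ hxT⟯) T') :=
    finiteDimensional_adjoin hint
  have htop : IntermediateField.adjoin ↥((↥(constField K₀ T))⟮gen K₀ hxT⟯) T' = ⊤ := by
    have h := adjoin_constField_eq_top' K₀ T ({gen K₀ hxT} ∪ T')
      (fun t ht => ⟨⟨t, mem_genField_of_mem K₀ ht⟩, Or.inr ht, rfl⟩)
    rw [← adjoin_adjoin_left] at h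
    rw [eq_top_iff]
    intro y _
    have hy : y ∈ (IntermediateField.adjoin ↥((↥(constField K₀ T))⟮gen K₀ hxT⟯)
        T').restrictScalars ↥(constField K₀ T) := by
      rw [h]
      trivial
    exact hy
  rw [htop] at hfd
  exact (topEquiv (F := ↥((↥(constField K₀ T))⟮gen K₀ hxT⟯))
    (E := ↥(genField K₀ T))).toLinearEquiv.finiteDimensional

/-- **(d')** Subfield form: `genField K₀ T` is generated by the image of the constant field
and `T`, i.e. `genField (constField K₀ T) T = genField K₀ T`. -/
theorem genField_eq_closure_constField (K₀ : IntermediateField ℚ L) (T : Set Ω) :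
    genField (constField K₀ T) T = genField K₀ T := by
  apply le_antisymm
  · refine Subfield.closure_le.2 ?_
    rintro z (⟨c, hc, rfl⟩ | hz)
    · exact hc
    · exact mem_genField_of_mem K₀ hz
  · exact Subfield.closure_mono (Set.union_subset_union_left _
      (Set.image_mono (le_constField K₀ T)))

end Fermat.Agent.S18.Model
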