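import Mathlib

/-!
# Discriminant counting over a DVR: shared base lemmas (P11, LOCAL part)

`O` a DVR with uniformiser `t`, `S` a finite free `O`-algebra, `J := rad (t S)`.

* `dvd_trace_of_mem_radical`: the trace of an element of `J` is divisible by `t`.
* `exists_basis_adapted`: Smith normal form basis adapted to a submodule `N ⊇ t S`.
* `exists_traceMatrix_eq_mul_diagonal`, `discr_eq_det_mul_pow`: the Gram matrix of a basis whose
  members indexed by `P` lie in `J` is `H * diag(t on P, 1 off P)`.
* `exists_eq_mul_of_mul_radical`: if `det H` is a unit, the multiplier ring of `J` is `S`.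
* `exists_isDiscreteValuationRing_localization_of_key`: then all localisations are DVRs.
-/

namespace Fermat.Agent.S18.Disc

open Module

section Trace

variable {O S : Type*} [CommRing O] [IsDomain O] [IsDiscreteValuationRing O]
  [CommRing S] [Algebra O S] [Module.Free O S] [Module.Finite O S]

attribute [local instance] Ideal.Quotient.field in
/-- The trace of an element which is nilpotent modulo the uniformiser is divisible by the
uniformiser. -/
theorem dvd_trace_of_mem_radical {t : O} (ht : Irreducible t) {x : S}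
    (hx : x ∈ (Ideal.span {algebraMap O S t}).radical) : t ∣ Algebra.trace O S x := by
  have hp : IsLocalRing.maximalIdeal O = Ideal.span {t} := ht.maximalIdeal_eq
  have hmap : Ideal.map (algebraMap O S) (IsLocalRing.maximalIdeal O)
      = Ideal.span {algebraMap O S t} := by
    rw [hp, Ideal.map_span, Set.image_singleton]
  obtain ⟨N, hN⟩ := hx
  have hnil : IsNilpotent (Ideal.Quotient.mk
      (Ideal.map (algebraMap O S) (IsLocalRing.maximalIdeal O)) x) := by
    refine ⟨N, ?_⟩
    rw [← map_pow, Ideal.Quotient.eq_zero_iff_mem, hmap]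
    exact hN
  have h1 := Algebra.trace_quotient_mk (R := O) (S := S) x
  have h2 : Algebra.trace (O ⧸ IsLocalRing.maximalIdeal O)
      (S ⧸ Ideal.map (algebraMap O S) (IsLocalRing.maximalIdeal O))
      (Ideal.Quotient.mk _ x) = 0 := by
    have : Module.Finite (O ⧸ IsLocalRing.maximalIdeal O)
        (S ⧸ Ideal.map (algebraMap O S) (IsLocalRing.maximalIdeal O)) :=
      Module.Finite.of_restrictScalars_finite O _ _
    rw [Algebra.trace_apply]
    apply IsNilpotent.eq_zero
    apply LinearMap.isNilpotent_trace_of_isNilpotent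
    obtain ⟨k, hk⟩ := hnil
    refine ⟨k, ?_⟩
    rw [← map_pow, hk, map_zero]
  rw [h2] at h1
  have h3 : Algebra.trace O S x ∈ IsLocalRing.maximalIdeal O :=
    Ideal.Quotient.eq_zero_iff_mem.mp h1.symm
  rw [hp] at h3
  exact Ideal.mem_span_singleton.mp h3

end Trace

section Gram

variable {O S : Type*} [CommRing O] [IsDomain O] [IsDiscreteValuationRing O]
  [CommRing S] [Algebra O S] {ι : Type*} [Fintype ι] [DecidableEq ι]

/-- If the basis vectors `b j`, `j ∈ P`, are nilpotent modulo `t`, then the Gram matrix of the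
trace form factors as `H * diag(t on P, 1 off P)`. -/
theorem exists_traceMatrix_eq_mul_diagonal {t : O} (ht : Irreducible t) (b : Basis ι O S)
    (P : ι → Prop) [DecidablePred P]
    (hP : ∀ i, P i → b i ∈ (Ideal.span {algebraMap O S t}).radical) :
    ∃ H : Matrix ι ι O, Algebra.traceMatrix O b =
      H * Matrix.diagonal (fun j => if P j then t else 1) := by
  have : Module.Free O S := Module.Free.of_basis b
  have : Module.Finite O S := Module.Finite.of_basis b
  have hdvd : ∀ i j, P j → t ∣ Algebra.trace O S (b i * b j) := fun i j hj =>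
    dvd_trace_of_mem_radical ht (Ideal.mul_mem_left _ _ (hP j hj))
  choose q hq using hdvd
  refine ⟨Matrix.of fun i j => if h : P j then q i j h else Algebra.trace O S (b i * b j), ?_⟩
  ext i j
  rw [Matrix.mul_diagonal, Algebra.traceMatrix_apply, Algebra.traceForm_apply, Matrix.of_apply]
  by_cases h : P j
  · simp only [h, dif_pos, if_true]
    rw [hq i j h, mul_comm]
  · simp only [h, dif_neg, if_false, not_false_eq_true, mul_one]

omit [IsDomain O] [IsDiscreteValuationRing O] in
/-- Consequently the discriminant is `det H * t ^ #P`. -/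
theorem discr_eq_det_mul_pow {t : O} (b : Basis ι O S)
    (P : ι → Prop) [DecidablePred P] (H : Matrix ι ι O)
    (hH : Algebra.traceMatrix O b = H * Matrix.diagonal (fun j => if P j then t else 1)) :
    Algebra.discr O b = H.det * t ^ (Finset.univ.filter P).card := by
  rw [Algebra.discr_def, hH, Matrix.det_mul, Matrix.det_diagonal, Finset.prod_ite,
    Finset.prod_const, Finset.prod_const_one, mul_one]

/-- **Key claim.**  If `det H` is a unit (i.e. `ord_t disc = #P`), then every `x` with
`x • J ⊆ t • J` (where `J = rad (t S)`) lies in `t S`. -/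
theorem exists_eq_mul_of_mul_radical {t : O} (ht : Irreducible t) (b : Basis ι O S)
    (P : ι → Prop) [DecidablePred P]
    (hP : ∀ i, P i → b i ∈ (Ideal.span {algebraMap O S t}).radical)
    (H : Matrix ι ι O)
    (hH : Algebra.traceMatrix O b = H * Matrix.diagonal (fun j => if P j then t else 1))
    (hdet : IsUnit H.det) (x : S)
    (hx : ∀ y ∈ (Ideal.span {algebraMap O S t}).radical,
      ∃ z ∈ (Ideal.span {algebraMap O S t}).radical, x * y = algebraMap O S t * z) :
    ∃ w, x = algebraMap O S t * w := by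
  have : Module.Free O S := Module.Free.of_basis b
  have : Module.Finite O S := Module.Finite.of_basis b
  have ht0 : t ≠ 0 := ht.ne_zero
  have htJ : algebraMap O S t ∈ (Ideal.span {algebraMap O S t}).radical :=
    Ideal.le_radical (Ideal.subset_span rfl)
  have hinj : ∀ u v : S, algebraMap O S t * u = algebraMap O S t * v → u = v := by
    intro u v huv
    have h1 : t • (u - v) = 0 := by
      rw [Algebra.smul_def, mul_sub, huv, sub_self]
    have h2 : u - v = 0 := by
      apply b.ext_elem
      intro i
      have h3 := congrArg (fun y => b.repr y i) h1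
      simp only [map_smul, Finsupp.smul_apply, smul_eq_mul, map_zero, Finsupp.zero_apply,
        mul_eq_zero] at h3
      rcases h3 with h3 | h3
      · exact absurd h3 ht0
      · simpa using h3
    exact sub_eq_zero.mp h2
  -- the trace pairing of `x` against the basis
  have key : ∀ j, ∃ γ, Algebra.trace O S (x * b j) = t * (if P j then t else 1) * γ := by
    intro j
    by_cases h : P j
    · obtain ⟨z, hz, hxz⟩ := hx (b j) (hP j h)
      obtain ⟨γ, hγ⟩ := dvd_trace_of_mem_radical ht hz
      refine ⟨γ, ?_⟩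
      rw [hxz, ← Algebra.smul_def, map_smul, hγ, if_pos h, smul_eq_mul, mul_assoc]
    · obtain ⟨z, hz, hxz⟩ := hx (algebraMap O S t * b j) (Ideal.mul_mem_right _ _ htJ)
      have hz' : x * b j = z := hinj _ _ (by rw [← hxz]; ring)
      obtain ⟨γ, hγ⟩ := dvd_trace_of_mem_radical ht hz
      refine ⟨γ, ?_⟩
      rw [hz', hγ, if_neg h, mul_one]
  choose γ hγ using key
  set β : ι → O := b.equivFun x with hβ
  have hxsum : x = ∑ i, β i • b i := (b.sum_equivFun x).symm
  have htr : ∀ j, Algebra.trace O S (x * b j) =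
      (Matrix.vecMul β H) j * (if P j then t else 1) := by
    intro j
    have h1 : Algebra.trace O S (x * b j) = (Matrix.vecMul β (Algebra.traceMatrix O b)) j := by
      conv_lhs => rw [hxsum]
      rw [Finset.sum_mul, map_sum]
      simp only [Matrix.vecMul, dotProduct, Algebra.traceMatrix_apply, Algebra.traceForm_apply,
        smul_mul_assoc, map_smul, smul_eq_mul]
    rw [h1, hH, ← Matrix.vecMul_vecMul, Matrix.vecMul_diagonal]
  have hvec : Matrix.vecMul β H = t • γ := by
    funext j
    have h1 := htr j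
    rw [hγ j] at h1
    have hd : (if P j then t else 1 : O) ≠ 0 := by
      split_ifs
      · exact ht0
      · exact one_ne_zero
    have h2 : t * γ j * (if P j then t else 1) = Matrix.vecMul β H j * (if P j then t else 1) := by
      rw [← h1]; ring
    have h3 := mul_right_cancel₀ hd h2
    simp only [Pi.smul_apply, smul_eq_mul]
    exact h3.symm
  have hβeq : β = t • Matrix.vecMul γ H⁻¹ := by
    have h1 : Matrix.vecMul (Matrix.vecMul β H) H⁻¹ = β := by
      rw [Matrix.vecMul_vecMul, Matrix.mul_nonsing_inv _ hdet, Matrix.vecMul_one]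
    rw [← h1, hvec, Matrix.smul_vecMul]
  refine ⟨∑ i, (Matrix.vecMul γ H⁻¹) i • b i, ?_⟩
  rw [hxsum, Finset.mul_sum]
  refine Finset.sum_congr rfl fun i _ => ?_
  rw [hβeq, Pi.smul_apply, smul_eq_mul, mul_smul, Algebra.smul_def]

end Gram

section LocalPrincipal

variable {R : Type*} [CommRing R] [IsLocalRing R] [IsNoetherianRing R]

/-- In a Noetherian local ring whose maximal ideal is generated by `m₀`, every nonzero element
is a unit times a power of `m₀`. -/
theorem exists_eq_pow_mul_unit_of_maximalIdeal_eq_span {m₀ : R}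
    (hm : IsLocalRing.maximalIdeal R = Ideal.span {m₀}) {x : R} (hx : x ≠ 0) :
    ∃ (k : ℕ) (u : Rˣ), x = m₀ ^ k * u := by
  have hkrull : (⨅ i : ℕ, (IsLocalRing.maximalIdeal R) ^ i) = ⊥ :=
    Ideal.iInf_pow_eq_bot_of_isLocalRing _ (IsLocalRing.maximalIdeal.isMaximal R).ne_top
  have hex : ∃ i : ℕ, x ∉ (IsLocalRing.maximalIdeal R) ^ i := by
    by_contra hcon
    push Not at hcon
    have : x ∈ (⨅ i : ℕ, (IsLocalRing.maximalIdeal R) ^ i) := by
      rw [Ideal.mem_iInf]; exact hcon
    rw [hkrull] at this
    exact hx (Ideal.mem_bot.mp this)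
  classical
  have hfind := Nat.find_spec hex
  have hmin := fun j => Nat.find_min hex (m := j)
  set i := Nat.find hex with hi
  have hi0 : i ≠ 0 := by
    intro h0
    rw [h0, pow_zero, Ideal.one_eq_top] at hfind
    exact hfind Submodule.mem_top
  obtain ⟨k, hk⟩ := Nat.exists_eq_succ_of_ne_zero hi0
  have hxk : x ∈ (IsLocalRing.maximalIdeal R) ^ k := by
    by_contra hcon
    exact hmin k (by omega) hcon
  rw [hm, Ideal.span_singleton_pow, Ideal.mem_span_singleton] at hxk
  obtain ⟨u, hu⟩ := hxk
  have hunit : IsUnit u := by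
    by_contra hcon
    have hu' : u ∈ IsLocalRing.maximalIdeal R := (IsLocalRing.mem_maximalIdeal u).mpr hcon
    rw [hm, Ideal.mem_span_singleton] at hu'
    obtain ⟨v, hv⟩ := hu'
    apply hfind
    rw [hk, hm, Ideal.span_singleton_pow, Ideal.mem_span_singleton]
    exact ⟨v, by rw [hu, hv, pow_succ]; ring⟩
  exact ⟨k, hunit.unit, by rw [hu]; rfl⟩

/-- A Noetherian local ring whose maximal ideal is generated by a non-zero-divisor is a
domain. -/
theorem isDomain_of_maximalIdeal_eq_span {m₀ : R}
    (hm : IsLocalRing.maximalIdeal R = Ideal.span {m₀}) (hnzd : m₀ ∈ nonZeroDivisors R) :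
    IsDomain R := by
  have hnz : NoZeroDivisors R := by
    refine ⟨fun {x y} hxy => ?_⟩
    by_contra hcon
    push Not at hcon
    obtain ⟨k, u, hxu⟩ := exists_eq_pow_mul_unit_of_maximalIdeal_eq_span hm hcon.1
    obtain ⟨l, v, hyv⟩ := exists_eq_pow_mul_unit_of_maximalIdeal_eq_span hm hcon.2
    have h1 : m₀ ^ (k + l) * ((u * v : Rˣ) : R) = 0 := by
      rw [← hxy, hxu, hyv, pow_add, Units.val_mul]; ring
    have h2 : ((u * v : Rˣ) : R) = 0 := by
      have h3 : m₀ ^ (k + l) ∈ nonZeroDivisors R := pow_mem hnzd _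
      exact (mul_left_mem_nonZeroDivisors_eq_zero_iff h3).mp h1
    exact (u * v).ne_zero h2
  exact NoZeroDivisors.to_isDomain R

/-- A Noetherian local domain whose maximal ideal is generated by a nonzero element is a
discrete valuation ring. -/
theorem isDiscreteValuationRing_of_maximalIdeal_eq_span [IsDomain R] {m₀ : R}
    (hm : IsLocalRing.maximalIdeal R = Ideal.span {m₀}) (hm0 : m₀ ≠ 0) :
    IsDiscreteValuationRing R := by
  have hnf : ¬ IsField R := by
    rw [IsLocalRing.isField_iff_maximalIdeal_eq, hm]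
    simpa [Ideal.span_singleton_eq_bot] using hm0
  have hprinc : (IsLocalRing.maximalIdeal R).IsPrincipal := ⟨⟨m₀, hm⟩⟩
  exact ((IsDiscreteValuationRing.TFAE R hnf).out 0 4).mpr hprinc

end LocalPrincipal

section MaxIdeals

variable {O S : Type*} [CommRing O] [IsDomain O] [IsDiscreteValuationRing O]
  [CommRing S] [Algebra O S] [Module.Finite O S]

/-- Every maximal ideal of a finite algebra over a DVR contains the uniformiser. -/
theorem algebraMap_mem_of_isMaximal {t : O} (ht : Irreducible t) (M : Ideal S) [M.IsMaximal] :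
    algebraMap O S t ∈ M := by
  have : Algebra.IsIntegral O S := Algebra.IsIntegral.of_finite O S
  have h1 : (M.comap (algebraMap O S)).IsMaximal :=
    Ideal.isMaximal_comap_of_isIntegral_of_isMaximal M
  have h2 : M.comap (algebraMap O S) = IsLocalRing.maximalIdeal O :=
    IsLocalRing.eq_maximalIdeal h1
  have h3 : t ∈ M.comap (algebraMap O S) := by
    rw [h2, ht.maximalIdeal_eq]; exact Ideal.mem_span_singleton_self t
  exact h3

/-- A prime ideal containing the uniformiser is maximal. -/
theorem isMaximal_of_isPrime_of_algebraMap_mem {t : O} (ht : Irreducible t) (Q : Ideal S)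
    [hQ : Q.IsPrime] (h : algebraMap O S t ∈ Q) : Q.IsMaximal := by
  have : Algebra.IsIntegral O S := Algebra.IsIntegral.of_finite O S
  apply Ideal.isMaximal_of_isIntegral_of_isMaximal_comap (R := O) Q
  have hle : IsLocalRing.maximalIdeal O ≤ Q.comap (algebraMap O S) := by
    rw [ht.maximalIdeal_eq, Ideal.span_singleton_le_iff_mem]; exact h
  have hprime : (Q.comap (algebraMap O S)).IsPrime := Ideal.comap_isPrime _ _
  rw [← (IsLocalRing.maximalIdeal.isMaximal O).eq_of_le hprime.ne_top hle]
  exact IsLocalRing.maximalIdeal.isMaximal O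

/-- `rad (t S)` is the intersection of all maximal ideals. -/
theorem mem_radical_iff_forall_isMaximal {t : O} (ht : Irreducible t) (y : S) :
    y ∈ (Ideal.span {algebraMap O S t}).radical ↔ ∀ M : Ideal S, M.IsMaximal → y ∈ M := by
  rw [Ideal.radical_eq_sInf, Ideal.mem_sInf]
  constructor
  · intro h M hM
    exact h ⟨(Ideal.span_singleton_le_iff_mem _).mpr (algebraMap_mem_of_isMaximal ht M),
      hM.isPrime⟩
  · rintro h Q ⟨hle, hQ⟩
    exact h Q (isMaximal_of_isPrime_of_algebraMap_mem ht Q
      ((Ideal.span_singleton_le_iff_mem _).mp hle))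

/-- A finite algebra over a DVR has finitely many maximal ideals. -/
theorem finite_setOf_isMaximal {t : O} (ht : Irreducible t) :
    {M : Ideal S | M.IsMaximal}.Finite := by
  have : IsNoetherianRing S := IsNoetherianRing.of_finite O S
  refine Set.Finite.subset
    (Ideal.finite_minimalPrimes_of_isNoetherianRing S (Ideal.span {algebraMap O S t})) ?_
  intro M (hM : M.IsMaximal)
  refine ⟨⟨hM.isPrime, (Ideal.span_singleton_le_iff_mem _).mpr
    (algebraMap_mem_of_isMaximal ht M)⟩, ?_⟩
  rintro Q ⟨hQ, hle⟩ hQM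
  have hQmax : Q.IsMaximal := isMaximal_of_isPrime_of_algebraMap_mem ht Q
    ((Ideal.span_singleton_le_iff_mem _).mp hle)
  exact (hQmax.eq_of_le hM.ne_top hQM).ge

/-- **DVR criterion.**  Let `S` be finite free over the DVR `O`.  If every `x` with
`x • rad(tS) ⊆ t • rad(tS)` lies in `t S` (the multiplier ring of the radical is `S`), then the
localisation of `S` at every maximal ideal is a discrete valuation ring. -/
theorem exists_isDiscreteValuationRing_localization_of_key [Module.Free O S]
    {t : O} (ht : Irreducible t)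
    (hKC : ∀ x : S, (∀ y ∈ (Ideal.span {algebraMap O S t}).radical,
        ∃ z ∈ (Ideal.span {algebraMap O S t}).radical, x * y = algebraMap O S t * z) →
      ∃ w, x = algebraMap O S t * w)
    (M : Ideal S) [hM : M.IsMaximal] :
    ∃ _ : IsDomain (Localization.AtPrime M), IsDiscreteValuationRing (Localization.AtPrime M) := by
  have hNoeth : IsNoetherianRing S := IsNoetherianRing.of_finite O S
  have ht0 : t ≠ 0 := ht.ne_zero
  set 𝔱 : S := algebraMap O S t with h𝔱
  -- `𝔱` is a non-zero-divisor
  have hinj : ∀ u v : S, 𝔱 * u = 𝔱 * v → u = v := by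
    intro u v huv
    have h1 : t • (u - v) = 0 := by
      rw [Algebra.smul_def, mul_sub, huv, sub_self]
    have h2 : u - v = 0 := by
      let b := Module.Free.chooseBasis O S
      apply b.ext_elem
      intro i
      have h3 := congrArg (fun y => b.repr y i) h1
      simp only [map_smul, Finsupp.smul_apply, smul_eq_mul, map_zero, Finsupp.zero_apply,
        mul_eq_zero] at h3
      rcases h3 with h3 | h3
      · exact absurd h3 ht0
      · simpa using h3
    exact sub_eq_zero.mp h2
  have h𝔱M : 𝔱 ∈ M := algebraMap_mem_of_isMaximal ht M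
  -- `M` is an associated prime of `S / tS`
  have hmin : M ∈ (Ideal.span {𝔱}).minimalPrimes := by
    refine ⟨⟨hM.isPrime, (Ideal.span_singleton_le_iff_mem _).mpr h𝔱M⟩, ?_⟩
    rintro Q ⟨hQ, hle⟩ hQM
    have hQmax : Q.IsMaximal := isMaximal_of_isPrime_of_algebraMap_mem ht Q
      ((Ideal.span_singleton_le_iff_mem _).mp hle)
    exact (hQmax.eq_of_le hM.ne_top hQM).ge
  have hass : IsAssociatedPrime M (S ⧸ Ideal.span {𝔱}) := by
    have h1 := Module.associatedPrimes.minimalPrimes_annihilator_subset_associatedPrimes S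
      (S ⧸ Ideal.span {𝔱})
    rw [Ideal.annihilator_quotient] at h1
    exact h1 hmin
  obtain ⟨-, b, hb⟩ := isAssociatedPrime_iff.mp hass
  obtain ⟨b₀, rfl⟩ := Ideal.Quotient.mk_surjective b
  have hMiff : ∀ s : S, s ∈ M ↔ ∃ w, b₀ * s = 𝔱 * w := by
    intro s
    rw [hb, Submodule.mem_colon_singleton, Submodule.mem_bot]
    change Submodule.Quotient.mk (s • b₀) = 0 ↔ _
    rw [Submodule.Quotient.mk_eq_zero, smul_eq_mul, Ideal.mem_span_singleton, mul_comm]
    rfl
  -- `b₀ ∉ tS`
  have hb₀ : ¬ ∃ w, b₀ = 𝔱 * w := by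
    rintro ⟨w, hw⟩
    have : (1 : S) ∈ M := (hMiff 1).mpr ⟨w, by rw [mul_one, hw]⟩
    exact hM.ne_top ((Ideal.eq_top_iff_one M).mpr this)
  -- hence `b₀ M ⊄ t M`
  have hnot : ¬ ∀ m ∈ M, ∃ m' ∈ M, b₀ * m = 𝔱 * m' := by
    intro hall
    apply hb₀
    apply hKC
    intro y hy
    have hyM : y ∈ M := (mem_radical_iff_forall_isMaximal ht y).mp hy M hM
    obtain ⟨z, hzM, hz⟩ := hall y hyM
    refine ⟨z, ?_, hz⟩
    rw [mem_radical_iff_forall_isMaximal ht]
    intro M' hM'
    by_cases hMM' : M ≤ M'
    · rw [← hM.eq_of_le hM'.ne_top hMM']; exact hzM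
    · obtain ⟨c, hcM, hcM'⟩ := Set.not_subset.mp hMM'
      obtain ⟨s, hs⟩ := (hMiff c).mp hcM
      have h1 : z * c = s * y := by
        apply hinj
        calc 𝔱 * (z * c) = (𝔱 * z) * c := by ring
          _ = (b₀ * y) * c := by rw [hz]
          _ = (b₀ * c) * y := by ring
          _ = (𝔱 * s) * y := by rw [hs]
          _ = 𝔱 * (s * y) := by ring
      have h2 : z * c ∈ M' := by
        rw [h1]
        exact Ideal.mul_mem_left _ _ ((mem_radical_iff_forall_isMaximal ht y).mp hy M' hM')
      exact (hM'.isPrime.mem_or_mem h2).resolve_right hcM'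
  push Not at hnot
  obtain ⟨m₀, hm₀M, hm₀⟩ := hnot
  obtain ⟨s₀, hs₀⟩ := (hMiff m₀).mp hm₀M
  have hs₀M : s₀ ∉ M := fun h => hm₀ s₀ h hs₀
  -- every element of `M` is a multiple of `m₀` up to `s₀`
  have hdiv : ∀ m ∈ M, ∃ s, s₀ * m = s * m₀ := by
    intro m hmM
    obtain ⟨s, hs⟩ := (hMiff m).mp hmM
    refine ⟨s, hinj _ _ ?_⟩
    calc 𝔱 * (s₀ * m) = (𝔱 * s₀) * m := by ring
      _ = (b₀ * m₀) * m := by rw [hs₀]
      _ = (b₀ * m) * m₀ := by ring
      _ = (𝔱 * s) * m₀ := by rw [hs]
      _ = 𝔱 * (s * m₀) := by ring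
  -- pass to the localisation
  set R := Localization.AtPrime M
  have hs₀unit : IsUnit (algebraMap S R s₀) :=
    IsLocalization.map_units R (⟨s₀, hs₀M⟩ : M.primeCompl)
  have hmax : IsLocalRing.maximalIdeal R = Ideal.span {algebraMap S R m₀} := by
    rw [← Localization.AtPrime.map_eq_maximalIdeal (I := M)]
    apply le_antisymm
    · rw [Ideal.map_le_iff_le_comap]
      intro m hmM
      obtain ⟨s, hs⟩ := hdiv m hmM
      rw [Ideal.mem_comap, Ideal.mem_span_singleton]
      obtain ⟨u, hu⟩ := hs₀unit
      refine ⟨(↑u⁻¹ : R) * algebraMap S R s, ?_⟩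
      have h1 : algebraMap S R s₀ * algebraMap S R m = algebraMap S R s * algebraMap S R m₀ := by
        rw [← map_mul, ← map_mul, hs]
      calc algebraMap S R m = ↑u⁻¹ * (algebraMap S R s₀ * algebraMap S R m) := by
            rw [← hu, ← mul_assoc, Units.inv_mul, one_mul]
        _ = algebraMap S R m₀ * (↑u⁻¹ * algebraMap S R s) := by rw [h1]; ring
    · rw [Ideal.span_singleton_le_iff_mem]
      exact Ideal.mem_map_of_mem _ hm₀M
  have h𝔱nzd : 𝔱 ∈ nonZeroDivisors S := by
    rw [mem_nonZeroDivisors_iff_right]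
    intro x hx
    exact hinj x 0 (by rw [mul_zero, mul_comm]; exact hx)
  have h𝔱R : algebraMap S R 𝔱 ∈ nonZeroDivisors R :=
    IsLocalization.map_nonZeroDivisors_le M.primeCompl R ⟨𝔱, h𝔱nzd, rfl⟩
  have hm₀nzd : algebraMap S R m₀ ∈ nonZeroDivisors R := by
    have h1 : algebraMap S R 𝔱 ∈ Ideal.span {algebraMap S R m₀} := by
      rw [← hmax, ← Localization.AtPrime.map_eq_maximalIdeal (I := M)]
      exact Ideal.mem_map_of_mem _ h𝔱M
    obtain ⟨c, hc⟩ := Ideal.mem_span_singleton.mp h1
    rw [hc] at h𝔱R
    exact (mul_mem_nonZeroDivisors.mp h𝔱R).1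
  have hdom : IsDomain R := isDomain_of_maximalIdeal_eq_span hmax hm₀nzd
  refine ⟨hdom, ?_⟩
  have : IsNoetherianRing R := IsLocalization.isNoetherianRing M.primeCompl R hNoeth
  exact isDiscreteValuationRing_of_maximalIdeal_eq_span hmax (nonZeroDivisors.ne_zero hm₀nzd)

end MaxIdeals

section Adapted

variable {O S : Type*} [CommRing O] [IsDomain O] [IsDiscreteValuationRing O]
  [AddCommGroup S] [Module O S] {ι : Type*} [Fintype ι]

/-- **Adapted basis** (Smith normal form).  If `N ⊆ S` is a submodule containing `t S`, there is a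
basis `b'` of `S` and a set `P` of indices such that `b' i ∈ N` for `i ∈ P`, while the
coordinates at `i ∉ P` of every element of `N` are divisible by `t`. -/
theorem exists_basis_adapted (b : Basis ι O S) {t : O} (ht : Irreducible t) (N : Submodule O S)
    (hN : ∀ s : S, t • s ∈ N) :
    ∃ (b' : Basis ι O S) (P : ι → Prop), (∀ i, P i → b' i ∈ N) ∧
      (∀ x ∈ N, ∀ i, ¬ P i → t ∣ b'.repr x i) := by
  have : Module.Free O S := Module.Free.of_basis b
  have : Module.Finite O S := Module.Finite.of_basis b
  have ht0 : t ≠ 0 := ht.ne_zero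
  have hrank : Module.finrank O N = Module.finrank O S := by
    apply le_antisymm (Submodule.finrank_le N)
    let f : S →ₗ[O] N := LinearMap.codRestrict N (t • LinearMap.id) (fun s => hN s)
    apply LinearMap.finrank_le_finrank_of_injective (f := f)
    intro u v huv
    have h0 : t • u = t • v := congrArg Subtype.val huv
    have h1 : t • (u - v) = 0 := by rw [smul_sub, h0, sub_self]
    have h2 : u - v = 0 := by
      apply b.ext_elem
      intro i
      have h3 := congrArg (fun y => b.repr y i) h1
      simp only [map_smul, Finsupp.smul_apply, smul_eq_mul, map_zero, Finsupp.zero_apply,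
        mul_eq_zero] at h3
      rcases h3 with h3 | h3
      · exact absurd h3 ht0
      · simpa using h3
    exact sub_eq_zero.mp h2
  obtain ⟨b', a, ab', hab⟩ := Submodule.exists_smith_normal_form_of_rank_eq b hrank
  refine ⟨b', fun i => IsUnit (a i), ?_, ?_⟩
  · rintro i ⟨u, hu⟩
    have h1 : b' i = (↑u⁻¹ : O) • (ab' i : S) := by
      rw [hab i, ← hu, smul_smul, Units.inv_mul, one_smul]
    rw [h1]
    exact N.smul_mem _ (ab' i).2
  · intro x hx i hi
    have hai : t ∣ a i := by
      have h1 : a i ∈ IsLocalRing.maximalIdeal O := (IsLocalRing.mem_maximalIdeal _).mpr hi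
      rw [ht.maximalIdeal_eq] at h1
      exact Ideal.mem_span_singleton.mp h1
    have hx' : x = ∑ k, (ab'.repr ⟨x, hx⟩ k * a k) • b' k := by
      have h1 := ab'.sum_repr ⟨x, hx⟩
      calc x = ((⟨x, hx⟩ : N) : S) := rfl
        _ = ((∑ k, ab'.repr ⟨x, hx⟩ k • ab' k : N) : S) := by rw [h1]
        _ = ∑ k, (ab'.repr ⟨x, hx⟩ k * a k) • b' k := by
          rw [Submodule.coe_sum]
          refine Finset.sum_congr rfl fun k _ => ?_
          rw [Submodule.coe_smul, hab k, smul_smul]
    have h3 : b'.repr x = fun k => ab'.repr ⟨x, hx⟩ k * a k := by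
      conv_lhs => rw [hx']
      rw [Basis.repr_sum_self]
    rw [h3]
    exact Dvd.dvd.mul_left hai _

end Adapted

section ChangeOfBasis

variable {O S : Type*} [CommRing O] [CommRing S] [Algebra O S] {ι : Type*} [Fintype ι]
  [DecidableEq ι]

/-- The discriminants of two bases differ by the square of a unit. -/
theorem exists_discr_eq_unit_sq_mul (b b' : Basis ι O S) :
    ∃ u : Oˣ, Algebra.discr O b' = (u : O) ^ 2 * Algebra.discr O b := by
  have hunit : IsUnit (b.toMatrix b').det := by
    rw [← LinearMap.toMatrix_id_eq_basis_toMatrix b' b]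
    exact LinearEquiv.isUnit_det (LinearEquiv.refl O S) b' b
  obtain ⟨u, hu⟩ := hunit
  refine ⟨u, ?_⟩
  have h := Algebra.discr_of_matrix_vecMul (A := O) (b : ι → S) (b.toMatrix b')
  rw [Basis.toMatrix_map_vecMul] at h
  rw [h, hu]

end ChangeOfBasis

section Count

variable {O S : Type*} [CommRing O] [IsDomain O] [IsDiscreteValuationRing O]
  [CommRing S] [Algebra O S] {ι : Type*} [Fintype ι]

attribute [local instance] Ideal.Quotient.field in
/-- If `c : Fin r → S` spans `S` modulo `J` and the coordinates off `P` of all elements of `J`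
are divisible by `t`, then `#(ι \ P) ≤ r`. -/
theorem card_le_of_spans {t : O} (ht : Irreducible t) (b : Basis ι O S)
    (P : ι → Prop) [DecidablePred P] (J : Ideal S)
    (hrepr : ∀ x ∈ J, ∀ i, ¬ P i → t ∣ b.repr x i)
    {r : ℕ} (c : Fin r → S) (hc : ∀ x : S, ∃ a : Fin r → O, x - ∑ k, a k • c k ∈ J) :
    Fintype.card {i // ¬ P i} ≤ r := by
  classical
  have hp : IsLocalRing.maximalIdeal O = Ideal.span {t} := ht.maximalIdeal_eq
  set κ := O ⧸ IsLocalRing.maximalIdeal O
  let v : Fin r → ({i // ¬ P i} → κ) := fun k i => Ideal.Quotient.mk _ (b.repr (c k) i.1)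
  have hspan : Submodule.span κ (Set.range v) = ⊤ := by
    rw [eq_top_iff]
    intro w _
    choose f hf using fun i => Ideal.Quotient.mk_surjective (w i)
    set s : S := ∑ i : {i // ¬ P i}, f i • b i.1 with hs
    have hsrepr : ∀ j : {i // ¬ P i}, b.repr s j.1 = f j := by
      intro j
      rw [hs, map_sum, Finsupp.finsetSum_apply]
      simp only [map_smul, Basis.repr_self, Finsupp.smul_apply, smul_eq_mul]
      rw [Finset.sum_eq_single j]
      · simp
      · intro i _ hij
        rw [Finsupp.single_apply, if_neg (fun h => hij (Subtype.ext h)), mul_zero]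
      · intro h; exact absurd (Finset.mem_univ j) h
    obtain ⟨a, ha⟩ := hc s
    have hw : w = ∑ k, (Ideal.Quotient.mk (IsLocalRing.maximalIdeal O) (a k)) • v k := by
      funext j
      have h1 := hrepr _ ha j.1 j.2
      rw [map_sub, Finsupp.sub_apply, hsrepr, map_sum, Finsupp.finsetSum_apply] at h1
      simp only [map_smul, Finsupp.smul_apply, smul_eq_mul] at h1
      have h2 : Ideal.Quotient.mk (IsLocalRing.maximalIdeal O)
          (f j - ∑ k, a k * b.repr (c k) j.1) = 0 := by
        rw [Ideal.Quotient.eq_zero_iff_mem, hp, Ideal.mem_span_singleton]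
        exact h1
      rw [map_sub, sub_eq_zero, hf, map_sum] at h2
      rw [h2, Finset.sum_apply]
      refine Finset.sum_congr rfl fun k _ => ?_
      rw [Pi.smul_apply, smul_eq_mul, map_mul]
    rw [hw]
    exact Submodule.sum_mem _ fun k _ => Submodule.smul_mem _ _ (Submodule.subset_span ⟨k, rfl⟩)
  have h1 := finrank_le_of_span_eq_top hspan
  rw [Module.finrank_fintype_fun_eq_card, Fintype.card_fin] at h1
  exact h1

attribute [local instance] Ideal.Quotient.field in
/-- If `c : Fin r → S` is independent modulo `J` (over `O / t`), where `J ∋ t` contains the basis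
vectors indexed by `P`, then `r ≤ #(ι \ P)`. -/
theorem le_card_of_indep {t : O} (ht : Irreducible t) (b : Basis ι O S)
    (P : ι → Prop) [DecidablePred P] (J : Ideal S) (htJ : algebraMap O S t ∈ J)
    (hP : ∀ i, P i → b i ∈ J)
    {r : ℕ} (c : Fin r → S) (hc : ∀ a : Fin r → O, ∑ k, a k • c k ∈ J → ∀ k, t ∣ a k) :
    r ≤ Fintype.card {i // ¬ P i} := by
  classical
  have hp : IsLocalRing.maximalIdeal O = Ideal.span {t} := ht.maximalIdeal_eq
  set κ := O ⧸ IsLocalRing.maximalIdeal O
  let v : Fin r → ({i // ¬ P i} → κ) := fun k i => Ideal.Quotient.mk _ (b.repr (c k) i.1)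
  have hli : LinearIndependent κ v := by
    rw [Fintype.linearIndependent_iff]
    intro g hg k
    choose a ha using fun k => Ideal.Quotient.mk_surjective (g k)
    set x : S := ∑ k, a k • c k with hx
    have hdvd : ∀ i, ¬ P i → t ∣ b.repr x i := by
      intro i hi
      have h1 := congrFun hg ⟨i, hi⟩
      rw [Finset.sum_apply] at h1
      simp only [Pi.smul_apply, smul_eq_mul, Pi.zero_apply, v, ← ha, ← map_mul, ← map_sum] at h1
      rw [Ideal.Quotient.eq_zero_iff_mem, hp, Ideal.mem_span_singleton] at h1
      rw [hx, map_sum, Finsupp.finsetSum_apply]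
      simpa only [map_smul, Finsupp.smul_apply, smul_eq_mul] using h1
    have hxJ : x ∈ J := by
      rw [← b.sum_repr x]
      refine Ideal.sum_mem _ fun i _ => ?_
      by_cases hi : P i
      · rw [Algebra.smul_def]
        exact Ideal.mul_mem_left _ _ (hP i hi)
      · obtain ⟨q, hq⟩ := hdvd i hi
        rw [hq, mul_smul, Algebra.smul_def]
        exact Ideal.mul_mem_right _ _ htJ
    have h2 := hc a hxJ k
    rw [← ha k, Ideal.Quotient.eq_zero_iff_mem, hp, Ideal.mem_span_singleton]
    exact h2
  have h1 := hli.fintype_card_le_finrank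
  rw [Module.finrank_fintype_fun_eq_card, Fintype.card_fin] at h1
  exact h1

end Count

end Fermat.Agent.S18.Disc
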