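/-
P11 (S18), LOCAL part — `Disc1.lean` (owner: helper7).

C1b: discriminant bound over a DVR ⇒ "idempotent-closed".

`O` a DVR with uniformiser `t`, `T` a finite free commutative `O`-algebra with basis `b`
(`n = card ι`), `rad = √(tT)`, and `c : Fin r → T` a family spanning `T` modulo `rad` over `O`
(so `r ≥ dim T/rad`).  If `t^(n-r+1) ∤ discr O b`, then every `z` with `z² = t^k z` is divisible
by `t^k` (i.e. the idempotent `z/t^k` of `T[1/t]` lies in `T`).

Proof: `DiscBase` gives an adapted basis, the factorisation `Gram = H * diag`, the count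
`#(ι ∖ P) ≤ r`, and the KEY multiplier-ring lemma (`det H` unit ⇒ `x·rad ⊆ t·rad → x ∈ tT`).
Here we add the "socle step" (`socle_abs`): the ideal `𝔞 = {a | t^k ∣ a z}` satisfies
`(𝔞 : rad) = 𝔞` by KEY, and `rad^N ⊆ 𝔞`, so `1 ∈ 𝔞`.
-/
import Mathlib
import Fermat.Agent.S18.DiscBase

set_option autoImplicit false

namespace Fermat.Agent.S18

open Module

namespace Disc1

/-- Abstract socle step: `τ` a non-zero-divisor of a commutative ring `T`, `rad = √(τ)` with a
power inside `(τ)`, and the multiplier property `hKC`.  Then `z² = τ^k z` forces `τ^k ∣ z`. -/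
theorem socle_abs {T : Type*} [CommRing T] (τ : T) (hτ : ∀ a b : T, τ * a = τ * b → a = b)
    (hN : ∃ N : ℕ, (Ideal.span {τ}).radical ^ N ≤ Ideal.span {τ})
    (hKC : ∀ x : T, (∀ y ∈ (Ideal.span {τ}).radical, ∃ z ∈ (Ideal.span {τ}).radical,
        x * y = τ * z) → ∃ w, x = τ * w)
    (z : T) (k : ℕ) (hz : z ^ 2 = τ ^ k * z) : ∃ z' : T, z = τ ^ k * z' := by
  classical
  rcases Nat.eq_zero_or_pos k with rfl | hk
  · exact ⟨z, by simp⟩
  set rad := (Ideal.span {τ}).radical with hrad
  have hτrad : τ ∈ rad := Ideal.le_radical (Ideal.mem_span_singleton_self τ)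
  -- cancellation of powers of τ
  have hcancel : ∀ (m : ℕ) (a b : T), τ ^ m * a = τ ^ m * b → a = b := by
    intro m
    induction m with
    | zero => intro a b h; simpa using h
    | succ m ih =>
      intro a b h
      apply ih
      apply hτ
      rw [← mul_assoc, ← mul_assoc, ← pow_succ']
      exact h
  -- key closure property: `(𝔞 : rad) = 𝔞` for `𝔞 = {a | τ^k ∣ a z}`
  have hC : ∀ a : T, (∀ y ∈ rad, ∃ u, y * a * z = τ ^ k * u) → ∃ w, a * z = τ ^ k * w := by
    intro a ha
    obtain ⟨x0, hx0⟩ := ha τ hτrad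
    obtain ⟨k', rfl⟩ : ∃ k', k = k' + 1 := ⟨k - 1, by omega⟩
    have hx : a * z = τ ^ k' * x0 := by
      apply hτ
      rw [← mul_assoc, ← mul_assoc, ← pow_succ', ← hx0]
    obtain ⟨w, hw⟩ := hKC x0 (by
      intro y hy
      obtain ⟨u, hu⟩ := ha y hy
      refine ⟨u, ?_, ?_⟩
      · -- `u ∈ rad` since `u² = (y a) u`
        have hu2 : u ^ 2 = (y * a) * u := by
          apply hcancel (k' + 1)
          apply hcancel (k' + 1)
          calc τ ^ (k' + 1) * (τ ^ (k' + 1) * u ^ 2)
              = (τ ^ (k' + 1) * u) ^ 2 := by ring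
            _ = (y * a * z) ^ 2 := by rw [hu]
            _ = (y * a) ^ 2 * z ^ 2 := by ring
            _ = (y * a) ^ 2 * (τ ^ (k' + 1) * z) := by rw [hz]
            _ = τ ^ (k' + 1) * ((y * a) * (y * a * z)) := by ring
            _ = τ ^ (k' + 1) * ((y * a) * (τ ^ (k' + 1) * u)) := by rw [hu]
            _ = τ ^ (k' + 1) * (τ ^ (k' + 1) * (y * a * u)) := by ring
        have h2 : u ^ 2 ∈ rad := by
          rw [hu2]
          exact rad.mul_mem_right _ (rad.mul_mem_right _ hy)
        exact (Ideal.radical_isRadical _) ⟨2, h2⟩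
      · apply hcancel k'
        calc τ ^ k' * (x0 * y) = y * (τ ^ k' * x0) := by ring
          _ = y * (a * z) := by rw [hx]
          _ = y * a * z := by ring
          _ = τ ^ (k' + 1) * u := hu
          _ = τ ^ k' * (τ * u) := by ring)
    exact ⟨w, by rw [hx, hw]; ring⟩
  obtain ⟨N, hN⟩ := hN
  have hM : rad ^ (N * k) ≤ Ideal.span {τ ^ k} := by
    rw [pow_mul, ← Ideal.span_singleton_pow]
    exact Ideal.pow_right_mono hN k
  have key : ∀ i : ℕ, i ≤ N * k → ∀ a ∈ rad ^ (N * k - i), ∃ w, a * z = τ ^ k * w := by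
    intro i
    induction i with
    | zero =>
      intro _ a ha
      have := hM ha
      rw [Ideal.mem_span_singleton'] at this
      obtain ⟨c, hc⟩ := this
      exact ⟨c * z, by rw [← hc]; ring⟩
    | succ i ih =>
      intro hi a ha
      apply hC
      intro y hy
      have hmem : y * a ∈ rad ^ (N * k - i) := by
        have : N * k - i = (N * k - (i + 1)) + 1 := by omega
        rw [this, pow_succ']
        exact Ideal.mul_mem_mul hy ha
      obtain ⟨w, hw⟩ := ih (by omega) (y * a) hmem
      exact ⟨w, hw⟩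
  obtain ⟨w, hw⟩ := key (N * k) le_rfl 1 (by simp)
  exact ⟨w, by simpa using hw⟩

/-- The socle step for a finite free algebra over a noetherian domain. -/
theorem socle_dvr {O T : Type*} [CommRing O] [IsDomain O] [IsNoetherianRing O]
    [CommRing T] [Algebra O T] [Module.Finite O T] [Module.Free O T]
    (t : O) (ht : t ≠ 0)
    (hKC : ∀ x : T, (∀ y ∈ (Ideal.span {algebraMap O T t}).radical,
        ∃ z ∈ (Ideal.span {algebraMap O T t}).radical, x * y = algebraMap O T t * z) →
        ∃ w, x = algebraMap O T t * w)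
    (z : T) (k : ℕ) (hz : z ^ 2 = algebraMap O T t ^ k * z) :
    ∃ z' : T, z = algebraMap O T t ^ k * z' := by
  have hnoeth : IsNoetherianRing T := IsNoetherianRing.of_finite O T
  refine socle_abs (algebraMap O T t) ?_ ?_ hKC z k hz
  · intro a b hab
    rw [← Algebra.smul_def, ← Algebra.smul_def] at hab
    exact smul_right_injective T ht hab
  · exact Ideal.exists_radical_pow_le_of_fg _ (IsNoetherian.noetherian _)

end Disc1

/-- **C1b.**  `O` a DVR with uniformiser `t`, `T` a finite free commutative `O`-algebra with basis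
`b`, and `c : Fin r → T` spanning `T` modulo `rad (tT)`.  If `t ^ (n - r + 1) ∤ discr O b`, then
`z² = t^k z` implies `t^k ∣ z`. -/
theorem disc1 {O T : Type*} [CommRing O] [IsDomain O] [IsDiscreteValuationRing O]
    [CommRing T] [Algebra O T] {ι : Type*} [Fintype ι] [DecidableEq ι] (b : Basis ι O T)
    (t : O) (ht : Irreducible t) (r : ℕ) (c : Fin r → T)
    (hc : ∀ x : T, ∃ a : Fin r → O,
      x - ∑ i, a i • c i ∈ (Ideal.span {algebraMap O T t}).radical)
    (hd : ¬ t ^ (Fintype.card ι - r + 1) ∣ Algebra.discr O b)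
    (z : T) (k : ℕ) (hz : z ^ 2 = algebraMap O T t ^ k * z) :
    ∃ z' : T, z = algebraMap O T t ^ k * z' := by
  classical
  have hfree : Module.Free O T := Module.Free.of_basis b
  have hfin : Module.Finite O T := Module.Finite.of_basis b
  -- adapted basis
  obtain ⟨b', P, hP, hrepr⟩ := Disc.exists_basis_adapted b ht
    (((Ideal.span {algebraMap O T t}).radical).restrictScalars O) (by
      intro s
      change t • s ∈ (Ideal.span {algebraMap O T t}).radical
      rw [Algebra.smul_def]
      exact Ideal.mul_mem_right _ _ (Ideal.le_radical (Ideal.mem_span_singleton_self _)))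
  have hP' : ∀ i, P i → b' i ∈ (Ideal.span {algebraMap O T t}).radical := fun i hi => hP i hi
  obtain ⟨H, hH⟩ := Disc.exists_traceMatrix_eq_mul_diagonal ht b' P hP'
  have hdiscr := Disc.discr_eq_det_mul_pow b' P H hH
  have hcount : Fintype.card {i // ¬ P i} ≤ r :=
    Disc.card_le_of_spans ht b' P ((Ideal.span {algebraMap O T t}).radical)
      (fun x hx i hi => hrepr x hx i hi) c hc
  obtain ⟨u, hu⟩ := Disc.exists_discr_eq_unit_sq_mul b' b
  have hdet : IsUnit H.det := by
    by_contra hnu
    have htd : t ∣ H.det := by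
      have hmem : H.det ∈ IsLocalRing.maximalIdeal O := (IsLocalRing.mem_maximalIdeal _).2 hnu
      rw [ht.maximalIdeal_eq, Ideal.mem_span_singleton] at hmem
      exact hmem
    apply hd
    rw [hu, hdiscr]
    have hle : Fintype.card ι - r + 1 ≤ (Finset.univ.filter P).card + 1 := by
      have h1 : Fintype.card {i // ¬ P i} = Fintype.card ι - Fintype.card {i // P i} :=
        Fintype.card_subtype_compl P
      have h2 : Fintype.card {i // P i} = (Finset.univ.filter P).card := Fintype.card_subtype P
      have h3 : (Finset.univ.filter P).card ≤ Fintype.card ι := by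
        rw [← Finset.card_univ]
        exact Finset.card_le_card (Finset.filter_subset _ _)
      omega
    refine (pow_dvd_pow t hle).trans ?_
    refine Dvd.dvd.mul_left ?_ _
    rw [pow_succ, mul_comm]
    exact mul_dvd_mul htd dvd_rfl
  exact Disc1.socle_dvr t ht.ne_zero
    (fun x hx => Disc.exists_eq_mul_of_mul_radical ht b' P hP' H hH hdet x hx) z k hz

end Fermat.Agent.S18
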