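import Fermat.Agent.S18.DiscBase

/-!
# C1, strong (normality) form

Same hypotheses as `disc1` (`S18/Disc1.lean`): `O` a DVR with uniformiser `t`, `T` a finite free
`O`-algebra with basis `b`, `c : Fin r → T` spanning `T` modulo `rad (tT)`, and
`t ^ (n - r + 1) ∤ discr O b`.  Then

* `disc1_key`: the multiplier ring of `rad (tT)` is `T`;
* `disc1_dvr`: the localisation of `T` at every maximal ideal is a discrete valuation ring
  (so `T` is normal).
-/

namespace Fermat.Agent.S18

open Module

/-- Under the hypotheses of `disc1`: if `x • rad(tT) ⊆ t • rad(tT)` then `x ∈ tT`. -/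
theorem disc1_key {O T : Type*} [CommRing O] [IsDomain O] [IsDiscreteValuationRing O]
    [CommRing T] [Algebra O T] {ι : Type*} [Fintype ι] [DecidableEq ι] (b : Basis ι O T)
    (t : O) (ht : Irreducible t) (r : ℕ) (c : Fin r → T)
    (hc : ∀ x : T, ∃ a : Fin r → O,
      x - ∑ i, a i • c i ∈ (Ideal.span {algebraMap O T t}).radical)
    (hd : ¬ t ^ (Fintype.card ι - r + 1) ∣ Algebra.discr O b) (x : T)
    (hx : ∀ y ∈ (Ideal.span {algebraMap O T t}).radical,
      ∃ z ∈ (Ideal.span {algebraMap O T t}).radical, x * y = algebraMap O T t * z) :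
    ∃ w, x = algebraMap O T t * w := by
  classical
  obtain ⟨b', P, hP, hrepr⟩ := Disc.exists_basis_adapted b ht
    (((Ideal.span {algebraMap O T t}).radical).restrictScalars O) (by
      intro s
      change t • s ∈ (Ideal.span {algebraMap O T t}).radical
      rw [Algebra.smul_def]
      exact Ideal.mul_mem_right _ _ (Ideal.le_radical (Ideal.mem_span_singleton_self _)))
  have hP' : ∀ i, P i → b' i ∈ (Ideal.span {algebraMap O T t}).radical := fun i hi => hP i hi
  obtain ⟨H, hH⟩ := Disc.exists_traceMatrix_eq_mul_diagonal ht b' P hP'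
  have hdiscr := Disc.discr_eq_det_mul_pow b' P H hH
  have hcount : Fintype.card {i // ¬ P i} ≤ r :=
    Disc.card_le_of_spans ht b' P ((Ideal.span {algebraMap O T t}).radical)
      (fun x hx i hi => hrepr x hx i hi) c hc
  obtain ⟨u, hu⟩ := Disc.exists_discr_eq_unit_sq_mul b' b
  have hdet : IsUnit H.det := by
    by_contra hnu
    have htd : t ∣ H.det := by
      have hmem : H.det ∈ IsLocalRing.maximalIdeal O := (IsLocalRing.mem_maximalIdeal _).2 hnu
      rw [ht.maximalIdeal_eq, Ideal.mem_span_singleton] at hmem
      exact hmem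
    apply hd
    rw [hu, hdiscr]
    have hsplit : (Finset.univ.filter P).card + Fintype.card {i // ¬ P i} = Fintype.card ι := by
      rw [Fintype.card_subtype, ← Finset.card_univ (α := ι)]
      exact Finset.card_filter_add_card_filter_not P
    have hle : Fintype.card ι - r + 1 ≤ (Finset.univ.filter P).card + 1 := by omega
    refine (pow_dvd_pow t hle).trans ?_
    refine Dvd.dvd.mul_left ?_ _
    rw [pow_succ, mul_comm]
    exact mul_dvd_mul htd dvd_rfl
  exact Disc.exists_eq_mul_of_mul_radical ht b' P hP' H hH hdet x hx

/-- **C1, normality form.**  Under the hypotheses of `disc1`, the localisation of `T` at every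
maximal ideal is a discrete valuation ring. -/
theorem disc1_dvr {O T : Type*} [CommRing O] [IsDomain O] [IsDiscreteValuationRing O]
    [CommRing T] [Algebra O T] {ι : Type*} [Fintype ι] [DecidableEq ι] (b : Basis ι O T)
    (t : O) (ht : Irreducible t) (r : ℕ) (c : Fin r → T)
    (hc : ∀ x : T, ∃ a : Fin r → O,
      x - ∑ i, a i • c i ∈ (Ideal.span {algebraMap O T t}).radical)
    (hd : ¬ t ^ (Fintype.card ι - r + 1) ∣ Algebra.discr O b)
    (M : Ideal T) [M.IsMaximal] :
    ∃ _ : IsDomain (Localization.AtPrime M), IsDiscreteValuationRing (Localization.AtPrime M) := by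
  have hfree : Module.Free O T := Module.Free.of_basis b
  have hfin : Module.Finite O T := Module.Finite.of_basis b
  exact Disc.exists_isDiscreteValuationRing_localization_of_key ht
    (fun x hx => disc1_key b t ht r c hc hd x hx) M

end Fermat.Agent.S18
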