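import Fermat.Agent.S18.DiscBase

/-!
# Tame discriminant bound over a DVR (P11, LOCAL part)

`O` a DVR with uniformiser `t` and residue characteristic zero, `T` a Dedekind domain which is a
finite free `O`-algebra with basis `b`.  If `c : Fin r → T` is independent modulo `rad (t T)`,
then `t ^ (n - r + 1)` does not divide the discriminant (`tame_dvr`).
-/

namespace Fermat.Agent.S18

open Module

namespace Disc

section PID

variable {T : Type*} [CommRing T] [IsDomain T] [IsPrincipalIdealRing T]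

/-- In a PID, if `τ ∤ x` there are `j ∈ rad (τ)` and `a`, idempotent and nonzero modulo `τ`,
with `x * j = τ * a`. -/
theorem exists_mul_eq_mul_idempotent {τ x : T} (hτ : τ ≠ 0) (hx : ¬ τ ∣ x) :
    ∃ j a : T, x * j = τ * a ∧ (∃ N : ℕ, τ ∣ j ^ N) ∧ τ ∣ a ^ 2 - a ∧ ¬ τ ∣ a := by
  have hx0 : x ≠ 0 := fun h => hx (h ▸ dvd_zero τ)
  -- gcd decomposition
  obtain ⟨x₁, hx₁⟩ := IsBezout.gcd_dvd_left x τ
  obtain ⟨t₁, ht₁⟩ := IsBezout.gcd_dvd_right x τ
  set g := IsBezout.gcd x τ with hg
  have hg0 : g ≠ 0 := fun h => hx0 (by rw [hx₁, h, zero_mul])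
  obtain ⟨α₀, β₀, hαβ⟩ := IsBezout.gcd_eq_sum x τ
  have hcop : α₀ * x₁ + β₀ * t₁ = 1 := by
    apply mul_left_cancel₀ hg0
    rw [mul_one]
    calc g * (α₀ * x₁ + β₀ * t₁) = α₀ * (g * x₁) + β₀ * (g * t₁) := by ring
      _ = α₀ * x + β₀ * τ := by rw [← hx₁, ← ht₁]
      _ = g := hαβ
  have ht₁0 : t₁ ≠ 0 := fun h => hτ (by rw [ht₁, h, mul_zero])
  have ht₁u : ¬ IsUnit t₁ := by
    rintro ⟨u, hu⟩
    apply hx
    refine ⟨↑u⁻¹ * x₁, ?_⟩
    rw [ht₁, ← hu, hx₁]
    calc g * x₁ = g * x₁ * (↑u * ↑u⁻¹) := by rw [Units.mul_inv, mul_one]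
      _ = g * ↑u * (↑u⁻¹ * x₁) := by ring
  obtain ⟨p, hp, hpt₁⟩ := WfDvdMonoid.exists_irreducible_factor ht₁u ht₁0
  have hpp : Prime p := hp.prime
  have hpx₁ : ¬ p ∣ x₁ := by
    intro h
    apply hp.not_isUnit
    apply isUnit_of_dvd_one
    rw [← hcop]
    exact dvd_add (Dvd.dvd.mul_left h _) (Dvd.dvd.mul_left hpt₁ _)
  obtain ⟨v, g', hg', hgv⟩ := WfDvdMonoid.max_power_factor hg0 hp
  obtain ⟨w, t₁', ht₁', ht₁w⟩ := WfDvdMonoid.max_power_factor ht₁0 hp
  have hw : w ≠ 0 := by
    rintro rfl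
    rw [pow_zero, one_mul] at ht₁w
    exact ht₁' (ht₁w ▸ hpt₁)
  set x' := g' * x₁ with hx'
  set t'' := g' * t₁' with ht''
  have hpx' : ¬ p ∣ x' := fun h => (hpp.dvd_or_dvd h).elim hg' hpx₁
  have hpt'' : ¬ p ∣ t'' := fun h => (hpp.dvd_or_dvd h).elim hg' ht₁'
  have hxeq : x = p ^ v * x' := by rw [hx₁, hgv, hx']; ring
  have hτeq : τ = p ^ (v + w) * t'' := by rw [ht₁, hgv, ht₁w, ht'', pow_add]; ring
  have hcop2 : IsCoprime (p ^ (v + w)) (x' * t'') :=
    IsCoprime.pow_left (IsCoprime.mul_right (hp.coprime_iff_not_dvd.mpr hpx')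
      (hp.coprime_iff_not_dvd.mpr hpt''))
  obtain ⟨α, β, hαβ2⟩ := hcop2
  refine ⟨p ^ w * t'' * (β * t''), β * x' * t'', ?_, ⟨v + w, ?_⟩, ?_, ?_⟩
  · rw [hxeq, hτeq, pow_add]; ring
  · rw [hτeq]
    have h1 : (p ^ w * t'' * (β * t'')) ^ (v + w) =
        p ^ (v + w) * t'' *
          ((p ^ (v + w)) ^ (w - 1) * t'' ^ (v + w - 1) * (β * t'') ^ (v + w)) := by
      have hvw : v + w = (v + w - 1) + 1 := by omega
      have hw1 : w - 1 + 1 = w := by omega
      have e1 : (p ^ w) ^ (v + w) = p ^ (v + w) * (p ^ (v + w)) ^ (w - 1) := by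
        calc (p ^ w) ^ (v + w) = p ^ (w * (v + w)) := (pow_mul p w (v + w)).symm
          _ = p ^ ((v + w) * w) := by rw [mul_comm]
          _ = (p ^ (v + w)) ^ w := pow_mul p (v + w) w
          _ = (p ^ (v + w)) ^ (w - 1 + 1) := by rw [hw1]
          _ = p ^ (v + w) * (p ^ (v + w)) ^ (w - 1) := pow_succ' _ _
      have e2 : t'' ^ (v + w) = t'' * t'' ^ (v + w - 1) := by
        conv_lhs => rw [hvw]
        exact pow_succ' _ _
      rw [mul_pow, mul_pow, e1, e2]; ring
    rw [h1]
    exact Dvd.intro _ rfl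
  · have h1 : β * x' * t'' - 1 = -(α * p ^ (v + w)) := by
      rw [← hαβ2]; ring
    refine ⟨-(β * x' * α), ?_⟩
    rw [hτeq]
    calc (β * x' * t'') ^ 2 - β * x' * t'' = (β * x' * t'') * (β * x' * t'' - 1) := by ring
      _ = (β * x' * t'') * (-(α * p ^ (v + w))) := by rw [h1]
      _ = p ^ (v + w) * t'' * -(β * x' * α) := by ring
  · intro h
    have hpτ : p ∣ τ := by
      rw [hτeq]
      exact Dvd.dvd.mul_right (dvd_pow_self p (by omega)) _
    have h1 : p ∣ β * x' * t'' := hpτ.trans h
    have h2 : p ∣ α * p ^ (v + w) := Dvd.dvd.mul_left (dvd_pow_self p (by omega)) _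
    apply hp.not_isUnit
    apply isUnit_of_dvd_one
    rw [← hαβ2]
    have h3 : β * (x' * t'') = β * x' * t'' := by ring
    rw [h3]
    exact dvd_add h2 h1

end PID

section IdemTrace

variable {O T : Type*} [CommRing O] [IsDomain O] [IsDiscreteValuationRing O]
  [CommRing T] [Algebra O T] [Module.Free O T] [Module.Finite O T]

attribute [local instance] Ideal.Quotient.field in
/-- In residue characteristic zero, the trace of an element which is a nonzero idempotent
modulo `t` is not divisible by `t`. -/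
theorem not_dvd_trace_of_idempotent_mod {t : O} (ht : Irreducible t)
    [hchar : CharZero (O ⧸ Ideal.span {t})] {a : T}
    (ha : algebraMap O T t ∣ a ^ 2 - a) (ha' : ¬ algebraMap O T t ∣ a) :
    ¬ t ∣ Algebra.trace O T a := by
  have hp : IsLocalRing.maximalIdeal O = Ideal.span {t} := ht.maximalIdeal_eq
  have hmap : Ideal.map (algebraMap O T) (IsLocalRing.maximalIdeal O)
      = Ideal.span {algebraMap O T t} := by
    rw [hp, Ideal.map_span, Set.image_singleton]
  have hchar' : CharZero (O ⧸ IsLocalRing.maximalIdeal O) := by rw [hp]; exact hchar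
  intro hdvd
  have h1 := Algebra.trace_quotient_mk (R := O) (S := T) a
  have h2 : Ideal.Quotient.mk (IsLocalRing.maximalIdeal O) (Algebra.trace O T a) = 0 := by
    rw [Ideal.Quotient.eq_zero_iff_mem, hp, Ideal.mem_span_singleton]
    exact hdvd
  rw [h2, Algebra.trace_apply] at h1
  have : Module.Finite (O ⧸ IsLocalRing.maximalIdeal O)
      (T ⧸ Ideal.map (algebraMap O T) (IsLocalRing.maximalIdeal O)) :=
    Module.Finite.of_restrictScalars_finite O _ _
  set ā := Ideal.Quotient.mk (Ideal.map (algebraMap O T) (IsLocalRing.maximalIdeal O)) a with hā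
  have hidem : ā * ā = ā := by
    rw [hā, ← map_mul, ← sub_eq_zero, ← map_sub, Ideal.Quotient.eq_zero_iff_mem, hmap,
      Ideal.mem_span_singleton]
    rw [← pow_two]
    exact ha
  have hidem' : IsIdempotentElem (Algebra.lmul (O ⧸ IsLocalRing.maximalIdeal O)
      (T ⧸ Ideal.map (algebraMap O T) (IsLocalRing.maximalIdeal O)) ā) := by
    unfold IsIdempotentElem
    rw [← map_mul, hidem]
  have h3 := (LinearMap.IsIdempotentElem.trace_eq_zero_iff hidem').mp h1
  have h4 : ā = 0 := by
    have := congrArg (fun f => f 1) h3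
    simpa using this
  apply ha'
  rw [hā, Ideal.Quotient.eq_zero_iff_mem, hmap, Ideal.mem_span_singleton] at h4
  exact h4

end IdemTrace

section Tame

variable {O T : Type*} [CommRing O] [IsDomain O] [IsDiscreteValuationRing O]
  [CommRing T] [IsDedekindDomain T] [Algebra O T]

/-- A Dedekind domain which is finite over a DVR is a principal ideal domain. -/
theorem isPrincipalIdealRing_of_finite [Module.Finite O T] {t : O} (ht : Irreducible t) :
    IsPrincipalIdealRing T := by
  apply IsPrincipalIdealRing.of_finite_primes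
  refine Set.Finite.subset
    ((finite_setOf_isMaximal (O := O) (S := T) ht).union (Set.finite_singleton ⊥)) ?_
  intro Q (hQ : Q.IsPrime)
  by_cases h : Q = ⊥
  · right; exact h
  · left; exact hQ.isMaximal h

/-- **Tame non-degeneracy.**  If `Tr (x * y) ∈ t² O` for all `y ∈ rad (t T)`, then `x ∈ t T`. -/
theorem exists_eq_mul_of_sq_dvd_trace [Module.Free O T] [Module.Finite O T]
    {t : O} (ht : Irreducible t) [CharZero (O ⧸ Ideal.span {t})] (x : T)
    (hx : ∀ y ∈ (Ideal.span {algebraMap O T t}).radical, t ^ 2 ∣ Algebra.trace O T (x * y)) :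
    ∃ w, x = algebraMap O T t * w := by
  have hPID := isPrincipalIdealRing_of_finite (O := O) (T := T) ht
  have ht0 : t ≠ 0 := ht.ne_zero
  have hτ : algebraMap O T t ≠ 0 := by
    intro h0
    have h1 : t • (1 : T) = 0 := by rw [Algebra.smul_def, mul_one]; exact h0
    let b := Module.Free.chooseBasis O T
    have h2 : (1 : T) = 0 := by
      apply b.ext_elem
      intro i
      have h3 := congrArg (fun y => b.repr y i) h1
      simp only [map_smul, Finsupp.smul_apply, smul_eq_mul, map_zero, Finsupp.zero_apply,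
        mul_eq_zero] at h3
      rcases h3 with h3 | h3
      · exact absurd h3 ht0
      · simpa using h3
    exact one_ne_zero h2
  by_contra hcon
  obtain ⟨j, a, hja, ⟨N, hN⟩, ha, ha'⟩ :=
    exists_mul_eq_mul_idempotent hτ (fun ⟨w, hw⟩ => hcon ⟨w, hw⟩)
  have hj : j ∈ (Ideal.span {algebraMap O T t}).radical := ⟨N, Ideal.mem_span_singleton.mpr hN⟩
  have h1 := hx j hj
  rw [hja, ← Algebra.smul_def, map_smul, smul_eq_mul, pow_two] at h1
  have h2 : t ∣ Algebra.trace O T a := (mul_dvd_mul_iff_left ht0).mp h1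
  exact not_dvd_trace_of_idempotent_mod ht ha ha' h2

end Tame

section UnitDet

variable {O S : Type*} [CommRing O] [IsDomain O] [IsDiscreteValuationRing O]
  [CommRing S] [Algebra O S] {ι : Type*} [Fintype ι] [DecidableEq ι]

attribute [local instance] Ideal.Quotient.field in
/-- If the trace pairing `S × rad(tS) → O`, `(x, y) ↦ t⁻¹ Tr(xy)` is non-degenerate in the first
variable, then the matrix `H` of the Gram factorisation w.r.t. an adapted basis is invertible. -/
theorem isUnit_det_of_nondeg {t : O} (ht : Irreducible t) (b : Basis ι O S)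
    (P : ι → Prop) [DecidablePred P]
    (hrepr : ∀ x ∈ (Ideal.span {algebraMap O S t}).radical, ∀ i, ¬ P i → t ∣ b.repr x i)
    (H : Matrix ι ι O)
    (hH : Algebra.traceMatrix O b = H * Matrix.diagonal (fun j => if P j then t else 1))
    (hndg : ∀ x : S, (∀ y ∈ (Ideal.span {algebraMap O S t}).radical,
      t ^ 2 ∣ Algebra.trace O S (x * y)) → ∃ w, x = algebraMap O S t * w) :
    IsUnit H.det := by
  have hp : IsLocalRing.maximalIdeal O = Ideal.span {t} := ht.maximalIdeal_eq
  by_contra hdet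
  have hmem : H.det ∈ IsLocalRing.maximalIdeal O := (IsLocalRing.mem_maximalIdeal _).mpr hdet
  have hdet0 : (H.map (Ideal.Quotient.mk (IsLocalRing.maximalIdeal O))).det = 0 := by
    rw [← RingHom.mapMatrix_apply, ← RingHom.map_det]
    exact Ideal.Quotient.eq_zero_iff_mem.mpr hmem
  obtain ⟨v, hv0, hv⟩ := Matrix.exists_vecMul_eq_zero_iff.mpr hdet0
  choose β hβ using fun i => Ideal.Quotient.mk_surjective (v i)
  have hβH : ∀ j, t ∣ (Matrix.vecMul β H) j := by
    intro j
    have h1 := congrFun hv j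
    have h2 : Ideal.Quotient.mk (IsLocalRing.maximalIdeal O) ((Matrix.vecMul β H) j) =
        (Matrix.vecMul v (H.map (Ideal.Quotient.mk (IsLocalRing.maximalIdeal O)))) j := by
      simp only [Matrix.vecMul, dotProduct, map_sum, map_mul, hβ, Matrix.map_apply]
    rw [h1, Pi.zero_apply, Ideal.Quotient.eq_zero_iff_mem, hp, Ideal.mem_span_singleton] at h2
    exact h2
  choose γ hγ using hβH
  set x : S := ∑ i, β i • b i with hxdef
  have htr : ∀ j, Algebra.trace O S (x * b j) =
      (Matrix.vecMul β H) j * (if P j then t else 1) := by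
    intro j
    have h1 : Algebra.trace O S (x * b j) = (Matrix.vecMul β (Algebra.traceMatrix O b)) j := by
      rw [hxdef, Finset.sum_mul, map_sum]
      simp only [Matrix.vecMul, dotProduct, Algebra.traceMatrix_apply, Algebra.traceForm_apply,
        smul_mul_assoc, map_smul, smul_eq_mul]
    rw [h1, hH, ← Matrix.vecMul_vecMul, Matrix.vecMul_diagonal]
  have hx : ∀ y ∈ (Ideal.span {algebraMap O S t}).radical,
      t ^ 2 ∣ Algebra.trace O S (x * y) := by
    intro y hy
    have hy' : y = ∑ j, b.repr y j • b j := (b.sum_repr y).symm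
    have h1 : Algebra.trace O S (x * y) = ∑ j, b.repr y j * Algebra.trace O S (x * b j) := by
      conv_lhs => rw [hy']
      rw [Finset.mul_sum, map_sum]
      simp only [mul_smul_comm, map_smul, smul_eq_mul]
    rw [h1]
    refine Finset.dvd_sum fun j _ => ?_
    rw [htr j, hγ j]
    by_cases hj : P j
    · rw [if_pos hj]
      exact ⟨b.repr y j * γ j, by ring⟩
    · rw [if_neg hj]
      obtain ⟨q, hq⟩ := hrepr y hy j hj
      rw [hq]
      exact ⟨q * γ j, by ring⟩
  obtain ⟨w, hw⟩ := hndg x hx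
  apply hv0
  funext i
  have h1 : b.repr x i = β i := by
    rw [hxdef, Basis.repr_sum_self]
  have h2 : b.repr x i = t * b.repr w i := by
    rw [hw, ← Algebra.smul_def, map_smul, Finsupp.smul_apply, smul_eq_mul]
  rw [Pi.zero_apply, ← hβ i, Ideal.Quotient.eq_zero_iff_mem, hp, Ideal.mem_span_singleton,
    ← h1, h2]
  exact Dvd.intro _ rfl

end UnitDet

end Disc

open Disc in
/-- **Tame bound over a DVR.**  `O` a DVR with uniformiser `t` and residue characteristic zero,
`T` a Dedekind domain, finite free over `O` with basis `b`.  If `c : Fin r → T` is independent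
modulo `rad (t T)` then `t ^ (n - r + 1)` does not divide the discriminant. -/
theorem tame_dvr {O T : Type*} [CommRing O] [IsDomain O] [IsDiscreteValuationRing O]
    [CommRing T] [IsDedekindDomain T] [Algebra O T]
    {ι : Type*} [Fintype ι] [DecidableEq ι] (b : Basis ι O T)
    (t : O) (ht : Irreducible t) [CharZero (O ⧸ Ideal.span {t})]
    (r : ℕ) (c : Fin r → T)
    (hc : ∀ a : Fin r → O, ∑ i, a i • c i ∈ (Ideal.span {algebraMap O T t}).radical →
      ∀ i, t ∣ a i) :
    ¬ t ^ (Fintype.card ι - r + 1) ∣ Algebra.discr O b := by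
  have : Module.Free O T := Module.Free.of_basis b
  have : Module.Finite O T := Module.Finite.of_basis b
  have ht0 : t ≠ 0 := ht.ne_zero
  set J : Ideal T := (Ideal.span {algebraMap O T t}).radical with hJ
  have htJ : algebraMap O T t ∈ J := Ideal.le_radical (Ideal.subset_span rfl)
  obtain ⟨b', P, hP, hrepr⟩ := exists_basis_adapted b ht (J.restrictScalars O)
    (fun s => by
      rw [Submodule.restrictScalars_mem, Algebra.smul_def]
      exact Ideal.mul_mem_right _ _ htJ)
  classical
  obtain ⟨H, hH⟩ := exists_traceMatrix_eq_mul_diagonal ht b' P hP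
  have hdiscr' := discr_eq_det_mul_pow b' P H hH
  have hcard : r ≤ Fintype.card {i // ¬ P i} := le_card_of_indep ht b' P J htJ hP c hc
  have hunit : IsUnit H.det :=
    isUnit_det_of_nondeg ht b' P hrepr H hH (fun x hx => exists_eq_mul_of_sq_dvd_trace ht x hx)
  obtain ⟨u, hu⟩ := exists_discr_eq_unit_sq_mul b' b
  -- `#P + #(ι \ P) = n`
  have hsplit : (Finset.univ.filter P).card + Fintype.card {i // ¬ P i} = Fintype.card ι := by
    rw [Fintype.card_subtype, ← Finset.card_univ (α := ι)]
    exact Finset.card_filter_add_card_filter_not P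
  intro hdvd
  rw [hu, hdiscr'] at hdvd
  set m := (Finset.univ.filter P).card with hm
  have hle : m + 1 ≤ Fintype.card ι - r + 1 := by omega
  have h1 : t ^ (m + 1) ∣ (u : O) ^ 2 * (H.det * t ^ m) := (pow_dvd_pow t hle).trans hdvd
  have h2 : t ^ m * t ∣ t ^ m * ((u : O) ^ 2 * H.det) := by
    have : (u : O) ^ 2 * (H.det * t ^ m) = t ^ m * ((u : O) ^ 2 * H.det) := by ring
    rw [← this, ← pow_succ]
    exact h1
  have h3 : t ∣ (u : O) ^ 2 * H.det := (mul_dvd_mul_iff_left (pow_ne_zero m ht0)).mp h2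
  have h4 : IsUnit ((u : O) ^ 2 * H.det) := (u.isUnit.pow 2).mul hunit
  exact ht.not_isUnit (isUnit_of_dvd_unit h3 h4)

end Fermat.Agent.S18
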