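import Mathlib
import Fermat.Agent.S18.Disc2Core

/-!
P11 (S18), LOCAL: the tame discriminant bound over a two-dimensional regular local ring
(`disc2`), obtained from the DVR case `tame_dvr` (`Disc2Core.lean`) by localising at the prime
`(y)`.
-/

set_option autoImplicit false

namespace Fermat.Agent.S18

open Module

namespace Disc2

section Base

variable {R S : Type*} [CommRing R] [IsDomain R] [CommRing S] [Algebra R S]

omit [IsDomain R] in
/-- If `S` is free over `R` and `(y)` is prime, an element of `R` outside `(y)` is a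
non-zero-divisor on `S / y S`. -/
theorem mem_span_of_mul_mem {ι : Type*} [Fintype ι] (b : Basis ι R S) (y : R)
    (hy : (Ideal.span {y} : Ideal R).IsPrime) (g : R) (hg : g ∉ Ideal.span {y}) (w : S)
    (h : algebraMap R S g * w ∈ Ideal.span {algebraMap R S y}) :
    w ∈ Ideal.span {algebraMap R S y} := by
  obtain ⟨z, hz⟩ := Ideal.mem_span_singleton'.mp h
  have hcoord : ∀ i, b.repr w i ∈ Ideal.span {y} := by
    intro i
    have h1 : g * b.repr w i = y * b.repr z i := by
      have h2 : g • w = y • z := by
        rw [Algebra.smul_def, Algebra.smul_def, ← hz, mul_comm]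
      have h3 := congrArg (fun v => b.repr v i) h2
      simpa using h3
    have h4 : g * b.repr w i ∈ Ideal.span {y} := by
      rw [h1]
      exact Ideal.mul_mem_right _ _ (Ideal.mem_span_singleton_self y)
    exact (hy.mem_or_mem h4).resolve_left hg
  choose u hu using fun i => Ideal.mem_span_singleton'.mp (hcoord i)
  rw [Ideal.mem_span_singleton']
  refine ⟨∑ i, u i • b i, ?_⟩
  conv_rhs => rw [← b.sum_repr w]
  rw [Finset.sum_mul]
  refine Finset.sum_congr rfl fun i _ => ?_
  rw [← hu i, mul_smul, Algebra.smul_def y, mul_comm, mul_smul_comm]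

omit [IsDomain R] in
/-- The same for the radical of `y S`. -/
theorem mem_radical_of_mul_mem {ι : Type*} [Fintype ι] (b : Basis ι R S) (y : R)
    (hy : (Ideal.span {y} : Ideal R).IsPrime) (g : R) (hg : g ∉ Ideal.span {y}) (w : S)
    (h : algebraMap R S g * w ∈ (Ideal.span {algebraMap R S y}).radical) :
    w ∈ (Ideal.span {algebraMap R S y}).radical := by
  obtain ⟨k, hk⟩ := h
  refine ⟨k, mem_span_of_mul_mem b y hy (g ^ k) (fun hgk => hg (hy.mem_of_pow_mem k hgk)) _ ?_⟩
  rw [map_pow, ← mul_pow]
  exact hk

end Base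

section Relation

variable {R S : Type*} [CommRing R] [IsDomain R] [IsNoetherianRing R] [IsLocalRing R]
  [CommRing S] [Algebra R S]

omit [IsDomain R] in
/-- Krull's intersection theorem in `R / y`: an element of `⋂ₘ (π ^ m, y)` lies in `(y)`. -/
theorem mem_span_of_forall_pow (π y x : R) (hπ : π ∈ IsLocalRing.maximalIdeal R)
    (h : ∀ m : ℕ, ∃ u v : R, x = π ^ m * u + y * v) : x ∈ Ideal.span {y} := by
  have hI : (Ideal.span {π} : Ideal R) ≠ ⊤ := by
    intro htop
    have h1 : (Ideal.span {π} : Ideal R) ≤ IsLocalRing.maximalIdeal R :=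
      (Ideal.span_singleton_le_iff_mem _).mpr hπ
    rw [htop] at h1
    exact (IsLocalRing.maximalIdeal.isMaximal R).ne_top (top_le_iff.mp h1)
  have key := Ideal.iInf_pow_smul_eq_bot_of_isLocalRing (I := Ideal.span {π})
    (M := R ⧸ Ideal.span {y}) hI
  have hx : Ideal.Quotient.mk (Ideal.span {y}) x ∈
      (⨅ i : ℕ, (Ideal.span {π}) ^ i • (⊤ : Submodule R (R ⧸ Ideal.span {y}))) := by
    rw [Submodule.mem_iInf]
    intro m
    obtain ⟨u, v, rfl⟩ := h m
    have h2 : Ideal.Quotient.mk (Ideal.span {y}) (π ^ m * u + y * v) =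
        (π ^ m) • (Ideal.Quotient.mk (Ideal.span {y}) u) := by
      rw [map_add, Ideal.Quotient.eq_zero_iff_mem.mpr
        (Ideal.mul_mem_right v _ (Ideal.mem_span_singleton_self y)), add_zero, map_mul]
      rfl
    rw [h2]
    exact Submodule.smul_mem_smul (Ideal.pow_mem_pow (Ideal.mem_span_singleton_self π) m)
      Submodule.mem_top
  rw [key, Submodule.mem_bot] at hx
  exact Ideal.Quotient.eq_zero_iff_mem.mp hx

omit [IsDomain R] in
/-- Independence modulo `rad(𝔪 S)` forces relations modulo `rad(y S)` to have coefficients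
in `(y)`. -/
theorem rel_mem_span (π y : R) (hm : IsLocalRing.maximalIdeal R = Ideal.span {π, y})
    (hy : (Ideal.span {y} : Ideal R).IsPrime) (hπy : π ∉ Ideal.span {y})
    {ι : Type*} [Fintype ι] (b : Basis ι R S) (r : ℕ) (c : Fin r → S)
    (hc : ∀ a : Fin r → R, ∑ i, a i • c i ∈
      (Ideal.map (algebraMap R S) (IsLocalRing.maximalIdeal R)).radical →
        ∀ i, a i ∈ IsLocalRing.maximalIdeal R)
    (a : Fin r → R) (ha : ∑ i, a i • c i ∈ (Ideal.span {algebraMap R S y}).radical) :
    ∀ i, a i ∈ Ideal.span {y} := by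
  have hπm : π ∈ IsLocalRing.maximalIdeal R := by
    rw [hm]
    exact Ideal.subset_span (Set.mem_insert _ _)
  have hym : y ∈ IsLocalRing.maximalIdeal R := by
    rw [hm]
    exact Ideal.subset_span (Set.mem_insert_of_mem _ rfl)
  have hle : (Ideal.span {algebraMap R S y}).radical ≤
      (Ideal.map (algebraMap R S) (IsLocalRing.maximalIdeal R)).radical := by
    apply Ideal.radical_mono
    rw [Ideal.span_singleton_le_iff_mem]
    exact Ideal.mem_map_of_mem _ hym
  have key : ∀ (m : ℕ) (a : Fin r → R),
      ∑ i, a i • c i ∈ (Ideal.span {algebraMap R S y}).radical →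
        ∀ i, ∃ u v : R, a i = π ^ m * u + y * v := by
    intro m
    induction m with
    | zero => intro a _ i; exact ⟨a i, 0, by ring⟩
    | succ m ih =>
      intro a ha i
      have h1 := hc a (hle ha)
      rw [hm] at h1
      choose a' a'' haa using fun i => Ideal.mem_span_pair.mp (h1 i)
      have h2 : ∑ i, a' i • c i ∈ (Ideal.span {algebraMap R S y}).radical := by
        apply mem_radical_of_mul_mem b y hy π hπy
        have h3 : algebraMap R S π * ∑ i, a' i • c i =
            ∑ i, a i • c i - algebraMap R S y * ∑ i, a'' i • c i := by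
          rw [Finset.mul_sum, Finset.mul_sum, ← Finset.sum_sub_distrib]
          refine Finset.sum_congr rfl fun i _ => ?_
          rw [← haa i]
          simp only [Algebra.smul_def, map_add, map_mul]
          ring
        rw [h3]
        exact Ideal.sub_mem _ ha (Ideal.le_radical
          (Ideal.mul_mem_right _ _ (Ideal.mem_span_singleton_self _)))
      obtain ⟨u, v, huv⟩ := ih a' h2 i
      refine ⟨u, v * π + a'' i, ?_⟩
      rw [← haa i, huv]
      ring
  intro i
  exact mem_span_of_forall_pow π y (a i) hπm fun m => key m a ha i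

end Relation

section Loc

/-- The localisation of `R` at the principal prime `(y)` is a DVR with uniformiser `y`. -/
theorem exists_dvr_atPrime {R : Type*} [CommRing R] [IsDomain R] [IsNoetherianRing R]
    (O' : Type*) [CommRing O'] [Algebra R O']
    (y : R) [hy : (Ideal.span {y} : Ideal R).IsPrime] [IsLocalization.AtPrime O' (Ideal.span {y})]
    (hy0 : y ≠ 0) :
    ∃ (_ : IsDomain O'), IsDiscreteValuationRing O' ∧ Irreducible (algebraMap R O' y) := by
  have hdom : IsDomain O' := IsLocalization.isDomain_of_le_nonZeroDivisors O'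
    (Ideal.primeCompl_le_nonZeroDivisors (Ideal.span {y}))
  have hnoeth : IsNoetherianRing O' :=
    IsLocalization.isNoetherianRing (Ideal.span {y}).primeCompl O' inferInstance
  have hloc : IsLocalRing O' := IsLocalization.AtPrime.isLocalRing O' (Ideal.span {y})
  have hmax : IsLocalRing.maximalIdeal O' = Ideal.span {algebraMap R O' y} := by
    rw [← IsLocalization.AtPrime.map_eq_maximalIdeal (Ideal.span {y}) O', Ideal.map_span,
      Set.image_singleton]
  have hinj : Function.Injective (algebraMap R O') :=
    IsLocalization.injective O' (Ideal.primeCompl_le_nonZeroDivisors (Ideal.span {y}))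
  have ht0 : algebraMap R O' y ≠ 0 := by
    intro h
    exact hy0 (hinj (by rw [h, map_zero]))
  have hnf : ¬ IsField O' := by
    rw [IsLocalRing.isField_iff_maximalIdeal_eq, hmax, Ideal.span_singleton_eq_bot]
    exact ht0
  have hprin : (IsLocalRing.maximalIdeal O').IsPrincipal := ⟨⟨algebraMap R O' y, hmax⟩⟩
  have hdvr : IsDiscreteValuationRing O' :=
    ((IsDiscreteValuationRing.TFAE O' hnf).out 0 4).mpr hprin
  refine ⟨hdom, hdvr, ?_⟩
  exact (IsDiscreteValuationRing.irreducible_iff_uniformizer _).mpr hmax

/-- The residue characteristic is unchanged by localising at `(y)`. -/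
theorem charZero_quotient_atPrime {R : Type*} [CommRing R]
    (O' : Type*) [CommRing O'] [Algebra R O']
    (y : R) [hy : (Ideal.span {y} : Ideal R).IsPrime] [IsLocalization.AtPrime O' (Ideal.span {y})]
    [CharZero (R ⧸ Ideal.span {y})] :
    CharZero (O' ⧸ Ideal.span {algebraMap R O' y}) := by
  have hloc : IsLocalRing O' := IsLocalization.AtPrime.isLocalRing O' (Ideal.span {y})
  have hmax : IsLocalRing.maximalIdeal O' = Ideal.span {algebraMap R O' y} := by
    rw [← IsLocalization.AtPrime.map_eq_maximalIdeal (Ideal.span {y}) O', Ideal.map_span,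
      Set.image_singleton]
  have hcomap : Ideal.comap (algebraMap R O') (Ideal.span {algebraMap R O' y}) =
      Ideal.span {y} := by
    rw [← hmax]
    exact IsLocalization.AtPrime.under_maximalIdeal O' (Ideal.span {y})
  have hφ : Function.Injective (Ideal.quotientMap (Ideal.span {algebraMap R O' y})
      (algebraMap R O') (le_of_eq hcomap.symm)) :=
    Ideal.quotientMap_injective' (le_of_eq hcomap)
  exact charZero_of_injective_ringHom hφ

open nonZeroDivisors in
/-- The localisation of a finite integrally closed extension of `R` at a height-one prime with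
DVR localisation is a Dedekind domain. -/
theorem exists_dedekind_loc {R : Type*} [CommRing R] [IsDomain R] [IsNoetherianRing R]
    (S : Type*) [CommRing S] [IsDomain S] [IsIntegrallyClosed S] [Algebra R S] [Module.Finite R S]
    [FaithfulSMul R S]
    (O' S' : Type*) [CommRing O'] [CommRing S'] [Algebra R O'] [Algebra S S'] [Algebra O' S']
    [Algebra R S'] [IsScalarTower R O' S'] [IsScalarTower R S S']
    (p : Ideal R) [hp : p.IsPrime] [IsLocalization.AtPrime O' p]
    [IsLocalization (Algebra.algebraMapSubmonoid S p.primeCompl) S']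
    [IsDomain O'] [IsDiscreteValuationRing O'] :
    ∃ (_ : IsDomain S'), IsDedekindDomain S' := by
  have e : Algebra.algebraMapSubmonoid S p.primeCompl ≤ S⁰ :=
    Submonoid.map_le_of_le_comap _ <| p.primeCompl_le_nonZeroDivisors.trans
      (nonZeroDivisors_le_comap_nonZeroDivisors_of_injective _
        (FaithfulSMul.algebraMap_injective _ _))
  have hdom : IsDomain S' := IsLocalization.isDomain_of_le_nonZeroDivisors _ e
  have hfin : Module.Finite O' S' := Module.Finite.of_isLocalization R S p.primeCompl
  have hic : IsIntegrallyClosed S' := isIntegrallyClosed_of_isLocalization _ _ e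
  have hSn : IsNoetherianRing S := IsNoetherianRing.of_finite R S
  have hnoeth : IsNoetherianRing S' :=
    IsLocalization.isNoetherianRing (Algebra.algebraMapSubmonoid S p.primeCompl) S' hSn
  have hint : Algebra.IsIntegral O' S' := Algebra.IsIntegral.of_finite O' S'
  have hdim : Ring.DimensionLEOne S' := Ring.DimensionLEOne.of_isIntegral O' S'
  have hded : IsDedekindDomain S' := { hdom with toIsDedekindRing := ⟨⟩ }
  exact ⟨hdom, hded⟩

/-- Transfer of the independence hypothesis to the localisations at `(y)`. -/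
theorem rel_loc {R : Type*} [CommRing R] [IsDomain R] [IsNoetherianRing R] [IsLocalRing R]
    (S : Type*) [CommRing S] [IsDomain S] [Algebra R S] [FaithfulSMul R S]
    (O' S' : Type*) [CommRing O'] [CommRing S'] [Algebra R O'] [Algebra S S'] [Algebra O' S']
    [Algebra R S'] [IsScalarTower R O' S'] [IsScalarTower R S S']
    (π y : R) (hm : IsLocalRing.maximalIdeal R = Ideal.span {π, y})
    [hy : (Ideal.span {y} : Ideal R).IsPrime] (hπy : π ∉ Ideal.span {y})
    [IsLocalization.AtPrime O' (Ideal.span {y})]
    [IsLocalization (Algebra.algebraMapSubmonoid S (Ideal.span {y}).primeCompl) S']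
    {ι : Type*} [Fintype ι] (b : Basis ι R S) (r : ℕ) (c : Fin r → S)
    (hc : ∀ a : Fin r → R, ∑ i, a i • c i ∈
      (Ideal.map (algebraMap R S) (IsLocalRing.maximalIdeal R)).radical →
        ∀ i, a i ∈ IsLocalRing.maximalIdeal R)
    (a' : Fin r → O')
    (ha' : ∑ i, a' i • algebraMap S S' (c i) ∈
      (Ideal.span {algebraMap O' S' (algebraMap R O' y)}).radical) :
    ∀ i, algebraMap R O' y ∣ a' i := by
  classical
  set p : Ideal R := Ideal.span {y} with hp
  have e : Algebra.algebraMapSubmonoid S p.primeCompl ≤ nonZeroDivisors S :=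
    Submonoid.map_le_of_le_comap _ <| p.primeCompl_le_nonZeroDivisors.trans
      (nonZeroDivisors_le_comap_nonZeroDivisors_of_injective _
        (FaithfulSMul.algebraMap_injective _ _))
  have hinjS : Function.Injective (algebraMap S S') := IsLocalization.injective S' e
  -- common denominator
  obtain ⟨g, hg⟩ := IsLocalization.exist_integer_multiples_of_finite p.primeCompl a'
  choose a haa using hg
  have hgp : (g : R) ∉ Ideal.span {y} := g.2
  -- the relation over `R`
  have hyS : algebraMap O' S' (algebraMap R O' y) = algebraMap S S' (algebraMap R S y) := by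
    rw [← IsScalarTower.algebraMap_apply, ← IsScalarTower.algebraMap_apply]
  have hsum : algebraMap S S' (∑ i, a i • c i) =
      algebraMap O' S' (algebraMap R O' (g : R)) * ∑ i, a' i • algebraMap S S' (c i) := by
    rw [map_sum, Finset.mul_sum]
    refine Finset.sum_congr rfl fun i _ => ?_
    rw [Algebra.smul_def, map_mul, ← IsScalarTower.algebraMap_apply,
      IsScalarTower.algebraMap_apply R O' S', haa i, Algebra.smul_def (a' i), Algebra.smul_def,
      map_mul, mul_assoc]
  have hrad : ∑ i, a i • c i ∈ (Ideal.span {algebraMap R S y}).radical := by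
    obtain ⟨k, hk⟩ := ha'
    rw [hyS] at hk
    have hk2 : (algebraMap S S' (∑ i, a i • c i)) ^ k ∈
        Ideal.span {algebraMap S S' (algebraMap R S y)} := by
      rw [hsum, mul_pow]
      exact Ideal.mul_mem_left _ _ hk
    obtain ⟨z', hz'⟩ := Ideal.mem_span_singleton'.mp hk2
    obtain ⟨⟨z, s⟩, hzs⟩ := IsLocalization.surj (Algebra.algebraMapSubmonoid S p.primeCompl) z'
    obtain ⟨h, hh, hhs⟩ := s.2
    have h1 : algebraMap R S h * (∑ i, a i • c i) ^ k = z * algebraMap R S y := by
      apply hinjS
      rw [map_mul, map_mul, map_pow, ← hz', hhs, ← hzs]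
      ring
    refine ⟨k, mem_span_of_mul_mem b y hy h hh _ ?_⟩
    rw [h1]
    exact Ideal.mul_mem_left _ _ (Ideal.mem_span_singleton_self _)
  have hmem := rel_mem_span π y hm hy hπy b r c hc a hrad
  intro i
  obtain ⟨u, hu⟩ := Ideal.mem_span_singleton'.mp (hmem i)
  have hunit : IsUnit (algebraMap R O' (g : R)) := IsLocalization.map_units O' g
  have h2 : algebraMap R O' (g : R) * a' i = algebraMap R O' y * algebraMap R O' u := by
    rw [← map_mul, mul_comm y u, hu, haa i, Algebra.smul_def]
  obtain ⟨v, hv⟩ := hunit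
  refine ⟨(↑v⁻¹ : O') * algebraMap R O' u, ?_⟩
  have h3 : a' i = (↑v⁻¹ : O') * (algebraMap R O' (g : R) * a' i) := by
    rw [← hv, ← mul_assoc, Units.inv_mul, one_mul]
  rw [h3, h2]
  ring

/-- `disc2` with abstract localisations. -/
theorem disc2_aux {R S : Type*} [CommRing R] [IsDomain R] [IsNoetherianRing R] [IsLocalRing R]
    [CommRing S] [IsDomain S] [IsIntegrallyClosed S] [Algebra R S] [Module.Finite R S]
    [FaithfulSMul R S]
    (O' S' : Type*) [CommRing O'] [CommRing S'] [Algebra R O'] [Algebra S S'] [Algebra O' S']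
    [Algebra R S'] [IsScalarTower R O' S'] [IsScalarTower R S S']
    (π y : R) (hm : IsLocalRing.maximalIdeal R = Ideal.span {π, y})
    [hy : (Ideal.span {y} : Ideal R).IsPrime] (hy0 : y ≠ 0) (hπy : π ∉ Ideal.span {y})
    [IsLocalization.AtPrime O' (Ideal.span {y})]
    [IsLocalization (Algebra.algebraMapSubmonoid S (Ideal.span {y}).primeCompl) S']
    [CharZero (R ⧸ Ideal.span {y})]
    {ι : Type*} [Fintype ι] [DecidableEq ι] (b : Basis ι R S) (r : ℕ) (c : Fin r → S)
    (hc : ∀ a : Fin r → R, ∑ i, a i • c i ∈
      (Ideal.map (algebraMap R S) (IsLocalRing.maximalIdeal R)).radical →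
        ∀ i, a i ∈ IsLocalRing.maximalIdeal R) :
    ¬ y ^ (Fintype.card ι - r + 1) ∣ Algebra.discr R b := by
  obtain ⟨hdomO, hdvr, hirr⟩ := exists_dvr_atPrime O' y hy0
  have hchar : CharZero (O' ⧸ Ideal.span {algebraMap R O' y}) := charZero_quotient_atPrime O' y
  obtain ⟨hdomS, hded⟩ := exists_dedekind_loc S O' S' (Ideal.span {y})
  intro hdvd
  have key := tame_dvr (b.localizationLocalization O' (Ideal.span {y}).primeCompl S')
    (algebraMap R O' y) hirr r (fun i => algebraMap S S' (c i))
    (fun a' ha' => rel_loc S O' S' π y hm hπy b r c hc a' ha')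
  apply key
  rw [Algebra.discr_localizationLocalization R (Ideal.span {y}).primeCompl S' b, ← map_pow]
  exact map_dvd _ hdvd

end Loc

end Disc2

/-- **Tame discriminant bound** over a two-dimensional regular local ring: if `c` is independent
modulo `rad(𝔪 S)` then `y ^ (n - r + 1)` does not divide the discriminant. -/
theorem disc2 {R S : Type*} [CommRing R] [IsDomain R] [IsNoetherianRing R] [IsLocalRing R]
    [CommRing S] [IsDomain S] [IsIntegrallyClosed S] [Algebra R S] [Module.Finite R S]
    [Module.Free R S] [FaithfulSMul R S]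
    (π y : R) (hm : IsLocalRing.maximalIdeal R = Ideal.span {π, y})
    (hπ : (Ideal.span {π} : Ideal R).IsPrime) (hy : (Ideal.span {y} : Ideal R).IsPrime)
    (hπ0 : π ≠ 0) (hy0 : y ≠ 0) (hπy : ¬ π ∣ y)
    [CharZero (R ⧸ Ideal.span {y})]
    {ι : Type*} [Fintype ι] [DecidableEq ι] (b : Basis ι R S) (r : ℕ) (c : Fin r → S)
    (hc : ∀ a : Fin r → R, ∑ i, a i • c i ∈
      (Ideal.map (algebraMap R S) (IsLocalRing.maximalIdeal R)).radical →
        ∀ i, a i ∈ IsLocalRing.maximalIdeal R) :
    ¬ y ^ (Fintype.card ι - r + 1) ∣ Algebra.discr R b := by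
  have hπy' : π ∉ Ideal.span {y} := by
    intro hmem
    obtain ⟨u, hu⟩ := Ideal.mem_span_singleton'.mp hmem
    -- `π = u * y`, `(π)` prime, `π ∤ y` ⇒ `π ∣ u` ⇒ `y` is a unit, contradiction
    have h1 : u * y ∈ Ideal.span {π} := by
      rw [hu]
      exact Ideal.mem_span_singleton_self π
    rcases hπ.mem_or_mem h1 with h2 | h2
    · obtain ⟨w, hw⟩ := Ideal.mem_span_singleton'.mp h2
      have h3 : π * (w * y) = π * 1 := by
        calc π * (w * y) = (w * π) * y := by ring
          _ = π * 1 := by rw [hw, hu, mul_one]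
      have h4 : w * y = 1 := mul_left_cancel₀ hπ0 h3
      have h5 : (Ideal.span {y} : Ideal R) = ⊤ :=
        Ideal.eq_top_of_isUnit_mem _ (Ideal.mem_span_singleton_self y)
          (IsUnit.of_mul_eq_one w (by rw [mul_comm]; exact h4))
      exact hy.ne_top h5
    · exact hπy (Ideal.mem_span_singleton.mp h2)
  have := hy
  exact Disc2.disc2_aux (Localization.AtPrime (Ideal.span {y}))
    (Localization (Algebra.algebraMapSubmonoid S (Ideal.span {y}).primeCompl))
    π y hm hy0 hπy' b r c hc

end Fermat.Agent.S18
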