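import Fermat.Agent.S18.Basic

/-!
P11 / S18 — module `DualBasis` (note P11-MASTER-ALG (6)): integral trace-dual bases.

Ambient field `𝔽`, `V : Subring 𝔽`, `K₁` a field with `[Algebra K₁ 𝔽]`.

* `DualBasis.of_primitive` (DB1): `K₁⟮θ⟯ / K₁` has integral dual bases when `θ` is a root of a
  monic `H ∈ K₁[X]` with `V`-integral coefficients, `θ` is `V`-integral, `H'(θ) ≠ 0` and
  `1 / H'(θ)` is `V`-integral (`DualBasis.of_powerBasis`: the same for an abstract power basis).
* `DualBasis.of_kummer` (DB2): Kummer step `𝔽 = M(w)`, `w ^ p = u ∈ M`.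
* `DualBasis.of_eq_top`: transport along `M = ⊤`.
* `DualBasis.exists_mem_discr_mul_eq_one` (DB3): the discriminant of a `K₁`-basis `s` of `𝔽`
  with "`V`-integral elements have `s`-coordinates in `V`" is a unit of `V`.
-/

set_option autoImplicit false

namespace Fermat.Agent.S18

open Polynomial IntermediateField

variable {𝔽 : Type*} [Field 𝔽]

namespace DualBasis

/-- a polynomial expression with integral coefficients in an integral element is integral -/
theorem isIntegral_aeval (V : Subring 𝔽) {K₁ : Type*} [Field K₁] [Algebra K₁ 𝔽] (G : K₁[X])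
    (hG : ∀ i, IsIntegral V (algebraMap K₁ 𝔽 (G.coeff i))) {x : 𝔽} (hx : IsIntegral V x) :
    IsIntegral V (aeval x G) := by
  rw [aeval_eq_sum_range]
  refine IsIntegral.sum _ fun i _ => ?_
  rw [Algebra.smul_def]
  exact (hG i).mul (hx.pow i)

/-- coefficients of a monic factor of a monic polynomial with integral coefficients are
integral -/
theorem isIntegral_coeff_of_dvd (V : Subring 𝔽) {K₁ : Type*} [Field K₁] [Algebra K₁ 𝔽]
    {H G : K₁[X]} (hH : H.Monic) (hG : G.Monic) (hdvd : G ∣ H)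
    (hcoeff : ∀ i, IsIntegral V (algebraMap K₁ 𝔽 (H.coeff i))) (i : ℕ) :
    IsIntegral V (algebraMap K₁ 𝔽 (G.coeff i)) := by
  have hl : H.map (algebraMap K₁ 𝔽) ∈ lifts (algebraMap (integralClosure V 𝔽) 𝔽) := by
    rw [lifts_iff_coeff_lifts]
    intro n
    rw [coeff_map]
    exact ⟨⟨_, hcoeff n⟩, rfl⟩
  obtain ⟨f, hf, -, hfm⟩ := lifts_and_natDegree_eq_and_monic hl (hH.map _)
  have hg := integralClosure.mem_lifts_of_monic_of_dvd_map 𝔽 hfm (hG.map (algebraMap K₁ 𝔽))
    (by rw [hf]; exact Polynomial.map_dvd _ hdvd)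
  rw [lifts_iff_coeff_lifts] at hg
  obtain ⟨y, hy⟩ := hg i
  rw [coeff_map] at hy
  rw [← hy]
  have h1 : IsIntegral (integralClosure V 𝔽)
      (algebraMap (integralClosure (integralClosure V 𝔽) 𝔽) 𝔽 y) := y.2
  exact isIntegral_trans _ h1

/-- the coefficients of `minpoly / (X - θ)` are integral -/
theorem isIntegral_coeff_minpolyDiv (V : Subring 𝔽) {K₁ M : Type*} [Field K₁] [Field M]
    [Algebra K₁ M] [Algebra M 𝔽] [Algebra K₁ 𝔽] [IsScalarTower K₁ M 𝔽] (θ : M)
    (hθ : IsIntegral V (algebraMap M 𝔽 θ))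
    (hmin : ∀ i, IsIntegral V (algebraMap K₁ 𝔽 ((minpoly K₁ θ).coeff i))) (i : ℕ) :
    IsIntegral V (algebraMap M 𝔽 ((minpolyDiv K₁ θ).coeff i)) := by
  suffices h : ∀ n i, (minpolyDiv K₁ θ).natDegree < n + i →
      IsIntegral V (algebraMap M 𝔽 ((minpolyDiv K₁ θ).coeff i)) from
    h ((minpolyDiv K₁ θ).natDegree + 1) i (by omega)
  intro n
  induction n with
  | zero =>
    intro i hi
    rw [coeff_eq_zero_of_natDegree_lt (by omega), map_zero]
    exact isIntegral_zero
  | succ n ih =>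
    intro i hi
    rw [coeff_minpolyDiv, map_add, map_mul, ← IsScalarTower.algebraMap_apply]
    exact (hmin (i + 1)).add ((ih (i + 1) (by omega)).mul hθ)

/-- **(DB1)**, general form: a power basis `1, θ, …` of `M / K₁` such that `θ` is a root of a
monic `H ∈ K₁[X]` with coefficients integral over `V`, `θ` integral over `V`, `H'(θ) ≠ 0` and
`1 / H'(θ)` integral over `V`, yields integral dual bases. -/
theorem of_powerBasis (V : Subring 𝔽) {K₁ M : Type*} [Field K₁] [Field M]
    [Algebra K₁ M] [Algebra M 𝔽] [Algebra K₁ 𝔽] [IsScalarTower K₁ M 𝔽]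
    (pb : PowerBasis K₁ M) (H : K₁[X]) (hH : H.Monic) (hroot : aeval pb.gen H = 0)
    (hder : aeval pb.gen (derivative H) ≠ 0)
    (hcoeff : ∀ i, IsIntegral V (algebraMap K₁ 𝔽 (H.coeff i)))
    (hgen : IsIntegral V (algebraMap M 𝔽 pb.gen))
    (hinv : IsIntegral V (algebraMap M 𝔽 (aeval pb.gen (derivative H))⁻¹)) :
    HasIntegralDualBasis V K₁ M := by
  obtain ⟨H₂, hH₂⟩ := minpoly.dvd K₁ pb.gen hroot
  have hint : IsIntegral K₁ pb.gen := pb.isIntegral_gen
  have hm1 : (minpoly K₁ pb.gen).Monic := minpoly.monic hint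
  have hm2 : H₂.Monic := hm1.of_mul_monic_left (hH₂ ▸ hH)
  have hc1 := fun i => isIntegral_coeff_of_dvd V hH hm1 ⟨H₂, hH₂⟩ hcoeff i
  have hc2 := fun i => isIntegral_coeff_of_dvd V hH hm2
    ⟨minpoly K₁ pb.gen, by rw [hH₂, mul_comm]⟩ hcoeff i
  have hd : aeval pb.gen (derivative H) =
      aeval pb.gen (derivative (minpoly K₁ pb.gen)) * aeval pb.gen H₂ := by
    rw [hH₂, derivative_mul, map_add, map_mul, map_mul, minpoly.aeval, zero_mul, add_zero]
  have hd1 : aeval pb.gen (derivative (minpoly K₁ pb.gen)) ≠ 0 := fun h =>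
    hder (by rw [hd, h, zero_mul])
  have hd2 : aeval pb.gen H₂ ≠ 0 := fun h => hder (by rw [hd, h, mul_zero])
  have hsep : IsSeparable K₁ pb.gen := by
    rw [IsSeparable, separable_iff_derivative_ne_zero (minpoly.irreducible hint)]
    intro h
    exact hd1 (by rw [h, map_zero])
  have hsepM : Algebra.IsSeparable K₁ M := by
    have h1 : Algebra.IsSeparable K₁ K₁⟮pb.gen⟯ :=
      (IntermediateField.isSeparable_adjoin_simple_iff_isSeparable K₁ M).2 hsep
    have htop : K₁⟮pb.gen⟯ = ⊤ :=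
      IntermediateField.adjoin_eq_top_of_algebra K₁ _ pb.adjoin_gen_eq_top
    rw [Algebra.isSeparable_def]
    intro x
    exact IntermediateField.isSeparable_of_mem_isSeparable K₁ M (L := K₁⟮pb.gen⟯)
      (htop ▸ IntermediateField.mem_top)
  have hfin : FiniteDimensional K₁ M := pb.finite
  refine ⟨Fin pb.dim, inferInstance, inferInstance, fun i => pb.gen ^ (i : ℕ),
    pb.basis.traceDual, ?_, ?_, ?_, ?_⟩
  · intro i
    rw [map_pow]
    exact hgen.pow _
  · intro i
    rw [Module.Basis.traceDual_powerBasis_eq]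
    have h3 : (aeval pb.gen (derivative (minpoly K₁ pb.gen)))⁻¹ =
        aeval pb.gen H₂ * (aeval pb.gen (derivative H))⁻¹ := by
      rw [hd, mul_inv, mul_comm, mul_assoc, inv_mul_cancel₀ hd2, mul_one]
    rw [div_eq_mul_inv, h3, map_mul, map_mul]
    refine (isIntegral_coeff_minpolyDiv V pb.gen hgen hc1 i).mul (IsIntegral.mul ?_ hinv)
    rw [← aeval_algebraMap_apply]
    exact isIntegral_aeval V H₂ hc2 hgen
  · rw [Fintype.card_fin, pb.finrank]
  · intro i j
    have h4 := pb.basis.trace_mul_traceDual i j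
    rw [pb.coe_basis] at h4
    convert h4

/-- **(DB1)** for a simple extension `K₁⟮θ⟯` inside the ambient field. -/
theorem of_primitive (V : Subring 𝔽) {K₁ : Type*} [Field K₁] [Algebra K₁ 𝔽]
    (θ : 𝔽) (H : K₁[X]) (hHm : H.Monic) (hHθ : aeval θ H = 0)
    (hHc : ∀ i, IsIntegral V (algebraMap K₁ 𝔽 (H.coeff i))) (hθ : IsIntegral V θ)
    (hHd0 : aeval θ (derivative H) ≠ 0) (hHd : IsIntegral V (aeval θ (derivative H))⁻¹) :
    HasIntegralDualBasis V K₁ K₁⟮θ⟯ := by
  have hint : IsIntegral K₁ θ := ⟨H, hHm, by rwa [← aeval_def]⟩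
  have hgen : (IntermediateField.adjoin.powerBasis hint).gen = AdjoinSimple.gen K₁ θ :=
    IntermediateField.adjoin.powerBasis_gen hint
  have hmap : ∀ G : K₁[X], algebraMap K₁⟮θ⟯ 𝔽 (aeval (AdjoinSimple.gen K₁ θ) G) = aeval θ G := by
    intro G
    rw [← aeval_algebraMap_apply, AdjoinSimple.algebraMap_gen]
  refine of_powerBasis V (IntermediateField.adjoin.powerBasis hint) H hHm ?_ ?_ hHc ?_ ?_
  · rw [hgen]
    apply (algebraMap K₁⟮θ⟯ 𝔽).injective
    rw [hmap, hHθ, map_zero]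
  · rw [hgen]
    intro h
    apply hHd0
    rw [← hmap, h, map_zero]
  · rw [hgen, AdjoinSimple.algebraMap_gen]
    exact hθ
  · rw [hgen, map_inv₀, hmap]
    exact hHd

/-- transport along `M = ⊤` -/
theorem of_eq_top (V : Subring 𝔽) {K₁ : Type*} [Field K₁] [Algebra K₁ 𝔽]
    (M : IntermediateField K₁ 𝔽) (hM : M = ⊤) (h : HasIntegralDualBasis V K₁ M) :
    HasIntegralDualBasis V K₁ 𝔽 := by
  subst hM
  obtain ⟨ι, hf, hd, b, b', hb, hb', hcard, htr⟩ := h
  refine ⟨ι, hf, hd, fun i => (b i : 𝔽), fun i => (b' i : 𝔽), fun i => hb i, fun i => hb' i,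
    ?_, ?_⟩
  · rw [hcard, IntermediateField.finrank_top']
  · intro i j
    rw [← htr i j]
    exact Algebra.trace_eq_of_algEquiv (IntermediateField.topEquiv (F := K₁) (E := 𝔽))
      (b i * b' j)

section Kummer

variable {M : Type*} [Field M] [Algebra M 𝔽]

/-- the trace of `w ^ n`, `0 < n < p`, vanishes when `1, w, …, w^(p-1)` is a basis and
`w ^ p` lies in the base field. -/
theorem trace_pow_eq_zero {p : ℕ} (B : Module.Basis (Fin p) M 𝔽) (w : 𝔽) (u : M)
    (hB : ∀ k : Fin p, B k = w ^ (k : ℕ)) (hw : w ^ p = algebraMap M 𝔽 u) {n : ℕ} (hn : 0 < n)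
    (hnp : n < p) : Algebra.trace M 𝔽 (w ^ n) = 0 := by
  rw [Algebra.trace_eq_matrix_trace B, Matrix.trace]
  refine Finset.sum_eq_zero fun k _ => ?_
  rw [Matrix.diag_apply, Algebra.leftMulMatrix_eq_repr_mul, hB k, ← pow_add]
  by_cases h : n + (k : ℕ) < p
  · have h1 : w ^ (n + (k : ℕ)) = B ⟨n + k, h⟩ := (hB ⟨n + k, h⟩).symm
    rw [h1, Module.Basis.repr_self, Finsupp.single_apply, if_neg]
    intro h2
    have h3 := congrArg Fin.val h2
    simp only at h3
    omega
  · have hk := k.2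
    have h0 : n + (k : ℕ) - p < p := by omega
    have h1 : w ^ (n + (k : ℕ)) = u • B ⟨n + k - p, h0⟩ := by
      rw [hB, Algebra.smul_def, ← hw, ← pow_add]
      congr 1
      simp only
      omega
    rw [h1, map_smul, Module.Basis.repr_self, Finsupp.smul_apply, Finsupp.single_apply, if_neg,
      smul_zero]
    intro h2
    have h3 := congrArg Fin.val h2
    simp only at h3
    omega

end Kummer

/-- **(DB2)** Kummer step: `𝔽 = M(w)`, `w ^ p = u ∈ M`, `X ^ p - u` irreducible over `M`,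
`p ≠ 0` in `𝔽`, and `w`, `w⁻¹`, `p⁻¹` integral over `V`. -/
theorem of_kummer (V : Subring 𝔽) {K₁ : Type*} [Field K₁] [Algebra K₁ 𝔽]
    (M : IntermediateField K₁ 𝔽) (p : ℕ) (hp0 : (p : 𝔽) ≠ 0) (u : M) (w : 𝔽)
    (hw : w ^ p = (u : 𝔽)) (hirr : Irreducible (X ^ p - C u : M[X]))
    (hgen : IntermediateField.adjoin M {w} = ⊤) (hwi : IsIntegral V w)
    (hwi' : IsIntegral V w⁻¹) (hpi : IsIntegral V ((p : 𝔽)⁻¹))
    (hM : HasIntegralDualBasis V K₁ M) : HasIntegralDualBasis V K₁ 𝔽 := by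
  classical
  have hpn : p ≠ 0 := by
    rintro rfl
    exact hp0 Nat.cast_zero
  have hpM : (p : M) ≠ 0 := by
    intro h
    apply hp0
    have h1 := congrArg (algebraMap M 𝔽) h
    rwa [map_natCast, map_zero] at h1
  -- the minimal polynomial of `w` over `M`
  have hroot : aeval w (X ^ p - C u : M[X]) = 0 := by
    rw [map_sub, map_pow, aeval_X, aeval_C, hw]
    exact sub_self _
  have hmin : minpoly M w = X ^ p - C u :=
    (minpoly.eq_of_irreducible_of_monic hirr hroot (monic_X_pow_sub_C u hpn)).symm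
  have hint : IsIntegral M w := ⟨X ^ p - C u, monic_X_pow_sub_C u hpn, by rwa [← aeval_def]⟩
  -- the power basis
  let e : M⟮w⟯ ≃ₐ[M] 𝔽 := (IntermediateField.equivOfEq hgen).trans IntermediateField.topEquiv
  let pbw : PowerBasis M 𝔽 := (IntermediateField.adjoin.powerBasis hint).map e
  have hdim : pbw.dim = p := by
    show (minpoly M w).natDegree = p
    rw [hmin, natDegree_X_pow_sub_C]
  have hgenw : pbw.gen = w := rfl
  let B : Module.Basis (Fin p) M 𝔽 := pbw.basis.reindex (finCongr hdim)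
  have hB : ∀ k : Fin p, B k = w ^ (k : ℕ) := by
    intro k
    show pbw.basis.reindex (finCongr hdim) k = _
    rw [Module.Basis.reindex_apply, pbw.basis_eq_pow, hgenw]
    rfl
  have hfinM : Module.Finite M 𝔽 := Module.Finite.of_basis B
  have hrank : Module.finrank M 𝔽 = p := by
    rw [Module.finrank_eq_card_basis B, Fintype.card_fin]
  have hT0 : ∀ n, 0 < n → n < p → Algebra.trace M 𝔽 (w ^ n) = 0 := fun n hn hnp =>
    trace_pow_eq_zero B w u hB hw hn hnp
  -- `w = 0` forces `p = 1`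
  have hw0 : w = 0 → p = 1 := by
    intro h0
    by_contra hp1
    have hu : u = 0 := by
      have h1 : (u : 𝔽) = 0 := by rw [← hw, h0, zero_pow hpn]
      exact_mod_cast h1
    rw [hu, C_0, sub_zero] at hirr
    exact not_irreducible_pow hp1 hirr
  have hwk : ∀ k : Fin p, w ^ (k : ℕ) * w⁻¹ ^ (k : ℕ) = 1 := by
    intro k
    by_cases h0 : w = 0
    · have hk := k.2
      have hp1 := hw0 h0
      have hk0 : (k : ℕ) = 0 := by omega
      rw [hk0, pow_zero, pow_zero, one_mul]
    · rw [← mul_pow, mul_inv_cancel₀ h0, one_pow]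
  have hT2 : ∀ k m : Fin p, Algebra.trace M 𝔽 (w ^ (k : ℕ) * (w⁻¹ ^ (m : ℕ) * (p : 𝔽)⁻¹)) =
      if k = m then 1 else 0 := by
    intro k m
    by_cases hkm : k = m
    · subst hkm
      rw [if_pos rfl, ← mul_assoc, hwk, one_mul]
      have h1 : ((p : 𝔽))⁻¹ = algebraMap M 𝔽 ((p : M)⁻¹) := by
        rw [map_inv₀, map_natCast]
      rw [h1, Algebra.trace_algebraMap, hrank, nsmul_eq_mul, mul_inv_cancel₀ hpM]
    · rw [if_neg hkm]
      have hk := k.2
      have hm := m.2
      have hkm' : (k : ℕ) ≠ m := fun h => hkm (Fin.ext h)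
      have hw1 : w ≠ 0 := by
        intro h0
        have := hw0 h0
        omega
      rcases Nat.lt_or_gt_of_ne hkm' with hlt | hgt
      · -- `k < m`
        have hu0 : (u : 𝔽) ≠ 0 := by
          rw [← hw]
          exact pow_ne_zero _ hw1
        have h1 : w ^ (k : ℕ) * (w⁻¹ ^ (m : ℕ) * (p : 𝔽)⁻¹) =
            (u⁻¹ * (p : M)⁻¹) • w ^ (p + k - m) := by
          have h2 : w ^ (p + (k : ℕ) - m) * w ^ (m : ℕ) = (u : 𝔽) * w ^ (k : ℕ) := by
            rw [← pow_add, ← hw, ← pow_add]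
            congr 1
            omega
          have hwm : w ^ (m : ℕ) ≠ 0 := pow_ne_zero _ hw1
          have h3 : w ^ (p + (k : ℕ) - m) = (u : 𝔽) * w ^ (k : ℕ) * (w ^ (m : ℕ))⁻¹ := by
            rw [← h2, mul_assoc, mul_inv_cancel₀ hwm, mul_one]
          rw [Algebra.smul_def, map_mul, map_inv₀, map_inv₀, map_natCast, h3,
            IntermediateField.algebraMap_apply, inv_pow]
          field_simp
        rw [h1, map_smul, hT0 _ (by omega) (by omega), smul_zero]
      · -- `m < k`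
        have h1 : w ^ (k : ℕ) * (w⁻¹ ^ (m : ℕ) * (p : 𝔽)⁻¹) =
            ((p : M)⁻¹) • w ^ ((k : ℕ) - m) := by
          have h2 : w ^ (k : ℕ) = w ^ ((k : ℕ) - m) * w ^ (m : ℕ) := by
            rw [← pow_add]
            congr 1
            omega
          have hwm : w ^ (m : ℕ) ≠ 0 := pow_ne_zero _ hw1
          rw [Algebra.smul_def, map_inv₀, map_natCast, h2, inv_pow]
          field_simp
        rw [h1, map_smul, hT0 _ (by omega) (by omega), smul_zero]
  obtain ⟨ι, hf, hd, b, b', hb, hb', hcard, htr⟩ := hM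
  refine ⟨ι × Fin p, inferInstance, inferInstance, fun x => (b x.1 : 𝔽) * w ^ (x.2 : ℕ),
    fun x => (b' x.1 : 𝔽) * (w⁻¹ ^ (x.2 : ℕ) * (p : 𝔽)⁻¹), ?_, ?_, ?_, ?_⟩
  · rintro ⟨i, k⟩
    exact (hb i).mul (hwi.pow _)
  · rintro ⟨j, m⟩
    exact (hb' j).mul ((hwi'.pow _).mul hpi)
  · rw [Fintype.card_prod, Fintype.card_fin, hcard, ← hrank, Module.finrank_mul_finrank]
  · rintro ⟨i, k⟩ ⟨j, m⟩
    have hpos : 0 < Module.finrank K₁ M := by
      rw [← hcard]
      exact Fintype.card_pos_iff.mpr ⟨i⟩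
    have hfinK : Module.Finite K₁ M := Module.finite_of_finrank_pos hpos
    have h1 : (b i : 𝔽) * w ^ (k : ℕ) * ((b' j : 𝔽) * (w⁻¹ ^ (m : ℕ) * (p : 𝔽)⁻¹)) =
        (b i * b' j) • (w ^ (k : ℕ) * (w⁻¹ ^ (m : ℕ) * (p : 𝔽)⁻¹)) := by
      rw [Algebra.smul_def, map_mul, IntermediateField.algebraMap_apply,
        IntermediateField.algebraMap_apply]
      ring
    show Algebra.trace K₁ 𝔽 ((b i : 𝔽) * w ^ (k : ℕ) *
      ((b' j : 𝔽) * (w⁻¹ ^ (m : ℕ) * (p : 𝔽)⁻¹))) = _
    rw [h1, ← Algebra.trace_trace (S := M), map_smul, hT2, smul_eq_mul]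
    by_cases hkm : k = m
    · subst hkm
      rw [if_pos rfl, mul_one, htr i j]
      by_cases hij : i = j
      · subst hij
        rw [if_pos rfl, if_pos rfl]
      · rw [if_neg hij, if_neg]
        intro h
        exact hij (congrArg Prod.fst h)
    · rw [if_neg hkm, mul_zero, map_zero, if_neg]
      intro h
      exact hkm (congrArg Prod.snd h)

/-- the determinant of a matrix over `K₁` all of whose entries map into the subring `V`
maps into `V`. -/
theorem algebraMap_det_mem (V : Subring 𝔽) {K₁ : Type*} [Field K₁] [Algebra K₁ 𝔽]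
    {n : Type*} [Fintype n] [DecidableEq n] (P : Matrix n n K₁)
    (hP : ∀ i j, algebraMap K₁ 𝔽 (P i j) ∈ V) : algebraMap K₁ 𝔽 P.det ∈ V := by
  have h : (algebraMap K₁ 𝔽) P.det =
      V.subtype (Matrix.det (Matrix.of fun i j => (⟨algebraMap K₁ 𝔽 (P i j), hP i j⟩ : V))) := by
    rw [RingHom.map_det, RingHom.map_det]
    congr 1
  rw [h]
  exact Subtype.property _

/-- **(DB3)** If `𝔽 / K₁` has integral dual bases over `V` and `s` is a `K₁`-basis of `𝔽` such
that every element integral over `V` has `s`-coordinates in `V`, then the discriminant of `s` is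
a unit of `V`. -/
theorem exists_mem_discr_mul_eq_one (V : Subring 𝔽) {K₁ : Type*} [Field K₁] [Algebra K₁ 𝔽]
    (h : HasIntegralDualBasis V K₁ 𝔽) {ι' : Type*} [Fintype ι'] [DecidableEq ι']
    (s : Module.Basis ι' K₁ 𝔽)
    (hs : ∀ z : 𝔽, IsIntegral V z → ∀ i, algebraMap K₁ 𝔽 (s.repr z i) ∈ V) :
    ∃ v : 𝔽, v ∈ V ∧ algebraMap K₁ 𝔽 (Algebra.discr K₁ s) * v = 1 := by
  classical
  obtain ⟨ι, _, _, b, b', hb, hb', hcard, htr⟩ := h
  have hcard' : Fintype.card ι = Fintype.card ι' := by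
    rw [hcard, Module.finrank_eq_card_basis s]
  let e : ι' ≃ ι := (Fintype.equivOfCardEq hcard').symm
  let P : Matrix ι' ι' K₁ := Matrix.of fun i k => s.repr (b (e i)) k
  let P' : Matrix ι' ι' K₁ := Matrix.of fun j l => s.repr (b' (e j)) l
  have hmul : P * Algebra.traceMatrix K₁ s * P'.transpose = 1 := by
    ext i j
    have h1 : b (e i) = ∑ k, P i k • s k := by
      conv_lhs => rw [← s.sum_repr (b (e i))]
      rfl
    have h2 : b' (e j) = ∑ l, P' j l • s l := by
      conv_lhs => rw [← s.sum_repr (b' (e j))]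
      rfl
    have h3 := htr (e i) (e j)
    rw [h1, h2, Finset.sum_mul_sum, map_sum] at h3
    simp only [map_sum, smul_mul_smul_comm, map_smul, smul_eq_mul] at h3
    rw [Matrix.mul_apply, Matrix.one_apply]
    simp only [Matrix.mul_apply, Matrix.transpose_apply, Algebra.traceMatrix_apply,
      Algebra.traceForm_apply, Finset.sum_mul]
    rw [Finset.sum_comm]
    rw [show (if i = j then (1 : K₁) else 0) = if e i = e j then 1 else 0 by
      simp only [e.apply_eq_iff_eq]]
    rw [← h3]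
    refine Finset.sum_congr rfl fun k _ => Finset.sum_congr rfl fun l _ => ?_
    ring
  have hdet := congrArg Matrix.det hmul
  rw [Matrix.det_mul, Matrix.det_mul, Matrix.det_transpose, Matrix.det_one] at hdet
  refine ⟨algebraMap K₁ 𝔽 (P.det * P'.det), ?_, ?_⟩
  · rw [map_mul]
    refine V.mul_mem (algebraMap_det_mem V P fun i k => ?_)
      (algebraMap_det_mem V P' fun j l => ?_)
    · exact hs _ (by simpa using hb (e i)) k
    · exact hs _ (by simpa using hb' (e j)) l
  · rw [← map_mul, ← map_one (algebraMap K₁ 𝔽)]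
    congr 1
    rw [Algebra.discr_def, ← hdet]
    ring

/-- **(DB3)**, `IsIntegral` form. -/
theorem exists_isIntegral_discr_mul_eq_one (V : Subring 𝔽) {K₁ : Type*} [Field K₁] [Algebra K₁ 𝔽]
    (h : HasIntegralDualBasis V K₁ 𝔽) {ι' : Type*} [Fintype ι'] [DecidableEq ι']
    (s : Module.Basis ι' K₁ 𝔽)
    (hs : ∀ z : 𝔽, IsIntegral V z → ∀ i, algebraMap K₁ 𝔽 (s.repr z i) ∈ V) :
    ∃ v : 𝔽, IsIntegral V v ∧ algebraMap K₁ 𝔽 (Algebra.discr K₁ s) * v = 1 := by
  obtain ⟨v, hv, h1⟩ := exists_mem_discr_mul_eq_one V h s hs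
  exact ⟨v, isIntegral_algebraMap (R := V) (x := ⟨v, hv⟩), h1⟩

end DualBasis

end Fermat.Agent.S18

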