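import Fermat.Agent.S24.PlacesBasic

/-!
P11 (S18), module DvrGen: a criterion for an element of a place to be a uniformiser.

`ord_eq_one_of_generated`: let `W` be a place of `Ω` and `B₀ ⊂ O_W` a subring with fraction field
`Ω`, and `t ∈ B₀` with `ord_W t > 0`.  If every nonzero `b ∈ B₀` with `ord_W b > 0` becomes a
multiple of `t` in `B₀` after multiplication by an element of `B₀` which is a `W`-unit, then
`ord_W t = 1`.
-/

set_option autoImplicit false

namespace Fermat.Agent.S18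

open AlgebraicCurve
open Fermat.Agent.S24

namespace DvrGen

variable {K Ω : Type*} [Field K] [Field Ω] [Algebra K Ω]

/-- A place has an element of order `1`. -/
theorem exists_ord_eq_one (W : Place K Ω) : ∃ ϖ : Ω, W.ord ϖ = 1 := by
  obtain ⟨π, hπ⟩ := IsDiscreteValuationRing.exists_irreducible W.toValuationSubring
  refine ⟨(π : Ω), ?_⟩
  unfold Place.ord
  rw [W.adicValuation_coe_irreducible hπ, WithZero.log_exp]
  simp

theorem ord_dvd_of_mem (W : Place K Ω) (B₀ : Subring Ω)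
    (hB : ∀ b ∈ B₀, b ∈ W.toValuationSubring) (t : Ω) (ht0 : 0 < W.ord t)
    (h : ∀ b ∈ B₀, b ≠ 0 → 0 < W.ord b →
      ∃ b' b'', b' ∈ B₀ ∧ b'' ∈ B₀ ∧ W.ord b'' = 0 ∧ b'' ≠ 0 ∧ b * b'' = t * b') :
    ∀ n : ℕ, ∀ b ∈ B₀, b ≠ 0 → W.ord b = n → W.ord t ∣ (n : ℤ) := by
  have ht : t ≠ 0 := by
    rintro rfl
    rw [W.ord_zero] at ht0
    exact lt_irrefl _ ht0
  intro n
  induction n using Nat.strong_induction_on with
  | _ n ih =>
    intro b hb hb0 hn
    rcases Nat.eq_zero_or_pos n with rfl | hpos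
    · exact dvd_zero _
    · obtain ⟨b', b'', hb', -, hb''ord, hb''0, heq⟩ := h b hb hb0 (by rw [hn]; exact_mod_cast hpos)
      have hb'0 : b' ≠ 0 := by
        rintro rfl
        rw [mul_zero] at heq
        exact mul_ne_zero hb0 hb''0 heq
      have hord : W.ord b + W.ord b'' = W.ord t + W.ord b' := by
        rw [← W.ord_mul hb0 hb''0, ← W.ord_mul ht hb'0, heq]
      have hb'nn : 0 ≤ W.ord b' := (PlacesBasic.mem_iff_ord_nonneg W hb'0).1 (hB b' hb')
      obtain ⟨n', hn'⟩ := Int.eq_ofNat_of_zero_le hb'nn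
      have hlt : n' < n := by
        have : (n' : ℤ) < n := by omega
        exact_mod_cast this
      have hdvd := ih n' hlt b' hb' hb'0 hn'
      have : (n : ℤ) = W.ord t + n' := by omega
      rw [this]
      exact dvd_add (dvd_refl _) hdvd

end DvrGen

/-- **DvrGen**: a criterion for `t` to be a uniformiser of the place `W`. -/
theorem ord_eq_one_of_generated {K Ω : Type*} [Field K] [Field Ω] [Algebra K Ω]
    (W : Place K Ω) (B₀ : Subring Ω)
    (hB : ∀ b ∈ B₀, b ∈ W.toValuationSubring)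
    (hfrac : ∀ z : Ω, ∃ b c, b ∈ B₀ ∧ c ∈ B₀ ∧ c ≠ 0 ∧ z * c = b) (t : Ω) (_ht : t ∈ B₀)
    (ht0 : 0 < W.ord t)
    (h : ∀ b ∈ B₀, b ≠ 0 → 0 < W.ord b →
      ∃ b' b'', b' ∈ B₀ ∧ b'' ∈ B₀ ∧ W.ord b'' = 0 ∧ b'' ≠ 0 ∧ b * b'' = t * b') :
    W.ord t = 1 := by
  have key : ∀ b ∈ B₀, b ≠ 0 → W.ord t ∣ W.ord b := by
    intro b hb hb0
    have hnn : 0 ≤ W.ord b := (PlacesBasic.mem_iff_ord_nonneg W hb0).1 (hB b hb)
    obtain ⟨n, hn⟩ := Int.eq_ofNat_of_zero_le hnn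
    rw [hn]
    exact DvrGen.ord_dvd_of_mem W B₀ hB t ht0 h n b hb hb0 hn
  obtain ⟨ϖ, hϖ⟩ := DvrGen.exists_ord_eq_one W
  have hϖ0 : ϖ ≠ 0 := by
    rintro rfl
    rw [W.ord_zero] at hϖ
    exact zero_ne_one hϖ
  obtain ⟨b, c, hb, hc, hc0, hzc⟩ := hfrac ϖ
  have hb0 : b ≠ 0 := by
    rw [← hzc]
    exact mul_ne_zero hϖ0 hc0
  have h1 : W.ord ϖ + W.ord c = W.ord b := by rw [← W.ord_mul hϖ0 hc0, hzc]
  have hd : W.ord t ∣ 1 := by
    have h2 : (1 : ℤ) = W.ord b - W.ord c := by omega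
    rw [h2]
    exact dvd_sub (key b hb hb0) (key c hc hc0)
  exact Int.eq_one_of_dvd_one ht0.le hd

end Fermat.Agent.S18
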