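import Fermat.Agent.S18.FreeLift

/-!
P11 / S18 ENGINE (LocalGlue), base layer: the abstract two-dimensional local setting.

`R` is an integrally closed domain with fraction field `K₁`, `𝔽 / K₁` a field extension,
`π ∈ R` a prime element and `V ⊂ 𝔽` the localisation `R_(π)` (`IsLocSub π V`).

* `IsLocSub.isIntegral_of_isIntegral` : integral over `R` ⟹ integral over `V`;
* `IsLocSub.exists_mul_isIntegral` : integral over `V` ⟹ `s • _` integral over `R`, some `π ∤ s`;
* `IsLocSub.isIntegral_of_pi_mul` (local Lemma K): `π w` integral over `R`, `w` integral over `V`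
  ⟹ `w` integral over `R`;
* `IsLocSub.mem_of_isIntegral_algebraMap` : `V` is integrally closed in `K₁`;
* finiteness / freeness / normality of `integralClosure R 𝔽`;
* `R ⧸ (π)` is a PID and `s = u y ^ k + π r'` when `𝔪_R = (π, y)`.
-/

set_option autoImplicit false

namespace Fermat.Agent.S18.LocalBase

open Polynomial

variable {R K₁ 𝔽 : Type*} [CommRing R] [IsDomain R] [Field K₁] [Algebra R K₁] [IsFractionRing R K₁]
  [Field 𝔽] [Algebra K₁ 𝔽] [Algebra R 𝔽] [IsScalarTower R K₁ 𝔽]

/-- `V` is the localisation of `R` at the prime element `π`, viewed inside `𝔽`. -/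
structure IsLocSub (π : R) (V : Subring 𝔽) : Prop where
  exists_frac : ∀ v ∈ V, ∃ a b : R, ¬ π ∣ b ∧ v * algebraMap R 𝔽 b = algebraMap R 𝔽 a
  div_mem : ∀ a b : R, ¬ π ∣ b → algebraMap R 𝔽 a / algebraMap R 𝔽 b ∈ V

section LocSub

variable {π : R} {V : Subring 𝔽}

omit [IsDomain R] in
theorem IsLocSub.algebraMap_mem (hV : IsLocSub π V) (hπ : Prime π) (a : R) :
    algebraMap R 𝔽 a ∈ V := by
  have h := hV.div_mem a 1 (fun h => hπ.not_isUnit (isUnit_of_dvd_one h))
  rwa [map_one, div_one] at h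

/-- the inclusion `R → V` -/
def IsLocSub.incl (hV : IsLocSub π V) (hπ : Prime π) : R →+* ↥V :=
  (algebraMap R 𝔽).codRestrict V (hV.algebraMap_mem hπ)

omit [IsDomain R] in
theorem IsLocSub.isIntegral_of_isIntegral (hV : IsLocSub π V) (hπ : Prime π) {z : 𝔽}
    (hz : IsIntegral R z) : IsIntegral V z :=
  hz.map_of_comp_eq (hV.incl hπ) (RingHom.id 𝔽) (by ext; rfl)

omit [IsDomain R] in
theorem isIntegral_of_mem {V : Subring 𝔽} {z : 𝔽} (hz : z ∈ V) : IsIntegral V z :=
  isIntegral_algebraMap (x := (⟨z, hz⟩ : ↥V))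

omit [IsDomain R] in
/-- clearing denominators: an element integral over `V = R_(π)` becomes integral over `R` after
multiplication by some `s ∉ (π)` -/
theorem IsLocSub.exists_mul_isIntegral (hV : IsLocSub π V) (hπ : Prime π) {ε : 𝔽}
    (hε : IsIntegral V ε) : ∃ s : R, ¬ π ∣ s ∧ IsIntegral R (algebraMap R 𝔽 s * ε) := by
  classical
  obtain ⟨p, hmonic, hroot⟩ := hε
  have hcoeff : ∀ i, ∃ a b : R, ¬ π ∣ b ∧
      ((p.coeff i : ↥V) : 𝔽) * algebraMap R 𝔽 b = algebraMap R 𝔽 a :=
    fun i => hV.exists_frac _ (p.coeff i).2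
  choose a b hb hab using hcoeff
  set d := p.natDegree with hd
  set s : R := ∏ i ∈ Finset.range d, b i with hs
  have hsπ : ¬ π ∣ s := by
    rw [hs, hπ.dvd_finsetProd_iff]
    rintro ⟨i, -, hi⟩
    exact hb i hi
  refine ⟨s, hsπ, ?_⟩
  set q : 𝔽[X] := (p.map V.subtype).scaleRoots (algebraMap R 𝔽 s) with hq
  have hqmonic : q.Monic := (Polynomial.monic_scaleRoots_iff _).mpr (hmonic.map _)
  have hqroot : q.eval (algebraMap R 𝔽 s * ε) = 0 := by
    rw [hq, Polynomial.scaleRoots_eval_mul, Polynomial.eval_map]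
    have : Polynomial.eval₂ V.subtype ε p = 0 := hroot
    rw [this, mul_zero]
  have hqcoeff : ∀ i, q.coeff i ∈ (algebraMap R 𝔽).range := by
    intro i
    rw [hq, Polynomial.coeff_scaleRoots, Polynomial.coeff_map, hmonic.natDegree_map]
    by_cases hi : i < d
    · have hi' : i ∈ Finset.range d := Finset.mem_range.mpr hi
      obtain ⟨k, hk⟩ : ∃ k, p.natDegree - i = k + 1 := ⟨p.natDegree - i - 1, by omega⟩
      have hsi : s = b i * ∏ j ∈ (Finset.range d).erase i, b j := by
        rw [hs, Finset.mul_prod_erase _ _ hi']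
      refine ⟨a i * (∏ j ∈ (Finset.range d).erase i, b j) * s ^ k, ?_⟩
      have hsi' : algebraMap R 𝔽 s = algebraMap R 𝔽 (b i) *
          algebraMap R 𝔽 (∏ j ∈ (Finset.range d).erase i, b j) := by
        rw [← map_mul, ← hsi]
      rw [hk, pow_succ, map_mul, map_mul, map_pow, ← hab i]
      show ((p.coeff i : ↥V) : 𝔽) * algebraMap R 𝔽 (b i) * _ * _ =
        ((p.coeff i : ↥V) : 𝔽) * (algebraMap R 𝔽 s ^ k * algebraMap R 𝔽 s)
      generalize algebraMap R 𝔽 s ^ k = T
      rw [hsi']
      ring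
    · rcases (not_lt.mp hi).lt_or_eq with hlt | heq
      · rw [Polynomial.coeff_eq_zero_of_natDegree_lt hlt, map_zero, zero_mul]
        exact zero_mem _
      · rw [← heq, hd, hmonic.coeff_natDegree, map_one, one_mul, Nat.sub_self, pow_zero]
        exact one_mem _
  have hlifts : q ∈ Polynomial.lifts (algebraMap R 𝔽) :=
    (Polynomial.lifts_iff_coeff_lifts q).mpr hqcoeff
  obtain ⟨q', hq'q, -, hq'monic⟩ := Polynomial.lifts_and_natDegree_eq_and_monic hlifts hqmonic
  refine ⟨q', hq'monic, ?_⟩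
  rw [Polynomial.eval₂_eq_eval_map, hq'q, hqroot]

/-- **local Lemma K**: if `π w` is integral over `R` and `w` is integral over `V = R_(π)` then
`w` is integral over `R` -/
theorem IsLocSub.isIntegral_of_pi_mul (K₁ : Type*) [Field K₁] [Algebra R K₁] [IsFractionRing R K₁]
    [Algebra K₁ 𝔽] [IsScalarTower R K₁ 𝔽] [IsIntegrallyClosed R]
    (hV : IsLocSub π V) (hπ : Prime π) {w : 𝔽}
    (h1 : IsIntegral R (algebraMap R 𝔽 π * w)) (h2 : IsIntegral V w) : IsIntegral R w := by
  obtain ⟨s, hs, hsw⟩ := hV.exists_mul_isIntegral hπ h2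
  exact FreeLift.isIntegral_of_isIntegral_mul_of_isIntegral_mul K₁ π s hπ hs w h1 hsw

omit [IsDomain R] in
/-- `V = R_(π)` is integrally closed in `K₁` -/
theorem IsLocSub.mem_of_isIntegral_algebraMap [IsIntegrallyClosed R] (hV : IsLocSub π V)
    (hπ : Prime π) {v : K₁} (hv : IsIntegral V (algebraMap K₁ 𝔽 v)) : algebraMap K₁ 𝔽 v ∈ V := by
  obtain ⟨s, hs, hsv⟩ := hV.exists_mul_isIntegral hπ hv
  have h1 : algebraMap R 𝔽 s * algebraMap K₁ 𝔽 v = algebraMap K₁ 𝔽 (algebraMap R K₁ s * v) := by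
    rw [map_mul, ← IsScalarTower.algebraMap_apply]
  rw [h1] at hsv
  have h2 : IsIntegral R (algebraMap R K₁ s * v) :=
    (isIntegral_algebraMap_iff (algebraMap K₁ 𝔽).injective).mp hsv
  obtain ⟨r, hr⟩ := IsIntegrallyClosed.isIntegral_iff.mp h2
  have hs0 : algebraMap R 𝔽 s ≠ 0 := by
    rw [IsScalarTower.algebraMap_apply R K₁ 𝔽]
    intro h0
    have h3 : algebraMap R K₁ s = 0 := (algebraMap K₁ 𝔽).injective (by rw [h0, map_zero])
    have h4 : s = 0 := IsFractionRing.injective R K₁ (by rw [h3, map_zero])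
    exact hs (h4 ▸ dvd_zero π)
  have h5 : algebraMap K₁ 𝔽 v = algebraMap R 𝔽 r / algebraMap R 𝔽 s := by
    rw [eq_div_iff hs0, mul_comm, h1, ← hr, ← IsScalarTower.algebraMap_apply]
  rw [h5]
  exact hV.div_mem r s hs

end LocSub

section Closure

variable (R K₁ 𝔽)

theorem finite_integralClosure [IsIntegrallyClosed R] [IsNoetherianRing R] [FiniteDimensional K₁ 𝔽]
    [CharZero K₁] : Module.Finite R ↥(integralClosure R 𝔽) :=
  IsIntegralClosure.finite R K₁ 𝔽 ↥(integralClosure R 𝔽)

theorem isIntegrallyClosed_integralClosure [FiniteDimensional K₁ 𝔽] :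
    IsIntegrallyClosed ↥(integralClosure R 𝔽) :=
  integralClosure.isIntegrallyClosedOfFiniteExtension K₁

theorem free_integralClosure [IsIntegrallyClosed R] [IsNoetherianRing R] [IsLocalRing R]
    [FiniteDimensional K₁ 𝔽] [CharZero K₁] (π : R) (hπ : Prime π)
    (hpir : IsPrincipalIdealRing (R ⧸ Ideal.span {π})) :
    Module.Free R ↥(integralClosure R 𝔽) := by
  haveI := finite_integralClosure R K₁ 𝔽
  exact FreeLift.free_of_isIntegralClosure (𝔽 := 𝔽) K₁ π hπ hpir

end Closure

section TwoDim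

variable [IsNoetherianRing R] [IsLocalRing R]

omit [IsDomain R] in
/-- if `𝔪_R = (π, y)` with `(π)` prime then `R ⧸ (π)` is a principal ideal ring -/
theorem isPrincipalIdealRing_quotient (π y : R)
    (hm : IsLocalRing.maximalIdeal R = Ideal.span {π, y})
    (hπ : (Ideal.span {π} : Ideal R).IsPrime) :
    IsPrincipalIdealRing (R ⧸ Ideal.span {π}) := by
  haveI : IsDomain (R ⧸ Ideal.span {π}) := (Ideal.Quotient.isDomain_iff_prime _).mpr hπ
  haveI : IsLocalRing (R ⧸ Ideal.span {π}) :=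
    IsLocalRing.of_surjective' (Ideal.Quotient.mk _) Ideal.Quotient.mk_surjective
  have hmax : IsLocalRing.maximalIdeal (R ⧸ Ideal.span {π}) =
      Ideal.span {Ideal.Quotient.mk (Ideal.span {π}) y} := by
    have h1 : (IsLocalRing.maximalIdeal R).map (Ideal.Quotient.mk (Ideal.span {π})) =
        IsLocalRing.maximalIdeal (R ⧸ Ideal.span {π}) := by
      refine IsLocalRing.eq_maximalIdeal ?_
      refine (Ideal.map_eq_top_or_isMaximal_of_surjective _ Ideal.Quotient.mk_surjective
        (IsLocalRing.maximalIdeal.isMaximal R)).resolve_left ?_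
      intro htop
      have h2 := congrArg (Ideal.comap (Ideal.Quotient.mk (Ideal.span {π}))) htop
      rw [Ideal.comap_map_of_surjective _ Ideal.Quotient.mk_surjective, Ideal.comap_top,
        ← RingHom.ker_eq_comap_bot, Ideal.mk_ker] at h2
      have h3 : Ideal.span {π} ≤ IsLocalRing.maximalIdeal R := by
        rw [hm]
        exact Ideal.span_mono (by simp)
      rw [sup_eq_left.mpr h3] at h2
      exact (IsLocalRing.maximalIdeal.isMaximal R).ne_top h2
    rw [← h1, hm, Ideal.map_span, Set.image_pair]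
    have h4 : Ideal.Quotient.mk (Ideal.span {π}) π = 0 :=
      Ideal.Quotient.eq_zero_iff_mem.mpr (Ideal.mem_span_singleton_self π)
    rw [h4]
    apply le_antisymm
    · rw [Ideal.span_le]
      rintro x (rfl | rfl)
      · exact zero_mem _
      · exact Ideal.subset_span rfl
    · exact Ideal.span_mono (by simp)
  have hprin : (IsLocalRing.maximalIdeal (R ⧸ Ideal.span {π})).IsPrincipal :=
    ⟨⟨Ideal.Quotient.mk (Ideal.span {π}) y, hmax⟩⟩
  exact ((tfae_of_isNoetherianRing_of_isLocalRing_of_isDomain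
    (R ⧸ Ideal.span {π})).out 0 4).mpr hprin

end TwoDim

end Fermat.Agent.S18.LocalBase
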