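/-
P11 (S18) — ENGINE / LocalGlue sub-module `LocalDiscAbs` (helper8).

Abstract setting: `R` a domain, `K₁ = Frac R`, `𝔽/K₁` a finite extension,
`S := integralClosure R 𝔽` with an `R`-basis `b`, `π ∈ R` prime and `V = R_(π)` inside `𝔽`
(`LocalBase.IsLocSub π V`).

* `not_pi_dvd_discr` (D1): if `𝔽/K₁` has trace-dual families integral over `V`
  (`HasIntegralDualBasis V K₁ 𝔽`) then `π ∤ discr R b`.

(The companion (D2), `not_dvd_discr_of_unram`, is in `LocalDiscUnram.lean`.)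
-/
import Mathlib
import Fermat.Agent.S18.Basic
import Fermat.Agent.S18.DualBasis
import Fermat.Agent.S18.LocalBase

set_option autoImplicit false

namespace Fermat.Agent.S18.LocalDiscAbs

open Fermat.Agent.S18

variable {R K₁ 𝔽 : Type*} [CommRing R] [IsDomain R] [Field K₁]
  [Algebra R K₁] [IsFractionRing R K₁] [Field 𝔽] [Algebra K₁ 𝔽] [Algebra R 𝔽]
  [IsScalarTower R K₁ 𝔽]

/-- **(D1)** If `𝔽/K₁` has trace-dual families integral over `V = R_(π)`, then `π` does not
divide the discriminant of any `R`-basis of the integral closure of `R` in `𝔽`. -/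
theorem not_pi_dvd_discr [FiniteDimensional K₁ 𝔽] (π : R) (hπ : Prime π) (V : Subring 𝔽)
    (hV : LocalBase.IsLocSub π V) (hB1 : HasIntegralDualBasis V K₁ 𝔽) (n : ℕ)
    (b : Module.Basis (Fin n) R ↥(integralClosure R 𝔽)) : ¬ π ∣ Algebra.discr R b := by
  classical
  intro hdvd
  have hinj : Function.Injective (algebraMap R 𝔽) := by
    rw [IsScalarTower.algebraMap_eq R K₁ 𝔽]
    exact (algebraMap K₁ 𝔽).injective.comp (IsFractionRing.injective R K₁)
  have hloc : IsLocalization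
      (Algebra.algebraMapSubmonoid (↥(integralClosure R 𝔽)) (nonZeroDivisors R)) 𝔽 :=
    IsIntegralClosure.isLocalization R K₁ 𝔽 (↥(integralClosure R 𝔽))
  let s : Module.Basis (Fin n) K₁ 𝔽 := b.localizationLocalization K₁ (nonZeroDivisors R) 𝔽
  have hdisc : Algebra.discr K₁ s = algebraMap R K₁ (Algebra.discr R b) :=
    Algebra.discr_localizationLocalization R (nonZeroDivisors R) 𝔽 b
  -- every `V`-integral element has `s`-coordinates in `V`
  have hs : ∀ z : 𝔽, IsIntegral V z → ∀ i, algebraMap K₁ 𝔽 (s.repr z i) ∈ V := by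
    intro z hz i
    obtain ⟨t, ht, hint⟩ := hV.exists_mul_isIntegral hπ hz
    have ht0 : t ≠ 0 := fun h0 => ht (h0 ▸ dvd_zero π)
    have htK : algebraMap R K₁ t ≠ 0 := fun h0 =>
      ht0 (IsFractionRing.injective R K₁ (by rw [h0, map_zero]))
    let y : ↥(integralClosure R 𝔽) := ⟨algebraMap R 𝔽 t * z, hint⟩
    have hy : algebraMap (↥(integralClosure R 𝔽)) 𝔽 y = algebraMap R K₁ t • z := by
      show algebraMap R 𝔽 t * z = algebraMap R K₁ t • z
      rw [Algebra.smul_def, ← IsScalarTower.algebraMap_apply R K₁ 𝔽]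
    have hrepr : s.repr (algebraMap (↥(integralClosure R 𝔽)) 𝔽 y) i =
        algebraMap R K₁ (b.repr y i) :=
      Module.Basis.localizationLocalization_repr_algebraMap K₁ (nonZeroDivisors R) 𝔽 b y i
    rw [hy, map_smul, Finsupp.smul_apply, smul_eq_mul] at hrepr
    have hcoord : s.repr z i = algebraMap R K₁ (b.repr y i) / algebraMap R K₁ t := by
      rw [← hrepr, mul_div_cancel_left₀ _ htK]
    rw [hcoord, map_div₀, ← IsScalarTower.algebraMap_apply R K₁ 𝔽,
      ← IsScalarTower.algebraMap_apply R K₁ 𝔽]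
    exact hV.div_mem _ _ ht
  obtain ⟨v, hvV, hv⟩ := DualBasis.exists_mem_discr_mul_eq_one V hB1 s hs
  obtain ⟨d', hd'⟩ := hdvd
  rw [hdisc, ← IsScalarTower.algebraMap_apply R K₁ 𝔽, hd', map_mul, mul_assoc] at hv
  -- `π⁻¹ = d' v ∈ V`
  have hπ𝔽 : algebraMap R 𝔽 π ≠ 0 := fun h0 => hπ.ne_zero (hinj (by rw [h0, map_zero]))
  have hinv : (algebraMap R 𝔽 π)⁻¹ ∈ V := by
    have : (algebraMap R 𝔽 π)⁻¹ = algebraMap R 𝔽 d' * v := (eq_inv_of_mul_eq_one_right hv).symm
    rw [this]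
    exact V.mul_mem (hV.algebraMap_mem hπ d') hvV
  obtain ⟨a, c, hc, hac⟩ := hV.exists_frac _ hinv
  apply hc
  refine ⟨a, hinj ?_⟩
  rw [map_mul, ← hac, ← mul_assoc, mul_inv_cancel₀ hπ𝔽, one_mul]

end Fermat.Agent.S18.LocalDiscAbs
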