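/-
P11 / S18, module FreeLift (helper16) — note 201 (5).

Abstract commutative algebra, Mathlib only.  `namespace Fermat.Agent.S18.FreeLift`.

* `span_eq_top_of_span_mod`, `linearIndependent_of_mod`, `exists_basis_of_mod` :
  elementwise core — a finite family which spans `M` modulo `π` and is independent modulo `π`
  is a basis of `M` (`π` in the Jacobson radical, `M` finite, `π`-torsion-free, `R` noetherian).
* `exists_basis_of_quotient_basis` : any lift of a basis of `M ⧸ π M` over `R ⧸ (π)` is a basis.
* `free_of_quotient_free` : `M ⧸ π M` free over `R ⧸ (π)`  ⟹  `M` free over `R`.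
* `free_of_quotient_torsionFree` : `R ⧸ (π)` a PID-domain and `M ⧸ π M` torsion-free ⟹ `M` free.
* `isIntegral_of_isIntegral_mul_of_isIntegral_mul` (**Lemma K**): `P` integrally closed, `π` prime,
  `π ∤ d`, `π z` and `d z` integral over `P`  ⟹  `z` integral over `P`.
* `free_of_isIntegralClosure` : the integral closure `S` of `R` in a field extension of
  `Frac R`, if finite over `R`, is free over `R` (when `R ⧸ (π)` is a PID-domain).
-/
import Mathlib

namespace Fermat.Agent.S18.FreeLift

open Polynomial

section Core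

variable {R M : Type*} [CommRing R] [AddCommGroup M] [Module R M]

/-- A family spanning `M` modulo `π` spans `M` (Nakayama). -/
theorem span_eq_top_of_span_mod [Module.Finite R M] (π : R)
    (hπJ : π ∈ Ideal.jacobson (⊥ : Ideal R)) {ι : Type*} (b : ι → M)
    (hspan : ∀ m : M, ∃ c : ι →₀ R, ∃ m' : M, m = Finsupp.linearCombination R b c + π • m') :
    Submodule.span R (Set.range b) = ⊤ := by
  have hJ : Ideal.span {π} ≤ Ideal.jacobson (⊥ : Ideal R) := by
    rw [Ideal.span_le]; simpa using hπJ
  refine top_le_iff.1 (Submodule.le_of_le_smul_of_le_jacobson_bot (I := Ideal.span {π})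
    (N := Submodule.span R (Set.range b)) (N' := ⊤) Module.Finite.fg_top hJ ?_)
  intro m _
  obtain ⟨c, m', rfl⟩ := hspan m
  refine Submodule.add_mem_sup ?_ ?_
  · rw [← Finsupp.range_linearCombination]
    exact LinearMap.mem_range_self _ c
  · exact Submodule.smul_mem_smul (Ideal.mem_span_singleton_self π) Submodule.mem_top

/-- A finite family independent modulo `π` is independent (`M` is `π`-torsion-free). -/
theorem linearIndependent_of_mod [IsNoetherianRing R] (π : R)
    (hπJ : π ∈ Ideal.jacobson (⊥ : Ideal R)) (htf : ∀ m : M, π • m = 0 → m = 0)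
    {ι : Type*} [Finite ι] (b : ι → M)
    (hind : ∀ c : ι →₀ R, (∃ m' : M, Finsupp.linearCombination R b c = π • m') → ∀ i, π ∣ c i) :
    LinearIndependent R b := by
  classical
  have hJ : Ideal.span {π} ≤ Ideal.jacobson (⊥ : Ideal R) := by
    rw [Ideal.span_le]; simpa using hπJ
  rw [linearIndependent_iff, ← LinearMap.ker_eq_bot']
  refine Submodule.eq_bot_of_le_smul_of_le_jacobson_bot (Ideal.span {π}) _
    (IsNoetherian.noetherian _) ?_ hJ
  intro y hy
  have hy0 : Finsupp.linearCombination R b y = 0 := LinearMap.mem_ker.1 hy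
  have hdvd : ∀ i, π ∣ y i := hind y ⟨0, by rw [hy0, smul_zero]⟩
  choose z hz using hdvd
  set z' : ι →₀ R := Finsupp.equivFunOnFinite.symm z with hz'
  have hyz : y = π • z' := by
    ext i
    rw [Finsupp.smul_apply, hz', Finsupp.coe_equivFunOnFinite_symm, smul_eq_mul, hz i]
  have hz'ker : z' ∈ LinearMap.ker (Finsupp.linearCombination R b) := by
    rw [LinearMap.mem_ker]
    apply htf
    rw [← map_smul, ← hyz, hy0]
  rw [hyz]
  exact Submodule.smul_mem_smul (Ideal.mem_span_singleton_self π) hz'ker

/-- **Core of FreeLift**: a finite family which spans modulo `π` and is independent modulo `π` is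
a basis. -/
theorem exists_basis_of_mod [IsNoetherianRing R] [Module.Finite R M] (π : R)
    (hπJ : π ∈ Ideal.jacobson (⊥ : Ideal R)) (htf : ∀ m : M, π • m = 0 → m = 0)
    {ι : Type*} [Finite ι] (b : ι → M)
    (hspan : ∀ m : M, ∃ c : ι →₀ R, ∃ m' : M, m = Finsupp.linearCombination R b c + π • m')
    (hind : ∀ c : ι →₀ R, (∃ m' : M, Finsupp.linearCombination R b c = π • m') → ∀ i, π ∣ c i) :
    ∃ B : Module.Basis ι R M, ∀ i, B i = b i :=
  ⟨Module.Basis.mk (linearIndependent_of_mod π hπJ htf b hind)
    (span_eq_top_of_span_mod π hπJ b hspan).ge, fun i => by rw [Module.Basis.mk_apply]⟩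

end Core

section Quotient

variable {R M : Type*} [CommRing R] [AddCommGroup M] [Module R M]

/-- Membership in `(π) • ⊤`, elementwise. -/
theorem mem_span_singleton_smul_top_iff (π : R) (m : M) :
    m ∈ (Ideal.span {π} • ⊤ : Submodule R M) ↔ ∃ m' : M, m = π • m' := by
  rw [Submodule.ideal_span_singleton_smul, Submodule.mem_smul_pointwise_iff_exists]
  constructor
  · rintro ⟨m', -, rfl⟩; exact ⟨m', rfl⟩
  · rintro ⟨m', rfl⟩; exact ⟨m', Submodule.mem_top, rfl⟩

/-- **FreeLift, basis version**: any lift of a basis of `M ⧸ π M` over `R ⧸ (π)` is a basis of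
`M` over `R`. -/
theorem exists_basis_of_quotient_basis [IsNoetherianRing R] [IsLocalRing R] [Module.Finite R M]
    (π : R) (hπ : π ∈ IsLocalRing.maximalIdeal R) (htf : ∀ m : M, π • m = 0 → m = 0)
    {ι : Type*} (bbar : Module.Basis ι (R ⧸ Ideal.span {π})
      (M ⧸ (Ideal.span {π} • ⊤ : Submodule R M)))
    (b : ι → M) (hb : ∀ i, Submodule.Quotient.mk (b i) = bbar i) :
    ∃ B : Module.Basis ι R M, ∀ i, B i = b i := by
  classical
  have hπJ : π ∈ Ideal.jacobson (⊥ : Ideal R) := by
    rw [IsLocalRing.jacobson_eq_maximalIdeal _ bot_ne_top]; exact hπ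
  have hne : (Ideal.span {π} : Ideal R) ≠ ⊤ := by
    intro h
    have h1 : (1 : R) ∈ Ideal.span {π} := by rw [h]; exact Submodule.mem_top
    have h2 : Ideal.span {π} ≤ IsLocalRing.maximalIdeal R := by
      rw [Ideal.span_le]; simpa using hπ
    exact (IsLocalRing.maximalIdeal R).ne_top_iff_one.1
      (IsLocalRing.maximalIdeal.isMaximal R).ne_top (h2 h1)
  have : Nontrivial (R ⧸ Ideal.span {π}) := Ideal.Quotient.nontrivial_iff.2 hne
  have : Module.Finite (R ⧸ Ideal.span {π}) (M ⧸ (Ideal.span {π} • ⊤ : Submodule R M)) :=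
    Module.Finite.of_restrictScalars_finite R _ _
  have : Finite ι := Module.Finite.finite_basis bbar
  have : Fintype ι := Fintype.ofFinite ι
  -- the image of a linear combination
  have hmk : ∀ c : ι →₀ R, (Submodule.Quotient.mk (Finsupp.linearCombination R b c) :
      M ⧸ (Ideal.span {π} • ⊤ : Submodule R M)) =
      ∑ i, Ideal.Quotient.mk (Ideal.span {π}) (c i) • bbar i := by
    intro c
    rw [Finsupp.linearCombination_apply, Finsupp.sum_fintype _ _ (fun i => zero_smul R (b i))]
    rw [← Submodule.mkQ_apply, map_sum]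
    refine Finset.sum_congr rfl fun i _ => ?_
    rw [Submodule.mkQ_apply, ← hb i]
    rfl
  refine exists_basis_of_mod π hπJ htf b ?_ ?_
  · intro m
    obtain ⟨c, hc⟩ : ∃ c : ι → R, ∀ i, Ideal.Quotient.mk (Ideal.span {π}) (c i) =
        bbar.repr (Submodule.Quotient.mk m) i :=
      ⟨fun i => (Ideal.Quotient.mk_surjective (bbar.repr (Submodule.Quotient.mk m) i)).choose,
        fun i => (Ideal.Quotient.mk_surjective (bbar.repr (Submodule.Quotient.mk m) i)).choose_spec⟩
    set c' : ι →₀ R := Finsupp.equivFunOnFinite.symm c with hc'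
    have h1 : (Submodule.Quotient.mk (m - Finsupp.linearCombination R b c') :
        M ⧸ (Ideal.span {π} • ⊤ : Submodule R M)) = 0 := by
      rw [Submodule.Quotient.mk_sub, hmk c', sub_eq_zero]
      conv_lhs => rw [← bbar.sum_repr (Submodule.Quotient.mk m)]
      refine Finset.sum_congr rfl fun i _ => ?_
      rw [hc', Finsupp.coe_equivFunOnFinite_symm, hc i]
    rw [Submodule.Quotient.mk_eq_zero, mem_span_singleton_smul_top_iff] at h1
    obtain ⟨m', hm'⟩ := h1
    exact ⟨c', m', by rw [← hm']; abel⟩
  · rintro c ⟨m', hm'⟩ i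
    have h1 : (Submodule.Quotient.mk (Finsupp.linearCombination R b c) :
        M ⧸ (Ideal.span {π} • ⊤ : Submodule R M)) = 0 := by
      rw [Submodule.Quotient.mk_eq_zero, mem_span_singleton_smul_top_iff]
      exact ⟨m', hm'⟩
    rw [hmk c] at h1
    have h2 := (Fintype.linearIndependent_iff.1 bbar.linearIndependent) _ h1 i
    rw [Ideal.Quotient.eq_zero_iff_mem, Ideal.mem_span_singleton] at h2
    exact h2

/-- **FreeLift** (note 201 (5)): if `M ⧸ π M` is free over `R ⧸ (π)` and `M` is finite and
`π`-torsion-free over the noetherian local ring `R`, then `M` is free. -/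
theorem free_of_quotient_free [IsNoetherianRing R] [IsLocalRing R] [Module.Finite R M]
    (π : R) (hπ : π ∈ IsLocalRing.maximalIdeal R) (htf : ∀ m : M, π • m = 0 → m = 0)
    (hfree : Module.Free (R ⧸ Ideal.span {π}) (M ⧸ (Ideal.span {π} • ⊤ : Submodule R M))) :
    Module.Free R M := by
  let bbar := Module.Free.chooseBasis (R ⧸ Ideal.span {π})
    (M ⧸ (Ideal.span {π} • ⊤ : Submodule R M))
  obtain ⟨B, -⟩ := exists_basis_of_quotient_basis π hπ htf bbar
    (fun i => (Submodule.Quotient.mk_surjective _ (bbar i)).choose)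
    (fun i => (Submodule.Quotient.mk_surjective _ (bbar i)).choose_spec)
  exact Module.Free.of_basis B

/-- **FreeLift, PID corollary**: if `R ⧸ (π)` is a principal ideal domain and `M ⧸ π M` is
torsion-free over it (elementwise: `d m ∈ π M`, `π ∤ d` ⟹ `m ∈ π M`), then `M` is free. -/
theorem free_of_quotient_torsionFree [IsNoetherianRing R] [IsLocalRing R] [Module.Finite R M]
    (π : R) (hπ : π ∈ IsLocalRing.maximalIdeal R)
    (hprime : (Ideal.span {π} : Ideal R).IsPrime)
    (hpir : IsPrincipalIdealRing (R ⧸ Ideal.span {π}))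
    (htf : ∀ m : M, π • m = 0 → m = 0)
    (htf' : ∀ (d : R) (m : M), ¬ π ∣ d → (∃ m' : M, d • m = π • m') → ∃ m'' : M, m = π • m'') :
    Module.Free R M := by
  have : IsDomain (R ⧸ Ideal.span {π}) := (Ideal.Quotient.isDomain_iff_prime _).2 hprime
  have := hpir
  have : Module.Finite (R ⧸ Ideal.span {π}) (M ⧸ (Ideal.span {π} • ⊤ : Submodule R M)) :=
    Module.Finite.of_restrictScalars_finite R _ _
  have : Module.IsTorsionFree (R ⧸ Ideal.span {π})
      (M ⧸ (Ideal.span {π} • ⊤ : Submodule R M)) := by
    refine ⟨fun r hr => ?_⟩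
    obtain ⟨d, rfl⟩ := Ideal.Quotient.mk_surjective r
    have hd : ¬ π ∣ d := by
      intro hdvd
      have h0 : Ideal.Quotient.mk (Ideal.span {π}) d = 0 := by
        rw [Ideal.Quotient.eq_zero_iff_mem, Ideal.mem_span_singleton]; exact hdvd
      exact hr.ne_zero h0
    intro x y hxy
    obtain ⟨m₁, rfl⟩ := Submodule.Quotient.mk_surjective _ x
    obtain ⟨m₂, rfl⟩ := Submodule.Quotient.mk_surjective _ y
    have h1 : (Submodule.Quotient.mk (d • (m₁ - m₂)) :
        M ⧸ (Ideal.span {π} • ⊤ : Submodule R M)) = 0 := by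
      have h2 : (Submodule.Quotient.mk (d • m₁) : M ⧸ (Ideal.span {π} • ⊤ : Submodule R M)) =
          Submodule.Quotient.mk (d • m₂) := hxy
      rw [smul_sub, Submodule.Quotient.mk_sub, h2, sub_self]
    rw [Submodule.Quotient.mk_eq_zero, mem_span_singleton_smul_top_iff] at h1
    obtain ⟨m'', hm''⟩ := htf' d (m₁ - m₂) hd h1
    rw [← sub_eq_zero, ← Submodule.Quotient.mk_sub, Submodule.Quotient.mk_eq_zero,
      mem_span_singleton_smul_top_iff]
    exact ⟨m'', hm''⟩
  exact free_of_quotient_free π hπ htf inferInstance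

end Quotient

section LemmaK

variable {P K E : Type*} [CommRing P] [IsDomain P] [IsIntegrallyClosed P]
  [Field K] [Algebra P K] [IsFractionRing P K]
  [Field E] [Algebra K E] [Algebra P E] [IsScalarTower P K E]

/-- Coefficients of the minimal polynomial over the fraction field of an element `r • z` integral
over the integrally closed domain `P`. -/
theorem coeff_minpoly_mul_pow_mem_range (r : P) (hr : r ≠ 0) (z : E) (hz : IsIntegral K z)
    (h : IsIntegral P (algebraMap P E r * z)) (i : ℕ) :
    (minpoly K z).coeff i * algebraMap P K r ^ ((minpoly K z).natDegree - i) ∈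
      Set.range (algebraMap P K) := by
  have hinj : Function.Injective (algebraMap P K) := IsFractionRing.injective P K
  have hrK : algebraMap P K r ≠ 0 := fun h0 => hr (hinj (by rw [h0, map_zero]))
  have h1 : minpoly K (algebraMap P K r • z) = (minpoly K z).scaleRoots (algebraMap P K r) :=
    IsIntegrallyClosed.minpoly_smul hrK hz
  have h2 : algebraMap P K r • z = algebraMap P E r * z := by
    rw [Algebra.smul_def, ← IsScalarTower.algebraMap_apply]
  rw [h2, minpoly.isIntegrallyClosed_eq_field_fractions' K h] at h1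
  have h3 := congrArg (fun q => q.coeff i) h1
  simp only [coeff_map, coeff_scaleRoots] at h3
  exact ⟨_, h3⟩

/-- **Lemma K.**  `P` an integrally closed domain with fraction field `K`, `E / K` a field
extension, `π` a prime element of `P` and `d ∈ P` not divisible by `π`.  If `π z` and `d z` are
integral over `P` then so is `z`. -/
theorem isIntegral_of_isIntegral_mul_of_isIntegral_mul (K : Type*) {P E : Type*} [CommRing P]
    [IsDomain P] [IsIntegrallyClosed P] [Field K] [Algebra P K] [IsFractionRing P K]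
    [Field E] [Algebra K E] [Algebra P E] [IsScalarTower P K E] (π d : P) (hπ : Prime π) (hd : ¬ π ∣ d)
    (z : E) (h1 : IsIntegral P (algebraMap P E π * z)) (h2 : IsIntegral P (algebraMap P E d * z)) :
    IsIntegral P z := by
  have hinj : Function.Injective (algebraMap P K) := IsFractionRing.injective P K
  have hπ0 : π ≠ 0 := hπ.ne_zero
  have hd0 : d ≠ 0 := fun h0 => hd (h0 ▸ dvd_zero π)
  have hπK : algebraMap P K π ≠ 0 := fun h0 => hπ0 (hinj (by rw [h0, map_zero]))
  have hπE : algebraMap P E π ≠ 0 := by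
    rw [IsScalarTower.algebraMap_apply P K E]
    exact fun h0 => hπK ((algebraMap K E).injective (by rw [h0, map_zero]))
  -- `z` is algebraic over `K`
  have hzK : IsIntegral K z := by
    have h3 : IsIntegral K (algebraMap P E π * z) := h1.tower_top
    have h4 : IsIntegral K ((algebraMap K E (algebraMap P K π))⁻¹) :=
      (isIntegral_algebraMap (R := K) (A := E) (x := algebraMap P K π)).inv
    have h5 := h4.mul h3
    rwa [← IsScalarTower.algebraMap_apply P K E, inv_mul_cancel_left₀ hπE] at h5
  -- all coefficients of the minimal polynomial lie in `P`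
  have hcoeff : ∀ i, (minpoly K z).coeff i ∈ Set.range (algebraMap P K) := by
    intro i
    set j := (minpoly K z).natDegree - i
    obtain ⟨p₁, hp₁⟩ := coeff_minpoly_mul_pow_mem_range π hπ0 z hzK h1 i
    obtain ⟨p₂, hp₂⟩ := coeff_minpoly_mul_pow_mem_range d hd0 z hzK h2 i
    have h3 : p₁ * d ^ j = p₂ * π ^ j := by
      apply hinj
      rw [map_mul, map_mul, map_pow, map_pow, hp₁, hp₂]
      ring
    have h4 : π ^ j ∣ p₁ :=
      hπ.pow_dvd_of_dvd_mul_right j (fun h => hd (hπ.dvd_of_dvd_pow h)) ⟨p₂, by rw [h3]; ring⟩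
    obtain ⟨p₃, rfl⟩ := h4
    refine ⟨p₃, ?_⟩
    have h5 : algebraMap P K p₃ * algebraMap P K π ^ j =
        (minpoly K z).coeff i * algebraMap P K π ^ j := by
      rw [← hp₁, map_mul, map_pow]; ring
    exact mul_right_cancel₀ (pow_ne_zero j hπK) h5
  have hlifts : minpoly K z ∈ lifts (algebraMap P K) := (lifts_iff_coeff_lifts _).2 hcoeff
  obtain ⟨q, hq, -, hqmonic⟩ := lifts_and_natDegree_eq_and_monic hlifts (minpoly.monic hzK)
  refine ⟨q, hqmonic, ?_⟩
  have h6 : aeval z (q.map (algebraMap P K)) = 0 := by rw [hq]; exact minpoly.aeval K z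
  rwa [aeval_map_algebraMap] at h6

end LemmaK

section IntegralClosure

/-- **FreeLift + Lemma K**: `R` a noetherian local integrally closed domain with fraction field
`K`, `π` a prime element with `R ⧸ (π)` a principal ideal ring (e.g. a DVR); `S` the integral
closure of `R` in a field extension `𝔽` of `K`.  If `S` is a finite `R`-module then it is free. -/
theorem free_of_isIntegralClosure (K : Type*) {R S 𝔽 : Type*} [CommRing R] [IsDomain R]
    [IsIntegrallyClosed R] [IsNoetherianRing R] [IsLocalRing R]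
    [Field K] [Algebra R K] [IsFractionRing R K]
    [Field 𝔽] [Algebra K 𝔽] [Algebra R 𝔽] [IsScalarTower R K 𝔽]
    [CommRing S] [Algebra R S] [Algebra S 𝔽] [IsScalarTower R S 𝔽] [IsIntegralClosure S R 𝔽]
    [Module.Finite R S] (π : R) (hπ : Prime π)
    (hpir : IsPrincipalIdealRing (R ⧸ Ideal.span {π})) : Module.Free R S := by
  have hinjS : Function.Injective (algebraMap S 𝔽) := IsIntegralClosure.algebraMap_injective S R 𝔽
  have hinjK : Function.Injective (algebraMap R K) := IsFractionRing.injective R K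
  have hπ𝔽 : algebraMap R 𝔽 π ≠ 0 := by
    rw [IsScalarTower.algebraMap_apply R K 𝔽]
    intro h0
    have h1 : algebraMap R K π = 0 := (algebraMap K 𝔽).injective (by rw [h0, map_zero])
    exact hπ.ne_zero (hinjK (by rw [h1, map_zero]))
  have hsmul : ∀ (r : R) (s : S), algebraMap S 𝔽 (r • s) = algebraMap R 𝔽 r * algebraMap S 𝔽 s := by
    intro r s
    rw [Algebra.smul_def, map_mul, ← IsScalarTower.algebraMap_apply]
  have hπm : π ∈ IsLocalRing.maximalIdeal R := (IsLocalRing.mem_maximalIdeal π).2 hπ.not_isUnit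
  have hprime : (Ideal.span {π} : Ideal R).IsPrime := (Ideal.span_singleton_prime hπ.ne_zero).2 hπ
  refine free_of_quotient_torsionFree π hπm hprime hpir ?_ ?_
  · intro s hs
    apply hinjS
    have h1 := congrArg (algebraMap S 𝔽) hs
    rw [hsmul, map_zero] at h1
    rw [map_zero]
    exact (mul_eq_zero.1 h1).resolve_left hπ𝔽
  · rintro d s hd ⟨s', hs'⟩
    have h1 : algebraMap R 𝔽 d * algebraMap S 𝔽 s = algebraMap R 𝔽 π * algebraMap S 𝔽 s' := by
      rw [← hsmul, ← hsmul, hs']
    set z : 𝔽 := algebraMap S 𝔽 s / algebraMap R 𝔽 π with hz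
    have hz1 : algebraMap R 𝔽 π * z = algebraMap S 𝔽 s := by
      rw [hz, mul_div_cancel₀ _ hπ𝔽]
    have hz2 : algebraMap R 𝔽 d * z = algebraMap S 𝔽 s' := by
      rw [hz, ← mul_div_assoc, h1, mul_div_assoc, mul_comm, div_mul_cancel₀ _ hπ𝔽]
    have hint : IsIntegral R z := by
      refine isIntegral_of_isIntegral_mul_of_isIntegral_mul K π d hπ hd z ?_ ?_
      · rw [hz1]; exact IsIntegralClosure.isIntegral_iff (A := S) |>.2 ⟨s, rfl⟩
      · rw [hz2]; exact IsIntegralClosure.isIntegral_iff (A := S) |>.2 ⟨s', rfl⟩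
    obtain ⟨s'', hs''⟩ := (IsIntegralClosure.isIntegral_iff (A := S)).1 hint
    refine ⟨s'', hinjS ?_⟩
    rw [hsmul, hs'', hz1]

end IntegralClosure

end Fermat.Agent.S18.FreeLift
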