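/-
P11 (S18) — ENGINE / LocalGlue sub-module (D2) (helper8): unramified primes do not divide the
discriminant.  `R` an integrally closed domain, `K₁ = Frac R`, `𝔽/K₁` a field extension,
`S := integralClosure R 𝔽` with an `R`-basis `b`; `π, q` primes of `R`, `π ∤ q`, `R/q` of
characteristic `0`.  If every `z ∈ S` with `z² ∈ qS` has `π^m z ∈ qS` for some `m`
(elementwise form), then `q ∤ discr R b`.
-/
import Mathlib
import Fermat.Agent.S18.FreeLift
import Fermat.Agent.S18.UnramDisc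

set_option autoImplicit false

namespace Fermat.Agent.S18.LocalDiscUnram

open Fermat.Agent.S18

/-- **(D2)** If `q` is a prime of `R` with `π ∤ q`, `R/q` of characteristic zero, and every
`z ∈ S` with `z² ∈ qS` satisfies `π^m z ∈ qS` for some `m` (elementwise form), then `q` does
not divide the discriminant of any `R`-basis of the integral closure `S` of `R` in `𝔽`. -/
theorem not_dvd_discr_of_unram {R : Type*} (K₁ : Type*) {𝔽 : Type*} [CommRing R] [IsDomain R]
    [IsIntegrallyClosed R] [Field K₁] [Algebra R K₁] [IsFractionRing R K₁] [Field 𝔽]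
    [Algebra K₁ 𝔽] [Algebra R 𝔽] [IsScalarTower R K₁ 𝔽]
    (π q : R) (hπ : Prime π) (hq : Prime q) (hπq : ¬ π ∣ q)
    [CharZero (R ⧸ Ideal.span {q})]
    (hunr : ∀ z : 𝔽, IsIntegral R z → IsIntegral R (z ^ 2 / algebraMap R 𝔽 q) →
      ∃ m : ℕ, IsIntegral R (algebraMap R 𝔽 π ^ m * (z / algebraMap R 𝔽 q)))
    (n : ℕ) (b : Module.Basis (Fin n) R ↥(integralClosure R 𝔽)) :
    ¬ q ∣ Algebra.discr R b := by
  classical
  have hinj : Function.Injective (algebraMap R 𝔽) := by
    rw [IsScalarTower.algebraMap_eq R K₁ 𝔽]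
    exact (algebraMap K₁ 𝔽).injective.comp (IsFractionRing.injective R K₁)
  have hq𝔽 : algebraMap R 𝔽 q ≠ 0 := fun h0 => hq.ne_zero (hinj (by rw [h0, map_zero]))
  have hfin : Module.Finite R ↥(integralClosure R 𝔽) := Module.Finite.of_basis b
  have hfree : Module.Free R ↥(integralClosure R 𝔽) := Module.Free.of_basis b
  refine not_dvd_discr_of_sq q hq ?_ b
  intro z hz
  obtain ⟨w, hw⟩ := hz
  have hw' : (z : 𝔽) ^ 2 = algebraMap R 𝔽 q * (w : 𝔽) := by
    have := congrArg (fun x : ↥(integralClosure R 𝔽) => (x : 𝔽)) hw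
    simpa using this
  have h1 : IsIntegral R ((z : 𝔽) ^ 2 / algebraMap R 𝔽 q) := by
    rw [hw', mul_div_cancel_left₀ _ hq𝔽]
    exact w.2
  obtain ⟨m, hm⟩ := hunr (z : 𝔽) z.2 h1
  -- descend the power of `π`
  have hdesc : ∀ m : ℕ, IsIntegral R (algebraMap R 𝔽 π ^ m * ((z : 𝔽) / algebraMap R 𝔽 q)) →
      IsIntegral R ((z : 𝔽) / algebraMap R 𝔽 q) := by
    intro m
    induction m with
    | zero => intro h; simpa using h
    | succ m ih =>
      intro h
      apply ih
      refine FreeLift.isIntegral_of_isIntegral_mul_of_isIntegral_mul K₁ π q hπ hπq _ ?_ ?_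
      · rw [← mul_assoc, ← pow_succ']
        exact h
      · have : algebraMap R 𝔽 q * (algebraMap R 𝔽 π ^ m * ((z : 𝔽) / algebraMap R 𝔽 q)) =
            algebraMap R 𝔽 π ^ m * (z : 𝔽) := by
          field_simp
        rw [this]
        exact (isIntegral_algebraMap.pow m).mul z.2
  have hzq : IsIntegral R ((z : 𝔽) / algebraMap R 𝔽 q) := hdesc m hm
  refine ⟨⟨(z : 𝔽) / algebraMap R 𝔽 q, hzq⟩, ?_⟩
  apply Subtype.ext
  show (z : 𝔽) = algebraMap R 𝔽 q * ((z : 𝔽) / algebraMap R 𝔽 q)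
  rw [mul_div_cancel₀ _ hq𝔽]

end Fermat.Agent.S18.LocalDiscUnram
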