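import Fermat.Agent.S18.LocalDiscCore
import Fermat.Agent.S18.LocalDiscAbs
import Fermat.Agent.S18.LocalDiscUnram

/-!
P11 (S18), ENGINE / LocalGlue: the discriminant of the integral closure of the local ring
`R = Λ[X]_(π, f)` in `𝔽` is a unit times a power of `f` (assembly of (D1), (D2) and the
factorisation core).

The statement is generic in the way `R` acts on `K₁ = Frac Λ[X]` and on `𝔽` (instance arguments),
so that it can be instantiated with the concrete algebra structures of `LocalInst`.
-/

set_option autoImplicit false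

namespace Fermat.Agent.S18

namespace LocalDisc

open Polynomial LocalRing

variable {Λ : Type*} [CommRing Λ] [IsDomain Λ] [IsDiscreteValuationRing Λ] [CharZero Λ]
variable {K₁ 𝔽 : Type*} [Field K₁] [Field 𝔽] [Algebra K₁ 𝔽] [FiniteDimensional K₁ 𝔽]
variable {π : Λ} {f : Λ[X]} [hP : (pt π f).IsPrime]

variable [Algebra (Localization.AtPrime (pt π f)) K₁]
  [IsFractionRing (Localization.AtPrime (pt π f)) K₁]
  [Algebra (Localization.AtPrime (pt π f)) 𝔽]
  [IsScalarTower (Localization.AtPrime (pt π f)) K₁ 𝔽]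

local notation "R" => Localization.AtPrime (pt π f)
local notation "φ" => algebraMap Λ[X] (Localization.AtPrime (pt π f))

/-- **The local discriminant is a unit times a power of `f`** (generic form: the unramifiedness
input is the elementwise hypothesis `hunr`). -/
theorem discr_eq_unit_mul_pow_gen (hπ : Irreducible π) (hf : f.Monic)
    (hfirr : Irreducible (f.map (Ideal.Quotient.mk (Ideal.span {π}))))
    (V : Subring 𝔽) (hV : LocalBase.IsLocSub (φ (Polynomial.C π)) V)
    (hB1 : HasIntegralDualBasis V K₁ 𝔽)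
    (C : Finset Λ) (hC : ∀ c ∈ C, ∀ c' ∈ C, c ≠ c' → ¬ π ∣ c - c')
    (hcusp : (∃ c ∈ C, f = X - Polynomial.C c) ∨ (∀ c ∈ C, X - Polynomial.C c ∉ pt π f))
    (hunr : ∀ p : Λ[X], Prime p → p ∈ pt π f → p.natDegree ≠ 0 → (∀ c ∈ C, p.eval c ≠ 0) →
      ∀ z : 𝔽, IsIntegral R z → IsIntegral R (z ^ 2 / algebraMap R 𝔽 (φ p)) →
        ∃ m : ℕ, IsIntegral R (algebraMap R 𝔽 (φ (Polynomial.C π)) ^ m *
          (z / algebraMap R 𝔽 (φ p))))
    (n : ℕ) (b : Module.Basis (Fin n) R ↥(integralClosure R 𝔽)) :
    ∃ (B : ℕ) (v : R), IsUnit v ∧ Algebra.discr R b = v * φ f ^ B := by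
  have _ := hf
  have hπ' : Prime (φ (Polynomial.C π)) := prime_map (prime_C_pi hπ) (C_mem_pt π f)
  refine core hπ hfirr C hC hcusp (Algebra.discr R b) ?_ ?_
  · exact LocalDiscAbs.not_pi_dvd_discr (φ (Polynomial.C π)) hπ' V hV hB1 n b
  · intro p hp hmem hdeg hroot
    have hpπ : ¬ Associated p (Polynomial.C π) := by
      intro h
      apply hdeg
      have := Polynomial.natDegree_eq_of_degree_eq (Polynomial.degree_eq_degree_of_associated h)
      rw [this, Polynomial.natDegree_C]
    have hπq : ¬ φ (Polynomial.C π) ∣ φ p := by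
      intro h
      have h1 : Polynomial.C π ∣ p := dvd_of_map_dvd (prime_C_pi hπ) (C_mem_pt π f) h
      exact hpπ ((prime_C_pi hπ).irreducible.associated_of_dvd hp.irreducible h1).symm
    have : CharZero (R ⧸ Ideal.span {φ p}) := charZero_quotient hp hmem hπ hpπ
    exact LocalDiscUnram.not_dvd_discr_of_unram K₁ (φ (Polynomial.C π)) (φ p) hπ'
      (prime_map hp hmem) hπq (hunr p hp hmem hdeg hroot) n b

end LocalDisc

end Fermat.Agent.S18
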