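import Fermat.Agent.S18.Basic
import Fermat.Agent.S18.LocalBase

/-!
P11 / S18 ENGINE (LocalGlue), the concrete bridge between `Λ[t] ⊂ 𝔽` and the local ring
`R = Localization.AtPrime 𝔫` of `Λ[X]` at a prime `𝔫 ∋ π`.

* (I1) `algK₁ 𝔫 : Algebra R K₁` and `alg𝔽 K₁ 𝔫 : Algebra R 𝔽` (plain definitions, to be installed by
  `letI`; `alg𝔽` cannot be a local instance since `K₁` is not determined by its type), with the
  scalar towers `isScalarTower_algK₁`, `isScalarTower_alg𝔽`.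
* All further statements are for ARBITRARY algebra structures `[Algebra R K₁] [Algebra R 𝔽]`
  with `[IsScalarTower Λ[X] R K₁] [IsScalarTower R K₁ 𝔽]` (so they apply to the ones of (I1)):
  `algebraMap_apply`, `isFractionRing`, `aeval_injective`, `charZero_K₁`,
  (I2) `isLocSub_gaussSub`, (I3) `exists_isIntegral_adjoin`, `isIntegral_of_isIntegral_adjoin`.
-/

set_option autoImplicit false

namespace Fermat.Agent.S18

namespace LocalInst

open Polynomial

/-- integrality passes to any base ring whose image in the ambient ring is larger -/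
theorem isIntegral_of_range_le {A B S : Type*} [CommRing A] [CommRing B] [CommRing S]
    [Algebra A S] [Algebra B S]
    (h : ∀ a : A, algebraMap A S a ∈ (algebraMap B S).range) {z : S} (hz : IsIntegral A z) :
    IsIntegral B z := by
  obtain ⟨p, hp, hpz⟩ := hz
  have hl : p.map (algebraMap A S) ∈ Polynomial.lifts (algebraMap B S) := by
    rw [Polynomial.lifts_iff_coeff_lifts]
    intro n
    rw [Polynomial.coeff_map]
    exact h _
  obtain ⟨q, hq, -, hqm⟩ := Polynomial.lifts_and_natDegree_eq_and_monic hl (hp.map _)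
  refine ⟨q, hqm, ?_⟩
  rw [← Polynomial.eval_map, hq, Polynomial.eval_map]
  exact hpz

section Construct

variable {Λ : Type*} [CommRing Λ] [IsDomain Λ] {K₁ : Type*} [Field K₁] [Algebra Λ[X] K₁]
  [IsFractionRing Λ[X] K₁] (𝔫 : Ideal Λ[X]) [𝔫.IsPrime]

omit [IsDomain Λ] in
theorem isUnit_algebraMap_primeCompl (y : 𝔫.primeCompl) :
    IsUnit (algebraMap Λ[X] K₁ (y : Λ[X])) := by
  refine IsUnit.mk0 _ fun h => y.2 ?_
  have h0 : (y : Λ[X]) = 0 := IsFractionRing.injective Λ[X] K₁ (by rw [h, map_zero])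
  rw [h0]
  exact 𝔫.zero_mem

/-- (I1) `R = Λ[X]_𝔫` as a subring of `K₁ = Frac Λ[X]`. -/
@[reducible] noncomputable def algK₁ : Algebra (Localization.AtPrime 𝔫) K₁ :=
  (IsLocalization.lift (M := 𝔫.primeCompl) (g := algebraMap Λ[X] K₁)
    (isUnit_algebraMap_primeCompl 𝔫)).toAlgebra

omit [IsDomain Λ] in
theorem algebraMap_algK₁ (a : Λ[X]) :
    @algebraMap (Localization.AtPrime 𝔫) K₁ _ _ (algK₁ 𝔫)
      (algebraMap Λ[X] (Localization.AtPrime 𝔫) a) = algebraMap Λ[X] K₁ a :=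
  IsLocalization.lift_eq _ a

omit [IsDomain Λ] in
theorem isScalarTower_algK₁ :
    @IsScalarTower Λ[X] (Localization.AtPrime 𝔫) K₁ _ (algK₁ 𝔫).toSMul _ :=
  letI := algK₁ (K₁ := K₁) 𝔫
  IsScalarTower.of_algebraMap_eq fun a => (algebraMap_algK₁ 𝔫 a).symm

variable (K₁) {𝔽 : Type*} [Field 𝔽] [Algebra K₁ 𝔽]

/-- (I1) `R = Λ[X]_𝔫` acting on `𝔽` through `K₁`. -/
@[reducible] noncomputable def alg𝔽 : Algebra (Localization.AtPrime 𝔫) 𝔽 :=
  letI := algK₁ (K₁ := K₁) 𝔫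
  ((algebraMap K₁ 𝔽).comp (algebraMap (Localization.AtPrime 𝔫) K₁)).toAlgebra

omit [IsDomain Λ] in
theorem isScalarTower_alg𝔽 :
    @IsScalarTower (Localization.AtPrime 𝔫) K₁ 𝔽 (algK₁ 𝔫).toSMul _
      (alg𝔽 K₁ (𝔽 := 𝔽) 𝔫).toSMul :=
  letI := algK₁ (K₁ := K₁) 𝔫
  letI := alg𝔽 K₁ (𝔽 := 𝔽) 𝔫
  IsScalarTower.of_algebraMap_eq fun _ => rfl

end Construct

section Abstract

variable {Λ 𝔽 : Type*} [CommRing Λ] [IsDomain Λ] [Field 𝔽] [Algebra Λ 𝔽]
  {K₁ : Type*} [Field K₁] [Algebra Λ[X] K₁] [IsFractionRing Λ[X] K₁] [Algebra K₁ 𝔽]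
  (t : 𝔽) (hcompat : ∀ a : Λ[X], algebraMap K₁ 𝔽 (algebraMap Λ[X] K₁ a) = aeval t a)
  (𝔫 : Ideal Λ[X]) [𝔫.IsPrime]
  [Algebra (Localization.AtPrime 𝔫) K₁] [IsScalarTower Λ[X] (Localization.AtPrime 𝔫) K₁]
  [Algebra (Localization.AtPrime 𝔫) 𝔽] [IsScalarTower (Localization.AtPrime 𝔫) K₁ 𝔽]

local notation "R" => Localization.AtPrime 𝔫
local notation "φ" => algebraMap Λ[X] (Localization.AtPrime 𝔫)

include hcompat in
omit [IsDomain Λ] [IsFractionRing Λ[X] K₁] in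
theorem algebraMap_apply (a : Λ[X]) : algebraMap R 𝔽 (φ a) = aeval t a := by
  rw [IsScalarTower.algebraMap_apply R K₁ 𝔽, ← IsScalarTower.algebraMap_apply Λ[X] R K₁, hcompat]

omit [Algebra Λ 𝔽] [Algebra K₁ 𝔽] [Algebra (Localization.AtPrime 𝔫) 𝔽]
  [IsScalarTower (Localization.AtPrime 𝔫) K₁ 𝔽] in
theorem isFractionRing : IsFractionRing R K₁ :=
  IsFractionRing.isFractionRing_of_isDomain_of_isLocalization 𝔫.primeCompl R K₁

include hcompat in
omit [IsDomain Λ] in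
theorem aeval_injective : Function.Injective (aeval t : Λ[X] → 𝔽) := by
  intro a b hab
  rw [← hcompat, ← hcompat] at hab
  exact IsFractionRing.injective Λ[X] K₁ ((algebraMap K₁ 𝔽).injective hab)

omit [IsDomain Λ] [Algebra Λ 𝔽] [Algebra Λ[X] K₁] [IsFractionRing Λ[X] K₁] in
theorem charZero_K₁ (K : Type*) [Field K] [CharZero K] [Algebra K 𝔽] : CharZero K₁ :=
  haveI : CharZero 𝔽 := charZero_of_injective_algebraMap (algebraMap K 𝔽).injective
  (algebraMap K₁ 𝔽).charZero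

include hcompat in
theorem algebraMap_injective : Function.Injective (algebraMap R 𝔽) := by
  have := isFractionRing (K₁ := K₁) 𝔫
  have _h := hcompat
  rw [IsScalarTower.algebraMap_eq R K₁ 𝔽]
  exact (algebraMap K₁ 𝔽).injective.comp (IsFractionRing.injective R K₁)

omit [IsDomain Λ] [Algebra Λ 𝔽] [Field K₁] [Algebra Λ[X] K₁] [IsFractionRing Λ[X] K₁]
  [Algebra K₁ 𝔽] [Algebra (Localization.AtPrime 𝔫) K₁]
  [IsScalarTower Λ[X] (Localization.AtPrime 𝔫) K₁]
  [Algebra (Localization.AtPrime 𝔫) 𝔽] [IsScalarTower (Localization.AtPrime 𝔫) K₁ 𝔽] in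
/-- divisibility by a prime constant `π ∈ 𝔫` can be tested in the local ring `Λ[X]_𝔫` -/
theorem C_dvd_of_map_dvd {π : Λ} (hπ : Prime π) (h𝔫 : C π ∈ 𝔫) {b : Λ[X]}
    (h : φ (C π) ∣ φ b) : C π ∣ b := by
  have hp : Prime (C π : Λ[X]) := Polynomial.prime_C_iff.mpr hπ
  have hI : (Ideal.span {C π} : Ideal Λ[X]).IsPrime :=
    (Ideal.span_singleton_prime hp.ne_zero).mpr hp
  have hdisj : Disjoint (𝔫.primeCompl : Set Λ[X]) (Ideal.span {C π} : Ideal Λ[X]) := by
    rw [Set.disjoint_left]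
    intro x hx hxp
    exact hx ((Ideal.span_singleton_le_iff_mem _).mpr h𝔫 hxp)
  have h1 := IsLocalization.under_map_of_isPrime_disjoint 𝔫.primeCompl R hI hdisj
  have h2 : b ∈ (Ideal.map φ (Ideal.span {C π})).under Λ[X] := by
    rw [Ideal.under_def, Ideal.mem_comap, Ideal.map_span, Set.image_singleton,
      Ideal.mem_span_singleton]
    exact h
  rw [h1] at h2
  exact Ideal.mem_span_singleton.mp h2

include hcompat in
omit [IsDomain Λ] in
/-- (I2) the Gauss ring of `Λ(t)` is the localisation of `R = Λ[X]_𝔫` at the prime `π`. -/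
theorem isLocSub_gaussSub (π : Λ) (hπ : Prime π) (h𝔫 : C π ∈ 𝔫) :
    LocalBase.IsLocSub (φ (C π)) (gaussSub π hπ t) := by
  have hA := algebraMap_apply t hcompat 𝔫
  have hinj := aeval_injective t hcompat
  refine ⟨?_, ?_⟩
  · rintro v ⟨a, b, hb, hv⟩
    refine ⟨φ a, φ b, fun h => hb (C_dvd_of_map_dvd 𝔫 hπ h𝔫 h), ?_⟩
    rw [hA, hA]
    exact hv
  · intro a b hb
    obtain ⟨⟨a₀, s⟩, ha⟩ := IsLocalization.surj 𝔫.primeCompl a
    obtain ⟨⟨b₀, s'⟩, hb'⟩ := IsLocalization.surj 𝔫.primeCompl b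
    simp only at ha hb'
    have hs : ¬ C π ∣ (s : Λ[X]) := fun h => s.2 (𝔫.mem_of_dvd h h𝔫)
    have hb₀ : ¬ C π ∣ b₀ := by
      intro h
      have h1 : φ (C π) ∣ b * φ s' := by
        rw [hb']
        exact map_dvd φ h
      have hu : IsUnit (φ (s' : Λ[X])) := IsLocalization.map_units R s'
      exact hb ((hu.dvd_mul_right).mp h1)
    have hs0 : aeval t (s : Λ[X]) ≠ 0 := fun h =>
      s.2 (by rw [hinj (h.trans (map_zero _).symm)]; exact 𝔫.zero_mem)
    have hs'0 : aeval t (s' : Λ[X]) ≠ 0 := fun h =>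
      s'.2 (by rw [hinj (h.trans (map_zero _).symm)]; exact 𝔫.zero_mem)
    have hb₀0 : aeval t b₀ ≠ 0 := fun h =>
      hb₀ (by rw [hinj (h.trans (map_zero _).symm)]; exact dvd_zero _)
    have ha' : algebraMap R 𝔽 a * aeval t (s : Λ[X]) = aeval t a₀ := by
      rw [← hA, ← hA, ← map_mul, ha]
    have hb'' : algebraMap R 𝔽 b * aeval t (s' : Λ[X]) = aeval t b₀ := by
      rw [← hA, ← hA, ← map_mul, hb']
    have hb0 : algebraMap R 𝔽 b ≠ 0 := by
      intro h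
      rw [h, zero_mul] at hb''
      exact hb₀0 hb''.symm
    refine ⟨a₀ * s', b₀ * s, not_C_dvd_mul hπ hb₀ hs, ?_⟩
    rw [map_mul, map_mul, ← ha', ← hb'']
    field_simp

include hcompat in
omit [IsDomain Λ] [IsFractionRing Λ[X] K₁] in
/-- (I3) clearing denominators: integral over `R = Λ[X]_𝔫` ⟹ `a(t) • _` integral over `Λ[t]`
for some `a ∉ 𝔫`. -/
theorem exists_isIntegral_adjoin {z : 𝔽} (hz : IsIntegral R z) :
    ∃ a : Λ[X], a ∉ 𝔫 ∧ IsIntegral (Algebra.adjoin Λ {t}) (aeval t a * z) := by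
  have hA := algebraMap_apply t hcompat 𝔫
  let _ : Algebra Λ[X] 𝔽 := (aeval t : Λ[X] →ₐ[Λ] 𝔽).toRingHom.toAlgebra
  have hdef : ∀ a : Λ[X], algebraMap Λ[X] 𝔽 a = aeval t a := fun _ => rfl
  have : IsScalarTower Λ[X] R 𝔽 := IsScalarTower.of_algebraMap_eq fun a => by
    rw [hdef, hA]
  obtain ⟨m, hm⟩ := IsIntegral.exists_multiple_integral_of_isLocalization 𝔫.primeCompl z hz
  refine ⟨m, m.2, ?_⟩
  have h1 : IsIntegral Λ[X] (aeval t (m : Λ[X]) * z) := by
    have : (m • z : 𝔽) = aeval t (m : Λ[X]) * z := by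
      rw [Submonoid.smul_def, Algebra.smul_def, hdef]
    rw [← this]
    exact hm
  refine isIntegral_of_range_le (fun a => ?_) h1
  rw [hdef]
  refine ⟨⟨aeval t a, ?_⟩, rfl⟩
  rw [Algebra.adjoin_singleton_eq_range_aeval]
  exact ⟨a, rfl⟩

include hcompat in
omit [IsDomain Λ] [IsFractionRing Λ[X] K₁] in
/-- (I3) integral over `Λ[t]` ⟹ integral over `R = Λ[X]_𝔫`. -/
theorem isIntegral_of_isIntegral_adjoin {z : 𝔽} (hz : IsIntegral (Algebra.adjoin Λ {t}) z) :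
    IsIntegral R z := by
  have hA := algebraMap_apply t hcompat 𝔫
  refine isIntegral_of_range_le (fun a => ?_) hz
  obtain ⟨a, ha⟩ := a
  rw [Algebra.adjoin_singleton_eq_range_aeval] at ha
  obtain ⟨a₀, rfl⟩ := ha
  exact ⟨φ a₀, hA a₀⟩

end Abstract

end LocalInst

end Fermat.Agent.S18
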