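import Fermat.Agent.S18.Basic

/-!
P11 / S18, LocalGlue piece `UnramPoly` (helper29's plan): the `Λ`-polynomial form of `UnramAway`.

Setting (ENG): `Λ` a discrete valuation ring with uniformiser `π`, `K = Frac Λ`, `𝔽 / K` a field,
`t ∈ 𝔽`.

* (a)  `isIntegral_pow_smul_of_isIntegral_adjoin` : integral over `K[t]` ⇒ some `π ^ m • w` is
  integral over `Λ[t]`;
* (a') `isIntegral_adjoin_of_isIntegral_adjoin` : integral over `Λ[t]` ⇒ integral over `K[t]`;
* (b)  `irreducible_map`, `aeval_map`, `eval_map_algebraMap` : a prime `q ∈ Λ[X]` of positive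
  degree stays irreducible in `K[X]`;
* (c)  `unramAway_poly` : `UnramAway K t C` for such a `q` without roots in `C`, over `Λ[t]` and
  up to a power of `π`.
-/

set_option autoImplicit false

namespace Fermat.Agent.S18

namespace UnramPoly

open Polynomial

section General

variable {A B E : Type*} [CommRing A] [CommRing B] [CommRing E]

/-- Integrality with respect to `g ∘ f`, for surjective `f`, follows from integrality with respect
to `g`. -/
theorem isIntegralElem_comp_of_surjective (f : A →+* B) (g : B →+* E)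
    (hf : Function.Surjective f) {w : E} (hw : g.IsIntegralElem w) :
    (g.comp f).IsIntegralElem w := by
  obtain ⟨P, hP, hPw⟩ := hw
  have hlift : P ∈ lifts f := by
    rw [lifts_iff_coeff_lifts]
    intro n
    exact hf _
  obtain ⟨Q, hQ, -, hQm⟩ := lifts_and_natDegree_eq_and_monic hlift hP
  refine ⟨Q, hQm, ?_⟩
  rw [← eval₂_map, hQ]
  exact hPw

end General

section Adjoin

variable (R : Type*) {E : Type*} [CommRing R] [CommRing E] [Algebra R E] (t : E)

/-- `aeval t`, corestricted to `R[t]`. -/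
noncomputable def toAdjoin : R[X] →+* ↥(Algebra.adjoin R {t}) :=
  ((aeval t : R[X] →ₐ[R] E).codRestrict (Algebra.adjoin R {t}) (fun P => by
    rw [Algebra.adjoin_singleton_eq_range_aeval]
    exact ⟨P, rfl⟩)).toRingHom

theorem toAdjoin_surjective : Function.Surjective (toAdjoin R t) := by
  rintro ⟨y, hy⟩
  have hy' : y ∈ (aeval t : R[X] →ₐ[R] E).range := by
    rw [← Algebra.adjoin_singleton_eq_range_aeval]
    exact hy
  obtain ⟨P, hP⟩ := hy'
  exact ⟨P, Subtype.ext hP⟩

theorem algebraMap_comp_toAdjoin :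
    (algebraMap ↥(Algebra.adjoin R {t}) E).comp (toAdjoin R t) =
      (aeval t : R[X] →ₐ[R] E).toRingHom :=
  rfl

end Adjoin

section ENG

variable {Λ K 𝔽 : Type*} [CommRing Λ] [IsDomain Λ] [IsDiscreteValuationRing Λ] [Field K]
  [CharZero K] [Algebra Λ K] [IsFractionRing Λ K] [Field 𝔽] [Algebra K 𝔽] [Algebra Λ 𝔽]
  [IsScalarTower Λ K 𝔽]

omit [IsDomain Λ] [IsDiscreteValuationRing Λ] [CharZero K] [IsFractionRing Λ K] in
theorem adjoin_le_adjoin (t : 𝔽) {y : 𝔽} (hy : y ∈ Algebra.adjoin Λ {t}) :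
    y ∈ Algebra.adjoin K {t} := by
  rw [Algebra.adjoin_singleton_eq_range_aeval] at hy ⊢
  obtain ⟨P, rfl⟩ := hy
  exact ⟨P.map (algebraMap Λ K), aeval_map_algebraMap K t P⟩

omit [IsDomain Λ] [IsDiscreteValuationRing Λ] [CharZero K] [IsFractionRing Λ K] in
/-- (a') Integral over `Λ[t]` implies integral over `K[t]`. -/
theorem isIntegral_adjoin_of_isIntegral_adjoin (t w : 𝔽)
    (hw : IsIntegral (Algebra.adjoin Λ {t}) w) : IsIntegral (Algebra.adjoin K {t}) w := by
  let ι : ↥(Algebra.adjoin Λ {t}) →+* ↥(Algebra.adjoin K {t}) :=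
    (algebraMap ↥(Algebra.adjoin Λ {t}) 𝔽).codRestrict (Algebra.adjoin K {t})
      (fun y => adjoin_le_adjoin t y.2)
  have hcomp : (algebraMap ↥(Algebra.adjoin K {t}) 𝔽).comp ι =
      algebraMap ↥(Algebra.adjoin Λ {t}) 𝔽 := rfl
  have hw' : ((algebraMap ↥(Algebra.adjoin K {t}) 𝔽).comp ι).IsIntegralElem w := by
    rw [hcomp]
    exact hw
  exact RingHom.IsIntegralElem.of_comp hw'

omit [CharZero K] in
/-- (a) An element integral over `K[t]` becomes integral over `Λ[t]` after multiplication by a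
power of the uniformiser. -/
theorem isIntegral_pow_smul_of_isIntegral_adjoin (π : Λ) (hπ : Irreducible π) (t w : 𝔽)
    (hw : IsIntegral (Algebra.adjoin K {t}) w) :
    ∃ m : ℕ, IsIntegral (Algebra.adjoin Λ {t}) (π ^ m • w) := by
  let algΛ : Algebra Λ[X] 𝔽 := (aeval t : Λ[X] →ₐ[Λ] 𝔽).toRingHom.toAlgebra
  let algK : Algebra K[X] 𝔽 := (aeval t : K[X] →ₐ[K] 𝔽).toRingHom.toAlgebra
  let algΛK : Algebra Λ[X] K[X] := Polynomial.algebra Λ K
  have tower : IsScalarTower Λ[X] K[X] 𝔽 := IsScalarTower.of_algebraMap_eq (fun P => by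
    change aeval t P = aeval t (P.map (algebraMap Λ K))
    rw [aeval_map_algebraMap])
  have loc : IsLocalization ((nonZeroDivisors Λ).map (C : Λ →+* Λ[X])) K[X] :=
    Polynomial.isLocalization (nonZeroDivisors Λ) K
  have hw' : IsIntegral K[X] w :=
    isIntegralElem_comp_of_surjective (toAdjoin K t) (algebraMap ↥(Algebra.adjoin K {t}) 𝔽)
      (toAdjoin_surjective K t) hw
  obtain ⟨⟨m, hm⟩, hint⟩ := IsIntegral.exists_multiple_integral_of_isLocalization
    ((nonZeroDivisors Λ).map (C : Λ →+* Λ[X])) w hw'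
  obtain ⟨d, hd, rfl⟩ := Submonoid.mem_map.mp hm
  have hd0 : d ≠ 0 := nonZeroDivisors.ne_zero hd
  obtain ⟨n, u, hu⟩ := IsDiscreteValuationRing.eq_unit_mul_pow_irreducible hd0 hπ
  refine ⟨n, ?_⟩
  have h1 : IsIntegral Λ[X] (algebraMap Λ 𝔽 d * w) := by
    have h : (⟨C d, hm⟩ : ((nonZeroDivisors Λ).map (C : Λ →+* Λ[X]))) • w =
        algebraMap Λ 𝔽 d * w := by
      rw [Submonoid.smul_def, Algebra.smul_def]
      change aeval t (C d) * w = _
      rw [aeval_C]
    rw [← h]
    exact hint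
  have h2 : IsIntegral Λ[X] (π ^ n • w) := by
    have h3 : π ^ n • w = algebraMap Λ[X] 𝔽 (C (↑u⁻¹ : Λ)) * (algebraMap Λ 𝔽 d * w) := by
      change _ = aeval t (C (↑u⁻¹ : Λ)) * _
      rw [aeval_C, ← mul_assoc, ← map_mul, hu, ← mul_assoc, Units.inv_mul, one_mul,
        Algebra.smul_def]
    rw [h3]
    exact IsIntegral.mul isIntegral_algebraMap h1
  exact RingHom.IsIntegralElem.of_comp (f := toAdjoin Λ t)
    (g := algebraMap ↥(Algebra.adjoin Λ {t}) 𝔽) h2

omit [IsDiscreteValuationRing Λ] in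
/-- A prime polynomial of positive degree is primitive. -/
theorem isPrimitive_of_prime (q : Λ[X]) (hq : Prime q) (hqdeg : q.natDegree ≠ 0) :
    q.IsPrimitive := by
  intro r hr
  obtain ⟨q', hq'⟩ := hr
  rcases hq.irreducible.isUnit_or_isUnit hq' with h | h
  · exact isUnit_C.mp h
  · exfalso
    apply hqdeg
    have h1 : q.natDegree ≤ q'.natDegree := by
      rw [hq']
      exact natDegree_C_mul_le r q'
    rw [natDegree_eq_zero_of_isUnit h] at h1
    omega

omit [CharZero K] in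
/-- (b) A prime `q ∈ Λ[X]` of positive degree is irreducible in `K[X]` (Gauss). -/
theorem irreducible_map (q : Λ[X]) (hq : Prime q) (hqdeg : q.natDegree ≠ 0) :
    Irreducible (q.map (algebraMap Λ K)) :=
  ((isPrimitive_of_prime q hq hqdeg).irreducible_iff_irreducible_map_fraction_map).mp
    hq.irreducible

omit [IsDomain Λ] [IsDiscreteValuationRing Λ] [CharZero K] [IsFractionRing Λ K] in
/-- (b) -/
theorem aeval_map (t : 𝔽) (q : Λ[X]) : aeval t (q.map (algebraMap Λ K)) = aeval t q :=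
  aeval_map_algebraMap K t q

omit [IsDomain Λ] [IsDiscreteValuationRing Λ] [CharZero K] [IsFractionRing Λ K] in
/-- (b) -/
theorem eval_map_algebraMap (q : Λ[X]) (c : Λ) :
    (q.map (algebraMap Λ K)).eval (algebraMap Λ K c) = algebraMap Λ K (q.eval c) := by
  rw [eval_map, eval₂_at_apply]

omit [CharZero K] in
/-- (c) The `Λ`-polynomial form of `UnramAway`. -/
theorem unramAway_poly (π : Λ) (hπ : Irreducible π) (t : 𝔽) (C : Finset Λ)
    (hB2 : UnramAway K t (algebraMap Λ K '' (C : Set Λ))) (q : Λ[X]) (hq : Prime q)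
    (hqdeg : q.natDegree ≠ 0) (hqC : ∀ c ∈ C, q.eval c ≠ 0) :
    ∀ z : 𝔽, IsIntegral (Algebra.adjoin Λ {t}) z →
      IsIntegral (Algebra.adjoin Λ {t}) (z ^ 2 / aeval t q) →
      ∃ m : ℕ, IsIntegral (Algebra.adjoin Λ {t}) (π ^ m • (z / aeval t q)) := by
  intro z hz hz2
  have hirr : Irreducible (q.map (algebraMap Λ K)) := irreducible_map q hq hqdeg
  have hC : ∀ c ∈ algebraMap Λ K '' (C : Set Λ), (q.map (algebraMap Λ K)).eval c ≠ 0 := by
    rintro _ ⟨c, hc, rfl⟩
    rw [eval_map_algebraMap]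
    exact fun h => hqC c hc (IsFractionRing.injective Λ K (by rw [h, map_zero]))
  have h1 := hB2 _ hirr hC z (isIntegral_adjoin_of_isIntegral_adjoin t z hz)
    (by rw [aeval_map]; exact isIntegral_adjoin_of_isIntegral_adjoin t _ hz2)
  rw [aeval_map] at h1
  exact isIntegral_pow_smul_of_isIntegral_adjoin π hπ t _ h1

end ENG

end UnramPoly

end Fermat.Agent.S18
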