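import Fermat.Agent.S18.LocalAbs
import Fermat.Agent.S18.LocalInst
import Fermat.Agent.S18.LocalDisc
import Fermat.Agent.S18.UnramPoly

/-!
P11 / S18 ENGINE: `LocalGlue.idemLifts_gen` — an idempotent modulo `π` of the integral closure of
the Gauss ring `V₀ = gaussSub π t` is congruent modulo `π` to an element integral over `Λ[t]`.

Proof: the set `I` of `a ∈ Λ[X]` with `a(t) ε ≡ e mod π` for some `e` integral over `Λ[t]` is an
ideal containing `π`.  At a maximal ideal `𝔫 = (π, f) ⊇ I` the local lift (`LocalAbs.exists_lift`,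
with the discriminant shape from `LocalDisc`) produces an element of `I` outside `𝔫`.
-/

set_option autoImplicit false

namespace Fermat.Agent.S18.LocalGlue

open Polynomial Fermat.Agent.S18.LocalRing Fermat.Agent.S18.LocalBase

section Unram

variable {Λ K 𝔽 : Type*} [CommRing Λ] [IsDomain Λ] [IsDiscreteValuationRing Λ]
  [Field K] [Algebra Λ K] [IsFractionRing Λ K] [Field 𝔽] [Algebra K 𝔽] [Algebra Λ 𝔽]
  [IsScalarTower Λ K 𝔽] (π : Λ) (hπ : Irreducible π)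
  {K₁ : Type*} [Field K₁] [Algebra Λ[X] K₁] [Algebra K₁ 𝔽]
  (t : 𝔽) (hcompat : ∀ a : Λ[X], algebraMap K₁ 𝔽 (algebraMap Λ[X] K₁ a) = Polynomial.aeval t a)
  (C : Finset Λ) (hB2 : UnramAway K t ((algebraMap Λ K) '' (C : Set Λ)))
  (𝔫 : Ideal Λ[X]) [𝔫.IsPrime]
  [Algebra (Localization.AtPrime 𝔫) K₁] [IsScalarTower Λ[X] (Localization.AtPrime 𝔫) K₁]
  [Algebra (Localization.AtPrime 𝔫) 𝔽] [IsScalarTower (Localization.AtPrime 𝔫) K₁ 𝔽]

include hπ hcompat hB2 in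
/-- the unramifiedness hypothesis, transported to the local ring `R = Λ[X]_𝔫` -/
theorem unram_at (p : Λ[X]) (hp : Prime p) (hdeg : p.natDegree ≠ 0)
    (hroot : ∀ c ∈ C, p.eval c ≠ 0) (z : 𝔽) (hz : IsIntegral (Localization.AtPrime 𝔫) z)
    (hz2 : IsIntegral (Localization.AtPrime 𝔫)
      (z ^ 2 / algebraMap (Localization.AtPrime 𝔫) 𝔽
        (algebraMap Λ[X] (Localization.AtPrime 𝔫) p))) :
    ∃ m : ℕ, IsIntegral (Localization.AtPrime 𝔫)
      (algebraMap (Localization.AtPrime 𝔫) 𝔽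
          (algebraMap Λ[X] (Localization.AtPrime 𝔫) (Polynomial.C π)) ^ m *
        (z / algebraMap (Localization.AtPrime 𝔫) 𝔽
          (algebraMap Λ[X] (Localization.AtPrime 𝔫) p))) := by
  have hA := LocalInst.algebraMap_apply t hcompat 𝔫
  rw [hA] at hz2 ⊢
  rw [hA, aeval_C]
  obtain ⟨a, ha, haz⟩ := LocalInst.exists_isIntegral_adjoin t hcompat 𝔫 hz
  obtain ⟨a', ha', haz2⟩ := LocalInst.exists_isIntegral_adjoin t hcompat 𝔫 hz2
  have hint : ∀ c : Λ[X], IsIntegral (Algebra.adjoin Λ {t}) (aeval t c) := fun c =>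
    isIntegral_of_mem (V := (Algebra.adjoin Λ {t}).toSubring)
      (Polynomial.aeval_mem_adjoin_singleton Λ t)
  have h1 : IsIntegral (Algebra.adjoin Λ {t}) (aeval t (a * a') * z) := by
    have h : aeval t (a * a') * z = aeval t a' * (aeval t a * z) := by
      rw [map_mul]
      ring
    rw [h]
    exact (hint a').mul haz
  have h2 : IsIntegral (Algebra.adjoin Λ {t}) ((aeval t (a * a') * z) ^ 2 / aeval t p) := by
    have h : (aeval t (a * a') * z) ^ 2 / aeval t p =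
        aeval t (a ^ 2 * a') * (aeval t a' * (z ^ 2 / aeval t p)) := by
      simp only [map_mul, map_pow]
      ring
    rw [h]
    exact (hint _).mul haz2
  obtain ⟨m, hm⟩ := UnramPoly.unramAway_poly π hπ t C hB2 p hp hdeg hroot _ h1 h2
  refine ⟨m, ?_⟩
  have hm' := LocalInst.isIntegral_of_isIntegral_adjoin t hcompat 𝔫 hm
  have hu : IsUnit (algebraMap Λ[X] (Localization.AtPrime 𝔫) (a * a')) :=
    IsLocalization.map_units (Localization.AtPrime 𝔫)
      (⟨a * a', 𝔫.primeCompl.mul_mem ha ha'⟩ : 𝔫.primeCompl)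
  obtain ⟨u, hu⟩ := hu
  have h1u : algebraMap (Localization.AtPrime 𝔫) 𝔽 (↑u⁻¹ : Localization.AtPrime 𝔫) *
      aeval t (a * a') = 1 := by
    rw [← hA, ← hu, ← map_mul, Units.inv_mul, map_one]
  have h : algebraMap Λ 𝔽 π ^ m * (z / aeval t p) =
      algebraMap (Localization.AtPrime 𝔫) 𝔽 (↑u⁻¹ : Localization.AtPrime 𝔫) *
        (π ^ m • (aeval t (a * a') * z / aeval t p)) := by
    rw [Algebra.smul_def, map_pow]
    linear_combination (-(algebraMap Λ 𝔽 π ^ m * (z / aeval t p))) * h1u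
  rw [h]
  exact isIntegral_algebraMap.mul hm'

end Unram

section Main

variable {Λ K 𝔽 : Type*} [CommRing Λ] [IsDomain Λ] [IsDiscreteValuationRing Λ]
  [Field K] [CharZero K] [Algebra Λ K] [IsFractionRing Λ K] [Field 𝔽] [Algebra K 𝔽] [Algebra Λ 𝔽]
  [IsScalarTower Λ K 𝔽] (π : Λ) (hπ : Irreducible π)
  {K₁ : Type*} [Field K₁] [Algebra Λ[X] K₁] [IsFractionRing Λ[X] K₁] [Algebra K₁ 𝔽]
  [FiniteDimensional K₁ 𝔽]
  (t : 𝔽) (hcompat : ∀ a : Λ[X], algebraMap K₁ 𝔽 (algebraMap Λ[X] K₁ a) = Polynomial.aeval t a)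
  (C : Finset Λ) (hC : ∀ c ∈ C, ∀ c' ∈ C, c ≠ c' → ¬ π ∣ c - c')
  (hB1 : HasIntegralDualBasis (gaussSub π hπ.prime t) K₁ 𝔽)
  (hB2 : UnramAway K t ((algebraMap Λ K) '' (C : Set Λ)))

include hcompat hC hB1 hB2 in
/-- the local lift at the closed point `(π, f)`, in terms of `Λ[t]` -/
theorem exists_lift_at_pt {f : Λ[X]} (hf : f.Monic)
    (hfirr : Irreducible (f.map (Ideal.Quotient.mk (Ideal.span {π}))))
    (hcusp : (∃ c ∈ C, f = X - Polynomial.C c) ∨ (∀ c ∈ C, X - Polynomial.C c ∉ pt π f))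
    (ε : 𝔽) (hε : IsIntegral (gaussSub π hπ.prime t) ε)
    (hε2 : ∃ δ : 𝔽, IsIntegral (gaussSub π hπ.prime t) δ ∧ ε ^ 2 - ε = π • δ) :
    ∃ (a : Λ[X]) (e : 𝔽), a ∉ pt π f ∧ IsIntegral (Algebra.adjoin Λ {t}) e ∧
      ∃ δ : 𝔽, IsIntegral (gaussSub π hπ.prime t) δ ∧ aeval t a * ε - e = π • δ := by
  haveI hP : (pt π f).IsPrime := (pt_isMaximal hπ hfirr).isPrime
  haveI : CharZero Λ := (algebraMap Λ K).charZero
  haveI : CharZero K₁ := LocalInst.charZero_K₁ (K₁ := K₁) (𝔽 := 𝔽) K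
  letI := LocalInst.algK₁ (K₁ := K₁) (pt π f)
  haveI := LocalInst.isScalarTower_algK₁ (K₁ := K₁) (pt π f)
  letI := LocalInst.alg𝔽 K₁ (𝔽 := 𝔽) (pt π f)
  haveI := LocalInst.isScalarTower_alg𝔽 K₁ (𝔽 := 𝔽) (pt π f)
  haveI := LocalInst.isFractionRing (K₁ := K₁) (pt π f)
  have hφπ : algebraMap (Localization.AtPrime (pt π f)) 𝔽
      (algebraMap Λ[X] (Localization.AtPrime (pt π f)) (Polynomial.C π)) = algebraMap Λ 𝔽 π := by
    rw [LocalInst.algebraMap_apply t hcompat (pt π f), aeval_C]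
  have hV : IsLocSub (algebraMap Λ[X] (Localization.AtPrime (pt π f)) (Polynomial.C π))
      (gaussSub π hπ.prime t) :=
    LocalInst.isLocSub_gaussSub t hcompat (pt π f) π hπ.prime (C_mem_pt π f)
  haveI : CharZero (Localization.AtPrime (pt π f) ⧸
      Ideal.span {algebraMap Λ[X] (Localization.AtPrime (pt π f)) f}) :=
    charZero_quotient_f hπ hf hfirr
  obtain ⟨e, he, δ, hδ, h⟩ := LocalAbs.exists_lift K₁
    (algebraMap Λ[X] (Localization.AtPrime (pt π f)) (Polynomial.C π))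
    (algebraMap Λ[X] (Localization.AtPrime (pt π f)) f)
    maximalIdeal_eq (isPrime_span_C_pi hπ) (isPrime_span_f hπ hf hfirr) (map_C_pi_ne_zero hπ)
    (map_f_ne_zero hf) (not_map_C_pi_dvd_map_f hπ hf) (gaussSub π hπ.prime t) hV
    (fun n b => LocalDisc.discr_eq_unit_mul_pow_gen hπ hf hfirr (gaussSub π hπ.prime t) hV hB1 C hC
      hcusp (fun p hp _ hdeg hroot => unram_at π hπ t hcompat C hB2 (pt π f) p hp hdeg hroot) n b)
    ε hε (by
      obtain ⟨δ, hδ, h⟩ := hε2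
      exact ⟨δ, hδ, by rw [h, hφπ, Algebra.smul_def]⟩)
  obtain ⟨a, ha, hae⟩ := LocalInst.exists_isIntegral_adjoin t hcompat (pt π f) he
  refine ⟨a, aeval t a * e, ha, hae, aeval t a * δ, ?_, ?_⟩
  · exact (isIntegral_of_mem (aeval_mem_gaussSub π hπ.prime t a)).mul hδ
  · rw [← mul_sub, h, hφπ, Algebra.smul_def]
    ring

include hcompat hC hB1 hB2 in
/-- **LocalGlue** (target (E1) of the P11 master plan, generic `K₁` form). -/
theorem idemLifts_gen : IdemLifts (gaussSub π hπ.prime t) π t := by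
  intro ε hε hε2
  -- the ideal of denominators
  let I : Ideal Λ[X] :=
    { carrier := {a | ∃ e : 𝔽, IsIntegral (Algebra.adjoin Λ {t}) e ∧
        ∃ δ : 𝔽, IsIntegral (gaussSub π hπ.prime t) δ ∧ aeval t a * ε - e = π • δ}
      add_mem' := by
        rintro a a' ⟨e, he, δ, hδ, h⟩ ⟨e', he', δ', hδ', h'⟩
        refine ⟨e + e', he.add he', δ + δ', hδ.add hδ', ?_⟩
        rw [map_add, smul_add, ← h, ← h']
        ring
      zero_mem' := ⟨0, isIntegral_zero, 0, isIntegral_zero, by simp⟩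
      smul_mem' := by
        rintro c a ⟨e, he, δ, hδ, h⟩
        refine ⟨aeval t c * e, ?_, aeval t c * δ, ?_, ?_⟩
        · have hc : aeval t c ∈ Algebra.adjoin Λ {t} := Polynomial.aeval_mem_adjoin_singleton Λ t
          exact (isIntegral_of_mem (V := (Algebra.adjoin Λ {t}).toSubring) hc).mul he
        · exact (isIntegral_of_mem (aeval_mem_gaussSub π hπ.prime t c)).mul hδ
        · rw [smul_eq_mul, map_mul, ← mul_smul_comm, ← h]
          ring }
  by_cases hI : I = ⊤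
  · have h1 : (1 : Λ[X]) ∈ I := hI ▸ Submodule.mem_top
    obtain ⟨e, he, δ, hδ, h⟩ := h1
    exact ⟨e, he, δ, hδ, by rwa [map_one, one_mul] at h⟩
  · exfalso
    obtain ⟨𝔫, h𝔫max, hI𝔫⟩ := Ideal.exists_le_maximal I hI
    have hπ𝔫 : Polynomial.C π ∈ 𝔫 :=
      hI𝔫 ⟨0, isIntegral_zero, ε, hε, by rw [aeval_C, sub_zero, Algebra.smul_def]⟩
    obtain ⟨f₀, hf₀, hf₀irr, rfl⟩ := exists_eq_pt hπ 𝔫 h𝔫max hπ𝔫
    obtain ⟨f, hf, hfirr, hpt, hcusp⟩ : ∃ f : Λ[X], f.Monic ∧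
        Irreducible (f.map (Ideal.Quotient.mk (Ideal.span {π}))) ∧ pt π f₀ = pt π f ∧
        ((∃ c ∈ C, f = X - Polynomial.C c) ∨ (∀ c ∈ C, X - Polynomial.C c ∉ pt π f)) := by
      by_cases hc : ∃ c ∈ C, X - Polynomial.C c ∈ pt π f₀
      · obtain ⟨c, hcC, hcmem⟩ := hc
        exact ⟨X - Polynomial.C c, monic_X_sub_C c, irreducible_map_X_sub_C hπ c,
          pt_eq_of_X_sub_C_mem hπ hf₀irr hcmem, Or.inl ⟨c, hcC, rfl⟩⟩
      · push Not at hc
        exact ⟨f₀, hf₀, hf₀irr, rfl, Or.inr hc⟩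
    obtain ⟨a, e, ha, he, δ, hδ, h⟩ :=
      exists_lift_at_pt π hπ t hcompat C hC hB1 hB2 hf hfirr hcusp ε hε hε2
    exact ha (hpt ▸ hI𝔫 ⟨e, he, δ, hδ, h⟩)

end Main

end Fermat.Agent.S18.LocalGlue
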