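import Fermat.Agent.S18.EngineGlobal
import Fermat.Agent.S18.LocalGlue

/-!
P11 (S18), the ENGINE (note 204 (E3)).

`Λ` a discrete valuation ring with uniformiser `π` and fraction field `K` of characteristic zero,
`𝔽` a finite extension of `K⟮x⟯` (`x` transcendental) in which `K` is algebraically closed.  If
`𝔽 / K⟮x⟯` has trace-dual families integral over the Gauss ring `V = gaussSub π _ x` (B1), and the
integral closures of `K[x]` and `K[x⁻¹]` are unramified outside finite sets of `Λ`-points which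
stay distinct modulo `π` (B2), then the integral closure of `V` in `𝔽` has only the trivial
idempotents modulo `π`.

Proof: `LocalGlue.idemLifts_gen` for the two coordinates `x` and `x⁻¹` (with `K₁ = K⟮x⟯`, made a
fraction field of `Λ[X]` via `X ↦ x`, resp. `X ↦ x⁻¹`), then the global step
`EngineGlobal.idemTrivial_of_idemLifts` (Lemma K and the two-chart Čech lemma).
-/

set_option autoImplicit false
set_option linter.unusedSectionVars false
set_option linter.style.haveILetI false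

namespace Fermat.Agent.S18

namespace Engine

open Polynomial IntermediateField

section

variable {Λ K 𝔽 : Type*} [CommRing Λ] [IsDomain Λ] [IsDiscreteValuationRing Λ] [Field K]
  [CharZero K] [Algebra Λ K] [IsFractionRing Λ K] [Field 𝔽] [Algebra K 𝔽] [Algebra Λ 𝔽]
  [IsScalarTower Λ K 𝔽] (π : Λ) (hπ : Irreducible π)

/-- Local finiteness at the chart `x` (`idemLifts_gen` with `K₁ = K⟮x⟯`, `X ↦ x`). -/
theorem idemLifts (x : 𝔽) (hx : Transcendental K x) [FiniteDimensional K⟮x⟯ 𝔽] (C : Finset Λ)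
    (hC : ∀ c ∈ C, ∀ c' ∈ C, c ≠ c' → ¬ π ∣ c - c')
    (hB1 : HasIntegralDualBasis (gaussSub π hπ.prime x) K⟮x⟯ 𝔽)
    (hB2 : UnramAway K x ((algebraMap Λ K) '' (C : Set Λ))) :
    IdemLifts (gaussSub π hπ.prime x) π x := by
  letI : Algebra Λ[X] K⟮x⟯ := GaussLineK.polyAlgebra x (AdjoinSimple.gen K x)
  haveI : IsFractionRing Λ[X] K⟮x⟯ := GaussLineK.isFractionRing_gen hx
  refine LocalGlue.idemLifts_gen π hπ (K₁ := K⟮x⟯) x (fun a => ?_) C hC hB1 hB2
  exact GaussLineK.polyAlgebra_algebraMap_apply x (AdjoinSimple.gen K x) a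

/-- Local finiteness at the chart `x⁻¹` (`idemLifts_gen` with `K₁ = K⟮x⟯`, `X ↦ x⁻¹`). -/
theorem idemLifts_inv (x : 𝔽) (hx : Transcendental K x) [FiniteDimensional K⟮x⟯ 𝔽]
    (C' : Finset Λ) (hC' : ∀ c ∈ C', ∀ c' ∈ C', c ≠ c' → ¬ π ∣ c - c')
    (hB1 : HasIntegralDualBasis (gaussSub π hπ.prime x) K⟮x⟯ 𝔽)
    (hB2' : UnramAway K x⁻¹ ((algebraMap Λ K) '' (C' : Set Λ))) :
    IdemLifts (gaussSub π hπ.prime x) π x⁻¹ := by
  have ht : Transcendental Λ x := GaussLineK.transcendental_of_fraction hx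
  have hV : gaussSub π hπ.prime x⁻¹ = gaussSub π hπ.prime x :=
    GaussLineK.gaussSub_inv π hπ.prime ht
  letI : Algebra Λ[X] K⟮x⟯ := GaussLineK.polyAlgebra x (AdjoinSimple.gen K x)⁻¹
  haveI : IsFractionRing Λ[X] K⟮x⟯ := GaussLineK.isFractionRing_gen_inv hx
  rw [← hV] at hB1 ⊢
  refine LocalGlue.idemLifts_gen π hπ (K₁ := K⟮x⟯) x⁻¹ (fun a => ?_) C' hC' hB1 hB2'
  exact GaussLineK.polyAlgebra_algebraMap_apply x (AdjoinSimple.gen K x)⁻¹ a

/-- **The engine**, with the cusps assumed pairwise incongruent modulo `π`. -/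
theorem engine' (x : 𝔽) (hx : Transcendental K x) [FiniteDimensional K⟮x⟯ 𝔽]
    (hclosed : ∀ y : 𝔽, IsAlgebraic K y → y ∈ (algebraMap K 𝔽).range)
    (C C' : Finset Λ) (hC : ∀ c ∈ C, ∀ c' ∈ C, c ≠ c' → ¬ π ∣ c - c')
    (hC' : ∀ c ∈ C', ∀ c' ∈ C', c ≠ c' → ¬ π ∣ c - c')
    (hB1 : HasIntegralDualBasis (gaussSub π hπ.prime x) K⟮x⟯ 𝔽)
    (hB2 : UnramAway K x ((algebraMap Λ K) '' (C : Set Λ)))
    (hB2' : UnramAway K x⁻¹ ((algebraMap Λ K) '' (C' : Set Λ))) :
    IdemTrivial (gaussSub π hπ.prime x) π :=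
  EngineGlobal.idemTrivial_of_idemLifts π hπ hx hclosed (idemLifts π hπ x hx C hC hB1 hB2)
    (idemLifts_inv π hπ x hx C' hC' hB1 hB2')

/-- **The engine** (note 204 (E3)). -/
theorem engine (x : 𝔽) (hx : Transcendental K x) [FiniteDimensional K⟮x⟯ 𝔽]
    (hclosed : ∀ y : 𝔽, IsAlgebraic K y → y ∈ (algebraMap K 𝔽).range)
    (C C' : Finset Λ) (hC : ∀ c ∈ C, ∀ c' ∈ C, c ≠ c' → IsUnit (c - c'))
    (hC' : ∀ c ∈ C', ∀ c' ∈ C', c ≠ c' → IsUnit (c - c'))
    (hB1 : HasIntegralDualBasis (gaussSub π hπ.prime x) K⟮x⟯ 𝔽)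
    (hB2 : UnramAway K x ((algebraMap Λ K) '' (C : Set Λ)))
    (hB2' : UnramAway K x⁻¹ ((algebraMap Λ K) '' (C' : Set Λ))) :
    IdemTrivial (gaussSub π hπ.prime x) π :=
  engine' π hπ x hx hclosed C C'
    (fun c hc c' hc' hne hdvd => hπ.not_isUnit (isUnit_of_dvd_unit hdvd (hC c hc c' hc' hne)))
    (fun c hc c' hc' hne hdvd => hπ.not_isUnit (isUnit_of_dvd_unit hdvd (hC' c hc c' hc' hne)))
    hB1 hB2 hB2'

end

end Engine

end Fermat.Agent.S18
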