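import Fermat.Agent.S18.GaussLineBase

/-!
P11 (S18), ENGINE, module GaussLine (note 204 (E2)), file F: `K⟮x⟯` is the fraction field of
`Λ[X]` (via `X ↦ x` and via `X ↦ x⁻¹`), and the integral closure of `Λ[x]` in a finite extension
`𝔽` of `K⟮x⟯` (characteristic zero) is a finite `Λ[x]`-module.
-/

set_option autoImplicit false
set_option linter.unusedSectionVars false

namespace Fermat.Agent.S18

namespace GaussLineK

open Polynomial IntermediateField

variable {Λ K 𝔽 : Type*} [CommRing Λ] [IsDomain Λ] [Field K] [Algebra Λ K] [IsFractionRing Λ K]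
  [Field 𝔽] [Algebra K 𝔽] [Algebra Λ 𝔽] [IsScalarTower Λ K 𝔽]

/-- The `Λ[X]`-algebra structure on `K⟮x⟯` sending `X` to a given element `τ`. -/
@[reducible] noncomputable def polyAlgebra (x : 𝔽) (τ : K⟮x⟯) : Algebra Λ[X] K⟮x⟯ :=
  (aeval τ : Λ[X] →ₐ[Λ] K⟮x⟯).toRingHom.toAlgebra

theorem polyAlgebra_algebraMap_apply (x : 𝔽) (τ : K⟮x⟯) (a : Λ[X]) :
    (@algebraMap Λ[X] K⟮x⟯ _ _ (polyAlgebra x τ) a : 𝔽) = aeval (τ : 𝔽) a := by
  have hcomp : (algebraMap K⟮x⟯ 𝔽).comp (algebraMap Λ K⟮x⟯) = algebraMap Λ 𝔽 := by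
    ext c
    rfl
  show algebraMap K⟮x⟯ 𝔽 (eval₂ (algebraMap Λ K⟮x⟯) τ a) = aeval (τ : 𝔽) a
  rw [Polynomial.hom_eval₂, hcomp]
  rfl

/-- The image of `K` in `𝔽` lies in `Λ(t)`. -/
theorem glF_algebraMap_mem_ratSub {t : 𝔽} (ht : Transcendental Λ t) (k : K) :
    algebraMap K 𝔽 k ∈ ratSub t ht := by
  obtain ⟨a, b, -, rfl⟩ := IsFractionRing.div_surjective (A := Λ) k
  rw [map_div₀, ← IsScalarTower.algebraMap_apply, ← IsScalarTower.algebraMap_apply]
  exact div_mem (algebraMap_mem_ratSub ht a) (algebraMap_mem_ratSub ht b)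

/-- If `x ∈ Λ(t)` then every element of `K⟮x⟯` lies in `Λ(t)`. -/
theorem glF_mem_ratSub_of_mem_adjoin {x t : 𝔽} (ht : Transcendental Λ t)
    (hxt : x ∈ ratSub t ht) {z : 𝔽} (hz : z ∈ K⟮x⟯) : z ∈ ratSub t ht := by
  have hle : K⟮x⟯ ≤ (ratSub t ht).toIntermediateField
      (fun k => glF_algebraMap_mem_ratSub (K := K) ht k) := by
    rw [IntermediateField.adjoin_simple_le_iff]
    exact hxt
  exact hle hz

/-- General form: if `τ ∈ K⟮x⟯` is transcendental over `K` and `x ∈ Λ(τ)`, then `K⟮x⟯` is the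
fraction field of `Λ[X]` via `X ↦ τ`. -/
theorem glF_isFractionRing_of_mem {x : 𝔽} (τ : K⟮x⟯) (hτ : Transcendental K (τ : 𝔽))
    (hxτ : x ∈ ratSub (τ : 𝔽) (transcendental_of_fraction (Λ := Λ) hτ)) :
    @IsFractionRing Λ[X] _ K⟮x⟯ _ (polyAlgebra x τ) := by
  let _ := polyAlgebra (Λ := Λ) x τ
  have ht : Transcendental Λ (τ : 𝔽) := transcendental_of_fraction hτ
  have inj : Function.Injective (algebraMap Λ[X] K⟮x⟯) := by
    intro a b hab
    apply aeval_injective ht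
    rw [← polyAlgebra_algebraMap_apply, ← polyAlgebra_algebraMap_apply, hab]
  have : FaithfulSMul Λ[X] K⟮x⟯ := (faithfulSMul_iff_algebraMap_injective _ _).mpr inj
  refine IsFractionRing.of_field Λ[X] K⟮x⟯ (fun z => ?_)
  obtain ⟨a, b, hb, h⟩ := glF_mem_ratSub_of_mem_adjoin (K := K) ht hxτ z.2
  refine ⟨a, b, ?_⟩
  apply Subtype.ext
  have hb' : aeval (τ : 𝔽) b ≠ 0 := aeval_ne_zero ht hb
  show (z : 𝔽) = ((algebraMap Λ[X] K⟮x⟯ a : K⟮x⟯) : 𝔽) / ((algebraMap Λ[X] K⟮x⟯ b : K⟮x⟯) : 𝔽)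
  rw [polyAlgebra_algebraMap_apply, polyAlgebra_algebraMap_apply, eq_div_iff hb']
  exact h

/-- `K⟮x⟯` is the fraction field of `Λ[X]` via `X ↦ x`. -/
theorem isFractionRing_gen {x : 𝔽} (hx : Transcendental K x) :
    @IsFractionRing Λ[X] _ K⟮x⟯ _ (polyAlgebra x (AdjoinSimple.gen K x)) := by
  refine glF_isFractionRing_of_mem (AdjoinSimple.gen K x) ?_ ?_
  · rw [AdjoinSimple.coe_gen]; exact hx
  · simp only [AdjoinSimple.coe_gen]
    simpa using aeval_mem_ratSub (transcendental_of_fraction (Λ := Λ) hx) X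

/-- `K⟮x⟯` is the fraction field of `Λ[X]` via `X ↦ x⁻¹`. -/
theorem isFractionRing_gen_inv {x : 𝔽} (hx : Transcendental K x) :
    @IsFractionRing Λ[X] _ K⟮x⟯ _ (polyAlgebra x (AdjoinSimple.gen K x)⁻¹) := by
  have hcoe : (((AdjoinSimple.gen K x)⁻¹ : K⟮x⟯) : 𝔽) = x⁻¹ := by
    rw [IntermediateField.coe_inv, AdjoinSimple.coe_gen]
  have hxi : Transcendental K x⁻¹ := fun h => hx (IsAlgebraic.inv_iff.mp h)
  refine glF_isFractionRing_of_mem (AdjoinSimple.gen K x)⁻¹ ?_ ?_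
  · rw [hcoe]; exact hxi
  · simp only [hcoe]
    have h1 : x⁻¹ ∈ ratSub x⁻¹ (transcendental_of_fraction (Λ := Λ) hxi) := by
      simpa using aeval_mem_ratSub (transcendental_of_fraction (Λ := Λ) hxi) X
    simpa using inv_mem h1

/-- Integrality over `Λ[x]` is integrality with respect to the evaluation map `Λ[X] → 𝔽`. -/
theorem glF_isIntegral_adjoin_iff (x s : 𝔽) :
    IsIntegral (Algebra.adjoin Λ {x}) s ↔
      ((aeval x : Λ[X] →ₐ[Λ] 𝔽) : Λ[X] →+* 𝔽).IsIntegralElem s := by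
  let φ : Λ[X] →+* Algebra.adjoin Λ {x} :=
    ((aeval x : Λ[X] →ₐ[Λ] 𝔽).codRestrict (Algebra.adjoin Λ {x})
      (fun a => aeval_mem_adjoin x a) : Λ[X] →+* Algebra.adjoin Λ {x})
  have hφ : Function.Surjective φ := by
    rintro ⟨v, hv⟩
    obtain ⟨a, rfl⟩ := exists_aeval_eq_of_mem_adjoin hv
    exact ⟨a, rfl⟩
  have hcomp : (algebraMap (Algebra.adjoin Λ {x}) 𝔽).comp φ
      = ((aeval x : Λ[X] →ₐ[Λ] 𝔽) : Λ[X] →+* 𝔽) := rfl
  constructor
  · rintro ⟨q, hq, hq0⟩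
    obtain ⟨p, hpq, -, hp⟩ := lifts_and_natDegree_eq_and_monic
      ((Polynomial.mem_lifts q).mpr (Polynomial.map_surjective φ hφ q)) hq
    refine ⟨p, hp, ?_⟩
    rw [← hcomp, ← Polynomial.eval₂_map, hpq]
    exact hq0
  · rintro ⟨p, hp, hp0⟩
    refine ⟨p.map φ, hp.map φ, ?_⟩
    rw [Polynomial.eval₂_map, hcomp]
    exact hp0

/-- (finite), explicit form: the integral closure of `Λ[x]` in `𝔽` is spanned over `Λ[x]` by a
finite set. -/
theorem exists_finset_span [IsIntegrallyClosed Λ] [IsNoetherianRing Λ] [CharZero K] {x : 𝔽}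
    (hx : Transcendental K x) [FiniteDimensional K⟮x⟯ 𝔽] :
    ∃ B : Finset 𝔽, (∀ b ∈ B, IsIntegral (Algebra.adjoin Λ {x}) b) ∧
      ∀ s : 𝔽, IsIntegral (Algebra.adjoin Λ {x}) s →
        s ∈ Submodule.span (Algebra.adjoin Λ {x}) (B : Set 𝔽) := by
  classical
  let alg1 : Algebra Λ[X] K⟮x⟯ := polyAlgebra (Λ := Λ) x (AdjoinSimple.gen K x)
  have frac : IsFractionRing Λ[X] K⟮x⟯ := isFractionRing_gen hx
  let alg2 : Algebra Λ[X] 𝔽 := (aeval x : Λ[X] →ₐ[Λ] 𝔽).toRingHom.toAlgebra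
  have tower : IsScalarTower Λ[X] K⟮x⟯ 𝔽 := by
    refine IsScalarTower.of_algebraMap_eq (fun a => ?_)
    show aeval x a = ((algebraMap Λ[X] K⟮x⟯ a : K⟮x⟯) : 𝔽)
    rw [polyAlgebra_algebraMap_apply, AdjoinSimple.coe_gen]
  have cz : CharZero K⟮x⟯ := charZero_of_injective_algebraMap (algebraMap K K⟮x⟯).injective
  have fin : Module.Finite Λ[X] (integralClosure Λ[X] 𝔽) :=
    IsIntegralClosure.finite Λ[X] K⟮x⟯ 𝔽 (integralClosure Λ[X] 𝔽)
  obtain ⟨T, hT⟩ := Module.Finite.fg_top (R := Λ[X]) (M := integralClosure Λ[X] 𝔽)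
  refine ⟨T.image Subtype.val, ?_, ?_⟩
  · intro b hb
    obtain ⟨y, -, rfl⟩ := Finset.mem_image.mp hb
    exact (glF_isIntegral_adjoin_iff x y.1).mpr y.2
  · intro s hs
    have hs' : IsIntegral Λ[X] s := (glF_isIntegral_adjoin_iff x s).mp hs
    have key : ∀ y : integralClosure Λ[X] 𝔽, y ∈ Submodule.span Λ[X] (T : Set _) →
        (y : 𝔽) ∈ Submodule.span (Algebra.adjoin Λ {x})
          ((T.image Subtype.val : Finset 𝔽) : Set 𝔽) := by
      intro y hy
      induction hy using Submodule.span_induction with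
      | mem y hy =>
        exact Submodule.subset_span (Finset.mem_coe.mpr (Finset.mem_image_of_mem _ hy))
      | zero => exact Submodule.zero_mem _
      | add y z _ _ hy hz => exact Submodule.add_mem _ hy hz
      | smul p y _ hy =>
        have : ((p • y : integralClosure Λ[X] 𝔽) : 𝔽)
            = (⟨aeval x p, aeval_mem_adjoin x p⟩ : Algebra.adjoin Λ {x}) • (y : 𝔽) := by
          rw [Algebra.smul_def]
          rfl
        rw [this]
        exact Submodule.smul_mem _ _ hy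
    exact key ⟨s, hs'⟩ (by rw [hT]; exact Submodule.mem_top)

/-- (finite) the integral closure of `Λ[x]` in `𝔽` is a finite `Λ[x]`-module. -/
theorem finite_integralClosure [IsIntegrallyClosed Λ] [IsNoetherianRing Λ] [CharZero K] {x : 𝔽}
    (hx : Transcendental K x) [FiniteDimensional K⟮x⟯ 𝔽] :
    Module.Finite (Algebra.adjoin Λ {x}) (integralClosure (Algebra.adjoin Λ {x}) 𝔽) := by
  obtain ⟨B, hB, hspan⟩ := exists_finset_span (Λ := Λ) hx
  have heq : Subalgebra.toSubmodule (integralClosure (Algebra.adjoin Λ {x}) 𝔽)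
      = Submodule.span (Algebra.adjoin Λ {x}) (B : Set 𝔽) := by
    apply le_antisymm
    · intro s hs
      exact hspan s hs
    · rw [Submodule.span_le]
      intro b hb
      exact hB b (Finset.mem_coe.mp hb)
  have hfg : (Subalgebra.toSubmodule (integralClosure (Algebra.adjoin Λ {x}) 𝔽)).FG :=
    ⟨B, heq.symm⟩
  exact Module.Finite.iff_fg.mpr hfg

end GaussLineK

end Fermat.Agent.S18
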