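import Fermat.Agent.S18.GaussLineK
import Fermat.Agent.S18.GaussLineF

/-!
P11 (S18), ENGINE, global step (notes 197, 204): local finiteness in the two coordinates `x`,
`x⁻¹` (`IdemLifts`) plus Lemma K plus the Čech lemma give the "engine" (`IdemTrivial`): an
idempotent modulo `π` of the integral closure of the Gauss valuation ring `V` is trivial.

* `eq_zero_or_one_of_locFin`: abstract form (`V` an arbitrary subring of the field `𝔽`).
* `idemTrivial_of_idemLifts`: the form used by `Engine.lean`: in the setting of note 204,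
  `IdemLifts V π x` and `IdemLifts V π x⁻¹` imply `IdemTrivial V π` for `V = gaussSub π _ x`.
-/

set_option autoImplicit false
set_option linter.unusedSectionVars false

namespace Fermat.Agent.S18

namespace EngineGlobal

open CechAux Polynomial IntermediateField

section Abstract

variable {Λ 𝔽 : Type*} [CommRing Λ] [Field 𝔽] [Algebra Λ 𝔽]

/-- **Global step of the engine, abstract form.**  `Λ` noetherian with `(π)` maximal and
integrally closed in the field `𝔽`; `x * x' = 1`; `V` a subring of `𝔽` over which everything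
integral over `Λ[x]` or `Λ[x']` is integral; `S_fin` finite over `Λ[x]`; Lemma K for `S_fin`,
`S_inf`, `S_mid`; local finiteness in both coordinates.  Then every `ε` integral over `V` which
is idempotent modulo `π` is `0` or `1` modulo `π`. -/
theorem eq_zero_or_one_of_locFin [IsNoetherianRing Λ] (π : Λ) (hπ : (Ideal.span {π}).IsMaximal)
    {x x' : 𝔽} (hx : x * x' = 1) (V : Subring 𝔽)
    (hclosed : ∀ y : 𝔽, IsIntegral Λ y → ∃ c : Λ, y = algebraMap Λ 𝔽 c)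
    [Module.Finite (Algebra.adjoin Λ {x}) (integralClosure (Algebra.adjoin Λ {x}) 𝔽)]
    (hfinV : ∀ z : 𝔽, IsIntegral (Algebra.adjoin Λ {x}) z → IsIntegral V z)
    (hinfV : ∀ z : 𝔽, IsIntegral (Algebra.adjoin Λ {x'}) z → IsIntegral V z)
    (hKfin : ∀ z δ : 𝔽, IsIntegral (Algebra.adjoin Λ {x}) z → IsIntegral V δ → z = π • δ →
      IsIntegral (Algebra.adjoin Λ {x}) δ)
    (hKinf : ∀ z δ : 𝔽, IsIntegral (Algebra.adjoin Λ {x'}) z → IsIntegral V δ → z = π • δ →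
      IsIntegral (Algebra.adjoin Λ {x'}) δ)
    (hKmid : ∀ z δ : 𝔽, IsIntegral (Algebra.adjoin Λ {x, x'}) z → IsIntegral V δ → z = π • δ →
      IsIntegral (Algebra.adjoin Λ {x, x'}) δ)
    (hLfin : ∀ ε : 𝔽, IsIntegral V ε → (∃ δ : 𝔽, IsIntegral V δ ∧ ε ^ 2 - ε = π • δ) →
      ∃ e : 𝔽, IsIntegral (Algebra.adjoin Λ {x}) e ∧ ∃ δ : 𝔽, IsIntegral V δ ∧ ε - e = π • δ)
    (hLinf : ∀ ε : 𝔽, IsIntegral V ε → (∃ δ : 𝔽, IsIntegral V δ ∧ ε ^ 2 - ε = π • δ) →
      ∃ e : 𝔽, IsIntegral (Algebra.adjoin Λ {x'}) e ∧ ∃ δ : 𝔽, IsIntegral V δ ∧ ε - e = π • δ)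
    {ε : 𝔽} (hε : IsIntegral V ε) (hε2 : ∃ δ : 𝔽, IsIntegral V δ ∧ ε ^ 2 - ε = π • δ) :
    (∃ δ : 𝔽, IsIntegral V δ ∧ ε = π • δ) ∨ (∃ δ : 𝔽, IsIntegral V δ ∧ ε - 1 = π • δ) := by
  obtain ⟨e₁, he₁, δ₁, hδ₁, h1⟩ := hLfin ε hε hε2
  obtain ⟨e₂, he₂, δ₂, hδ₂, h2⟩ := hLinf ε hε hε2
  obtain ⟨δ₀, hδ₀, h0⟩ := hε2
  have he₁V := hfinV e₁ he₁
  have he₂V := hinfV e₂ he₂
  -- `e₁` is idempotent modulo `π S_fin`
  have hid₁ : ∃ a : 𝔽, IsIntegral (Algebra.adjoin Λ {x}) a ∧ e₁ ^ 2 - e₁ = π • a := by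
    have hm : IsIntegral V (δ₀ - (δ₁ * ε + δ₁ * ε) + (ε - e₁) * δ₁ + δ₁) :=
      (((hδ₀.sub ((hδ₁.mul hε).add (hδ₁.mul hε))).add ((hε.sub he₁V).mul hδ₁))).add hδ₁
    have heq : e₁ ^ 2 - e₁ = π • (δ₀ - (δ₁ * ε + δ₁ * ε) + (ε - e₁) * δ₁ + δ₁) := by
      have e1 : e₁ = ε - π • δ₁ := by rw [← h1]; ring
      have e2 : e₁ ^ 2 - e₁ = (ε ^ 2 - ε) - (π • δ₁ * ε + π • δ₁ * ε) + (ε - e₁) * (π • δ₁) +
          π • δ₁ := by
        rw [h1]; rw [e1]; ring
      rw [e2, h0]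
      simp only [Algebra.smul_def]
      ring
    exact ⟨_, hKfin _ _ ((he₁.pow 2).sub he₁) hm heq, heq⟩
  -- `e₂` is idempotent modulo `π S_inf`
  have hid₂ : ∃ a : 𝔽, IsIntegral (Algebra.adjoin Λ {x'}) a ∧ e₂ ^ 2 - e₂ = π • a := by
    have hm : IsIntegral V (δ₀ - (δ₂ * ε + δ₂ * ε) + (ε - e₂) * δ₂ + δ₂) :=
      (((hδ₀.sub ((hδ₂.mul hε).add (hδ₂.mul hε))).add ((hε.sub he₂V).mul hδ₂))).add hδ₂
    have heq : e₂ ^ 2 - e₂ = π • (δ₀ - (δ₂ * ε + δ₂ * ε) + (ε - e₂) * δ₂ + δ₂) := by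
      have e1 : e₂ = ε - π • δ₂ := by rw [← h2]; ring
      have e2 : e₂ ^ 2 - e₂ = (ε ^ 2 - ε) - (π • δ₂ * ε + π • δ₂ * ε) + (ε - e₂) * (π • δ₂) +
          π • δ₂ := by
        rw [h2]; rw [e1]; ring
      rw [e2, h0]
      simp only [Algebra.smul_def]
      ring
    exact ⟨_, hKinf _ _ ((he₂.pow 2).sub he₂) hm heq, heq⟩
  -- `e₁ ≡ e₂` modulo `π S_mid`
  have hmid : ∃ z : 𝔽, IsIntegral (Algebra.adjoin Λ {x, x'}) z ∧ e₁ - e₂ = π • z := by
    have heq : e₁ - e₂ = π • (δ₂ - δ₁) := by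
      have : e₁ - e₂ = (ε - e₂) - (ε - e₁) := by ring
      rw [this, h1, h2, smul_sub]
    exact ⟨_, hKmid _ _ ((isIntegral_adjoin_mono (by simp) he₁).sub
      (isIntegral_adjoin_mono (by simp) he₂)) (hδ₂.sub hδ₁) heq, heq⟩
  rcases eq_zero_or_one_of_finite π hπ hx hclosed he₁ he₂ hid₁ hid₂ hmid with
    ⟨a, ha, hea⟩ | ⟨a, ha, hea⟩
  · left
    refine ⟨a + δ₁, (hfinV a ha).add hδ₁, ?_⟩
    rw [smul_add, ← hea, ← h1]; ring
  · right
    refine ⟨a + δ₁, (hfinV a ha).add hδ₁, ?_⟩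
    rw [smul_add, ← hea, ← h1]; ring

end Abstract

section Concrete

variable {Λ K 𝔽 : Type*} [CommRing Λ] [IsDomain Λ] [IsDiscreteValuationRing Λ] [Field K]
  [CharZero K] [Algebra Λ K] [IsFractionRing Λ K] [Field 𝔽] [Algebra K 𝔽] [Algebra Λ 𝔽]
  [IsScalarTower Λ K 𝔽] (π : Λ) (hπ : Irreducible π)

/-- In a discrete valuation ring the ideal generated by an irreducible element is maximal. -/
theorem isMaximal_span_of_irreducible {Λ : Type*} [CommRing Λ] [IsDomain Λ]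
    [IsDiscreteValuationRing Λ] (π : Λ) (hπ : Irreducible π) :
    (Ideal.span {π} : Ideal Λ).IsMaximal := by
  rw [← (IsDiscreteValuationRing.irreducible_iff_uniformizer π).mp hπ]
  exact IsLocalRing.maximalIdeal.isMaximal Λ

/-- **Global step of the engine** in the setting of note 204: local finiteness in the two
coordinates `x` and `x⁻¹` implies that the integral closure of `V = gaussSub π _ x` has only
trivial idempotents modulo `π`. -/
theorem idemTrivial_of_idemLifts {x : 𝔽} (hx : Transcendental K x) [FiniteDimensional K⟮x⟯ 𝔽]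
    (hclosed : ∀ y : 𝔽, IsAlgebraic K y → y ∈ (algebraMap K 𝔽).range)
    (h1 : IdemLifts (gaussSub π hπ.prime x) π x) (h2 : IdemLifts (gaussSub π hπ.prime x) π x⁻¹) :
    IdemTrivial (gaussSub π hπ.prime x) π := by
  have ht : Transcendental Λ x := GaussLineK.transcendental_of_fraction hx
  have hxx : x * x⁻¹ = 1 := mul_inv_cancel₀ (GaussLineK.ne_zero_of_transcendental ht)
  have hcl : ∀ y : 𝔽, IsIntegral Λ y → ∃ c : Λ, y = algebraMap Λ 𝔽 c := fun y hy =>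
    exists_algebraMap_eq_of_isIntegral (K := K)
      (fun y hy => by
        obtain ⟨c, hc⟩ := hclosed y hy.isAlgebraic
        exact ⟨c, hc.symm⟩) hy
  have : Module.Finite (Algebra.adjoin Λ {x}) (integralClosure (Algebra.adjoin Λ {x}) 𝔽) :=
    GaussLineK.finite_integralClosure hx
  intro ε hε hε2
  exact eq_zero_or_one_of_locFin π (isMaximal_span_of_irreducible π hπ) hxx
    (gaussSub π hπ.prime x) hcl
    (fun z hz => GaussLineK.isIntegral_of_isIntegral_adjoin π hπ.prime ht (by simp) hz)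
    (fun z hz => GaussLineK.isIntegral_of_isIntegral_adjoin π hπ.prime ht (by simp) hz)
    (fun z δ hz hδ h => GaussLineK.lemmaK_fin π hπ.prime ht hz hδ h)
    (fun z δ hz hδ h => GaussLineK.lemmaK_inv π hπ.prime ht hz hδ h)
    (fun z δ hz hδ h => GaussLineK.lemmaK_mid π hπ.prime ht hz hδ h)
    h1 h2 hε hε2

end Concrete

end EngineGlobal

end Fermat.Agent.S18
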