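import Mathlib
import Fermat.Agent.S18.Basic

/-!
P11 / S18 — the final contradiction of the abstract engine (Milestone 2).

`Fermat.Agent.S18.final`: in the situation of the engine (a discrete valuation ring `Λ` with
uniformiser `π`, fraction field `K`, an ambient field `𝔽`, subrings `Vj ≤ V` of `𝔽` whose
integral closures agree, such that the integral closure of `V` meets `K` in `Λ` and has only
trivial idempotents modulo `π`), there is no element `u ≡ 1 (mod π)`, integral over `V`, lying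
in an intermediate field `F ⊇ Vj` in which it has no `p`-th root while it has one in `𝔽`, as soon
as `p` is a unit of `Λ` and `Λ` contains a primitive `p`-th root of unity `ζ`.

Proof.
* PART 1 (`Final.exists_root_congr`, Lagrange idempotents): with `t i = ζ⁻ⁱ w` and
  `ε i = p⁻¹ ∑ l < p, (t i) ^ l` one has `(t i - 1) ε i = p⁻¹ (u - 1) ≡ 0`, so every `ε i` is an
  idempotent modulo `π`, and `∑ i < p, ε i = 1`.  Since idempotents are trivial modulo `π` and
  `1` is not divisible by `π`, some `ε a ≡ 1`, whence `w ≡ ζ ^ a (mod π)`.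
* PART 2 (`Final.isIntegral_conj`, conjugation without Galois groups): `X ^ p - u` is the minimal
  polynomial of `w` over `F`, so every polynomial identity over `F` satisfied by `w` is satisfied
  by `ζ w` as well; hence with `δ = (w - ζ ^ a) / π` also `δ' = (ζ w - ζ ^ a) / π` is integral,
  and `δ' - ζ δ = ζ ^ a (ζ - 1) / π ∈ K` is integral, i.e. `π ∣ ζ - 1 ∣ p` in `Λ`: contradiction.
-/

set_option autoImplicit false

namespace Fermat.Agent.S18

open Polynomial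

namespace Final

section IDvdSec

variable {𝔽 : Type*} [Field 𝔽]

/-- `a` is divisible by `q` in the integral closure of `V` in `𝔽`. -/
def IDvd (V : Subring 𝔽) (q a : 𝔽) : Prop := ∃ δ : 𝔽, IsIntegral V δ ∧ a = q * δ

variable {V : Subring 𝔽} {q : 𝔽}

theorem IDvd.zero : IDvd V q 0 := ⟨0, isIntegral_zero, by simp⟩

theorem IDvd.add {a b : 𝔽} (ha : IDvd V q a) (hb : IDvd V q b) : IDvd V q (a + b) := by
  obtain ⟨δ, hδ, rfl⟩ := ha
  obtain ⟨δ', hδ', rfl⟩ := hb
  exact ⟨δ + δ', hδ.add hδ', by ring⟩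

theorem IDvd.sub {a b : 𝔽} (ha : IDvd V q a) (hb : IDvd V q b) : IDvd V q (a - b) := by
  obtain ⟨δ, hδ, rfl⟩ := ha
  obtain ⟨δ', hδ', rfl⟩ := hb
  exact ⟨δ - δ', hδ.sub hδ', by ring⟩

theorem IDvd.mul_right {a c : 𝔽} (ha : IDvd V q a) (hc : IsIntegral V c) : IDvd V q (a * c) := by
  obtain ⟨δ, hδ, rfl⟩ := ha
  exact ⟨δ * c, hδ.mul hc, by ring⟩

theorem IDvd.mul_left {a c : 𝔽} (ha : IDvd V q a) (hc : IsIntegral V c) : IDvd V q (c * a) := by
  obtain ⟨δ, hδ, rfl⟩ := ha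
  exact ⟨c * δ, hc.mul hδ, by ring⟩

theorem IDvd.sum {ι : Type*} (s : Finset ι) (f : ι → 𝔽) (h : ∀ i ∈ s, IDvd V q (f i)) :
    IDvd V q (∑ i ∈ s, f i) := by
  classical
  induction s using Finset.induction_on with
  | empty => simpa using (IDvd.zero : IDvd V q 0)
  | insert a s ha ih =>
    rw [Finset.sum_insert ha]
    exact (h a (Finset.mem_insert_self a s)).add
      (ih fun i hi => h i (Finset.mem_insert_of_mem hi))

theorem dvd_iff_smul {Λ : Type*} [CommRing Λ] [Algebra Λ 𝔽] (π : Λ) (a : 𝔽) :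
    IDvd V (algebraMap Λ 𝔽 π) a ↔ ∃ δ : 𝔽, IsIntegral V δ ∧ a = π • δ := by
  simp only [IDvd, Algebra.smul_def]

/-- Integrality over a smaller subring implies integrality over a bigger one. -/
theorem isIntegral_of_le {Vj : Subring 𝔽} (hVV : Vj ≤ V) {x : 𝔽}
    (hx : IsIntegral Vj x) : IsIntegral V x := by
  obtain ⟨G, hG, hG0⟩ := hx
  have hcomp : (algebraMap V 𝔽).comp (Subring.inclusion hVV) = algebraMap Vj 𝔽 :=
    RingHom.ext fun _ => rfl
  refine ⟨G.map (Subring.inclusion hVV), hG.map _, ?_⟩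
  rw [eval₂_map, hcomp]
  exact hG0

/-- Elements of a subring are integral over it. -/
theorem isIntegral_of_mem {x : 𝔽} (hx : x ∈ V) : IsIntegral V x :=
  (isIntegral_algebraMap : IsIntegral V (algebraMap V 𝔽 ⟨x, hx⟩))

end IDvdSec

/-- PART 1 (Lagrange idempotents): if `u ≡ 1` modulo `q` and the integral closure of `V` has only
trivial idempotents modulo `q`, then a `p`-th root `w` of `u` is congruent modulo `q` to a
`p`-th root of unity. -/
theorem exists_root_congr {𝔽 : Type*} [Field 𝔽] (V : Subring 𝔽) (q z : 𝔽) (p : ℕ) (hp : p.Prime)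
    (hz : IsPrimitiveRoot z p) (hzV : IsIntegral V z) (hp0 : (p : 𝔽) ≠ 0)
    (hpV : IsIntegral V ((p : 𝔽)⁻¹))
    (hidem : ∀ ε : 𝔽, IsIntegral V ε → IDvd V q (ε ^ 2 - ε) → IDvd V q ε ∨ IDvd V q (ε - 1))
    (h1 : ¬ IDvd V q 1) (u w : 𝔽) (hw : w ^ p = u) (hu : IsIntegral V u)
    (hu1 : IDvd V q (u - 1)) : ∃ a : ℕ, IDvd V q (w - z ^ a) := by
  have hwV : IsIntegral V w := IsIntegral.of_pow hp.pos (hw ▸ hu)
  have hz0 : z ≠ 0 := hz.ne_zero hp.ne_zero
  have hzp : z ^ p = 1 := hz.pow_eq_one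
  have hzi : z⁻¹ = z ^ (p - 1) := by
    have : z * z ^ (p - 1) = 1 := by rw [← pow_succ', Nat.sub_add_cancel hp.one_le, hzp]
    exact inv_eq_of_mul_eq_one_right this
  have hziV : IsIntegral V z⁻¹ := by rw [hzi]; exact hzV.pow _
  have hzip : (z⁻¹) ^ p = 1 := by rw [inv_pow, hzp, inv_one]
  -- the conjugates `t i` of `w` and the Lagrange idempotents `ε i`
  set t : ℕ → 𝔽 := fun i => (z⁻¹) ^ i * w with ht
  have htV : ∀ i, IsIntegral V (t i) := fun i => (hziV.pow i).mul hwV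
  have htp : ∀ i, t i ^ p = u := by
    intro i
    simp only [ht]
    rw [mul_pow, ← pow_mul, mul_comm i p, pow_mul, hzip, one_pow, one_mul, hw]
  set ε : ℕ → 𝔽 := fun i => (p : 𝔽)⁻¹ * ∑ l ∈ Finset.range p, t i ^ l with hε
  have hεV : ∀ i, IsIntegral V (ε i) := fun i =>
    hpV.mul (IsIntegral.sum _ fun l _ => (htV i).pow l)
  -- (A)
  have hA : ∀ i, IDvd V q ((t i - 1) * ε i) := by
    intro i
    have : (t i - 1) * ε i = (p : 𝔽)⁻¹ * (u - 1) := by
      simp only [hε]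
      rw [mul_left_comm, mul_geom_sum, htp]
    rw [this]
    exact hu1.mul_left hpV
  -- (B)
  have hB : ∀ i l, IDvd V q ((t i ^ l - 1) * ε i) := by
    intro i l
    have : (t i ^ l - 1) * ε i = (∑ m ∈ Finset.range l, t i ^ m) * ((t i - 1) * ε i) := by
      rw [← mul_geom_sum (t i) l]; ring
    rw [this]
    exact (hA i).mul_left (IsIntegral.sum _ fun m _ => (htV i).pow m)
  -- (C)
  have hC : ∀ i, IDvd V q (ε i ^ 2 - ε i) := by
    intro i
    have : ε i ^ 2 - ε i = (p : 𝔽)⁻¹ * ∑ l ∈ Finset.range p, (t i ^ l - 1) * ε i := by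
      have h : ∑ l ∈ Finset.range p, t i ^ l = p * ε i := by
        simp only [hε]; field_simp
      rw [← Finset.sum_mul, Finset.sum_sub_distrib, h]
      simp only [Finset.sum_const, Finset.card_range, nsmul_eq_mul, mul_one]
      field_simp
    rw [this]
    exact (IDvd.sum _ _ fun l _ => hB i l).mul_left hpV
  -- (D)
  have hD : ∑ i ∈ Finset.range p, ε i = 1 := by
    have hinner : ∀ l ∈ Finset.range p,
        (∑ i ∈ Finset.range p, t i ^ l) = if l = 0 then (p : 𝔽) else 0 := by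
      intro l hl
      have hlp : l < p := Finset.mem_range.mp hl
      split_ifs with h0
      · subst h0; simp
      · have hcop : Nat.Coprime l p :=
          ((Nat.Prime.coprime_iff_not_dvd hp).mpr
            (Nat.not_dvd_of_pos_of_lt (Nat.pos_of_ne_zero h0) hlp)).symm
        have hprim : IsPrimitiveRoot ((z⁻¹) ^ l) p := (hz.inv).pow_of_coprime l hcop
        have hsum := hprim.geom_sum_eq_zero hp.one_lt
        have : ∀ i ∈ Finset.range p, t i ^ l = ((z⁻¹) ^ l) ^ i * w ^ l := by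
          intro i _
          simp only [ht]; rw [mul_pow, ← pow_mul, ← pow_mul, mul_comm i l]
        rw [Finset.sum_congr rfl this, ← Finset.sum_mul, hsum, zero_mul]
    simp only [hε]
    rw [← Finset.mul_sum, Finset.sum_comm, Finset.sum_congr rfl hinner]
    simp [hp0, hp.pos]
  -- (E)
  have hE : ∃ a, IDvd V q (ε a - 1) := by
    by_contra hne
    push Not at hne
    apply h1
    rw [← hD]
    exact IDvd.sum _ _ fun i _ => (hidem (ε i) (hεV i) (hC i)).resolve_right (hne i)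
  obtain ⟨a, ha⟩ := hE
  refine ⟨a, ?_⟩
  -- (F)
  have : w - z ^ a = z ^ a * ((t a - 1) * ε a - (t a - 1) * (ε a - 1)) := by
    simp only [ht]
    rw [inv_pow]
    field_simp
    ring
  rw [this]
  exact ((hA a).sub (ha.mul_left ((htV a).sub isIntegral_one))).mul_left (hzV.pow a)

/-- PART 2 (conjugation without Galois groups): if `X ^ p - u` is irreducible over `F` and `w`,
`w'` are two of its roots, then integrality over `Vj ⊆ F` of a polynomial expression in `w`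
transfers to the same expression in `w'`. -/
theorem isIntegral_conj {F 𝔽 : Type*} [Field F] [Field 𝔽] [Algebra F 𝔽] (Vj : Subring 𝔽)
    (φ : Vj →+* F) (hφ : ∀ v : Vj, algebraMap F 𝔽 (φ v) = v)
    (p : ℕ) (hp : p.Prime) (u : F) (hirr : ∀ v : F, v ^ p ≠ u) (w w' : 𝔽)
    (hw : w ^ p = algebraMap F 𝔽 u) (hw' : w' ^ p = algebraMap F 𝔽 u) (N : F[X])
    (h : IsIntegral Vj (aeval w N)) : IsIntegral Vj (aeval w' N) := by
  obtain ⟨G, hG, hG0⟩ := h
  have hmin : minpoly F w = X ^ p - C u := by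
    symm
    apply minpoly.eq_of_irreducible_of_monic (X_pow_sub_C_irreducible_of_prime hp hirr)
    · simp [hw]
    · exact monic_X_pow_sub_C u hp.ne_zero
  have hcomp : (algebraMap F 𝔽).comp φ = algebraMap Vj 𝔽 := RingHom.ext fun v => hφ v
  have key : ∀ x : 𝔽, aeval x ((G.map φ).comp N) = eval₂ (algebraMap Vj 𝔽) (aeval x N) G := by
    intro x
    rw [aeval_comp, aeval_def, eval₂_map, hcomp]
  have h0 : aeval w ((G.map φ).comp N) = 0 := by rw [key, hG0]
  obtain ⟨H, hH⟩ := minpoly.dvd F w h0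
  refine ⟨G, hG, ?_⟩
  rw [← key, hH, hmin]
  simp [hw']

/-- The inclusion of a subring of `𝔽` contained in an intermediate field `F` into `F`. -/
def inclF {K 𝔽 : Type*} [Field K] [Field 𝔽] [Algebra K 𝔽] (Vj : Subring 𝔽)
    (F : IntermediateField K 𝔽) (h : ∀ v ∈ Vj, v ∈ F) : Vj →+* F where
  toFun v := ⟨v.1, h v.1 v.2⟩
  map_one' := rfl
  map_mul' _ _ := rfl
  map_zero' := rfl
  map_add' _ _ := rfl

theorem algebraMap_inclF {K 𝔽 : Type*} [Field K] [Field 𝔽] [Algebra K 𝔽] (Vj : Subring 𝔽)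
    (F : IntermediateField K 𝔽) (h : ∀ v ∈ Vj, v ∈ F) (v : Vj) :
    algebraMap F 𝔽 (inclF Vj F h v) = v := rfl

/-- In a commutative ring, `1 - ζ` divides `p` for a primitive `p`-th root of unity `ζ`
(`p` prime, domain). -/
theorem one_sub_dvd_natCast {Λ : Type*} [CommRing Λ] [IsDomain Λ] (p : ℕ) (hp : p.Prime) (ζ : Λ)
    (hζ : IsPrimitiveRoot ζ p) : 1 - ζ ∣ (p : Λ) := by
  have h0 : ∑ i ∈ Finset.range p, ζ ^ i = 0 := hζ.geom_sum_eq_zero hp.one_lt
  have h1 : (p : Λ) = ∑ i ∈ Finset.range p, (1 - ζ ^ i) := by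
    rw [Finset.sum_sub_distrib, h0]; simp
  rw [h1]
  exact Finset.dvd_sum fun i _ => one_sub_dvd_one_sub_pow ζ i

end Final

/-- The final contradiction of the engine: no `u ≡ 1 (mod π)` integral over `V` can lie in an
intermediate field `F ⊇ Vj` without having a `p`-th root there while having one in `𝔽`. -/
theorem final {Λ K 𝔽 : Type*} [CommRing Λ] [IsDomain Λ] [IsDiscreteValuationRing Λ] [Field K]
    [CharZero K] [Algebra Λ K] [IsFractionRing Λ K] [Field 𝔽] [Algebra K 𝔽] [Algebra Λ 𝔽]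
    [IsScalarTower Λ K 𝔽]
    (π : Λ) (hπ : Irreducible π)
    (V Vj : Subring 𝔽) (hVj : ∀ z : 𝔽, IsIntegral V z → IsIntegral Vj z) (hVV : Vj ≤ V)
    (hK : ∀ c : K, IsIntegral V (algebraMap K 𝔽 c) → ∃ l : Λ, algebraMap Λ K l = c)
    (hΛV : ∀ l : Λ, algebraMap Λ 𝔽 l ∈ Vj) (hidem : IdemTrivial V π)
    (p : ℕ) (hp : p.Prime) (hpu : IsUnit (p : Λ)) (ζ : Λ) (hζ : IsPrimitiveRoot ζ p)
    (F : IntermediateField K 𝔽) (hVjF : ∀ v ∈ Vj, v ∈ F) (u w : 𝔽) (huF : u ∈ F) (hw : w ^ p = u)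
    (hirr : ∀ v ∈ F, v ^ p ≠ u)
    (hu : IsIntegral V u) (hu1 : ∃ δ : 𝔽, IsIntegral V δ ∧ u - 1 = π • δ) : False := by
  -- basic facts about the maps `Λ → K → 𝔽`
  have hinjK : Function.Injective (algebraMap Λ K) := IsFractionRing.injective Λ K
  have hinj : Function.Injective (algebraMap Λ 𝔽) := by
    rw [IsScalarTower.algebraMap_eq Λ K 𝔽]
    exact (algebraMap K 𝔽).injective.comp hinjK
  have hΛVj : ∀ l : Λ, IsIntegral Vj (algebraMap Λ 𝔽 l) := fun l => Final.isIntegral_of_mem (hΛV l)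
  have hΛint : ∀ l : Λ, IsIntegral V (algebraMap Λ 𝔽 l) := fun l =>
    Final.isIntegral_of_mem (hVV (hΛV l))
  have hπK0 : algebraMap Λ K π ≠ 0 := fun h => hπ.ne_zero (hinjK (by rw [h, map_zero]))
  have hπF0 : algebraMap Λ 𝔽 π ≠ 0 := fun h => hπ.ne_zero (hinj (by rw [h, map_zero]))
  have hζF : IsPrimitiveRoot (algebraMap Λ 𝔽 ζ) p := hζ.map_of_injective hinj
  -- `p` is invertible
  obtain ⟨c, hc⟩ := hpu.exists_right_inv
  have hpc : (p : 𝔽) * algebraMap Λ 𝔽 c = 1 := by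
    rw [← map_natCast (algebraMap Λ 𝔽) p, ← map_mul, hc, map_one]
  have hp0 : (p : 𝔽) ≠ 0 := left_ne_zero_of_mul_eq_one hpc
  have hpV : IsIntegral V ((p : 𝔽)⁻¹) := by
    rw [inv_eq_of_mul_eq_one_right hpc]
    exact hΛint c
  -- `1` is not divisible by `π`
  have h1 : ¬ Final.IDvd V (algebraMap Λ 𝔽 π) 1 := by
    rintro ⟨δ, hδ, hδ1⟩
    have hδeq : δ = algebraMap K 𝔽 (algebraMap Λ K π)⁻¹ := by
      rw [map_inv₀, ← IsScalarTower.algebraMap_apply Λ K 𝔽]
      exact eq_inv_of_mul_eq_one_right hδ1.symm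
    rw [hδeq] at hδ
    obtain ⟨l, hl⟩ := hK _ hδ
    have : algebraMap Λ K (π * l) = algebraMap Λ K 1 := by
      rw [map_mul, hl, map_one, mul_inv_cancel₀ hπK0]
    exact hπ.not_isUnit (IsUnit.of_mul_eq_one _ (hinjK this))
  -- PART 1
  have hidem' : ∀ ε : 𝔽, IsIntegral V ε → Final.IDvd V (algebraMap Λ 𝔽 π) (ε ^ 2 - ε) →
      Final.IDvd V (algebraMap Λ 𝔽 π) ε ∨ Final.IDvd V (algebraMap Λ 𝔽 π) (ε - 1) := by
    intro ε hε h
    simp only [Final.dvd_iff_smul] at h ⊢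
    exact hidem ε hε h
  obtain ⟨a, δ, hδV, hδ⟩ := Final.exists_root_congr V (algebraMap Λ 𝔽 π) (algebraMap Λ 𝔽 ζ) p hp hζF
    (hΛint ζ) hp0 hpV hidem' h1 u w hw hu ((Final.dvd_iff_smul π _).mpr hu1)
  -- PART 2
  have hδVj : IsIntegral Vj δ := hVj δ hδV
  set φ : Vj →+* F := Final.inclF Vj F hVjF with hφ
  set πF' : F := ⟨algebraMap Λ 𝔽 π, hVjF _ (hΛV π)⟩ with hπF'
  set ζF' : F := ⟨algebraMap Λ 𝔽 ζ, hVjF _ (hΛV ζ)⟩ with hζF'
  set uF : F := ⟨u, huF⟩ with huF'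
  set N : F[X] := C πF'⁻¹ * (X - C (ζF' ^ a)) with hN
  have hNeval : ∀ x : 𝔽, aeval x N = (algebraMap Λ 𝔽 π)⁻¹ * (x - algebraMap Λ 𝔽 ζ ^ a) := by
    intro x
    simp [hN, hπF', hζF']
  have hδN : aeval w N = δ := by
    rw [hNeval, hδ, inv_mul_cancel_left₀ hπF0]
  have hirr' : ∀ v : F, v ^ p ≠ uF := fun v hv => hirr v.1 v.2 (congrArg Subtype.val hv)
  have hw' : (algebraMap Λ 𝔽 ζ * w) ^ p = algebraMap F 𝔽 uF := by
    rw [mul_pow, hζF.pow_eq_one, one_mul, hw]; rfl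
  have hconj : IsIntegral Vj (aeval (algebraMap Λ 𝔽 ζ * w) N) :=
    Final.isIntegral_conj Vj φ (Final.algebraMap_inclF Vj F hVjF) p hp uF hirr' w
      (algebraMap Λ 𝔽 ζ * w) (by rw [hw]; rfl) hw' N (by rw [hδN]; exact hδVj)
  -- the difference `δ' - ζ δ` is integral over `Vj`, hence over `V`, and lies in `K`
  have hdiff : IsIntegral V (aeval (algebraMap Λ 𝔽 ζ * w) N - algebraMap Λ 𝔽 ζ * δ) :=
    Final.isIntegral_of_le hVV (hconj.sub ((hΛVj ζ).mul hδVj))
  have hdiffeq : aeval (algebraMap Λ 𝔽 ζ * w) N - algebraMap Λ 𝔽 ζ * δ =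
      algebraMap K 𝔽 (algebraMap Λ K (ζ ^ a * (ζ - 1)) / algebraMap Λ K π) := by
    rw [map_div₀, ← IsScalarTower.algebraMap_apply Λ K 𝔽, ← IsScalarTower.algebraMap_apply Λ K 𝔽,
      ← hδN, hNeval, hNeval, map_mul, map_pow, map_sub, map_one]
    field_simp
    ring
  rw [hdiffeq] at hdiff
  obtain ⟨l, hl⟩ := hK _ hdiff
  have hl' : π * l = ζ ^ a * (ζ - 1) := by
    apply hinjK
    rw [map_mul, hl, mul_div_cancel₀ _ hπK0]
  -- conclusion: `π ∣ ζ - 1 ∣ p`, and `p` is a unit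
  have hζu : IsUnit (ζ ^ a) := (hζ.isUnit hp.ne_zero).pow a
  have hdvd1 : π ∣ ζ - 1 := (hζu.dvd_mul_left).mp ⟨l, hl'.symm⟩
  have hdvd2 : π ∣ (p : Λ) :=
    ((dvd_sub_comm).mp hdvd1).trans (Final.one_sub_dvd_natCast p hp ζ hζ)
  exact hπ.not_isUnit (isUnit_of_dvd_unit hdvd2 hpu)

end Fermat.Agent.S18
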