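import Mathlib
import Fermat.Prelude.Def_AlgebraicCurve_DivisorClassGroup

/-!
P11 (S18), RED / Step A support: valuation rings of function fields are discrete (char-free).

Let `F / K` be a field extension such that `F` is finite over `K(y)` for every `y ∈ F`
transcendental over `K` (a function field in one variable).  Then every valuation subring `V` of
`F` containing `K` and different from `F` is a principal ideal ring, hence a `Place K F`
(Stichtenoth, Thm 1.1.6; no separability hypothesis, works in characteristic `p`).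

Consequence: if moreover `K` is integrally closed in `F` (e.g. `K` algebraically closed), then
every `w ∈ F` outside `K` has a pole, i.e. there is a place `P` with `w ∉ O_P`.
-/

set_option autoImplicit false

namespace Fermat.Agent.S18

open IntermediateField AlgebraicCurve Polynomial

namespace ValDVR

variable {K F : Type*} [Field K] [Field F] [Algebra K F]

section Core

variable (V : ValuationSubring F) (hK : ∀ a : K, algebraMap K F a ∈ V)

include hK in
/-- nonzero constants are units of `V` -/
theorem valuation_algebraMap {a : K} (ha : a ≠ 0) : V.valuation (algebraMap K F a) = 1 := by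
  have h1 : V.valuation (algebraMap K F a) ≤ 1 := (V.valuation_le_one_iff _).mpr (hK a)
  have h2 : V.valuation (algebraMap K F a⁻¹) ≤ 1 := (V.valuation_le_one_iff _).mpr (hK a⁻¹)
  rw [map_inv₀, map_inv₀] at h2
  have h0 : V.valuation (algebraMap K F a) ≠ 0 := by
    rw [Valuation.ne_zero_iff]
    simpa using ha
  exact le_antisymm h1 ((inv_le_one₀ (zero_lt_iff.mpr h0)).mp h2)

include hK in
/-- the value of a nonzero polynomial expression in a non-unit `x ≠ 0` is a power of the value
of `x` -/
theorem valuation_aeval {x : F} (hx0 : x ≠ 0) (hx : V.valuation x < 1) {φ : K[X]} (hφ : φ ≠ 0) :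
    V.valuation (aeval x φ) = V.valuation x ^ φ.natTrailingDegree := by
  classical
  have hvx0 : V.valuation x ≠ 0 := (Valuation.ne_zero_iff _).mpr hx0
  have hvxpos : 0 < V.valuation x := zero_lt_iff.mpr hvx0
  have hr : φ.natTrailingDegree ∈ φ.support := natTrailingDegree_mem_support_of_nonzero hφ
  have hexp : aeval x φ = ∑ n ∈ φ.support, algebraMap K F (φ.coeff n) * x ^ n := by
    rw [aeval_def, eval₂_eq_sum, Polynomial.sum_def]
  have hterm : ∀ n ∈ φ.support,
      V.valuation (algebraMap K F (φ.coeff n) * x ^ n) = V.valuation x ^ n := by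
    intro n hn
    rw [map_mul, map_pow, valuation_algebraMap V hK (mem_support_iff.mp hn), one_mul]
  rw [hexp, ← Finset.add_sum_erase _ _ hr]
  have hlt : V.valuation (∑ n ∈ φ.support.erase φ.natTrailingDegree,
      algebraMap K F (φ.coeff n) * x ^ n) < V.valuation x ^ φ.natTrailingDegree := by
    apply Valuation.map_sum_lt _ (pow_ne_zero _ hvx0)
    intro n hn
    have hn' : n ∈ φ.support := Finset.mem_of_mem_erase hn
    rw [hterm n hn']
    have hle : φ.natTrailingDegree ≤ n := natTrailingDegree_le_of_mem_supp n hn'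
    have hne : n ≠ φ.natTrailingDegree := Finset.ne_of_mem_erase hn
    exact pow_lt_pow_right_of_lt_one₀ hvxpos hx (lt_of_le_of_ne hle (Ne.symm hne))
  rw [← hterm _ hr] at hlt ⊢
  exact Valuation.map_add_eq_of_lt_left _ hlt

include hK in
/-- a nonzero non-unit of `V` is transcendental over `K` -/
theorem transcendental_of_valuation_lt_one {x : F} (hx0 : x ≠ 0) (hx : V.valuation x < 1) :
    Transcendental K x := by
  rintro ⟨φ, hφ, hφx⟩
  have h := valuation_aeval V hK hx0 hx hφ
  rw [hφx, map_zero] at h
  exact pow_ne_zero _ ((Valuation.ne_zero_iff _).mpr hx0) h.symm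

include hK in
/-- values of nonzero elements of `K(x)` are integral powers of the value of `x` -/
theorem exists_zpow_of_mem_adjoin {x : F} (hx0 : x ≠ 0) (hx : V.valuation x < 1) {c : F}
    (hc : c ∈ K⟮x⟯) (hc0 : c ≠ 0) : ∃ e : ℤ, V.valuation c = V.valuation x ^ e := by
  obtain ⟨r, s, rfl⟩ := (IntermediateField.mem_adjoin_simple_iff K c).mp hc
  have hr : r ≠ 0 := by
    rintro rfl
    simp at hc0
  have hs : s ≠ 0 := by
    rintro rfl
    simp at hc0
  have hvx0 : V.valuation x ≠ 0 := (Valuation.ne_zero_iff _).mpr hx0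
  refine ⟨(r.natTrailingDegree : ℤ) - s.natTrailingDegree, ?_⟩
  rw [map_div₀, valuation_aeval V hK hx0 hx hr, valuation_aeval V hK hx0 hx hs,
    zpow_sub₀ hvx0, zpow_natCast, zpow_natCast]

include hK in
/-- elements whose values are pairwise incongruent modulo the values of `K(x)` are linearly
independent over `K(x)` -/
theorem linearIndependent_of_valuation {x : F} (hx0 : x ≠ 0) (hx : V.valuation x < 1)
    {ι : Type*} [Fintype ι] (y : ι → F) (hy0 : ∀ i, y i ≠ 0)
    (hy : ∀ i j, i ≠ j → ∀ e : ℤ, V.valuation (y i) ≠ V.valuation (y j) * V.valuation x ^ e) :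
    LinearIndependent K⟮x⟯ y := by
  classical
  have hvx0 : V.valuation x ≠ 0 := (Valuation.ne_zero_iff _).mpr hx0
  rw [Fintype.linearIndependent_iff]
  intro g hg
  by_contra hne
  push Not at hne
  obtain ⟨i₁, hi₁⟩ := hne
  set S : Finset ι := Finset.univ.filter (fun i => g i ≠ 0) with hS
  have hi₁S : i₁ ∈ S := by simp [hS, hi₁]
  have hsm : ∀ i, g i • y i = (g i : F) * y i := fun i => rfl
  have hval : ∀ i ∈ S, ∀ j ∈ S, i ≠ j →
      V.valuation (g i • y i) ≠ V.valuation (g j • y j) := by
    intro i hi j hj hij heq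
    have hgi : (g i : F) ≠ 0 := by
      have : g i ≠ 0 := (Finset.mem_filter.mp hi).2
      simpa using this
    have hgj : (g j : F) ≠ 0 := by
      have : g j ≠ 0 := (Finset.mem_filter.mp hj).2
      simpa using this
    obtain ⟨ei, hei⟩ := exists_zpow_of_mem_adjoin V hK hx0 hx (g i).2 hgi
    obtain ⟨ej, hej⟩ := exists_zpow_of_mem_adjoin V hK hx0 hx (g j).2 hgj
    rw [hsm, hsm, map_mul, map_mul, hei, hej] at heq
    apply hy i j hij (ej - ei)
    rw [zpow_sub₀ hvx0]
    have h1 : V.valuation x ^ ei ≠ 0 := zpow_ne_zero _ hvx0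
    field_simp
    rw [mul_comm, heq, mul_comm]
  obtain ⟨i₀, hi₀, hmax⟩ := S.exists_max_image (fun i => V.valuation (g i • y i)) ⟨i₁, hi₁S⟩
  have hsum : ∑ i ∈ S, g i • y i = 0 := by
    rw [← hg]
    apply Finset.sum_subset (Finset.subset_univ _)
    intro i _ hi
    have : g i = 0 := by
      by_contra h
      exact hi (by simp [hS, h])
    rw [this, zero_smul]
  rw [← Finset.add_sum_erase S _ hi₀] at hsum
  have hi₀ne : V.valuation (g i₀ • y i₀) ≠ 0 := by
    rw [Valuation.ne_zero_iff, hsm]
    have : g i₀ ≠ 0 := (Finset.mem_filter.mp hi₀).2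
    exact mul_ne_zero (by simpa using this) (hy0 i₀)
  have hlt : V.valuation (∑ i ∈ S.erase i₀, g i • y i) < V.valuation (g i₀ • y i₀) := by
    apply Valuation.map_sum_lt _ hi₀ne
    intro i hi
    exact lt_of_le_of_ne (hmax i (Finset.mem_of_mem_erase hi))
      (hval i (Finset.mem_of_mem_erase hi) i₀ hi₀ (Finset.ne_of_mem_erase hi))
  have h := Valuation.map_add_eq_of_lt_left _ hlt
  rw [hsum, map_zero] at h
  exact hi₀ne h.symm

include hK in
/-- there are at most `[F : K(x)]` values in the interval `(v x, 1]` -/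
theorem card_le_finrank {x : F} (hx0 : x ≠ 0) (hx : V.valuation x < 1) [FiniteDimensional K⟮x⟯ F]
    (t : Finset V.ValueGroup) (ht : ∀ γ ∈ t, V.valuation x < γ ∧ γ ≤ 1) :
    t.card ≤ Module.finrank K⟮x⟯ F := by
  classical
  have hvx0 : V.valuation x ≠ 0 := (Valuation.ne_zero_iff _).mpr hx0
  have hvxpos : 0 < V.valuation x := zero_lt_iff.mpr hvx0
  choose rep hrep using V.valuation_surjective
  have key : ∀ (a b : V.ValueGroup), V.valuation x < a → b ≤ 1 → ∀ n : ℕ,
      a ≠ b * V.valuation x ^ (n + 1) := by
    intro a b ha hb n h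
    have h1 : V.valuation x ^ (n + 1) ≤ V.valuation x := by
      rw [pow_succ]
      exact mul_le_of_le_one_left' (pow_le_one₀ hvxpos.le hx.le)
    have h2 : b * V.valuation x ^ (n + 1) ≤ V.valuation x :=
      (mul_le_mul' hb h1).trans (one_mul _).le
    exact absurd (h ▸ ha) (not_lt.mpr h2)
  have hli : LinearIndependent K⟮x⟯ (fun γ : t => rep γ.1) := by
    apply linearIndependent_of_valuation V hK hx0 hx
    · intro γ h0
      have h1 := hrep γ.1
      rw [h0, map_zero] at h1
      exact absurd (h1 ▸ (ht γ.1 γ.2).1) (not_lt.mpr zero_le)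
    · intro γ δ hne e heq
      rw [hrep, hrep] at heq
      obtain ⟨n, rfl | rfl⟩ := Int.eq_nat_or_neg e
      · rcases Nat.eq_zero_or_pos n with rfl | hn
        · apply hne
          apply Subtype.ext
          simpa using heq
        · obtain ⟨k, rfl⟩ := Nat.exists_eq_succ_of_ne_zero hn.ne'
          rw [zpow_natCast] at heq
          exact key _ _ (ht γ.1 γ.2).1 (ht δ.1 δ.2).2 k heq
      · rcases Nat.eq_zero_or_pos n with rfl | hn
        · apply hne
          apply Subtype.ext
          simpa using heq
        · obtain ⟨k, rfl⟩ := Nat.exists_eq_succ_of_ne_zero hn.ne'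
          rw [zpow_neg, zpow_natCast] at heq
          have h2 : (δ.1 : V.ValueGroup) = γ.1 * V.valuation x ^ (k + 1) := by
            rw [heq, mul_assoc, inv_mul_cancel₀ (pow_ne_zero _ hvx0), mul_one]
          exact key _ _ (ht δ.1 δ.2).1 (ht γ.1 γ.2).2 k h2
  simpa using hli.fintype_card_le_finrank

include hK in
/-- **Valuation rings of function fields are discrete.** -/
theorem isPrincipalIdealRing
    (hfin : ∀ y : F, Transcendental K y → FiniteDimensional K⟮y⟯ F) :
    IsPrincipalIdealRing V := by
  classical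
  refine ⟨fun I => ?_⟩
  by_cases hI : I = ⊥
  · rw [hI]
    exact bot_isPrincipal
  obtain ⟨z, hzI, hz0⟩ := Submodule.exists_mem_ne_zero_of_ne_bot hI
  by_cases hzu : IsUnit z
  · have : I = ⊤ := Ideal.eq_top_of_isUnit_mem I hzI hzu
    rw [this]
    exact top_isPrincipal
  have hzF : (z : F) ≠ 0 := fun h => hz0 (Subtype.ext h)
  have hzlt : V.valuation (z : F) < 1 :=
    lt_of_le_of_ne (V.valuation_le_one z) (fun h => hzu ((V.valuation_eq_one_iff z).mpr h))
  have : FiniteDimensional K⟮(z : F)⟯ F :=
    hfin _ (transcendental_of_valuation_lt_one V hK hzF hzlt)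
  have hTfin : {γ : V.ValueGroup | V.valuation (z : F) < γ ∧ γ ≤ 1}.Finite := by
    by_contra hinf
    obtain ⟨t, htT, htcard⟩ :=
      Set.Infinite.exists_subset_card_eq hinf (Module.finrank K⟮(z : F)⟯ F + 1)
    have := card_le_finrank V hK hzF hzlt t (fun γ hγ => htT hγ)
    omega
  set W : Set V.ValueGroup :=
    {γ | ∃ y ∈ I, V.valuation (y : F) = γ ∧ V.valuation (z : F) ≤ γ} with hW
  have hWfin : W.Finite := by
    refine (hTfin.union (Set.finite_singleton (V.valuation (z : F)))).subset ?_
    rintro γ ⟨y, _, rfl, hzy⟩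
    rcases hzy.lt_or_eq with h | h
    · exact Or.inl ⟨h, V.valuation_le_one y⟩
    · exact Or.inr h.symm
  have hWne : W.Nonempty := ⟨_, z, hzI, rfl, le_rfl⟩
  obtain ⟨γ₀, hγ₀W, hmax⟩ := hWfin.toFinset.exists_max_image id
    ⟨hWne.some, hWfin.mem_toFinset.mpr hWne.some_mem⟩
  obtain ⟨y₀, hy₀I, hy₀, hy₀z⟩ := hWfin.mem_toFinset.mp hγ₀W
  refine ⟨⟨y₀, ?_⟩⟩
  apply le_antisymm
  · intro b hbI
    have hb : V.valuation (b : F) ≤ V.valuation (y₀ : F) := by
      by_cases h : V.valuation (z : F) ≤ V.valuation (b : F)
      · have := hmax (V.valuation (b : F)) (hWfin.mem_toFinset.mpr ⟨b, hbI, rfl, h⟩)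
        rw [hy₀]
        exact this
      · exact (le_of_lt (not_le.mp h)).trans (hy₀ ▸ hy₀z)
    obtain ⟨a, ha⟩ := (V.valuation_le_iff _ _).mp hb
    rw [Ideal.submodule_span_eq, Ideal.mem_span_singleton']
    exact ⟨a, Subtype.ext ha⟩
  · rw [Ideal.submodule_span_eq, Ideal.span_singleton_le_iff_mem]
    exact hy₀I

end Core

/-- A valuation subring of a function field `F / K` which contains `K` and is not `F` is a
place of `F / K`. -/
def placeOfValuationSubring (hfin : ∀ y : F, Transcendental K y → FiniteDimensional K⟮y⟯ F)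
    (V : ValuationSubring F) (hK : ∀ a : K, algebraMap K F a ∈ V) (hV : V ≠ ⊤) : Place K F where
  toValuationSubring := V
  algebraMap_mem' := hK
  ne_top' := hV
  isPrincipalIdealRing' := isPrincipalIdealRing V hK hfin

@[simp]
theorem placeOfValuationSubring_toValuationSubring
    (hfin : ∀ y : F, Transcendental K y → FiniteDimensional K⟮y⟯ F)
    (V : ValuationSubring F) (hK : ∀ a : K, algebraMap K F a ∈ V) (hV : V ≠ ⊤) :
    (placeOfValuationSubring hfin V hK hV).toValuationSubring = V := rfl

/-- If `K` is integrally closed in the function field `F`, every element of `F` outside `K` has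
a pole: it is not in the valuation ring of some place. -/
theorem exists_place_not_mem (hfin : ∀ y : F, Transcendental K y → FiniteDimensional K⟮y⟯ F)
    (hcl : ∀ y : F, IsIntegral K y → y ∈ (algebraMap K F).range) {w : F}
    (hw : w ∉ (algebraMap K F).range) : ∃ P : Place K F, w ∉ P.toValuationSubring := by
  have : IsIntegrallyClosedIn (algebraMap K F).range F := by
    rw [Subring.isIntegrallyClosedIn_iff]
    intro x hx
    apply hcl
    let _ : Algebra K (algebraMap K F).range := (algebraMap K F).rangeRestrict.toAlgebra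
    have : IsScalarTower K (algebraMap K F).range F :=
      IsScalarTower.of_algebraMap_eq fun _ => rfl
    have : Algebra.IsIntegral K (algebraMap K F).range :=
      Algebra.isIntegral_of_surjective (algebraMap K F).rangeRestrict_surjective
    exact isIntegral_trans x hx
  obtain ⟨V, hRV, hwV⟩ := Subring.exists_le_valuationSubring_of_isIntegrallyClosedIn hw
  refine ⟨placeOfValuationSubring hfin V (fun a => hRV ⟨a, rfl⟩) ?_, hwV⟩
  rintro rfl
  exact hwV (ValuationSubring.mem_top _)

end ValDVR

end Fermat.Agent.S18
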