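import Mathlib
import Fermat.Prelude.Def_ModularCurve_X0ModL
import Fermat.Agent.S24.PlacesBasic
import Fermat.Agent.S24.PlacesDeg
import Fermat.Agent.S28.TowerAux
import Fermat.Agent.S28.Subst
import Fermat.Agent.S18.ValDVR

/-!
P11 (S18), RED / Step A support: the function field `F_k = k(j(q^d) : d ∣ N) ⊆ k((q))` over an
algebraically closed field `k` with `char k ∤ N` is a function field in one variable, and a
nonzero element of `F_k` without zeros and poles is a constant.
-/

set_option autoImplicit false

namespace Fermat.Agent.S18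

open ModularCurve IntermediateField AlgebraicCurve

namespace FkConst

variable (k : Type*) [Field k] (N : ℕ) [NeZero N]

/-- `j` as an element of `F_k`. -/
noncomputable def jk : ↥(modularFunctionFieldFullC k N) := ⟨jqModC k, jqModC_mem_full k N⟩

omit [NeZero N] in
@[simp]
theorem coe_jk : ((jk k N : ↥(modularFunctionFieldFullC k N)) : LaurentSeries k) = jqModC k := rfl

omit [NeZero N] in
theorem transcendental_jk : Transcendental k (jk k N) := by
  intro h
  exact Fermat.Agent.S28.transcendental_jqModC k
    (h.algHom (modularFunctionFieldFullC k N).val)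

/-- the generators of `F_k`, as elements of `F_k` -/
def gens : Set ↥(modularFunctionFieldFullC k N) :=
  ((↑) : ↥(modularFunctionFieldFullC k N) → LaurentSeries k) ⁻¹' divisorExpansionsC k N

omit [NeZero N] in
theorem adjoin_gens : adjoin k (gens k N) = ⊤ := by
  apply IntermediateField.lift_injective (modularFunctionFieldFullC k N)
  rw [IntermediateField.lift_adjoin, IntermediateField.lift_top, gens,
    Set.image_preimage_eq_of_subset]
  · rfl
  · intro x hx
    exact ⟨⟨x, subset_adjoin k _ hx⟩, rfl⟩

theorem essFiniteType : Algebra.EssFiniteType k ↥(modularFunctionFieldFullC k N) :=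
  IntermediateField.essFiniteType_iff.mpr
    (IntermediateField.fg_adjoin_of_finite (Fermat.Agent.S28.Tower.divisorExpansionsC_finite k N))

/-- algebraicity over an intermediate field of a subfield can be checked in the ambient field -/
theorem isAlgebraic_of_lift {K Ω : Type*} [Field K] [Field Ω] [Algebra K Ω]
    (F : IntermediateField K Ω) (E : IntermediateField K F) (E' : IntermediateField K Ω)
    (hE : IntermediateField.lift E = E') (x : F) (h : IsAlgebraic E' (x : Ω)) :
    IsAlgebraic E x := by
  subst hE
  obtain ⟨p, hp0, hp⟩ := h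
  let e : ↥E ≃ₐ[K] ↥(IntermediateField.lift E) := IntermediateField.liftAlgEquiv E
  refine ⟨p.map (e.symm : ↥(IntermediateField.lift E) →+* ↥E), ?_, ?_⟩
  · exact (Polynomial.map_ne_zero_iff e.symm.injective).mpr hp0
  · apply Subtype.val_injective
    rw [ZeroMemClass.coe_zero, ← hp, Polynomial.aeval_def, Polynomial.aeval_def,
      Polynomial.eval₂_map]
    have h1 : ((Polynomial.eval₂ ((algebraMap ↥E ↥F).comp (e.symm : ↥(IntermediateField.lift E) →+* ↥E))
        x p : ↥F) : Ω) = Polynomial.eval₂ (F.val.toRingHom.comp ((algebraMap ↥E ↥F).comp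
          (e.symm : ↥(IntermediateField.lift E) →+* ↥E))) (F.val x) p :=
      Polynomial.hom_eval₂ p _ F.val.toRingHom x
    rw [h1]
    congr 1

variable [IsAlgClosed k]

/-- `F_k` is algebraic over `k(j)` when `char k ∤ N` -/
theorem isAlgebraic_jk (hN : (N : k) ≠ 0) :
    Algebra.IsAlgebraic k⟮jk k N⟯ ↥(modularFunctionFieldFullC k N) := by
  have hgen : gens k N ⊆
      ((algebraicClosure k⟮jk k N⟯ ↥(modularFunctionFieldFullC k N)).restrictScalars k :
        IntermediateField k ↥(modularFunctionFieldFullC k N)) := by
    rintro x ⟨d, hne, hd, hx⟩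
    have := hne
    show x ∈ algebraicClosure k⟮jk k N⟯ ↥(modularFunctionFieldFullC k N)
    rw [mem_algebraicClosure_iff]
    refine isAlgebraic_of_lift (modularFunctionFieldFullC k N) k⟮jk k N⟯ (Fermat.Agent.S28.Kj k)
      (IntermediateField.lift_adjoin_simple k _ _) x ?_
    rw [hx]
    refine (Fermat.Agent.S28.Tower.isIntegral_qExpand_jqModC d ?_).isAlgebraic
    intro h0
    obtain ⟨c, rfl⟩ := hd
    exact hN (by push_cast; rw [h0, zero_mul])
  have htop : (⊤ : IntermediateField k ↥(modularFunctionFieldFullC k N)) ≤
      (algebraicClosure k⟮jk k N⟯ ↥(modularFunctionFieldFullC k N)).restrictScalars k := by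
    rw [← adjoin_gens k N, adjoin_le_iff]
    exact hgen
  refine ⟨fun y => ?_⟩
  have hy : y ∈ algebraicClosure k⟮jk k N⟯ ↥(modularFunctionFieldFullC k N) :=
    htop (IntermediateField.mem_top)
  exact mem_algebraicClosure_iff.mp hy

/-- `F_k` is finite over `k(j)` when `char k ∤ N` -/
theorem finiteDimensional_jk (hN : (N : k) ≠ 0) :
    FiniteDimensional k⟮jk k N⟯ ↥(modularFunctionFieldFullC k N) := by
  have h1 := essFiniteType k N
  have h2 := isAlgebraic_jk k N hN
  have h3 : Algebra.EssFiniteType k⟮jk k N⟯ ↥(modularFunctionFieldFullC k N) :=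
    Algebra.EssFiniteType.of_comp k k⟮jk k N⟯ ↥(modularFunctionFieldFullC k N)
  exact Algebra.finite_of_essFiniteType_of_isAlgebraic

/-- `F_k` is a function field in one variable: it is finite over `k(y)` for every transcendental
`y`. -/
theorem finiteDimensional_adjoin_of_transcendental (hN : (N : k) ≠ 0)
    (y : ↥(modularFunctionFieldFullC k N)) (hy : Transcendental k y) :
    FiniteDimensional k⟮y⟯ ↥(modularFunctionFieldFullC k N) := by
  have := finiteDimensional_jk k N hN
  exact Fermat.Agent.S24.PlacesDeg.finiteDimensional_adjoin_of_transcendental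
    (transcendental_jk k N) hy

/-- every nonconstant element of `F_k` has a pole -/
theorem exists_place_not_mem (hN : (N : k) ≠ 0) {w : ↥(modularFunctionFieldFullC k N)}
    (hw : w ∉ Set.range (algebraMap k ↥(modularFunctionFieldFullC k N))) :
    ∃ P : Place k ↥(modularFunctionFieldFullC k N), w ∉ P.toValuationSubring := by
  refine ValDVR.exists_place_not_mem (finiteDimensional_adjoin_of_transcendental k N hN) ?_ ?_
  · intro y hy
    by_contra hyr
    exact Fermat.Agent.S24.PlacesDeg.transcendental_of_not_mem_range
      (fun h => hyr (RingHom.mem_range.mpr (Set.mem_range.mp h))) hy.isAlgebraic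
  · intro h
    exact hw (Set.mem_range.mpr (RingHom.mem_range.mp h))

/-- **A nonzero element of `F_k` without zeros and poles is constant.** -/
theorem mem_range_of_ord_eq_zero (hN : (N : k) ≠ 0) (w : ↥(modularFunctionFieldFullC k N))
    (hw : w ≠ 0) (h : ∀ Q : Place k ↥(modularFunctionFieldFullC k N), Q.ord w = 0) :
    w ∈ Set.range (algebraMap k ↥(modularFunctionFieldFullC k N)) := by
  by_contra hwr
  obtain ⟨P, hP⟩ := exists_place_not_mem k N hN hwr
  apply hP
  rw [Fermat.Agent.S24.PlacesBasic.mem_iff_ord_nonneg P hw, h P]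

end FkConst

end Fermat.Agent.S18
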