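import Fermat.Agent.S28.FreeBasisAbs
import Fermat.Prelude.Def_ModularCurve_LaurentCoeff

/-!
P11/P12 (S18, S37), module FLD-G `GaussL` part (A): the Gauss valuation ring of `K((q))` attached to an
abstract discrete valuation datum `(Λ ⊂ K, π, res : Λ →+* k)` (a `FreeBasisAbs.IsGaussRing`),
generalising `S28/GaussRing.lean` (which is the case `Λ = ℤ_(ℓ) ⊂ ℚ`, `π = ℓ`, `k = 𝔽_ℓ`).

* `gaussO Λ res ⊂ K((q))`: the localisation of the series with coefficients in `Λ` at the series
  which are nonzero after coefficientwise reduction;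
* `gaussRedO hΛ : gaussO Λ res →+* k((q))`: the reduction map, with kernel generated by `π`;
* `gaussK Λ`: the fraction field; every nonzero element is `π ^ n` times a unit of `gaussO`.
-/

set_option autoImplicit false
set_option linter.unusedSectionVars false

namespace Fermat.Agent.S18.GaussL

open ModularCurve Fermat.Agent.S28.FreeBasisAbs

variable {K k : Type*} [Field K] [Field k] {Λ : Subring K} {π : K} {res : ↥Λ →+* k}

section Coefficients

variable (hΛ : IsGaussRing Λ π res)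
include hΛ

/-- The uniformiser as an element of `Λ`. -/
def piL : ↥Λ := ⟨π, hΛ.pi_mem⟩

theorem coe_piL : ((piL hΛ : ↥Λ) : K) = π := rfl

theorem res_piL : res (piL hΛ) = 0 := hΛ.red_pi hΛ.pi_mem

theorem piL_ne_zero : piL hΛ ≠ 0 := fun h => hΛ.pi_ne_zero (congrArg Subtype.val h)

theorem res_eq_zero_iff (a : ↥Λ) : res a = 0 ↔ ∃ b : ↥Λ, a = piL hΛ * b := by
  constructor
  · intro h
    obtain ⟨y, hy⟩ := hΛ.ker a h
    exact ⟨y, Subtype.ext hy⟩
  · rintro ⟨b, rfl⟩
    rw [map_mul, res_piL, zero_mul]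

/-- Every nonzero element of `Λ` is a power of `π` times an element with nonzero reduction. -/
theorem exists_pow_mul_res_ne_zero (a : ↥Λ) (ha : a ≠ 0) :
    ∃ (n : ℕ) (u : ↥Λ), res u ≠ 0 ∧ a = piL hΛ ^ n * u := by
  have haK : (a : K) ≠ 0 := fun h => ha (Subtype.ext h)
  obtain ⟨n, u, hu, hu', hau⟩ := hΛ.unit (a : K) haK
  have hu0 : u ≠ 0 := by
    rintro rfl
    exact haK (by rw [hau, mul_zero])
  have hru : res ⟨u, hu⟩ ≠ 0 := hΛ.red_ne_zero_of_unit hu hu' hu0
  rcases le_or_gt 0 n with hn | hn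
  · obtain ⟨m, rfl⟩ := Int.eq_ofNat_of_zero_le hn
    refine ⟨m, ⟨u, hu⟩, hru, Subtype.ext ?_⟩
    rw [hau, zpow_natCast]
    rfl
  · exfalso
    apply hru
    obtain ⟨m, hm⟩ : ∃ m : ℕ, -n = m + 1 := ⟨(-n - 1).toNat, by omega⟩
    have h1 : u = π * (π ^ m * (a : K)) := by
      rw [hau, ← mul_assoc, ← mul_assoc, ← pow_succ', ← zpow_natCast, ← zpow_add₀ hΛ.pi_ne_zero]
      have : ((m + 1 : ℕ) : ℤ) + n = 0 := by push_cast; omega
      rw [this, zpow_zero, one_mul]
    have h2 : (⟨u, hu⟩ : ↥Λ) = piL hΛ * (piL hΛ ^ m * a) := Subtype.ext h1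
    rw [h2, map_mul, res_piL, zero_mul]

/-- Every element of `K` is a quotient of elements of `Λ`. -/
theorem exists_mul_eq (c : K) : ∃ a b : ↥Λ, b ≠ 0 ∧ c * (b : K) = (a : K) := by
  by_cases hc : c = 0
  · exact ⟨0, 1, one_ne_zero, by rw [hc, zero_mul]; rfl⟩
  obtain ⟨n, u, hu, hu', hcu⟩ := hΛ.unit c hc
  rcases le_or_gt 0 n with hn | hn
  · refine ⟨⟨c, ?_⟩, 1, one_ne_zero, by simp⟩
    rw [hcu]
    exact mul_mem (hΛ.zpow_mem hn) hu
  · obtain ⟨m, hm⟩ : ∃ m : ℕ, -n = m := ⟨(-n).toNat, by omega⟩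
    refine ⟨⟨u, hu⟩, piL hΛ ^ m, pow_ne_zero _ (piL_ne_zero hΛ), ?_⟩
    show c * π ^ m = u
    rw [hcu, mul_right_comm, ← zpow_natCast, ← zpow_add₀ hΛ.pi_ne_zero]
    have : n + (m : ℤ) = 0 := by omega
    rw [this, zpow_zero, one_mul]

end Coefficients

section SeriesFree

theorem incl_injective : Function.Injective (coeffMap Λ.subtype) := by
  intro x y h
  ext n
  have := congrArg (fun z => z.coeff n) h
  simpa using this

theorem incl_eq_zero_iff (x : LaurentSeries ↥Λ) : coeffMap Λ.subtype x = 0 ↔ x = 0 := by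
  constructor
  · intro h
    exact incl_injective (by rw [h, map_zero])
  · rintro rfl
    exact map_zero _

theorem C_mul_coeff {R : Type*} [Semiring R] (a : R) (x : LaurentSeries R) (n : ℤ) :
    (HahnSeries.C a * x).coeff n = a * x.coeff n := by
  rw [HahnSeries.C_mul_eq_smul, HahnSeries.coeff_smul, smul_eq_mul]

theorem coeffMap_C {R S : Type*} [CommRing R] [CommRing S] (f : R →+* S) (a : R) :
    coeffMap f (HahnSeries.C a) = HahnSeries.C (f a) := by
  rw [HahnSeries.C_apply, HahnSeries.C_apply, coeffMap_single]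

theorem algebraMap_eq_C (c : K) :
    algebraMap K (LaurentSeries K) c = (HahnSeries.C c : LaurentSeries K) := by
  rw [HahnSeries.C_apply, algebraMap_laurentSeries_eq_single]

theorem C_ne_zero {R : Type*} [Semiring R] {a : R} (ha : a ≠ 0) :
    (HahnSeries.C a : LaurentSeries R) ≠ 0 := by
  intro h
  apply ha
  have h1 : (HahnSeries.C a : LaurentSeries R).coeff 0 = 0 := by rw [h]; rfl
  rwa [HahnSeries.C_apply, HahnSeries.coeff_single_same] at h1

end SeriesFree

section SeriesPi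

variable (hΛ : IsGaussRing Λ π res)
include hΛ

theorem red_C_piL : coeffMap res (HahnSeries.C (piL hΛ)) = 0 := by
  rw [coeffMap_C, res_piL, map_zero]

theorem incl_C_piL : coeffMap Λ.subtype (HahnSeries.C (piL hΛ)) = HahnSeries.C π := by
  rw [coeffMap_C]
  rfl

open Classical in
/-- Coefficientwise division by `π` (junk value off the multiples of `π`). -/
noncomputable def divL : ZeroHom ↥Λ ↥Λ where
  toFun c := if h : res c = 0 then ((res_eq_zero_iff hΛ c).mp h).choose else 0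
  map_zero' := by
    have h : res (0 : ↥Λ) = 0 := map_zero _
    rw [dif_pos h]
    have hs := ((res_eq_zero_iff hΛ 0).mp h).choose_spec
    rcases mul_eq_zero.mp hs.symm with h1 | h1
    · exact absurd h1 (piL_ne_zero hΛ)
    · exact h1

open Classical in
theorem mul_divL (c : ↥Λ) (h : res c = 0) : piL hΛ * divL hΛ c = c := by
  show piL hΛ * (if h : res c = 0 then ((res_eq_zero_iff hΛ c).mp h).choose else 0) = c
  rw [dif_pos h]
  exact ((res_eq_zero_iff hΛ c).mp h).choose_spec.symm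

/-- The kernel of the coefficientwise reduction is generated by `π`. -/
theorem red_eq_zero_iff (x : LaurentSeries ↥Λ) :
    coeffMap res x = 0 ↔ ∃ y : LaurentSeries ↥Λ, x = HahnSeries.C (piL hΛ) * y := by
  constructor
  · intro h
    refine ⟨x.map (divL hΛ), ?_⟩
    ext n
    rw [C_mul_coeff, HahnSeries.map_coeff]
    have hn : res (x.coeff n) = 0 := by
      have := congrArg (fun z => z.coeff n) h
      simpa using this
    rw [mul_divL hΛ _ hn]
  · rintro ⟨y, rfl⟩
    rw [map_mul, red_C_piL, zero_mul]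

theorem exists_pow_mul_aux (n : ℤ) : ∀ (m : ℕ) (x : LaurentSeries ↥Λ) (u : ↥Λ),
    res u ≠ 0 → x.coeff n = piL hΛ ^ m * u →
    ∃ (e : ℕ) (y : LaurentSeries ↥Λ), coeffMap res y ≠ 0 ∧
      x = HahnSeries.C (piL hΛ) ^ e * y := by
  intro m
  induction m with
  | zero =>
    intro x u hu hx
    refine ⟨0, x, ?_, by simp⟩
    intro h0
    apply hu
    have := congrArg (fun z => z.coeff n) h0
    simpa [hx] using this
  | succ m ih =>
    intro x u hu hx
    by_cases hr : coeffMap res x = 0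
    · obtain ⟨y₁, rfl⟩ := (red_eq_zero_iff hΛ x).mp hr
      rw [C_mul_coeff, pow_succ', mul_assoc] at hx
      have hy₁ : y₁.coeff n = piL hΛ ^ m * u := mul_left_cancel₀ (piL_ne_zero hΛ) hx
      obtain ⟨e, y, hy, rfl⟩ := ih y₁ u hu hy₁
      exact ⟨e + 1, y, hy, by ring⟩
    · exact ⟨0, x, hr, by simp⟩

/-- Every nonzero series with coefficients in `Λ` is a power of `π` times a series which is
nonzero mod `π`. -/
theorem exists_pow_mul (x : LaurentSeries ↥Λ) (hx : x ≠ 0) :
    ∃ (e : ℕ) (y : LaurentSeries ↥Λ), coeffMap res y ≠ 0 ∧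
      x = HahnSeries.C (piL hΛ) ^ e * y := by
  obtain ⟨n, hn⟩ : ∃ n, x.coeff n ≠ 0 := by
    by_contra hcon
    exact hx (HahnSeries.ext (funext fun n => not_not.mp (not_exists.mp hcon n)))
  obtain ⟨m, u, hu, hxu⟩ := exists_pow_mul_res_ne_zero hΛ _ hn
  exact exists_pow_mul_aux hΛ n m x u hu hxu

end SeriesPi

section GaussO

theorem ne_zero_of_red_ne_zero {x : LaurentSeries ↥Λ} (h : coeffMap res x ≠ 0) : x ≠ 0 := by
  rintro rfl
  exact h (map_zero _)

variable (Λ res) in
/-- The Gauss valuation ring inside `K((q))`: `x ∈ gaussO Λ res` iff `x * b = a` for series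
`a, b` with coefficients in `Λ`, `b` nonzero mod `π`. -/
noncomputable def gaussO : Subring (LaurentSeries K) where
  carrier := {x | ∃ a b : LaurentSeries ↥Λ, coeffMap res b ≠ 0 ∧
    x * coeffMap Λ.subtype b = coeffMap Λ.subtype a}
  mul_mem' := by
    rintro x y ⟨a, b, hb, h⟩ ⟨a', b', hb', h'⟩
    refine ⟨a * a', b * b', ?_, ?_⟩
    · rw [map_mul]
      exact mul_ne_zero hb hb'
    · rw [map_mul, map_mul, ← h, ← h']
      ring
  one_mem' := ⟨1, 1, by rw [map_one]; exact one_ne_zero, by rw [one_mul]⟩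
  add_mem' := by
    rintro x y ⟨a, b, hb, h⟩ ⟨a', b', hb', h'⟩
    refine ⟨a * b' + a' * b, b * b', ?_, ?_⟩
    · rw [map_mul]
      exact mul_ne_zero hb hb'
    · rw [map_add, map_mul, map_mul, map_mul, ← h, ← h']
      ring
  zero_mem' := ⟨0, 1, by rw [map_one]; exact one_ne_zero, by rw [zero_mul, map_zero]⟩
  neg_mem' := by
    rintro x ⟨a, b, hb, h⟩
    exact ⟨-a, b, hb, by rw [map_neg, ← h, neg_mul]⟩

theorem mem_gaussO_iff (x : LaurentSeries K) :
    x ∈ gaussO Λ res ↔ ∃ a b : LaurentSeries ↥Λ, coeffMap res b ≠ 0 ∧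
      x * coeffMap Λ.subtype b = coeffMap Λ.subtype a := Iff.rfl

/-- The underlying function of the reduction map. -/
noncomputable def redFun (x : ↥(gaussO Λ res)) : LaurentSeries k :=
  coeffMap res x.2.choose / coeffMap res x.2.choose_spec.choose

theorem cross_eq {x : LaurentSeries K} {a b a' b' : LaurentSeries ↥Λ}
    (h : x * coeffMap Λ.subtype b = coeffMap Λ.subtype a)
    (h' : x * coeffMap Λ.subtype b' = coeffMap Λ.subtype a') : a * b' = a' * b := by
  apply incl_injective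
  rw [map_mul, map_mul, ← h, ← h']
  ring

theorem redFun_eq (x : ↥(gaussO Λ res)) (a b : LaurentSeries ↥Λ) (hb : coeffMap res b ≠ 0)
    (h : (x : LaurentSeries K) * coeffMap Λ.subtype b = coeffMap Λ.subtype a) :
    redFun x = coeffMap res a / coeffMap res b := by
  have hb₀ := x.2.choose_spec.choose_spec.1
  have h₀ := x.2.choose_spec.choose_spec.2
  have hc := congrArg (coeffMap res) (cross_eq h₀ h)
  rw [map_mul, map_mul] at hc
  unfold redFun
  rw [div_eq_div_iff hb₀ hb]
  exact hc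

variable (Λ res) in
/-- Reduction mod `π` on the Gauss valuation ring. -/
noncomputable def gaussRedO : ↥(gaussO Λ res) →+* LaurentSeries k where
  toFun := redFun
  map_one' := by
    rw [redFun_eq 1 1 1 (by rw [map_one]; exact one_ne_zero)
      (by rw [map_one, mul_one]; rfl), map_one, div_one]
  map_mul' := by
    rintro ⟨x, a, b, hb, h⟩ ⟨y, a', b', hb', h'⟩
    rw [redFun_eq ⟨x, a, b, hb, h⟩ a b hb h,
      redFun_eq ⟨y, a', b', hb', h'⟩ a' b' hb' h',
      redFun_eq _ (a * a') (b * b') (by rw [map_mul]; exact mul_ne_zero hb hb')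
        (by
          show x * y * coeffMap Λ.subtype (b * b') = coeffMap Λ.subtype (a * a')
          rw [map_mul, map_mul, ← h, ← h']
          ring),
      map_mul, map_mul, mul_div_mul_comm]
  map_zero' := by
    rw [redFun_eq 0 0 1 (by rw [map_one]; exact one_ne_zero)
      (by rw [map_one, mul_one, map_zero]; rfl), map_zero, zero_div]
  map_add' := by
    rintro ⟨x, a, b, hb, h⟩ ⟨y, a', b', hb', h'⟩
    rw [redFun_eq ⟨x, a, b, hb, h⟩ a b hb h,
      redFun_eq ⟨y, a', b', hb', h'⟩ a' b' hb' h',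
      redFun_eq _ (a * b' + a' * b) (b * b')
        (by rw [map_mul]; exact mul_ne_zero hb hb')
        (by
          show (x + y) * coeffMap Λ.subtype (b * b') = coeffMap Λ.subtype (a * b' + a' * b)
          rw [map_add, map_mul, map_mul, map_mul, ← h, ← h']
          ring),
      map_add, map_mul, map_mul, map_mul, div_add_div _ _ hb hb',
      mul_comm (coeffMap res b) (coeffMap res a')]

/-- Characterisation of the reduction. -/
theorem gaussRedO_mul_eq (x : ↥(gaussO Λ res)) (a b : LaurentSeries ↥Λ)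
    (h : (x : LaurentSeries K) * coeffMap Λ.subtype b = coeffMap Λ.subtype a) :
    gaussRedO Λ res x * coeffMap res b = coeffMap res a := by
  obtain ⟨a₀, b₀, hb₀, h₀⟩ := x.2
  have hc := congrArg (coeffMap res) (cross_eq h₀ h)
  rw [map_mul, map_mul] at hc
  show redFun x * coeffMap res b = coeffMap res a
  rw [redFun_eq x a₀ b₀ hb₀ h₀, div_mul_eq_mul_div, div_eq_iff hb₀]
  exact hc

/-- Series with coefficients in `Λ` lie in `gaussO`; reduction is coefficientwise. -/
theorem coeffMap_subtype_mem_gaussO (a : LaurentSeries ↥Λ) :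
    coeffMap Λ.subtype a ∈ gaussO Λ res :=
  ⟨a, 1, by rw [map_one]; exact one_ne_zero, by rw [map_one, mul_one]⟩

theorem gaussRedO_coeffMap_subtype (a : LaurentSeries ↥Λ) :
    gaussRedO Λ res ⟨coeffMap Λ.subtype a, coeffMap_subtype_mem_gaussO a⟩ = coeffMap res a := by
  have h := gaussRedO_mul_eq (res := res) ⟨coeffMap Λ.subtype a, coeffMap_subtype_mem_gaussO a⟩
    a 1 (by rw [map_one, mul_one])
  rwa [map_one, mul_one] at h

/-- Elements with nonzero reduction are units. -/
theorem inv_mem_gaussO {x : LaurentSeries K} (hx : x ∈ gaussO Λ res)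
    (h : gaussRedO Λ res ⟨x, hx⟩ ≠ 0) : x⁻¹ ∈ gaussO Λ res := by
  obtain ⟨a, b, hb, hab⟩ := hx
  have h1 := gaussRedO_mul_eq ⟨x, a, b, hb, hab⟩ a b hab
  have ha : coeffMap res a ≠ 0 := by
    rw [← h1]
    exact mul_ne_zero h hb
  have hx0 : x ≠ 0 := by
    rintro rfl
    rw [zero_mul] at hab
    exact ne_zero_of_red_ne_zero ha ((incl_eq_zero_iff a).mp hab.symm)
  exact ⟨b, a, ha, by rw [← hab, ← mul_assoc, inv_mul_cancel₀ hx0, one_mul]⟩

end GaussO

section GaussOPi

variable (hΛ : IsGaussRing Λ π res)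
include hΛ

theorem C_pi_mem_gaussO : (HahnSeries.C π : LaurentSeries K) ∈ gaussO Λ res := by
  rw [← incl_C_piL hΛ]
  exact coeffMap_subtype_mem_gaussO _

theorem gaussRedO_C_pi : gaussRedO Λ res ⟨HahnSeries.C π, C_pi_mem_gaussO hΛ⟩ = 0 := by
  have h := gaussRedO_coeffMap_subtype (res := res) (HahnSeries.C (piL hΛ))
  rw [red_C_piL] at h
  rw [← h]
  congr 1
  exact Subtype.ext (incl_C_piL hΛ).symm

theorem C_pi_ne_zero : (HahnSeries.C π : LaurentSeries K) ≠ 0 := C_ne_zero hΛ.pi_ne_zero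

/-- The kernel of the reduction is generated by `π`. -/
theorem gaussRedO_eq_zero_iff (x : ↥(gaussO Λ res)) :
    gaussRedO Λ res x = 0 ↔
      ∃ y : ↥(gaussO Λ res), (x : LaurentSeries K) = HahnSeries.C π * (y : LaurentSeries K) := by
  constructor
  · intro hx
    obtain ⟨a, b, hb, h⟩ := x.2
    have h1 := gaussRedO_mul_eq x a b h
    rw [hx, zero_mul] at h1
    obtain ⟨a₁, rfl⟩ := (red_eq_zero_iff hΛ a).mp h1.symm
    have hπ := C_pi_ne_zero hΛ
    refine ⟨⟨(x : LaurentSeries K) * (HahnSeries.C π : LaurentSeries K)⁻¹, a₁, b, hb, ?_⟩, ?_⟩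
    · rw [map_mul, incl_C_piL] at h
      rw [mul_right_comm, h, mul_comm, ← mul_assoc, inv_mul_cancel₀ hπ, one_mul]
    · show (x : LaurentSeries K) = HahnSeries.C π *
        ((x : LaurentSeries K) * (HahnSeries.C π : LaurentSeries K)⁻¹)
      rw [mul_comm, mul_assoc, inv_mul_cancel₀ hπ, mul_one]
  · rintro ⟨y, hy⟩
    have : x = ⟨HahnSeries.C π, C_pi_mem_gaussO hΛ⟩ * y := Subtype.ext hy
    rw [this, map_mul, gaussRedO_C_pi hΛ, zero_mul]

/-- The fraction field of `gaussO` inside `K((q))`. -/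
noncomputable def gaussK : IntermediateField K (LaurentSeries K) where
  carrier := {x | ∃ a b : LaurentSeries ↥Λ, b ≠ 0 ∧
    x * coeffMap Λ.subtype b = coeffMap Λ.subtype a}
  mul_mem' := by
    rintro x y ⟨a, b, hb, h⟩ ⟨a', b', hb', h'⟩
    refine ⟨a * a', b * b', mul_ne_zero hb hb', ?_⟩
    rw [map_mul, map_mul, ← h, ← h']
    ring
  one_mem' := ⟨1, 1, one_ne_zero, by rw [one_mul]⟩
  add_mem' := by
    rintro x y ⟨a, b, hb, h⟩ ⟨a', b', hb', h'⟩
    refine ⟨a * b' + a' * b, b * b', mul_ne_zero hb hb', ?_⟩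
    rw [map_add, map_mul, map_mul, map_mul, ← h, ← h']
    ring
  zero_mem' := ⟨0, 1, one_ne_zero, by rw [zero_mul, map_zero]⟩
  algebraMap_mem' := by
    intro c
    obtain ⟨a, b, hb, hab⟩ := exists_mul_eq hΛ c
    refine ⟨HahnSeries.C a, HahnSeries.C b, C_ne_zero hb, ?_⟩
    rw [algebraMap_laurentSeries_eq_single, coeffMap_C, coeffMap_C, HahnSeries.C_apply,
      HahnSeries.C_apply, HahnSeries.single_mul_single, add_zero]
    congr 1
  inv_mem' := by
    rintro x ⟨a, b, hb, h⟩
    by_cases hx0 : x = 0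
    · subst hx0
      exact ⟨0, 1, one_ne_zero, by rw [inv_zero, zero_mul, map_zero]⟩
    · have ha : a ≠ 0 := by
        rintro rfl
        rw [map_zero] at h
        rcases mul_eq_zero.mp h with h1 | h1
        · exact hx0 h1
        · exact hb ((incl_eq_zero_iff b).mp h1)
      exact ⟨b, a, ha, by rw [← h, ← mul_assoc, inv_mul_cancel₀ hx0, one_mul]⟩

theorem mem_gaussK_iff (x : LaurentSeries K) :
    x ∈ gaussK hΛ ↔ ∃ a b : LaurentSeries ↥Λ, b ≠ 0 ∧
      x * coeffMap Λ.subtype b = coeffMap Λ.subtype a := Iff.rfl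

theorem gaussO_le_gaussK {x : LaurentSeries K} (hx : x ∈ gaussO Λ res) : x ∈ gaussK hΛ := by
  obtain ⟨a, b, hb, h⟩ := hx
  exact ⟨a, b, ne_zero_of_red_ne_zero hb, h⟩

theorem coeffMap_subtype_mem_gaussK (a : LaurentSeries ↥Λ) :
    coeffMap Λ.subtype a ∈ gaussK hΛ :=
  gaussO_le_gaussK hΛ (coeffMap_subtype_mem_gaussO a)

/-- Every nonzero element of the fraction field is `π ^ n` times a unit of `gaussO`. -/
theorem exists_zpow_mul_of_mem_gaussK {x : LaurentSeries K} (hx : x ∈ gaussK hΛ) (hx0 : x ≠ 0) :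
    ∃ (n : ℤ) (u : LaurentSeries K) (hu : u ∈ gaussO Λ res),
      gaussRedO Λ res ⟨u, hu⟩ ≠ 0 ∧ x = (HahnSeries.C π : LaurentSeries K) ^ n * u := by
  obtain ⟨a, b, hb, h⟩ := hx
  have ha : a ≠ 0 := by
    rintro rfl
    rw [map_zero] at h
    rcases mul_eq_zero.mp h with h1 | h1
    · exact hx0 h1
    · exact hb ((incl_eq_zero_iff b).mp h1)
  obtain ⟨m, a', ha', rfl⟩ := exists_pow_mul hΛ a ha
  obtain ⟨n, b', hb', rfl⟩ := exists_pow_mul hΛ b hb
  have hπ := C_pi_ne_zero hΛ
  have hb'0 : coeffMap Λ.subtype b' ≠ 0 := fun h0 =>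
    ne_zero_of_red_ne_zero hb' ((incl_eq_zero_iff b').mp h0)
  have hu : coeffMap Λ.subtype a' / coeffMap Λ.subtype b' ∈ gaussO Λ res :=
    ⟨a', b', hb', div_mul_cancel₀ _ hb'0⟩
  refine ⟨(m : ℤ) - n, coeffMap Λ.subtype a' / coeffMap Λ.subtype b', hu, ?_, ?_⟩
  · intro h0
    have h1 := gaussRedO_mul_eq ⟨coeffMap Λ.subtype a' / coeffMap Λ.subtype b', hu⟩ a' b'
      (div_mul_cancel₀ _ hb'0)
    rw [h0, zero_mul] at h1
    exact ha' h1.symm
  · simp only [map_mul, map_pow, incl_C_piL] at h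
    rw [zpow_sub₀ hπ, zpow_natCast, zpow_natCast, div_mul_div_comm, eq_div_iff
      (mul_ne_zero (pow_ne_zero _ hπ) hb'0)]
    linear_combination h

end GaussOPi

end Fermat.Agent.S18.GaussL
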