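import Fermat.Agent.S18.GaussLRing

/-!
P11/P12 (S18, S37), module FLD-G `GaussL` part (B): the Gauss valuation ring `gaussV Λ res E = gaussO ∩ E`
of an intermediate field `K ⊆ E ⊆ K((q))`, its reduction map `gaussRed Λ res E : gaussV →+* k((q))`
and the properties (V1)–(V3): generalisation of `S28/GaussVal.lean` to an abstract discrete
valuation datum `(Λ ⊂ K, π, res : Λ →+* k)`.

Main statement: `isGaussRing_gaussV`: if `E` is contained in the fraction field `gaussK` of the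
series with coefficients in `Λ`, then `(gaussV, π, gaussRed)` is again an abstract Gauss ring, so
that all of `S28/FreeBasisAbs.lean` applies.
-/

set_option autoImplicit false
set_option linter.unusedSectionVars false

namespace Fermat.Agent.S18.GaussL

open ModularCurve Fermat.Agent.S28.FreeBasisAbs

variable {K k : Type*} [Field K] [Field k] {Λ : Subring K} {π : K} {res : ↥Λ →+* k}
variable (E : IntermediateField K (LaurentSeries K))

section Basic

theorem coe_algebraMap_K (c : K) :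
    ((algebraMap K ↥E c : ↥E) : LaurentSeries K) = HahnSeries.C c := by
  rw [HahnSeries.C_apply, ← algebraMap_laurentSeries_eq_single]
  rfl

theorem coe_algebraMap_L (a : ↥Λ) :
    ((algebraMap ↥Λ ↥E a : ↥E) : LaurentSeries K) = coeffMap Λ.subtype (HahnSeries.C a) := by
  rw [coeffMap_C]
  exact coe_algebraMap_K E (a : K)

variable (Λ res) in
/-- The Gauss valuation ring of `E`: elements whose series lies in `gaussO`. -/
noncomputable def gaussV : Subalgebra ↥Λ ↥E where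
  carrier := {x | (x : LaurentSeries K) ∈ gaussO Λ res}
  mul_mem' := fun ha hb => (gaussO Λ res).mul_mem ha hb
  one_mem' := (gaussO Λ res).one_mem
  add_mem' := fun ha hb => (gaussO Λ res).add_mem ha hb
  zero_mem' := (gaussO Λ res).zero_mem
  algebraMap_mem' := fun a => by
    show ((algebraMap ↥Λ ↥E a : ↥E) : LaurentSeries K) ∈ gaussO Λ res
    rw [coe_algebraMap_L]
    exact coeffMap_subtype_mem_gaussO _

theorem mem_gaussV_iff (x : ↥E) :
    x ∈ gaussV Λ res E ↔ (x : LaurentSeries K) ∈ gaussO Λ res := Iff.rfl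

variable (Λ res) in
/-- Reduction mod `π` on the Gauss valuation ring of `E`. -/
noncomputable def gaussRed : ↥(gaussV Λ res E) →+* LaurentSeries k :=
  (gaussRedO Λ res).comp
    { toFun := fun x => ⟨((x : ↥E) : LaurentSeries K), (mem_gaussV_iff E _).mp x.2⟩
      map_one' := rfl
      map_mul' := fun _ _ => rfl
      map_zero' := rfl
      map_add' := fun _ _ => rfl }

theorem gaussRed_apply (x : ↥(gaussV Λ res E)) :
    gaussRed Λ res E x =
      gaussRedO Λ res ⟨((x : ↥E) : LaurentSeries K), (mem_gaussV_iff E _).mp x.2⟩ := rfl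

/-- Computing the reduction from any presentation of the series. -/
theorem gaussRed_mk {x : ↥E} (hx : x ∈ gaussV Λ res E)
    {y : LaurentSeries K} (hy : y ∈ gaussO Λ res) (h : (x : LaurentSeries K) = y) :
    gaussRed Λ res E ⟨x, hx⟩ = gaussRedO Λ res ⟨y, hy⟩ := by
  rw [gaussRed_apply]
  congr 1
  exact Subtype.ext h

/-- The defining property of the reduction. -/
theorem gaussRed_mul_eq (x : ↥(gaussV Λ res E)) (a b : LaurentSeries ↥Λ)
    (h : ((x : ↥E) : LaurentSeries K) * coeffMap Λ.subtype b = coeffMap Λ.subtype a) :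
    gaussRed Λ res E x * coeffMap res b = coeffMap res a :=
  gaussRedO_mul_eq _ a b h

/-! ### (V1) -/

theorem gaussRed_algebraMap (a : ↥Λ) :
    gaussRed Λ res E (algebraMap ↥Λ ↥(gaussV Λ res E) a) = HahnSeries.C (res a) := by
  have h := gaussRed_mk E ((gaussV Λ res E).algebraMap_mem a)
    (coeffMap_subtype_mem_gaussO (HahnSeries.C a)) (coe_algebraMap_L E a)
  rw [gaussRedO_coeffMap_subtype, coeffMap_C] at h
  rw [← h]
  rfl

/-- An element of `E` whose series has coefficients in `Λ` lies in `gaussV`, and its reduction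
is the coefficientwise reduction. -/
theorem mem_gaussV_of_coeffMap {x : ↥E} (a : LaurentSeries ↥Λ)
    (h : coeffMap Λ.subtype a = (x : LaurentSeries K)) : x ∈ gaussV Λ res E := by
  rw [mem_gaussV_iff, ← h]
  exact coeffMap_subtype_mem_gaussO a

theorem gaussRed_of_coeffMap {x : ↥E} (a : LaurentSeries ↥Λ)
    (h : coeffMap Λ.subtype a = (x : LaurentSeries K)) :
    gaussRed Λ res E ⟨x, mem_gaussV_of_coeffMap E a h⟩ = coeffMap res a := by
  rw [gaussRed_mk E _ (coeffMap_subtype_mem_gaussO a) h.symm, gaussRedO_coeffMap_subtype]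

/-! ### units -/

theorem inv_mem_gaussV {x : ↥E} (hx : x ∈ gaussV Λ res E)
    (h : gaussRed Λ res E ⟨x, hx⟩ ≠ 0) : x⁻¹ ∈ gaussV Λ res E := by
  rw [mem_gaussV_iff]
  push_cast
  exact inv_mem_gaussO ((mem_gaussV_iff E x).mp hx) h

theorem gaussRed_inv {x : ↥E} (hx : x ∈ gaussV Λ res E)
    (hx' : x⁻¹ ∈ gaussV Λ res E) (hx0 : x ≠ 0) :
    gaussRed Λ res E ⟨x⁻¹, hx'⟩ = (gaussRed Λ res E ⟨x, hx⟩)⁻¹ := by
  have h1 : gaussRed Λ res E ⟨x, hx⟩ * gaussRed Λ res E ⟨x⁻¹, hx'⟩ = 1 := by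
    rw [← map_mul]
    have : (⟨x, hx⟩ : ↥(gaussV Λ res E)) * ⟨x⁻¹, hx'⟩ = 1 :=
      Subtype.ext (mul_inv_cancel₀ hx0)
    rw [this, map_one]
  exact eq_inv_of_mul_eq_one_right h1

theorem isUnit_iff_gaussRed_ne_zero (x : ↥(gaussV Λ res E)) :
    IsUnit x ↔ gaussRed Λ res E x ≠ 0 := by
  constructor
  · intro hu
    exact (hu.map (gaussRed Λ res E)).ne_zero
  · intro h
    have hinv := inv_mem_gaussV E x.2 h
    have hx0 : (x : ↥E) ≠ 0 := by
      intro h0
      apply h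
      have : x = 0 := Subtype.ext h0
      rw [this, map_zero]
    exact IsUnit.of_mul_eq_one ⟨(x : ↥E)⁻¹, hinv⟩ (Subtype.ext (mul_inv_cancel₀ hx0))

end Basic

section Pi

variable (hΛ : IsGaussRing Λ π res)
include hΛ

theorem algebraMap_pi_mem_gaussV : algebraMap K ↥E π ∈ gaussV Λ res E := by
  rw [mem_gaussV_iff, coe_algebraMap_K]
  exact C_pi_mem_gaussO hΛ

theorem gaussRed_algebraMap_pi :
    gaussRed Λ res E ⟨algebraMap K ↥E π, algebraMap_pi_mem_gaussV E hΛ⟩ = 0 := by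
  rw [gaussRed_mk E _ (C_pi_mem_gaussO hΛ) (coe_algebraMap_K E π), gaussRedO_C_pi hΛ]

theorem algebraMap_pi_ne_zero : algebraMap K ↥E π ≠ 0 := by
  intro h
  exact hΛ.pi_ne_zero ((map_eq_zero_iff _ (algebraMap K ↥E).injective).mp h)

/-! ### (V2): the kernel of the reduction is `π V` -/

theorem gaussRed_eq_zero_iff (x : ↥(gaussV Λ res E)) :
    gaussRed Λ res E x = 0 ↔
      ∃ y : ↥(gaussV Λ res E), (x : ↥E) = algebraMap K ↥E π * (y : ↥E) := by
  constructor
  · intro h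
    rw [gaussRed_apply, gaussRedO_eq_zero_iff hΛ] at h
    obtain ⟨y, hy⟩ := h
    have hy' : ((x : ↥E) : LaurentSeries K) = HahnSeries.C π * (y : LaurentSeries K) := hy
    have hπ := algebraMap_pi_ne_zero E hΛ
    have hcoe : (((algebraMap K ↥E π)⁻¹ * (x : ↥E) : ↥E) : LaurentSeries K) =
        (y : LaurentSeries K) := by
      push_cast
      rw [algebraMap_eq_C, hy', ← mul_assoc, inv_mul_cancel₀ (C_pi_ne_zero hΛ), one_mul]
    refine ⟨⟨(algebraMap K ↥E π)⁻¹ * (x : ↥E), ?_⟩, ?_⟩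
    · rw [mem_gaussV_iff, hcoe]
      exact y.2
    · show (x : ↥E) = algebraMap K ↥E π * ((algebraMap K ↥E π)⁻¹ * (x : ↥E))
      rw [← mul_assoc, mul_inv_cancel₀ hπ, one_mul]
  · rintro ⟨y, hy⟩
    have : x = ⟨algebraMap K ↥E π, algebraMap_pi_mem_gaussV E hΛ⟩ * y := Subtype.ext hy
    rw [this, map_mul, gaussRed_algebraMap_pi E hΛ, zero_mul]

/-! ### (V3) -/

/-- (V3): every nonzero element of `E ⊆ gaussK` is `π ^ n` times a unit of `gaussV`. -/
theorem exists_zpow_mul_unit (hE : E ≤ gaussK hΛ) {x : ↥E} (hx : x ≠ 0) :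
    ∃ (n : ℤ) (u : ↥E) (hu : u ∈ gaussV Λ res E),
      gaussRed Λ res E ⟨u, hu⟩ ≠ 0 ∧ u⁻¹ ∈ gaussV Λ res E ∧
        x = algebraMap K ↥E π ^ n * u := by
  have hxK : (x : LaurentSeries K) ∈ gaussK hΛ := hE x.2
  have hx0 : (x : LaurentSeries K) ≠ 0 := fun h => hx (Subtype.ext h)
  obtain ⟨n, u, hu, hred, hxu⟩ := exists_zpow_mul_of_mem_gaussK hΛ hxK hx0
  have hπ := algebraMap_pi_ne_zero E hΛ
  have hπK := C_pi_ne_zero hΛ
  have hcoe : (((algebraMap K ↥E π ^ n)⁻¹ * x : ↥E) : LaurentSeries K) = u := by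
    have h1 : ((algebraMap K ↥E π ^ n : ↥E) : LaurentSeries K) =
        (HahnSeries.C π : LaurentSeries K) ^ n := by
      rw [← coe_algebraMap_K E π, ← IntermediateField.algebraMap_apply, map_zpow₀]
      rfl
    rw [IntermediateField.coe_mul, IntermediateField.coe_inv, h1, hxu, ← mul_assoc,
      inv_mul_cancel₀ (zpow_ne_zero n hπK), one_mul]
  have huV : (algebraMap K ↥E π ^ n)⁻¹ * x ∈ gaussV Λ res E := by
    rw [mem_gaussV_iff, hcoe]
    exact hu
  have hredV : gaussRed Λ res E ⟨_, huV⟩ ≠ 0 := by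
    rw [gaussRed_mk E huV hu hcoe]
    exact hred
  refine ⟨n, (algebraMap K ↥E π ^ n)⁻¹ * x, huV, hredV, inv_mem_gaussV E huV hredV, ?_⟩
  rw [← mul_assoc, mul_inv_cancel₀ (zpow_ne_zero n hπ), one_mul]

/-- The abstract Gauss-ring structure on `gaussV`. -/
theorem isGaussRing_gaussV (hE : E ≤ gaussK hΛ) :
    IsGaussRing (gaussV Λ res E).toSubring (algebraMap K ↥E π) (gaussRed Λ res E) where
  pi_mem := algebraMap_pi_mem_gaussV E hΛ
  pi_ne_zero := algebraMap_pi_ne_zero E hΛ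
  red_pi := fun _ => gaussRed_algebraMap_pi E hΛ
  ker := fun x hx => (gaussRed_eq_zero_iff E hΛ x).mp hx
  unit := fun x hx => by
    obtain ⟨n, u, hu, -, hu', h⟩ := exists_zpow_mul_unit E hΛ hE hx
    exact ⟨n, u, hu, hu', h⟩

theorem mem_gaussV_or_inv_mem (hE : E ≤ gaussK hΛ) (x : ↥E) :
    x ∈ gaussV Λ res E ∨ x⁻¹ ∈ gaussV Λ res E :=
  (isGaussRing_gaussV E hΛ hE).mem_or_inv_mem x

/-- `gaussV` is integrally closed in `E`. -/
theorem mem_gaussV_of_isIntegral (hE : E ≤ gaussK hΛ) {x : ↥E}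
    (hx : IsIntegral ↥(gaussV Λ res E) x) : x ∈ gaussV Λ res E :=
  (isGaussRing_gaussV E hΛ hE).mem_of_isIntegral hx

/-- `x ∈ V` iff the exponent of `π` is nonnegative. -/
theorem mem_gaussV_iff_of_eq_zpow_mul {x u : ↥E} {n : ℤ}
    (hu : u ∈ gaussV Λ res E) (hu' : gaussRed Λ res E ⟨u, hu⟩ ≠ 0)
    (hx : x = algebraMap K ↥E π ^ n * u) :
    x ∈ gaussV Λ res E ↔ 0 ≤ n := by
  have hπ := algebraMap_pi_ne_zero E hΛ
  have hπV := algebraMap_pi_mem_gaussV E hΛ
  constructor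
  · intro hxV
    by_contra hn
    rw [not_le] at hn
    obtain ⟨m, hm⟩ : ∃ m : ℕ, -n = m + 1 := ⟨(-n - 1).toNat, by omega⟩
    have hu2 : u = algebraMap K ↥E π * (algebraMap K ↥E π ^ m * x) := by
      rw [hx, ← mul_assoc, ← mul_assoc, ← pow_succ', ← zpow_natCast, ← zpow_add₀ hπ]
      have : ((m + 1 : ℕ) : ℤ) + n = 0 := by push_cast; omega
      rw [this, zpow_zero, one_mul]
    apply hu'
    have hmem : algebraMap K ↥E π ^ m * x ∈ gaussV Λ res E :=
      (gaussV Λ res E).mul_mem (pow_mem hπV m) hxV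
    have : (⟨u, hu⟩ : ↥(gaussV Λ res E)) = ⟨algebraMap K ↥E π, hπV⟩ * ⟨_, hmem⟩ :=
      Subtype.ext hu2
    rw [this, map_mul, gaussRed_algebraMap_pi E hΛ, zero_mul]
  · intro hn
    rw [hx]
    obtain ⟨m, rfl⟩ := Int.eq_ofNat_of_zero_le hn
    rw [zpow_natCast]
    exact (gaussV Λ res E).mul_mem (pow_mem hπV m) hu

end Pi

end Fermat.Agent.S18.GaussL
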