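import Fermat.Agent.S18.GaussLineBase

/-!
P11 (S18), ENGINE, module GaussLine (note 204 (E2)), file A: elementary facts about the Gauss ring
`V = gaussSub π hπ t` of `Λ(t) ⊂ 𝔽` (`t` transcendental over `Λ`).
-/

set_option autoImplicit false
set_option linter.unusedSectionVars false

namespace Fermat.Agent.S18

namespace GaussLineK

open Polynomial

variable {Λ 𝔽 : Type*} [CommRing Λ] [IsDomain Λ] [Field 𝔽] [Algebra Λ 𝔽] (π : Λ) (hπ : Prime π)

/-- (Unit) the value of a polynomial not divisible by `π` is a unit of `V`. -/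
theorem inv_aeval_mem {t : 𝔽} (ht : Transcendental Λ t) (s : Λ[X]) (hs : ¬ C π ∣ s) :
    (aeval t s)⁻¹ ∈ gaussSub π hπ t :=
  ⟨1, s, hs, by rw [inv_mul_cancel₀ (aeval_ne_zero ht (ne_zero_of_not_C_dvd hs)), map_one]⟩

/-- `π` does not divide the polynomial `X`. -/
theorem glA_not_C_dvd_X (hp : Prime π) : ¬ C π ∣ (X : Λ[X]) := by
  intro h
  rw [C_dvd_iff_dvd_coeff] at h
  have h1 := h 1
  rw [coeff_X_one] at h1
  exact hp.not_isUnit (isUnit_of_dvd_one h1)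

theorem inv_mem {t : 𝔽} (ht : Transcendental Λ t) : t⁻¹ ∈ gaussSub π hπ t := by
  have h := inv_aeval_mem π hπ ht X (glA_not_C_dvd_X π hπ)
  rwa [aeval_X] at h

/-- (incl) `Λ[t, t⁻¹] ⊆ V`. -/
theorem adjoin_le {t : 𝔽} (ht : Transcendental Λ t) :
    ∀ v ∈ Algebra.adjoin Λ {t, t⁻¹}, v ∈ gaussSub π hπ t := by
  intro v hv
  induction hv using Algebra.adjoin_induction with
  | mem x hx =>
    rcases hx with rfl | hx
    · exact self_mem_gaussSub π hπ x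
    · rw [Set.mem_singleton_iff] at hx
      rw [hx]
      exact inv_mem π hπ ht
  | algebraMap r => exact algebraMap_mem_gaussSub π hπ t r
  | add x y _ _ hx hy => exact (gaussSub π hπ t).add_mem hx hy
  | mul x y _ _ hx hy => exact (gaussSub π hπ t).mul_mem hx hy

/-- Integral over `Λ[t]`, `Λ[t⁻¹]` or `Λ[t, t⁻¹]` implies integral over `V`. -/
theorem isIntegral_of_isIntegral_adjoin {t : 𝔽} (ht : Transcendental Λ t) {s : Set 𝔽}
    (hs : s ⊆ {t, t⁻¹}) {z : 𝔽} (hz : IsIntegral (Algebra.adjoin Λ s) z) :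
    IsIntegral (gaussSub π hπ t) z := by
  have hle : ∀ v ∈ Algebra.adjoin Λ s, v ∈ gaussSub π hπ t := fun v hv =>
    adjoin_le π hπ ht v (Algebra.adjoin_mono hs hv)
  let φ : ↥(Algebra.adjoin Λ s) →+* ↥(gaussSub π hπ t) :=
    ((Algebra.adjoin Λ s).val : ↥(Algebra.adjoin Λ s) →+* 𝔽).codRestrict (gaussSub π hπ t)
      (fun v => hle v.1 v.2)
  have h := IsIntegral.map_of_comp_eq (R := ↥(Algebra.adjoin Λ s)) (S := 𝔽)
    (T := ↥(gaussSub π hπ t)) (U := 𝔽) φ (RingHom.id 𝔽) (by ext x; rfl) hz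
  exact h

/-- Value of a reflected polynomial. -/
theorem glA_aeval_reflect {t : 𝔽} (ht0 : t ≠ 0) (N : ℕ) (f : Λ[X]) (hf : f.natDegree ≤ N) :
    aeval t (reflect N f) = aeval t⁻¹ f * t ^ N := by
  let _ : Invertible (t⁻¹) := invertibleOfNonzero (inv_ne_zero ht0)
  have h := eval₂_reflect_mul_pow (algebraMap Λ 𝔽) t⁻¹ N f hf
  rw [invOf_eq_inv, inv_inv] at h
  rw [aeval_def, aeval_def, ← h, mul_assoc, ← mul_pow, inv_mul_cancel₀ ht0, one_pow, mul_one]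

/-- Reflection preserves non-divisibility by `π`. -/
theorem glA_not_C_dvd_reflect {N : ℕ} {b : Λ[X]} (hb : ¬ C π ∣ b) : ¬ C π ∣ reflect N b := by
  intro h
  apply hb
  rw [C_dvd_iff_dvd_coeff] at h ⊢
  intro j
  have hj := h (revAt N j)
  rwa [coeff_reflect, revAt_invol] at hj

/-- One inclusion of `gaussSub_inv`. -/
theorem glA_gaussSub_inv_le {t : 𝔽} (ht0 : t ≠ 0) :
    ∀ v ∈ gaussSub π hπ t⁻¹, v ∈ gaussSub π hπ t := by
  rintro v ⟨a, b, hb, h⟩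
  refine ⟨reflect (max a.natDegree b.natDegree) a, reflect (max a.natDegree b.natDegree) b,
    glA_not_C_dvd_reflect π hb, ?_⟩
  rw [glA_aeval_reflect ht0 _ a (le_max_left _ _), glA_aeval_reflect ht0 _ b (le_max_right _ _),
    ← h, mul_assoc]

/-- (inv) the Gauss rings of the coordinates `t` and `t⁻¹` coincide. -/
theorem gaussSub_inv {t : 𝔽} (ht : Transcendental Λ t) :
    gaussSub π hπ t⁻¹ = gaussSub π hπ t := by
  have ht0 : t ≠ 0 := ne_zero_of_transcendental ht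
  ext v
  constructor
  · exact glA_gaussSub_inv_le π hπ ht0 v
  · intro hv
    have h := glA_gaussSub_inv_le π hπ (inv_ne_zero ht0) v
    rw [inv_inv] at h
    exact h hv

/-- (G2) `V ∩ Λ[t][1/π] = Λ[t]`. -/
theorem exists_aeval_eq_of_pow_smul {t : 𝔽} (ht : Transcendental Λ t) :
    ∀ v ∈ gaussSub π hπ t, ∀ (m : ℕ) (a : Λ[X]), π ^ m • v = aeval t a →
      ∃ a' : Λ[X], v = aeval t a' := by
  rintro v ⟨c, b, hb, h⟩ m a hm
  have hprime : Prime (C π : Λ[X]) := Polynomial.prime_C_iff.mpr hπ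
  have heq : C π ^ m * c = a * b := by
    apply aeval_injective ht
    rw [map_mul, map_mul, map_pow, aeval_C, ← h, ← hm, Algebra.smul_def, map_pow]
    ring
  have hdvd : C π ^ m ∣ a := hprime.pow_dvd_of_dvd_mul_right m hb ⟨c, heq.symm⟩
  obtain ⟨a', rfl⟩ := hdvd
  refine ⟨a', ?_⟩
  have hπ0 : algebraMap Λ 𝔽 π ^ m ≠ 0 :=
    pow_ne_zero m (fun h0 => hπ.ne_zero
      (algebraMap_injective_of_transcendental ht (by rw [h0, map_zero])))
  rw [Algebra.smul_def, map_pow, map_mul, map_pow, aeval_C] at hm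
  exact mul_left_cancel₀ hπ0 hm

/-- `π` is not a unit of `V`. -/
theorem smul_ne_one {t : 𝔽} (ht : Transcendental Λ t) :
    ∀ δ ∈ gaussSub π hπ t, π • δ ≠ 1 := by
  rintro δ ⟨a, b, hb, h⟩ h1
  apply hb
  have heq : b = C π * a := by
    apply aeval_injective ht
    rw [map_mul, aeval_C, ← h, ← mul_assoc, ← Algebra.smul_def, h1, one_mul]
  exact ⟨a, heq⟩

/-- Ring homomorphisms compatible with the `Λ`-structures commute with polynomial values. -/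
theorem glA_map_aeval {𝔽' : Type*} [Field 𝔽'] [Algebra Λ 𝔽'] (φ : 𝔽 →+* 𝔽')
    (hφ : ∀ c : Λ, φ (algebraMap Λ 𝔽 c) = algebraMap Λ 𝔽' c) (t : 𝔽) (a : Λ[X]) :
    φ (aeval t a) = aeval (φ t) a := by
  have hcomp : φ.comp (algebraMap Λ 𝔽) = algebraMap Λ 𝔽' := RingHom.ext hφ
  rw [aeval_def, aeval_def, hom_eval₂, hcomp]

/-- (map) ring homomorphisms compatible with the `Λ`-structures map Gauss rings to Gauss rings. -/
theorem map_mem_gaussSub' {𝔽' : Type*} [Field 𝔽'] [Algebra Λ 𝔽'] (φ : 𝔽 →+* 𝔽')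
    (hφ : ∀ c : Λ, φ (algebraMap Λ 𝔽 c) = algebraMap Λ 𝔽' c) {t v : 𝔽}
    (hv : v ∈ gaussSub π hπ t) : φ v ∈ gaussSub π hπ (φ t) := by
  obtain ⟨a, b, hb, h⟩ := hv
  refine ⟨a, b, hb, ?_⟩
  rw [← glA_map_aeval φ hφ, ← glA_map_aeval φ hφ, ← map_mul, h]

theorem isIntegral_map_gaussSub' {𝔽' : Type*} [Field 𝔽'] [Algebra Λ 𝔽'] (φ : 𝔽 →+* 𝔽')
    (hφ : ∀ c : Λ, φ (algebraMap Λ 𝔽 c) = algebraMap Λ 𝔽' c) {t s : 𝔽}
    (hs : IsIntegral (gaussSub π hπ t) s) : IsIntegral (gaussSub π hπ (φ t)) (φ s) := by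
  let ψ : ↥(gaussSub π hπ t) →+* ↥(gaussSub π hπ (φ t)) :=
    (φ.comp (gaussSub π hπ t).subtype).codRestrict (gaussSub π hπ (φ t))
      (fun v => map_mem_gaussSub' π hπ φ hφ v.2)
  exact IsIntegral.map_of_comp_eq (R := ↥(gaussSub π hπ t)) (S := 𝔽)
    (T := ↥(gaussSub π hπ (φ t))) (U := 𝔽') ψ φ (by ext x; rfl) hs

theorem map_mem_gaussSub {𝔽' : Type*} [Field 𝔽'] [Algebra Λ 𝔽'] (φ : 𝔽 →ₐ[Λ] 𝔽') {t v : 𝔽}
    (hv : v ∈ gaussSub π hπ t) : φ v ∈ gaussSub π hπ (φ t) :=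
  map_mem_gaussSub' π hπ (φ : 𝔽 →+* 𝔽') φ.commutes hv

theorem isIntegral_map_gaussSub {𝔽' : Type*} [Field 𝔽'] [Algebra Λ 𝔽'] (φ : 𝔽 →ₐ[Λ] 𝔽')
    {t s : 𝔽} (hs : IsIntegral (gaussSub π hπ t) s) :
    IsIntegral (gaussSub π hπ (φ t)) (φ s) :=
  isIntegral_map_gaussSub' π hπ (φ : 𝔽 →+* 𝔽') φ.commutes hs

end GaussLineK

end Fermat.Agent.S18
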