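import Fermat.Agent.S18.GaussLineBase
import Fermat.Agent.S18.CechAux

/-!
P11 (S18), ENGINE, module GaussLine (note 204 (E2)), file B: the Gauss ring
`V = gaussSub π hπ t` is a valuation ring of `Λ(t) = ratSub t ht` (`Λ` a discrete valuation ring
with uniformiser `π`), hence integrally closed in `Λ(t)`; `V ∩ K = Λ`; denominators; `Λ[t]` is
integrally closed in `Λ(t)`.
-/

set_option autoImplicit false
set_option linter.unusedSectionVars false

namespace Fermat.Agent.S18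

namespace GaussLineK

open Polynomial

variable {Λ 𝔽 : Type*} [CommRing Λ] [IsDomain Λ] [Field 𝔽] [Algebra Λ 𝔽] (π : Λ) (hπ : Prime π)

/-- A monic relation of degree `n` over a subring, written out with `Fin n`-indexed
coefficients. -/
theorem glB_exists_pow_add_sum (V : Subring 𝔽) {z : 𝔽} (hz : IsIntegral V z) :
    ∃ (n : ℕ) (c : Fin n → 𝔽), (∀ i, c i ∈ V) ∧ z ^ n + ∑ i : Fin n, c i * z ^ (i : ℕ) = 0 := by
  obtain ⟨p, hp, hpz⟩ := hz
  refine ⟨p.natDegree, fun i => ((p.coeff i : V) : 𝔽), fun i => (p.coeff i).2, ?_⟩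
  rw [eval₂_eq_sum_range, Finset.sum_range_succ, hp.coeff_natDegree, map_one, one_mul,
    add_comm] at hpz
  rw [← hpz, Finset.sum_range (fun i => algebraMap V 𝔽 (p.coeff i) * z ^ i)]
  rfl

/-- (Val) `V` is a valuation ring of `Λ(t)`: an element of `Λ(t)` lies in `V` or its inverse lies
in `π V`. -/
theorem mem_or_inv_mem [IsDiscreteValuationRing Λ] {t : 𝔽} (ht : Transcendental Λ t) {v : 𝔽}
    (hv : v ∈ ratSub t ht) :
    v ∈ gaussSub π hπ t ∨ ∃ δ ∈ gaussSub π hπ t, v⁻¹ = π • δ := by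
  obtain ⟨a, b, hb, h⟩ := hv
  by_cases ha : a = 0
  · left
    rw [ha, map_zero] at h
    have hv0 : v = 0 := by
      rcases mul_eq_zero.mp h with h0 | h0
      · exact h0
      · exact absurd h0 (aeval_ne_zero ht hb)
    rw [hv0]
    exact Subring.zero_mem _
  obtain ⟨α, a₀, ha₀, rfl⟩ := exists_C_pow_mul hπ.irreducible ha
  obtain ⟨β, b₀, hb₀, rfl⟩ := exists_C_pow_mul hπ.irreducible hb
  have hP : algebraMap Λ 𝔽 π ≠ 0 := fun h0 =>
    hπ.ne_zero (algebraMap_injective_of_transcendental ht (by rw [h0, map_zero]))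
  have hA : aeval t a₀ ≠ 0 := aeval_ne_zero ht (ne_zero_of_not_C_dvd ha₀)
  have hB : aeval t b₀ ≠ 0 := aeval_ne_zero ht (ne_zero_of_not_C_dvd hb₀)
  simp only [map_mul, map_pow, aeval_C] at h
  set P := algebraMap Λ 𝔽 π with hPdef
  set A := aeval t a₀ with hAdef
  set B := aeval t b₀ with hBdef
  rcases le_or_gt β α with hle | hlt
  · left
    refine ⟨C π ^ (α - β) * a₀, b₀, hb₀, ?_⟩
    simp only [map_mul, map_pow, aeval_C]
    rw [← hPdef, ← hAdef, ← hBdef]
    have hpow : P ^ α = P ^ β * P ^ (α - β) := by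
      rw [← pow_add, Nat.add_sub_cancel' hle]
    have h2 : P ^ β * (v * B) = P ^ β * (P ^ (α - β) * A) := by
      calc P ^ β * (v * B) = v * (P ^ β * B) := by ring
        _ = P ^ α * A := h
        _ = P ^ β * (P ^ (α - β) * A) := by rw [hpow, mul_assoc]
    exact mul_left_cancel₀ (pow_ne_zero β hP) h2
  · right
    have hv' : v = P ^ α * A / (P ^ β * B) := by
      rw [eq_div_iff (mul_ne_zero (pow_ne_zero β hP) hB)]
      exact h
    refine ⟨P ^ (β - α - 1) * B / A, ⟨C π ^ (β - α - 1) * b₀, a₀, ha₀, ?_⟩, ?_⟩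
    · simp only [map_mul, map_pow, aeval_C]
      rw [← hPdef, ← hAdef, ← hBdef]
      field_simp
    · rw [Algebra.smul_def, ← hPdef, hv', inv_div]
      have hβ : β = α + ((β - α - 1) + 1) := by omega
      rw [div_eq_iff (mul_ne_zero (pow_ne_zero α hP) hA)]
      conv_lhs => rw [hβ, pow_add, pow_succ]
      field_simp

/-- (G4) `V` is integrally closed in `Λ(t)`. -/
theorem mem_of_isIntegral [IsDiscreteValuationRing Λ] {t : 𝔽} (ht : Transcendental Λ t) :
    ∀ v : 𝔽, IsIntegral (gaussSub π hπ t) v →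
      (∃ a b : Λ[X], b ≠ 0 ∧ v * aeval t b = aeval t a) → v ∈ gaussSub π hπ t := by
  intro v hint hq
  rcases mem_or_inv_mem π hπ ht (v := v) hq with hv | ⟨δ, hδ, hvδ⟩
  · exact hv
  have hw : v⁻¹ ∈ gaussSub π hπ t := by
    rw [hvδ, Algebra.smul_def]
    exact Subring.mul_mem _ (algebraMap_mem_gaussSub π hπ t π) hδ
  by_cases hv0 : v = 0
  · rw [hv0]; exact Subring.zero_mem _
  obtain ⟨n, c, hc, hrel⟩ := glB_exists_pow_add_sum (gaussSub π hπ t) hint
  rcases Nat.eq_zero_or_pos n with hn | hn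
  · subst hn
    simp at hrel
  have key : v = - ∑ i : Fin n, c i * (v⁻¹) ^ (n - 1 - (i : ℕ)) := by
    have h1 : v ^ n = - ∑ i : Fin n, c i * v ^ (i : ℕ) := eq_neg_of_add_eq_zero_left hrel
    have h2 : v = v ^ n * (v⁻¹) ^ (n - 1) := by
      have hn' : n = (n - 1) + 1 := by omega
      have h3 : v ^ n = v ^ (n - 1) * v := by
        conv_lhs => rw [hn', pow_succ]
      rw [h3, mul_comm (v ^ (n - 1)), mul_assoc, ← mul_pow, mul_inv_cancel₀ hv0, one_pow,
        mul_one]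
    conv_lhs => rw [h2, h1]
    rw [neg_mul, Finset.sum_mul]
    congr 1
    refine Finset.sum_congr rfl fun i _ => ?_
    have hi : n - 1 = (i : ℕ) + (n - 1 - (i : ℕ)) := by have := i.2; omega
    conv_lhs => rw [hi, pow_add, mul_assoc, ← mul_assoc (v ^ (i : ℕ)), ← mul_pow,
      mul_inv_cancel₀ hv0, one_pow, one_mul]
  rw [key]
  exact Subring.neg_mem _ (Subring.sum_mem _ fun i _ =>
    Subring.mul_mem _ (hc i) (Subring.pow_mem _ hw _))

/-- (Den) an element integral over `V` becomes integral over `Λ[t]` after multiplication by the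
value of a polynomial not divisible by `π`. -/
theorem exists_isIntegral_aeval_mul {t : 𝔽} :
    ∀ ε : 𝔽, IsIntegral (gaussSub π hπ t) ε →
      ∃ s : Λ[X], ¬ C π ∣ s ∧ IsIntegral (Algebra.adjoin Λ {t}) (aeval t s * ε) := by
  classical
  intro ε hε
  obtain ⟨n, c, hc, hrel⟩ := glB_exists_pow_add_sum (gaussSub π hπ t) hε
  choose a b hb hab using hc
  set s : Λ[X] := ∏ i : Fin n, b i with hs
  have hsdvd : ¬ C π ∣ s := by
    intro hdvd
    obtain ⟨i, -, hi⟩ := ((Polynomial.prime_C_iff.mpr hπ).dvd_finsetProd_iff _).mp hdvd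
    exact hb i hi
  refine ⟨s, hsdvd, ?_⟩
  have hsc : ∀ i : Fin n, aeval t s * c i = aeval t (a i * ∏ j ∈ Finset.univ.erase i, b j) := by
    intro i
    rw [hs, ← Finset.mul_prod_erase Finset.univ b (Finset.mem_univ i), map_mul, map_mul, ← hab i]
    ring
  set q : Fin n → Λ[X] := fun i =>
    s ^ (n - 1 - (i : ℕ)) * (a i * ∏ j ∈ Finset.univ.erase i, b j) with hq
  refine CechAux.isIntegral_of_pow_add_sum (R := Algebra.adjoin Λ {t}) (aeval t s * ε) n
    (fun i => ⟨aeval t (q i), aeval_mem_adjoin t (q i)⟩) ?_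
  have hterm : ∀ i : Fin n,
      algebraMap (Algebra.adjoin Λ {t}) 𝔽 ⟨aeval t (q i), aeval_mem_adjoin t (q i)⟩ *
        (aeval t s * ε) ^ (i : ℕ) = aeval t s ^ n * (c i * ε ^ (i : ℕ)) := by
    intro i
    have h0 : algebraMap (Algebra.adjoin Λ {t}) 𝔽 ⟨aeval t (q i), aeval_mem_adjoin t (q i)⟩
        = aeval t (q i) := rfl
    rw [h0, hq]
    simp only [map_mul, map_pow]
    rw [← map_mul, ← hsc i]
    have hi : (n - 1 - (i : ℕ)) + 1 + (i : ℕ) = n := by have := i.2; omega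
    have hpow : aeval t s ^ n
        = aeval t s ^ (n - 1 - (i : ℕ)) * aeval t s * aeval t s ^ (i : ℕ) := by
      rw [← pow_succ, ← pow_add, hi]
    rw [hpow]
    ring
  rw [Finset.sum_congr rfl fun i _ => hterm i, ← Finset.mul_sum, mul_pow, ← mul_add, hrel,
    mul_zero]

/-- `V ∩ K = Λ`: a constant which is integral over `V` lies in `Λ`. -/
theorem mem_of_isIntegral_algebraMap [IsDiscreteValuationRing Λ] {K : Type*} [Field K]
    [Algebra Λ K] [IsFractionRing Λ K] [Algebra K 𝔽] [IsScalarTower Λ K 𝔽] {t : 𝔽}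
    (ht : Transcendental K t) :
    ∀ c : K, IsIntegral (gaussSub π hπ t) (algebraMap K 𝔽 c) →
      ∃ l : Λ, algebraMap Λ K l = c := by
  intro c hc
  have ht' : Transcendental Λ t := transcendental_of_fraction ht
  by_cases hc0 : c = 0
  · exact ⟨0, by rw [map_zero, hc0]⟩
  rcases ValuationRing.isInteger_or_isInteger Λ c with ⟨l, hl⟩ | ⟨l, hl⟩
  · exact ⟨l, hl⟩
  by_cases hu : IsUnit l
  · obtain ⟨u, rfl⟩ := hu
    refine ⟨((u⁻¹ : Λˣ) : Λ), ?_⟩
    have h1 : algebraMap Λ K ((u⁻¹ : Λˣ) : Λ) * algebraMap Λ K (u : Λ) = 1 := by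
      rw [← map_mul, Units.inv_mul, map_one]
    rw [hl] at h1
    calc algebraMap Λ K ((u⁻¹ : Λˣ) : Λ)
        = algebraMap Λ K ((u⁻¹ : Λˣ) : Λ) * c⁻¹ * c := by
          rw [mul_assoc, inv_mul_cancel₀ hc0, mul_one]
      _ = c := by rw [h1, one_mul]
  exfalso
  have hmax : IsLocalRing.maximalIdeal Λ = Ideal.span {π} :=
    (IsDiscreteValuationRing.irreducible_iff_uniformizer π).mp hπ.irreducible
  have hlmem : l ∈ IsLocalRing.maximalIdeal Λ := (IsLocalRing.mem_maximalIdeal l).mpr hu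
  rw [hmax, Ideal.mem_span_singleton] at hlmem
  obtain ⟨l', rfl⟩ := hlmem
  -- `algebraMap K 𝔽 c ∈ Λ(t)`
  have hcinv : algebraMap K 𝔽 c * algebraMap Λ 𝔽 (π * l') = 1 := by
    rw [IsScalarTower.algebraMap_apply Λ K 𝔽, hl, ← map_mul, mul_inv_cancel₀ hc0, map_one]
  have hq : ∃ a b : Λ[X], b ≠ 0 ∧ algebraMap K 𝔽 c * aeval t b = aeval t a := by
    refine ⟨1, C (π * l'), ?_, ?_⟩
    · intro h0
      rw [C_eq_zero] at h0
      rw [h0, map_zero, mul_zero] at hcinv
      exact zero_ne_one hcinv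
    · rw [aeval_C, hcinv, map_one]
  obtain ⟨a, b, hb, hab⟩ := mem_of_isIntegral π hπ ht' _ hc hq
  apply hb
  refine ⟨C l' * a, ?_⟩
  apply aeval_injective ht'
  have h3 : aeval t b = algebraMap Λ 𝔽 (π * l') * aeval t a := by
    rw [← hab, ← mul_assoc, mul_comm (algebraMap Λ 𝔽 (π * l')), hcinv, one_mul]
  rw [h3, map_mul]
  simp only [map_mul, aeval_C]
  ring

/-- `Λ[t]` is integrally closed in `Λ(t)` (for `Λ` integrally closed). -/
theorem exists_aeval_eq_of_isIntegral_adjoin [IsIntegrallyClosed Λ] {t : 𝔽}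
    (ht : Transcendental Λ t) {v : 𝔽} (hv : IsIntegral (Algebra.adjoin Λ {t}) v)
    (hq : v ∈ ratSub t ht) : ∃ a' : Λ[X], v = aeval t a' := by
  obtain ⟨a, b, hb, hab⟩ := hq
  have hinj : Function.Injective ((aeval t : Λ[X] →ₐ[Λ] 𝔽) : Λ[X] →+* 𝔽) := aeval_injective ht
  set φ : FractionRing Λ[X] →+* 𝔽 := IsFractionRing.lift hinj with hφ
  have hφalg : ∀ p : Λ[X], φ (algebraMap Λ[X] (FractionRing Λ[X]) p) = aeval t p := fun p =>
    IsFractionRing.lift_algebraMap hinj p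
  have hB : aeval t b ≠ 0 := aeval_ne_zero ht hb
  have hb' : algebraMap Λ[X] (FractionRing Λ[X]) b ≠ 0 := by
    intro h0
    apply hB
    rw [← hφalg, h0, map_zero]
  set w : FractionRing Λ[X] :=
    algebraMap Λ[X] (FractionRing Λ[X]) a / algebraMap Λ[X] (FractionRing Λ[X]) b with hw
  have hφw : φ w = v := by
    rw [hw, map_div₀, hφalg, hφalg, ← hab, mul_div_assoc, div_self hB, mul_one]
  obtain ⟨n, c, hc, hrel⟩ := CechAux.exists_pow_add_sum_of_isIntegral (Algebra.adjoin Λ {t}) hv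
  have hex : ∀ i : Fin n, ∃ q : Λ[X], aeval t q = c i := fun i =>
    exists_aeval_eq_of_mem_adjoin (hc i)
  choose q hqc using hex
  have hwint : IsIntegral Λ[X] w := by
    refine CechAux.isIntegral_of_pow_add_sum w n q ?_
    apply φ.injective
    rw [map_zero, map_add, map_pow, map_sum, hφw, ← hrel]
    congr 1
    refine Finset.sum_congr rfl fun i _ => ?_
    rw [map_mul, map_pow, hφw, hφalg, hqc]
  obtain ⟨a', ha'⟩ := IsIntegrallyClosed.isIntegral_iff.mp hwint
  exact ⟨a', by rw [← hφw, ← ha', hφalg]⟩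

end GaussLineK

end Fermat.Agent.S18
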