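import Fermat.Agent.S18.Basic

/-!
P11 (S18), ENGINE, module GaussLine (note 204 (E2)), base file: transcendence bookkeeping and the
subfield `Λ(t) ⊂ 𝔽` (`ratSub`), shared by `GaussLineA`, `GaussLineB`, `GaussLineF`, `GaussLineK`.

Setting: `Λ` a domain, `𝔽` a field and a `Λ`-algebra, `t : 𝔽` transcendental over `Λ`
(equivalently over `K = Frac Λ`, see `transcendental_of_fraction`).
-/

set_option autoImplicit false
set_option linter.unusedSectionVars false

namespace Fermat.Agent.S18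

namespace GaussLineK

open Polynomial

variable {Λ 𝔽 : Type*} [CommRing Λ] [IsDomain Λ] [Field 𝔽] [Algebra Λ 𝔽]

/-- Transcendence over the fraction field gives transcendence over the ring. -/
theorem transcendental_of_fraction {K : Type*} [Field K] [Algebra Λ K] [IsFractionRing Λ K]
    [Algebra K 𝔽] [IsScalarTower Λ K 𝔽] {t : 𝔽} (ht : Transcendental K t) :
    Transcendental Λ t :=
  ht.restrictScalars (IsFractionRing.injective Λ K)

theorem transcendental_inv {t : 𝔽} (ht : Transcendental Λ t) : Transcendental Λ t⁻¹ :=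
  fun h => ht (IsAlgebraic.inv_iff.mp h)

theorem aeval_injective {t : 𝔽} (ht : Transcendental Λ t) :
    Function.Injective (aeval t : Λ[X] → 𝔽) :=
  transcendental_iff_injective.mp ht

theorem aeval_ne_zero {t : 𝔽} (ht : Transcendental Λ t) {a : Λ[X]} (ha : a ≠ 0) :
    aeval t a ≠ 0 := fun h =>
  ha (aeval_injective ht (by rw [h, map_zero]))

theorem algebraMap_injective_of_transcendental {t : 𝔽} (ht : Transcendental Λ t) :
    Function.Injective (algebraMap Λ 𝔽) := by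
  intro a b hab
  have h : aeval t (C a) = aeval t (C b) := by rw [aeval_C, aeval_C, hab]
  exact C_injective (aeval_injective ht h)

theorem ne_zero_of_transcendental {t : 𝔽} (ht : Transcendental Λ t) : t ≠ 0 := by
  have := aeval_ne_zero ht (X_ne_zero : (X : Λ[X]) ≠ 0)
  rwa [aeval_X] at this

theorem ne_zero_of_not_C_dvd {π : Λ} {b : Λ[X]} (hb : ¬ C π ∣ b) : b ≠ 0 := by
  rintro rfl
  exact hb (dvd_zero _)

/-- The subfield `Λ(t)` of `𝔽`: the quotients `a(t) / b(t)` with `a, b ∈ Λ[X]`, `b ≠ 0`. -/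
def ratSub (t : 𝔽) (ht : Transcendental Λ t) : Subfield 𝔽 where
  carrier := {v | ∃ a b : Λ[X], b ≠ 0 ∧ v * aeval t b = aeval t a}
  mul_mem' := by
    rintro v v' ⟨a, b, hb, h⟩ ⟨a', b', hb', h'⟩
    refine ⟨a * a', b * b', mul_ne_zero hb hb', ?_⟩
    rw [map_mul, map_mul, ← h, ← h']; ring
  one_mem' := ⟨1, 1, one_ne_zero, by simp⟩
  add_mem' := by
    rintro v v' ⟨a, b, hb, h⟩ ⟨a', b', hb', h'⟩
    refine ⟨a * b' + a' * b, b * b', mul_ne_zero hb hb', ?_⟩
    rw [map_add, map_mul, map_mul, map_mul, ← h, ← h']; ring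
  zero_mem' := ⟨0, 1, one_ne_zero, by simp⟩
  neg_mem' := by
    rintro v ⟨a, b, hb, h⟩
    exact ⟨-a, b, hb, by rw [map_neg, ← h]; ring⟩
  inv_mem' := by
    rintro v ⟨a, b, hb, h⟩
    by_cases hv : v = 0
    · exact ⟨0, 1, one_ne_zero, by simp [hv]⟩
    · have ha : a ≠ 0 := by
        rintro rfl
        rw [map_zero] at h
        exact (mul_ne_zero hv (aeval_ne_zero ht hb)) h
      exact ⟨b, a, ha, by rw [← h, ← mul_assoc, inv_mul_cancel₀ hv, one_mul]⟩

theorem mem_ratSub {t : 𝔽} {ht : Transcendental Λ t} {v : 𝔽} :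
    v ∈ ratSub t ht ↔ ∃ a b : Λ[X], b ≠ 0 ∧ v * aeval t b = aeval t a :=
  Iff.rfl

theorem aeval_mem_ratSub {t : 𝔽} (ht : Transcendental Λ t) (a : Λ[X]) :
    aeval t a ∈ ratSub t ht :=
  ⟨a, 1, one_ne_zero, by simp⟩

theorem algebraMap_mem_ratSub {t : 𝔽} (ht : Transcendental Λ t) (c : Λ) :
    algebraMap Λ 𝔽 c ∈ ratSub t ht := by
  simpa using aeval_mem_ratSub ht (C c)

theorem gaussSub_le_ratSub (π : Λ) (hπ : Prime π) {t : 𝔽} (ht : Transcendental Λ t) :
    ∀ v ∈ gaussSub π hπ t, v ∈ ratSub t ht := by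
  rintro v ⟨a, b, hb, h⟩
  exact ⟨a, b, ne_zero_of_not_C_dvd hb, h⟩

theorem adjoin_le_ratSub {t : 𝔽} (ht : Transcendental Λ t) :
    ∀ v ∈ Algebra.adjoin Λ {t}, v ∈ ratSub t ht := by
  intro v hv
  rw [Algebra.adjoin_singleton_eq_range_aeval] at hv
  obtain ⟨a, rfl⟩ := (AlgHom.mem_range _).mp hv
  exact aeval_mem_ratSub ht a

/-- Elements of `Λ[t]` are values of polynomials. -/
theorem exists_aeval_eq_of_mem_adjoin {t v : 𝔽} (hv : v ∈ Algebra.adjoin Λ {t}) :
    ∃ a : Λ[X], aeval t a = v := by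
  rw [Algebra.adjoin_singleton_eq_range_aeval] at hv
  exact (AlgHom.mem_range _).mp hv

theorem aeval_mem_adjoin (t : 𝔽) (a : Λ[X]) : aeval t a ∈ Algebra.adjoin Λ {t} := by
  rw [Algebra.adjoin_singleton_eq_range_aeval]
  exact (AlgHom.mem_range _).mpr ⟨a, rfl⟩

/-- Every nonzero polynomial over a discrete valuation ring is a power of `π` times a polynomial
not divisible by `π`. -/
theorem exists_C_pow_mul [IsDiscreteValuationRing Λ] {π : Λ} (hπ : Irreducible π) {a : Λ[X]}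
    (ha : a ≠ 0) : ∃ (n : ℕ) (a₀ : Λ[X]), ¬ C π ∣ a₀ ∧ a = C π ^ n * a₀ :=
  WfDvdMonoid.max_power_factor ha (Polynomial.prime_C_iff.mpr hπ.prime).irreducible

end GaussLineK

end Fermat.Agent.S18
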