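import Fermat.Agent.S18.GaussLineA
import Fermat.Agent.S18.GaussLineB
import Fermat.Agent.S18.GaussLineF
import Fermat.Agent.S18.CechAux

/-!
P11 (S18), ENGINE, module GaussLine (note 204 (E2)), file K: **Lemma K** for the three rings
`Λ[t]`, `Λ[t⁻¹]`, `Λ[t, t⁻¹]`:  if `z` is integral over `Λ[t]` and `z = π • δ` with `δ` integral
over the Gauss ring `V = gaussSub π hπ t`, then `δ` is integral over `Λ[t]`
(i.e. `S ∩ π S_V = π S`).

Proof: the minimal polynomial of `δ` over `Λ(t)` has coefficients integral over `V`, hence in `V`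
(`V` is integrally closed in `Λ(t)`); scaled by powers of `π` they are the coefficients of the
minimal polynomial of `z`, hence integral over `Λ[t]`, hence in `Λ[t]`; and
`V ∩ Λ[t][1/π] = Λ[t]`.
-/

set_option autoImplicit false
set_option linter.unusedSectionVars false

namespace Fermat.Agent.S18

namespace GaussLineK

open Polynomial

section Minpoly

variable {R 𝔽 : Type*} [CommRing R] [Field 𝔽] [Algebra R 𝔽]

/-- An element integral over a ring `R` whose image lies in the subfield `K₁` is integral over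
`K₁`. -/
theorem glK_isIntegral_subfield (K₁ : Subfield 𝔽) (hR : ∀ r : R, algebraMap R 𝔽 r ∈ K₁) {y : 𝔽}
    (hy : IsIntegral R y) : IsIntegral K₁ y := by
  obtain ⟨f, hf, hfy⟩ := hy
  let ι : R →+* K₁ := (algebraMap R 𝔽).codRestrict K₁ hR
  have hι : (algebraMap K₁ 𝔽).comp ι = algebraMap R 𝔽 := by ext r; rfl
  refine ⟨f.map ι, hf.map ι, ?_⟩
  rw [eval₂_map, hι]
  exact hfy

/-- If `y` is integral over a ring `R` whose image lies in the subfield `K₁` of `𝔽`, then the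
coefficients of the minimal polynomial of `y` over `K₁` are integral over `R`. -/
theorem glK_isIntegral_coeff_minpoly (K₁ : Subfield 𝔽) (hR : ∀ r : R, algebraMap R 𝔽 r ∈ K₁)
    {y : 𝔽} (hy : IsIntegral R y) (i : ℕ) :
    IsIntegral R (((minpoly K₁ y).coeff i : K₁) : 𝔽) := by
  have hyK : IsIntegral K₁ y := glK_isIntegral_subfield K₁ hR hy
  obtain ⟨f, hf, hfy⟩ := hy
  let ι : R →+* K₁ := (algebraMap R 𝔽).codRestrict K₁ hR
  have hι : (algebraMap K₁ 𝔽).comp ι = algebraMap R 𝔽 := by ext r; rfl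
  have hroot : aeval y (f.map ι) = 0 := by
    rw [aeval_def, eval₂_map, hι]
    exact hfy
  have hdvd : minpoly K₁ y ∣ f.map ι := minpoly.dvd K₁ y hroot
  have hg : ((minpoly K₁ y).map (algebraMap K₁ 𝔽)).Monic := (minpoly.monic hyK).map _
  have hd : (minpoly K₁ y).map (algebraMap K₁ 𝔽) ∣ f.map (algebraMap R 𝔽) := by
    rw [← hι, ← Polynomial.map_map]
    exact Polynomial.map_dvd _ hdvd
  have hl := integralClosure.mem_lifts_of_monic_of_dvd_map 𝔽 hf hg hd
  obtain ⟨c, hc⟩ := (lifts_iff_coeff_lifts _).mp hl i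
  rw [coeff_map] at hc
  have h1 : (((minpoly K₁ y).coeff i : K₁) : 𝔽) = (c : 𝔽) := hc.symm
  rw [h1]
  exact c.2

/-- The minimal polynomial of `s * y` is the scaled minimal polynomial of `y`. -/
theorem glK_minpoly_mul (K₁ : Subfield 𝔽) {y : 𝔽} (hy : IsIntegral K₁ y) {s : K₁} (hs : s ≠ 0) :
    minpoly K₁ ((s : 𝔽) * y) = scaleRoots (minpoly K₁ y) s := by
  have hM : (scaleRoots (minpoly K₁ y) s).Monic := (monic_scaleRoots_iff s).mpr (minpoly.monic hy)
  have hroot : aeval ((s : 𝔽) * y) (scaleRoots (minpoly K₁ y) s) = 0 :=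
    scaleRoots_aeval_eq_zero (minpoly.aeval K₁ y)
  have hsy : IsIntegral K₁ ((s : 𝔽) * y) := ⟨_, hM, hroot⟩
  have hdvd : minpoly K₁ ((s : 𝔽) * y) ∣ scaleRoots (minpoly K₁ y) s := minpoly.dvd K₁ _ hroot
  -- the reverse degree inequality, by scaling back
  have hM' : (scaleRoots (minpoly K₁ ((s : 𝔽) * y)) s⁻¹).Monic :=
    (monic_scaleRoots_iff s⁻¹).mpr (minpoly.monic hsy)
  have hroot' : aeval y (scaleRoots (minpoly K₁ ((s : 𝔽) * y)) s⁻¹) = 0 := by
    have h1 := scaleRoots_aeval_eq_zero (r := s⁻¹) (minpoly.aeval K₁ ((s : 𝔽) * y))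
    have h2 : algebraMap K₁ 𝔽 s⁻¹ * ((s : 𝔽) * y) = y := by
      have h3 : algebraMap K₁ 𝔽 s⁻¹ * (s : 𝔽) = 1 := by
        have : algebraMap K₁ 𝔽 s⁻¹ * algebraMap K₁ 𝔽 s = 1 := by
          rw [← map_mul, inv_mul_cancel₀ hs, map_one]
        exact this
      rw [← mul_assoc, h3, one_mul]
    rwa [h2] at h1
  have hdvd' : minpoly K₁ y ∣ scaleRoots (minpoly K₁ ((s : 𝔽) * y)) s⁻¹ :=
    minpoly.dvd K₁ y hroot'
  have hdeg : (scaleRoots (minpoly K₁ y) s).natDegree ≤ (minpoly K₁ ((s : 𝔽) * y)).natDegree := by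
    rw [natDegree_scaleRoots]
    have := natDegree_le_of_dvd hdvd' hM'.ne_zero
    rwa [natDegree_scaleRoots] at this
  exact (eq_of_monic_of_dvd_of_natDegree_le (minpoly.monic hsy) hM hdvd hdeg).symm

end Minpoly

variable {Λ 𝔽 : Type*} [CommRing Λ] [IsDomain Λ] [IsDiscreteValuationRing Λ] [Field 𝔽]
  [Algebra Λ 𝔽] (π : Λ) (hπ : Prime π)

/-- **Lemma K** for `Λ[t]`. -/
theorem lemmaK_fin {t : 𝔽} (ht : Transcendental Λ t) {z δ : 𝔽}
    (hz : IsIntegral (Algebra.adjoin Λ {t}) z) (hδ : IsIntegral (gaussSub π hπ t) δ)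
    (h : z = π • δ) : IsIntegral (Algebra.adjoin Λ {t}) δ := by
  have hVK : ∀ r : gaussSub π hπ t, algebraMap (gaussSub π hπ t) 𝔽 r ∈ ratSub t ht :=
    fun r => gaussSub_le_ratSub π hπ ht r r.2
  have hAK : ∀ r : Algebra.adjoin Λ {t}, algebraMap (Algebra.adjoin Λ {t}) 𝔽 r ∈ ratSub t ht :=
    fun r => adjoin_le_ratSub ht r r.2
  have hδK : IsIntegral (ratSub t ht) δ := glK_isIntegral_subfield _ hVK hδ
  have hπ0 : algebraMap Λ 𝔽 π ≠ 0 := fun h0 =>
    hπ.ne_zero (algebraMap_injective_of_transcendental ht (by rw [h0, map_zero]))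
  set π₁ : ratSub t ht := ⟨algebraMap Λ 𝔽 π, algebraMap_mem_ratSub ht π⟩ with hπ₁
  have hπ₁0 : π₁ ≠ 0 := fun h0 => hπ0 (congrArg Subtype.val h0)
  have hzπ : z = (π₁ : 𝔽) * δ := by rw [h, Algebra.smul_def]
  set m := minpoly (ratSub t ht) δ with hm
  set n := m.natDegree with hn
  -- coefficients of `m` lie in `V`
  have hcV : ∀ i : ℕ, ((m.coeff i : ratSub t ht) : 𝔽) ∈ gaussSub π hπ t := fun i =>
    mem_of_isIntegral π hπ ht _ (glK_isIntegral_coeff_minpoly _ hVK hδ i) (m.coeff i).2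
  -- scaled coefficients are values of polynomials
  have hcA : ∀ i : ℕ, ∃ a : Λ[X],
      π ^ (n - i) • ((m.coeff i : ratSub t ht) : 𝔽) = aeval t a := by
    intro i
    have h1 := glK_isIntegral_coeff_minpoly _ hAK hz i
    rw [hzπ, glK_minpoly_mul _ hδK hπ₁0, coeff_scaleRoots] at h1
    obtain ⟨a, ha⟩ := exists_aeval_eq_of_isIntegral_adjoin ht h1
      ((m.coeff i * π₁ ^ (m.natDegree - i) : ratSub t ht)).2
    refine ⟨a, ?_⟩
    rw [← ha, Algebra.smul_def, map_pow, mul_comm]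
    rfl
  -- hence the coefficients lie in `Λ[t]`
  have hc : ∀ i : ℕ, ((m.coeff i : ratSub t ht) : 𝔽) ∈ Algebra.adjoin Λ {t} := by
    intro i
    obtain ⟨a, ha⟩ := hcA i
    obtain ⟨a', ha'⟩ := exists_aeval_eq_of_pow_smul π hπ ht _ (hcV i) (n - i) a ha
    rw [ha']
    exact aeval_mem_adjoin t a'
  -- `δ` is a root of the monic polynomial `m`
  have hroot : aeval δ m = 0 := minpoly.aeval _ δ
  have hmonic : m.Monic := minpoly.monic hδK
  refine CechAux.isIntegral_of_pow_add_sum (R := Algebra.adjoin Λ {t}) δ n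
    (fun i => ⟨((m.coeff i : ratSub t ht) : 𝔽), hc i⟩) ?_
  rw [aeval_eq_sum_range, Finset.sum_range_succ, hmonic.coeff_natDegree, one_smul, add_comm,
    Finset.sum_range (fun i => m.coeff i • δ ^ i)] at hroot
  rw [← hroot]
  rfl

/-- **Lemma K** for `Λ[t⁻¹]`. -/
theorem lemmaK_inv {t : 𝔽} (ht : Transcendental Λ t) {z δ : 𝔽}
    (hz : IsIntegral (Algebra.adjoin Λ {t⁻¹}) z) (hδ : IsIntegral (gaussSub π hπ t) δ)
    (h : z = π • δ) : IsIntegral (Algebra.adjoin Λ {t⁻¹}) δ := by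
  rw [← gaussSub_inv π hπ ht] at hδ
  exact lemmaK_fin π hπ (transcendental_inv ht) hz hδ h

/-- **Lemma K** for `Λ[t, t⁻¹]`. -/
theorem lemmaK_mid {t : 𝔽} (ht : Transcendental Λ t) {z δ : 𝔽}
    (hz : IsIntegral (Algebra.adjoin Λ {t, t⁻¹}) z) (hδ : IsIntegral (gaussSub π hπ t) δ)
    (h : z = π • δ) : IsIntegral (Algebra.adjoin Λ {t, t⁻¹}) δ := by
  have ht0 : t ≠ 0 := ne_zero_of_transcendental ht
  have htt : t * t⁻¹ = 1 := mul_inv_cancel₀ ht0
  obtain ⟨N, hN⟩ := CechAux.exists_forall_isIntegral_pow_mul_of_adjoin_pair htt hz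
  have htV : IsIntegral (gaussSub π hπ t) (t ^ N) :=
    isIntegral_algebraMap (R := gaussSub π hπ t) (A := 𝔽)
      (x := ⟨t ^ N, pow_mem (self_mem_gaussSub π hπ t) N⟩)
  have h1 : IsIntegral (Algebra.adjoin Λ {t}) (t ^ N * δ) :=
    lemmaK_fin π hπ ht (hN N le_rfl) (htV.mul hδ) (by rw [h, mul_smul_comm])
  have h2 : IsIntegral (Algebra.adjoin Λ {t, t⁻¹}) (t ^ N * δ) :=
    CechAux.isIntegral_adjoin_mono (by simp) h1
  have h3 : IsIntegral (Algebra.adjoin Λ {t, t⁻¹}) (t⁻¹ ^ N) :=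
    CechAux.isIntegral_adjoin_of_mem
      (Subalgebra.pow_mem _ (Algebra.subset_adjoin (by simp)) N)
  have h4 : δ = t⁻¹ ^ N * (t ^ N * δ) := by
    rw [← mul_assoc, ← mul_pow, inv_mul_cancel₀ ht0, one_pow, one_mul]
  rw [h4]
  exact h3.mul h2

end GaussLineK

end Fermat.Agent.S18
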