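import Mathlib

namespace Fermat.Agent.S18

open Module

section QuotBasis

variable {R S : Type*} [CommRing R] [CommRing S] [Algebra R S]

/-- membership in the extended ideal, read off on coordinates -/
theorem mem_map_iff_repr_mem (I : Ideal R) {ι : Type*} (b : Basis ι R S) (x : S) :
    x ∈ I.map (algebraMap R S) ↔ ∀ i, b.repr x i ∈ I := by
  have h1 : x ∈ I.map (algebraMap R S) ↔ x ∈ I • Submodule.span R (Set.range b) := by
    rw [b.span_eq, Ideal.smul_top_eq_map]
    rfl
  rw [h1, Submodule.mem_ideal_smul_span_iff_exists_sum]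
  constructor
  · rintro ⟨a, ha, rfl⟩ i
    have : (a.sum fun i c => c • b i) = Finsupp.linearCombination R b a := rfl
    rw [this, b.repr_linearCombination]
    exact ha i
  · intro h
    exact ⟨b.repr x, h, b.linearCombination_repr x⟩

theorem exists_basis_quotient (I : Ideal R)
    {ι : Type*} [Fintype ι] [DecidableEq ι] (b : Basis ι R S) :
    ∃ b' : Basis ι (R ⧸ I) (S ⧸ I.map (algebraMap R S)),
      (∀ i, b' i = Ideal.Quotient.mk (I.map (algebraMap R S)) (b i)) ∧
      (∀ x i, b'.repr (Ideal.Quotient.mk (I.map (algebraMap R S)) x) i =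
        Ideal.Quotient.mk I (b.repr x i)) ∧
      (∀ x, Algebra.trace (R ⧸ I) (S ⧸ I.map (algebraMap R S))
          (Ideal.Quotient.mk (I.map (algebraMap R S)) x) =
        Ideal.Quotient.mk I (Algebra.trace R S x)) ∧
      Algebra.discr (R ⧸ I) b' = Ideal.Quotient.mk I (Algebra.discr R b) := by
  have hsm : ∀ (r : R) (s : S), Ideal.Quotient.mk I r •
      Ideal.Quotient.mk (I.map (algebraMap R S)) s =
      Ideal.Quotient.mk (I.map (algebraMap R S)) (r • s) :=
    fun r s => by
      rw [Algebra.smul_def r s]; exact Ideal.Quotient.mk_smul_mk_quotient_map_quotient r s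
  have hexp : ∀ x : S, Ideal.Quotient.mk (I.map (algebraMap R S)) x =
      ∑ i, Ideal.Quotient.mk I (b.repr x i) • Ideal.Quotient.mk (I.map (algebraMap R S)) (b i) := by
    intro x
    simp only [hsm]
    rw [← map_sum, b.sum_repr x]
  have hli : LinearIndependent (R ⧸ I) (fun i => Ideal.Quotient.mk (I.map (algebraMap R S)) (b i)) := by
    rw [Fintype.linearIndependent_iff]
    intro g hg i
    obtain ⟨g', hg'⟩ : ∃ g' : ι → R, ∀ i, Ideal.Quotient.mk I (g' i) = g i :=
      ⟨fun i => (Ideal.Quotient.mk_surjective (g i)).choose,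
        fun i => (Ideal.Quotient.mk_surjective (g i)).choose_spec⟩
    simp only [← hg', hsm] at hg
    rw [← map_sum, Ideal.Quotient.eq_zero_iff_mem, mem_map_iff_repr_mem I b] at hg
    have := hg i
    rw [← hg', Ideal.Quotient.eq_zero_iff_mem]
    simpa [Finsupp.single_apply] using this
  have hsp : ⊤ ≤ Submodule.span (R ⧸ I) (Set.range fun i => Ideal.Quotient.mk (I.map (algebraMap R S)) (b i)) := by
    rintro y -
    obtain ⟨x, rfl⟩ := Ideal.Quotient.mk_surjective y
    rw [hexp x]
    exact Submodule.sum_mem _ fun i _ =>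
      Submodule.smul_mem _ _ (Submodule.subset_span ⟨i, rfl⟩)
  let b' : Basis ι (R ⧸ I) (S ⧸ I.map (algebraMap R S)) := Basis.mk hli hsp
  have hb' : ∀ i, b' i = Ideal.Quotient.mk (I.map (algebraMap R S)) (b i) := fun i => by
    simp [b']
  have hrepr : ∀ x i, b'.repr (Ideal.Quotient.mk (I.map (algebraMap R S)) x) i = Ideal.Quotient.mk I (b.repr x i) := by
    intro x i
    rw [hexp x]
    simp only [← hb', map_sum, map_smul, Basis.repr_self, Finsupp.coe_finsetSum,
      Finsupp.coe_smul, Finset.sum_apply, Pi.smul_apply, smul_eq_mul,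
      Finsupp.single_apply, mul_ite, mul_one, mul_zero, Finset.sum_ite_eq',
      Finset.mem_univ, if_true]
  have htr : ∀ x, Algebra.trace (R ⧸ I) (S ⧸ I.map (algebraMap R S)) (Ideal.Quotient.mk (I.map (algebraMap R S)) x) =
      Ideal.Quotient.mk I (Algebra.trace R S x) := by
    intro x
    rw [Algebra.trace_eq_matrix_trace b, Algebra.trace_eq_matrix_trace b',
      AddMonoidHom.map_trace]
    congr 1
    ext i j
    simp only [Algebra.leftMulMatrix_apply, Algebra.coe_lmul_eq_mul, LinearMap.toMatrix_apply,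
      hb', LinearMap.mul_apply', Matrix.map_apply, ← map_mul, hrepr]
  refine ⟨b', hb', hrepr, htr, ?_⟩
  rw [Algebra.discr_def, Algebra.discr_def, RingHom.map_det]
  congr 1
  ext i j
  simp only [Algebra.traceMatrix_apply, Algebra.traceForm_apply, hb', ← map_mul, htr,
    RingHom.mapMatrix_apply, Matrix.map_apply]

end QuotBasis

end Fermat.Agent.S18
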