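import Mathlib
import Fermat.Agent.S18.DiscBase

/-!
# Quotient of a two-generated local domain by a prime element; minimal spanning families
-/

namespace Fermat.Agent.S18

open Module

theorem exists_isDiscreteValuationRing_quotient {R : Type*} [CommRing R] [IsDomain R]
    [IsNoetherianRing R] [IsLocalRing R]
    (π y : R) (hm : IsLocalRing.maximalIdeal R = Ideal.span {π, y})
    (hπ : (Ideal.span {π} : Ideal R).IsPrime) (hπy : ¬ π ∣ y) :
    ∃ (_ : IsDomain (R ⧸ Ideal.span {π})), IsDiscreteValuationRing (R ⧸ Ideal.span {π}) ∧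
      Irreducible (Ideal.Quotient.mk (Ideal.span {π}) y) := by
  have := hπ
  have hdom : IsDomain (R ⧸ Ideal.span {π}) := Ideal.Quotient.isDomain _
  have : IsLocalRing (R ⧸ Ideal.span {π}) :=
    IsLocalRing.of_surjective' (Ideal.Quotient.mk (Ideal.span {π})) Ideal.Quotient.mk_surjective
  have hπ0 : Ideal.Quotient.mk (Ideal.span {π}) π = 0 :=
    Ideal.Quotient.eq_zero_iff_mem.mpr (Ideal.mem_span_singleton_self π)
  have hπm : π ∈ IsLocalRing.maximalIdeal R := by
    rw [hm]; exact Ideal.subset_span (by simp)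
  have hym : y ∈ IsLocalRing.maximalIdeal R := by
    rw [hm]; exact Ideal.subset_span (by simp)
  have hloc : ∀ a : R, IsUnit (Ideal.Quotient.mk (Ideal.span {π}) a) → IsUnit a := by
    intro a ha
    obtain ⟨b, hb⟩ := ha.exists_right_inv
    obtain ⟨b, rfl⟩ := Ideal.Quotient.mk_surjective b
    rw [← map_mul, ← map_one (Ideal.Quotient.mk (Ideal.span {π})), Ideal.Quotient.eq,
      Ideal.mem_span_singleton] at hb
    obtain ⟨c, hc⟩ := hb
    have h1 : π * c ∈ IsLocalRing.maximalIdeal R := Ideal.mul_mem_right _ _ hπm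
    have h2 : IsUnit (a * b) := by
      by_contra hcon
      have h3 : a * b ∈ IsLocalRing.maximalIdeal R := hcon
      have h4 : (1 : R) ∈ IsLocalRing.maximalIdeal R := by
        have : (1 : R) = a * b - π * c := by rw [← hc]; ring
        rw [this]; exact Ideal.sub_mem _ h3 h1
      exact (IsLocalRing.maximalIdeal.isMaximal R).ne_top
        ((Ideal.eq_top_iff_one _).mpr h4)
    exact isUnit_of_mul_isUnit_left h2
  have hmax : IsLocalRing.maximalIdeal (R ⧸ Ideal.span {π})
      = Ideal.span {Ideal.Quotient.mk (Ideal.span {π}) y} := by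
    ext z
    obtain ⟨a, rfl⟩ := Ideal.Quotient.mk_surjective z
    rw [IsLocalRing.mem_maximalIdeal, mem_nonunits_iff, Ideal.mem_span_singleton]
    constructor
    · intro h
      have ha : a ∈ IsLocalRing.maximalIdeal R := by
        rw [IsLocalRing.mem_maximalIdeal, mem_nonunits_iff]
        exact fun hu => h (hu.map _)
      rw [hm, Ideal.mem_span_pair] at ha
      obtain ⟨r, s, rfl⟩ := ha
      refine ⟨Ideal.Quotient.mk _ s, ?_⟩
      rw [map_add, map_mul, map_mul, hπ0]; ring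
    · rintro ⟨w, hw⟩ hu
      rw [hw] at hu
      exact hym (hloc y (isUnit_of_mul_isUnit_left hu))
  have hy0 : Ideal.Quotient.mk (Ideal.span {π}) y ≠ 0 := by
    rw [Ne, Ideal.Quotient.eq_zero_iff_mem, Ideal.mem_span_singleton]
    exact hπy
  have hdvr : IsDiscreteValuationRing (R ⧸ Ideal.span {π}) :=
    Disc.isDiscreteValuationRing_of_maximalIdeal_eq_span hmax hy0
  exact ⟨hdom, hdvr, (IsDiscreteValuationRing.irreducible_iff_uniformizer _).mpr hmax⟩

theorem spanning_drop_aux {R S : Type*} [CommRing R] [CommRing S]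
    [Algebra R S] (J : Ideal S) {r : ℕ} (c : Fin (r + 1) → S)
    (hc : ∀ x : S, ∃ a : Fin (r + 1) → R, x - ∑ i, a i • c i ∈ J)
    (a : Fin (r + 1) → R) (ha : ∑ i, a i • c i ∈ J) (i₀ : Fin (r + 1)) (v : R)
    (hv : v * a i₀ = 1) :
    ∀ x : S, ∃ b : Fin r → R, x - ∑ j, b j • c (i₀.succAbove j) ∈ J := by
  intro x
  obtain ⟨α, hα⟩ := hc x
  refine ⟨fun j => α (i₀.succAbove j) - α i₀ * v * a (i₀.succAbove j), ?_⟩
  have key : x - ∑ j, (α (i₀.succAbove j) - α i₀ * v * a (i₀.succAbove j)) • c (i₀.succAbove j)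
      = (x - ∑ i, α i • c i) + (α i₀ * v) • ∑ i, a i • c i := by
    rw [Fin.sum_univ_succAbove (fun i => α i • c i) i₀,
      Fin.sum_univ_succAbove (fun i => a i • c i) i₀]
    simp only [sub_smul, Finset.sum_sub_distrib, smul_add, Finset.smul_sum, smul_smul]
    have h1 : (α i₀ * v * a i₀) = α i₀ := by rw [mul_assoc, hv, mul_one]
    rw [h1]; abel
  rw [key]
  refine J.add_mem hα ?_
  rw [Algebra.smul_def]; exact J.mul_mem_left _ ha

theorem exists_spanning_indep {R S : Type*} [CommRing R] [IsLocalRing R] [CommRing S]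
    [Algebra R S] [Module.Finite R S] (J : Ideal S) :
    ∃ (r : ℕ) (c : Fin r → S),
      (∀ x : S, ∃ a : Fin r → R, x - ∑ i, a i • c i ∈ J) ∧
      (∀ a : Fin r → R, ∑ i, a i • c i ∈ J → ∀ i, a i ∈ IsLocalRing.maximalIdeal R) := by
  classical
  have hex : ∃ r : ℕ, ∃ c : Fin r → S, ∀ x : S, ∃ a : Fin r → R, x - ∑ i, a i • c i ∈ J := by
    obtain ⟨n, s, hs⟩ := Module.Finite.exists_fin (R := R) (M := S)
    refine ⟨n, s, fun x => ?_⟩
    have hx : x ∈ Submodule.span R (Set.range s) := by rw [hs]; trivial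
    obtain ⟨a, ha⟩ := (Submodule.mem_span_range_iff_exists_fun R).mp hx
    exact ⟨a, by rw [ha, sub_self]; exact J.zero_mem⟩
  have hdrop : ∀ (r : ℕ) (c : Fin r → S),
      (∀ x : S, ∃ a : Fin r → R, x - ∑ i, a i • c i ∈ J) →
      ∀ a : Fin r → R, ∑ i, a i • c i ∈ J → ∀ i, ¬ a i ∈ IsLocalRing.maximalIdeal R →
      ∃ r' : ℕ, r' < r ∧ ∃ c' : Fin r' → S, ∀ x : S, ∃ a : Fin r' → R,
        x - ∑ i, a i • c' i ∈ J := by
    intro r c hc a ha i₀ hi
    have hu : IsUnit (a i₀) := by
      by_contra h; exact hi h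
    obtain ⟨v, hv⟩ := hu.exists_left_inv
    cases r with
    | zero => exact i₀.elim0
    | succ n =>
      exact ⟨n, Nat.lt_succ_self n, fun j => c (i₀.succAbove j),
        spanning_drop_aux J c hc a ha i₀ v hv⟩
  obtain ⟨c, hc⟩ := Nat.find_spec hex
  refine ⟨Nat.find hex, c, hc, ?_⟩
  intro a ha i₀
  by_contra hi
  obtain ⟨r', hlt, h'⟩ := hdrop _ c hc a ha i₀ hi
  exact Nat.find_min hex hlt h'

end Fermat.Agent.S18
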