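/-
P11 (S18), LOCAL part — `LocalNormal.lean` (owner: helper7): assembly of `local_normal`.

`R` a 2-dimensional regular local ring with parameters `π, y`; `S` an integrally closed domain,
finite free over `R`, whose discriminant is a unit times a power of `y`.  Then `S/πS` is
"idempotent-closed": if `z² ≡ y^k z (mod π)` then `z ≡ y^k z' (mod π)` for some `z'`.

Assembly: `(r, c)` := a minimal spanning family of `S` modulo `rad(𝔪S)` (`exists_spanning_indep`);
`disc2` (tame bound) gives `ord_y discr ≤ n - r`; reduce modulo `π`: `O = R/π` is a DVR with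
uniformiser `t = ȳ` (`exists_isDiscreteValuationRing_quotient`), `T = S/πS` is free with the
quotient basis and `discr` = image (`exists_basis_quotient`); then `disc1`.
-/
import Mathlib
import Fermat.Agent.S18.QuotBasis
import Fermat.Agent.S18.QuotDvr
import Fermat.Agent.S18.Disc1
import Fermat.Agent.S18.Disc2

set_option autoImplicit false

namespace Fermat.Agent.S18

open Module

/-- **Local engine.**  `R` noetherian local domain with `𝔪 = (π, y)`, `(π)`, `(y)` prime, `R/y` of
characteristic zero; `S` an integrally closed domain, finite free over `R` with basis `b` whose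
discriminant is `unit * y ^ B`.  If `π ∣ z² - y^k z` then `π ∣ z - y^k z'` for some `z'`. -/
theorem local_normal {R S : Type*} [CommRing R] [IsDomain R] [IsNoetherianRing R] [IsLocalRing R]
    [CommRing S] [IsDomain S] [IsIntegrallyClosed S] [Algebra R S] [Module.Finite R S]
    [Module.Free R S] [FaithfulSMul R S]
    (π y : R) (hm : IsLocalRing.maximalIdeal R = Ideal.span {π, y})
    (hπ : (Ideal.span {π} : Ideal R).IsPrime) (hy : (Ideal.span {y} : Ideal R).IsPrime)
    (hπ0 : π ≠ 0) (hy0 : y ≠ 0) (hπy : ¬ π ∣ y)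
    [CharZero (R ⧸ Ideal.span {y})]
    {ι : Type*} [Fintype ι] [DecidableEq ι] (b : Basis ι R S)
    (hd : ∃ (B : ℕ) (v : R), IsUnit v ∧ Algebra.discr R b = v * y ^ B)
    (z : S) (k : ℕ) (hz : algebraMap R S π ∣ z ^ 2 - algebraMap R S y ^ k * z) :
    ∃ z' : S, algebraMap R S π ∣ z - algebraMap R S y ^ k * z' := by
  classical
  -- the family `(r, c)`
  obtain ⟨r, c, hspan, hindep⟩ := exists_spanning_indep (R := R)
    ((Ideal.map (algebraMap R S) (IsLocalRing.maximalIdeal R)).radical)
  have h2 := disc2 π y hm hπ hy hπ0 hy0 hπy b r c hindep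
  obtain ⟨B, v, hv, hdiscr⟩ := hd
  have hB : B ≤ Fintype.card ι - r := by
    by_contra hlt
    rw [not_le] at hlt
    apply h2
    rw [hdiscr]
    exact Dvd.dvd.mul_left (pow_dvd_pow y (by omega)) v
  -- the quotient DVR
  obtain ⟨hdom, hdvr, hirr⟩ := exists_isDiscreteValuationRing_quotient π y hm hπ hπy
  -- the quotient basis
  obtain ⟨b', hb', hrepr, htr, hdiscr'⟩ := exists_basis_quotient (Ideal.span {π}) b
  set I : Ideal S := (Ideal.span {π}).map (algebraMap R S) with hI
  have hIspan : I = Ideal.span {algebraMap R S π} := by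
    rw [hI, Ideal.map_span, Set.image_singleton]
  set t : R ⧸ Ideal.span {π} := Ideal.Quotient.mk (Ideal.span {π}) y with ht
  have htmap : algebraMap (R ⧸ Ideal.span {π}) (S ⧸ I) t = Ideal.Quotient.mk I (algebraMap R S y) :=
    Ideal.Quotient.algebraMap_quotient_map_quotient _
  -- the discriminant hypothesis downstairs
  have hd' : ¬ t ^ (Fintype.card ι - r + 1) ∣ Algebra.discr (R ⧸ Ideal.span {π}) b' := by
    rw [hdiscr', hdiscr, map_mul, map_pow]
    intro hdvd
    have hvu : IsUnit (Ideal.Quotient.mk (Ideal.span {π}) v) := hv.map _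
    have h3 : t ^ (Fintype.card ι - r + 1) ∣ t ^ B := (hvu.dvd_mul_left).1 hdvd
    have h4 := (pow_dvd_pow_iff hirr.ne_zero hirr.not_isUnit).1 h3
    omega
  -- spanning downstairs
  have hc' : ∀ x : S ⧸ I, ∃ a : Fin r → R ⧸ Ideal.span {π},
      x - ∑ i, a i • (fun i => Ideal.Quotient.mk I (c i)) i ∈
        (Ideal.span {algebraMap (R ⧸ Ideal.span {π}) (S ⧸ I) t}).radical := by
    intro x
    obtain ⟨x, rfl⟩ := Ideal.Quotient.mk_surjective x
    obtain ⟨a, ha⟩ := hspan x
    refine ⟨fun i => Ideal.Quotient.mk _ (a i), ?_⟩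
    have hsum : Ideal.Quotient.mk I x - ∑ i, Ideal.Quotient.mk (Ideal.span {π}) (a i) •
        Ideal.Quotient.mk I (c i) = Ideal.Quotient.mk I (x - ∑ i, a i • c i) := by
      rw [map_sub, map_sum]
      refine congrArg _ (Finset.sum_congr rfl fun i _ => ?_)
      rw [Algebra.smul_def, Ideal.Quotient.algebraMap_quotient_map_quotient, ← map_mul,
        Algebra.smul_def]
    rw [hsum]
    obtain ⟨m, hm'⟩ := ha
    refine ⟨m, ?_⟩
    rw [← map_pow, htmap]
    rw [hm, Ideal.map_span, Set.image_pair, Ideal.mem_span_pair] at hm'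
    obtain ⟨s₁, s₂, hs⟩ := hm'
    rw [Ideal.mem_span_singleton]
    refine ⟨Ideal.Quotient.mk I s₂, ?_⟩
    rw [← hs, map_add, map_mul, map_mul]
    have h0 : Ideal.Quotient.mk I (algebraMap R S π) = 0 := by
      rw [Ideal.Quotient.eq_zero_iff_mem, hIspan]
      exact Ideal.mem_span_singleton_self _
    rw [h0, mul_zero, zero_add, mul_comm]
  -- the idempotent equation downstairs
  have hz' : (Ideal.Quotient.mk I z) ^ 2 =
      algebraMap (R ⧸ Ideal.span {π}) (S ⧸ I) t ^ k * Ideal.Quotient.mk I z := by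
    rw [htmap, ← map_pow, ← map_pow, ← map_mul, ← sub_eq_zero, ← map_sub,
      Ideal.Quotient.eq_zero_iff_mem, hIspan, Ideal.mem_span_singleton]
    exact hz
  obtain ⟨z', hz''⟩ := disc1 b' t hirr r (fun i => Ideal.Quotient.mk I (c i)) hc' hd'
    (Ideal.Quotient.mk I z) k hz'
  obtain ⟨z', rfl⟩ := Ideal.Quotient.mk_surjective z'
  refine ⟨z', ?_⟩
  rw [htmap, ← map_pow, ← map_mul, ← sub_eq_zero, ← map_sub,
    Ideal.Quotient.eq_zero_iff_mem, hIspan, Ideal.mem_span_singleton] at hz''
  exact hz''

end Fermat.Agent.S18
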