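import Fermat.Agent.S18.LocalBase
import Fermat.Agent.S18.LocalNormal

/-!
P11 / S18 ENGINE (LocalGlue), the abstract local lift.

`R` a two-dimensional regular local ring with parameters `π, y` (in the form of the hypotheses of
`local_normal`), integrally closed, `K₁ = Frac R`, `𝔽 / K₁` finite (char. 0), `V = R_(π) ⊂ 𝔽`.
If the discriminant of the integral closure `S` of `R` in `𝔽` is a unit times a power of `y`, then
every idempotent modulo `π` of the integral closure of `V` is congruent modulo `π` to an element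
of `S`.
-/

set_option autoImplicit false

namespace Fermat.Agent.S18.LocalAbs

open Polynomial Fermat.Agent.S18.LocalBase

section Dvr

variable {R : Type*} [CommRing R] [IsDomain R] [IsNoetherianRing R] [IsLocalRing R]

omit [IsDomain R] in
/-- `R ⧸ (π)` is a discrete valuation ring with uniformiser `y` (usable form): every `s ∉ (π)`
is `u y ^ k` modulo `π` with `u` a unit. -/
theorem exists_eq_unit_mul_pow_add (π y : R)
    (hm : IsLocalRing.maximalIdeal R = Ideal.span {π, y})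
    (hπ : (Ideal.span {π} : Ideal R).IsPrime) (hπy : ¬ π ∣ y) (s : R) (hs : ¬ π ∣ s) :
    ∃ (k : ℕ) (u r' : R), IsUnit u ∧ s = u * y ^ k + π * r' := by
  haveI : IsDomain (R ⧸ Ideal.span {π}) := (Ideal.Quotient.isDomain_iff_prime _).mpr hπ
  haveI : IsLocalRing (R ⧸ Ideal.span {π}) :=
    IsLocalRing.of_surjective' (Ideal.Quotient.mk _) Ideal.Quotient.mk_surjective
  haveI hpir : IsPrincipalIdealRing (R ⧸ Ideal.span {π}) :=
    isPrincipalIdealRing_quotient π y hm hπ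
  set mk := Ideal.Quotient.mk (Ideal.span {π}) with hmk
  have hmk0 : ∀ a : R, mk a = 0 ↔ π ∣ a := fun a => by
    rw [hmk, Ideal.Quotient.eq_zero_iff_mem, Ideal.mem_span_singleton]
  have hyM : y ∈ IsLocalRing.maximalIdeal R := by
    rw [hm]; exact Ideal.subset_span (by simp)
  have hπM : π ∈ IsLocalRing.maximalIdeal R := by
    rw [hm]; exact Ideal.subset_span (by simp)
  -- elements of the maximal ideal of `R` map into `(ȳ)`
  have hmemspan : ∀ a : R, a ∈ IsLocalRing.maximalIdeal R → mk a ∈ Ideal.span {mk y} := by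
    intro a ha
    rw [hm, Ideal.mem_span_pair] at ha
    obtain ⟨c, d, rfl⟩ := ha
    rw [map_add, map_mul, map_mul, (hmk0 π).mpr dvd_rfl, mul_zero, zero_add]
    exact Ideal.mem_span_singleton.mpr (Dvd.intro_left _ rfl)
  have hynonunit : ¬ IsUnit (mk y) := by
    intro hu
    obtain ⟨w, hw⟩ := hu.exists_right_inv
    obtain ⟨w', rfl⟩ := Ideal.Quotient.mk_surjective w
    have h1 : mk (y * w' - 1) = 0 := by rw [map_sub, map_mul, map_one, hw, sub_self]
    have h2 : π ∣ y * w' - 1 := (hmk0 _).mp h1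
    have h3 : y * w' - 1 ∈ IsLocalRing.maximalIdeal R :=
      Ideal.mem_of_dvd _ h2 hπM
    have h4 : (1 : R) ∈ IsLocalRing.maximalIdeal R := by
      have := (IsLocalRing.maximalIdeal R).sub_mem
        ((IsLocalRing.maximalIdeal R).mul_mem_right w' hyM) h3
      simpa using this
    exact (IsLocalRing.maximalIdeal.isMaximal R).ne_top ((Ideal.eq_top_iff_one _).mpr h4)
  have hy0 : mk y ≠ 0 := fun h => hπy ((hmk0 y).mp h)
  have hmax : IsLocalRing.maximalIdeal (R ⧸ Ideal.span {π}) = Ideal.span {mk y} := by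
    apply le_antisymm
    · intro x hx
      obtain ⟨a, rfl⟩ := Ideal.Quotient.mk_surjective x
      apply hmemspan a
      rw [IsLocalRing.mem_maximalIdeal]
      intro hu
      exact (IsLocalRing.mem_maximalIdeal _).mp hx (hu.map mk)
    · rw [Ideal.span_le, Set.singleton_subset_iff]
      exact (IsLocalRing.mem_maximalIdeal _).mpr hynonunit
  haveI : IsDiscreteValuationRing (R ⧸ Ideal.span {π}) :=
    { not_a_field' := by
        rw [hmax, Ne, Ideal.span_singleton_eq_bot]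
        exact hy0 }
  have hirr : Irreducible (mk y) := (IsDiscreteValuationRing.irreducible_iff_uniformizer _).mpr hmax
  have hs0 : mk s ≠ 0 := fun h => hs ((hmk0 s).mp h)
  obtain ⟨n, ū, hū⟩ := IsDiscreteValuationRing.associated_pow_irreducible hs0 hirr
  obtain ⟨w, hw⟩ := Ideal.Quotient.mk_surjective ((ū⁻¹ : (R ⧸ Ideal.span {π})ˣ) : R ⧸ Ideal.span {π})
  have hwunit : IsUnit w := by
    by_contra hnu
    have h1 : w ∈ IsLocalRing.maximalIdeal R := (IsLocalRing.mem_maximalIdeal _).mpr hnu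
    have h2 : mk w ∈ IsLocalRing.maximalIdeal (R ⧸ Ideal.span {π}) := by
      rw [hmax]; exact hmemspan w h1
    rw [hw] at h2
    exact (IsLocalRing.mem_maximalIdeal _).mp h2 (Units.isUnit _)
  have h3 : mk (s - w * y ^ n) = 0 := by
    rw [map_sub, map_mul, map_pow, hw, ← hū, sub_eq_zero, mul_comm, mul_assoc, Units.mul_inv,
      mul_one]
  obtain ⟨r', hr'⟩ := (hmk0 _).mp h3
  exact ⟨n, w, r', hwunit, by rw [← hr']; ring⟩

end Dvr

section Lift

variable {R K₁ 𝔽 : Type*} [CommRing R] [IsDomain R] [IsNoetherianRing R] [IsLocalRing R]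
  [IsIntegrallyClosed R] [Field K₁] [CharZero K₁] [Algebra R K₁] [IsFractionRing R K₁]
  [Field 𝔽] [Algebra K₁ 𝔽] [Algebra R 𝔽] [IsScalarTower R K₁ 𝔽] [FiniteDimensional K₁ 𝔽]

omit [IsNoetherianRing R] [IsLocalRing R] [IsIntegrallyClosed R] [CharZero K₁]
  [FiniteDimensional K₁ 𝔽] in
theorem algebraMap_injective' (K₁ : Type*) [Field K₁] [Algebra R K₁] [IsFractionRing R K₁]
    [Algebra K₁ 𝔽] [IsScalarTower R K₁ 𝔽] : Function.Injective (algebraMap R 𝔽) := by
  rw [IsScalarTower.algebraMap_eq R K₁ 𝔽]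
  exact (algebraMap K₁ 𝔽).injective.comp (IsFractionRing.injective R K₁)

/-- **The local lift.**  See the file header. -/
theorem exists_lift (K₁ : Type*) [Field K₁] [CharZero K₁] [Algebra R K₁] [IsFractionRing R K₁]
    [Algebra K₁ 𝔽] [IsScalarTower R K₁ 𝔽] [FiniteDimensional K₁ 𝔽]
    (π y : R) (hm : IsLocalRing.maximalIdeal R = Ideal.span {π, y})
    (hπ : (Ideal.span {π} : Ideal R).IsPrime) (hy : (Ideal.span {y} : Ideal R).IsPrime)
    (hπ0 : π ≠ 0) (hy0 : y ≠ 0) (hπy : ¬ π ∣ y) [CharZero (R ⧸ Ideal.span {y})]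
    (V : Subring 𝔽) (hV : IsLocSub π V)
    (hd : ∀ (n : ℕ) (b : Module.Basis (Fin n) R ↥(integralClosure R 𝔽)),
      ∃ (B : ℕ) (v : R), IsUnit v ∧ Algebra.discr R b = v * y ^ B)
    (ε : 𝔽) (hε : IsIntegral V ε)
    (hε2 : ∃ δ : 𝔽, IsIntegral V δ ∧ ε ^ 2 - ε = algebraMap R 𝔽 π * δ) :
    ∃ e : 𝔽, IsIntegral R e ∧ ∃ δ : 𝔽, IsIntegral V δ ∧ ε - e = algebraMap R 𝔽 π * δ := by
  have hπp : Prime π := (Ideal.span_singleton_prime hπ0).mp hπ
  have hinj : Function.Injective (algebraMap R 𝔽) := algebraMap_injective' K₁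
  haveI : Module.Finite R ↥(integralClosure R 𝔽) := finite_integralClosure R K₁ 𝔽
  haveI : IsIntegrallyClosed ↥(integralClosure R 𝔽) := isIntegrallyClosed_integralClosure R K₁ 𝔽
  haveI : Module.Free R ↥(integralClosure R 𝔽) :=
    free_integralClosure R K₁ 𝔽 π hπp (isPrincipalIdealRing_quotient π y hm hπ)
  haveI : FaithfulSMul R ↥(integralClosure R 𝔽) := by
    rw [faithfulSMul_iff_algebraMap_injective]
    intro a b hab
    apply hinj
    have := congrArg (algebraMap ↥(integralClosure R 𝔽) 𝔽) hab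
    rwa [← IsScalarTower.algebraMap_apply, ← IsScalarTower.algebraMap_apply] at this
  obtain ⟨B, v, hv, hdb⟩ := hd _ (Module.finBasis R ↥(integralClosure R 𝔽))
  have key : ∀ (z : ↥(integralClosure R 𝔽)) (k : ℕ),
      algebraMap R ↥(integralClosure R 𝔽) π ∣
        z ^ 2 - algebraMap R ↥(integralClosure R 𝔽) y ^ k * z →
      ∃ z' : ↥(integralClosure R 𝔽), algebraMap R ↥(integralClosure R 𝔽) π ∣
        z - algebraMap R ↥(integralClosure R 𝔽) y ^ k * z' :=
    fun z k hz => local_normal π y hm hπ hy hπ0 hy0 hπy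
      (Module.finBasis R ↥(integralClosure R 𝔽)) ⟨B, v, hv, hdb⟩ z k hz
  -- the data
  obtain ⟨s, hsπ, hsε⟩ := hV.exists_mul_isIntegral hπp hε
  obtain ⟨k, u, r', hu, hsu⟩ := exists_eq_unit_mul_pow_add π y hm hπ hπy s hsπ
  obtain ⟨δ, hδ, hεδ⟩ := hε2
  obtain ⟨u', hu'⟩ := hu.exists_right_inv
  have hu'' : algebraMap R 𝔽 u * algebraMap R 𝔽 u' = 1 := by rw [← map_mul, hu', map_one]
  have hRV : ∀ a : R, IsIntegral V (algebraMap R 𝔽 a) := fun a =>
    hV.isIntegral_of_isIntegral hπp isIntegral_algebraMap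
  -- `z₂ = y ^ k ε + π δ₁`
  have hz₂ : IsIntegral R (algebraMap R 𝔽 u' * (algebraMap R 𝔽 s * ε)) :=
    isIntegral_algebraMap.mul hsε
  have hδ₁ : IsIntegral V (algebraMap R 𝔽 (u' * r') * ε) := (hRV _).mul hε
  have hz₂eq : algebraMap R 𝔽 u' * (algebraMap R 𝔽 s * ε) =
      algebraMap R 𝔽 y ^ k * ε + algebraMap R 𝔽 π * (algebraMap R 𝔽 (u' * r') * ε) := by
    rw [hsu, map_add, map_mul, map_mul, map_mul, map_pow]
    linear_combination (algebraMap R 𝔽 y ^ k * ε) * hu''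
  -- `z₂ ^ 2 - y ^ k z₂ = π δ₂`
  have hδ₂V : IsIntegral V (algebraMap R 𝔽 y ^ (2 * k) * δ +
      2 * algebraMap R 𝔽 y ^ k * ε * (algebraMap R 𝔽 (u' * r') * ε) +
      algebraMap R 𝔽 π * (algebraMap R 𝔽 (u' * r') * ε) ^ 2 -
      algebraMap R 𝔽 y ^ k * (algebraMap R 𝔽 (u' * r') * ε)) := by
    have h2 : IsIntegral V (2 : 𝔽) := by
      have := hRV 2
      rwa [map_ofNat] at this
    exact (((((hRV y).pow _).mul hδ).add (((h2.mul ((hRV y).pow _)).mul hε).mul hδ₁)).add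
      ((hRV π).mul (hδ₁.pow 2))).sub (((hRV y).pow _).mul hδ₁)
  have h2 : (algebraMap R 𝔽 u' * (algebraMap R 𝔽 s * ε)) ^ 2 -
      algebraMap R 𝔽 y ^ k * (algebraMap R 𝔽 u' * (algebraMap R 𝔽 s * ε)) =
      algebraMap R 𝔽 π * (algebraMap R 𝔽 y ^ (2 * k) * δ +
      2 * algebraMap R 𝔽 y ^ k * ε * (algebraMap R 𝔽 (u' * r') * ε) +
      algebraMap R 𝔽 π * (algebraMap R 𝔽 (u' * r') * ε) ^ 2 -
      algebraMap R 𝔽 y ^ k * (algebraMap R 𝔽 (u' * r') * ε)) := by
    rw [hz₂eq]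
    linear_combination (algebraMap R 𝔽 y ^ k) ^ 2 * hεδ
  have hδ₂R := hV.isIntegral_of_pi_mul K₁ hπp
    (by rw [← h2]; exact (hz₂.pow 2).sub ((isIntegral_algebraMap.pow k).mul hz₂)) hδ₂V
  have hdvd : algebraMap R ↥(integralClosure R 𝔽) π ∣
      (⟨_, hz₂⟩ : ↥(integralClosure R 𝔽)) ^ 2 -
        algebraMap R ↥(integralClosure R 𝔽) y ^ k * ⟨_, hz₂⟩ :=
    ⟨⟨_, hδ₂R⟩, Subtype.ext h2⟩
  obtain ⟨z', δ₃, hδ₃⟩ := key ⟨_, hz₂⟩ k hdvd
  have h3 : algebraMap R 𝔽 u' * (algebraMap R 𝔽 s * ε) - algebraMap R 𝔽 y ^ k * (z' : 𝔽) =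
      algebraMap R 𝔽 π * (δ₃ : 𝔽) := congrArg Subtype.val hδ₃
  have hyk : ¬ π ∣ y ^ k := fun h => hπy (hπp.dvd_of_dvd_pow h)
  have hyk0 : algebraMap R 𝔽 y ^ k ≠ 0 :=
    pow_ne_zero _ (fun h => hy0 (hinj (by rw [h, map_zero])))
  have hinv : (algebraMap R 𝔽 y ^ k)⁻¹ ∈ V := by
    have := hV.div_mem 1 (y ^ k) hyk
    rwa [map_one, one_div, map_pow] at this
  refine ⟨z', z'.2, ((δ₃ : 𝔽) - algebraMap R 𝔽 (u' * r') * ε) * (algebraMap R 𝔽 y ^ k)⁻¹,
    ((hV.isIntegral_of_isIntegral hπp δ₃.2).sub hδ₁).mul (isIntegral_of_mem hinv), ?_⟩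
  have h4 : algebraMap R 𝔽 y ^ k * (ε - (z' : 𝔽)) =
      algebraMap R 𝔽 π * ((δ₃ : 𝔽) - algebraMap R 𝔽 (u' * r') * ε) := by
    linear_combination h3 - hz₂eq
  rw [← mul_assoc, ← h4, mul_comm (algebraMap R 𝔽 y ^ k), mul_assoc, mul_inv_cancel₀ hyk0, mul_one]

end Lift

end Fermat.Agent.S18.LocalAbs
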