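import Fermat.Agent.S18.LocalRing

/-!
P11 (S18), ENGINE / LocalGlue: the factorisation shape of the local discriminant, abstract core.

`R = Localization.AtPrime (pt π f)`.  If an element `d ∈ R` is not divisible by `π` and by no
prime `p ∈ Λ[X]` of positive degree through the point without a root in the cusp set `C`, and the
cusps are pairwise distinct modulo `π`, and `f` is the cusp through the point if there is one,
then `d = unit · f ^ B`.
-/

set_option autoImplicit false

namespace Fermat.Agent.S18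

namespace LocalDisc

open Polynomial LocalRing

variable {Λ : Type*} [CommRing Λ] [IsDomain Λ] [IsDiscreteValuationRing Λ]

/-- a prime of `Λ[X]` of degree zero is associated to `π` -/
theorem associated_C_pi_of_natDegree_eq_zero {π : Λ} (hπ : Irreducible π) {p : Λ[X]}
    (hp : Prime p) (hdeg : p.natDegree = 0) : Associated p (C π) := by
  obtain ⟨c, rfl⟩ := natDegree_eq_zero.mp hdeg
  have hc : Prime c := Polynomial.prime_C_iff.mp hp
  exact (IsDiscreteValuationRing.associated_of_irreducible Λ hc.irreducible hπ).map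
    (C : Λ →+* Λ[X])

variable {π : Λ} {f : Λ[X]} [hP : (pt π f).IsPrime]

local notation "R" => Localization.AtPrime (pt π f)
local notation "φ" => algebraMap Λ[X] (Localization.AtPrime (pt π f))

/-- **Factorisation shape of the local discriminant (abstract core).** -/
theorem core (hπ : Irreducible π)
    (hfirr : Irreducible (f.map (Ideal.Quotient.mk (Ideal.span {π}))))
    (C : Finset Λ) (hC : ∀ c ∈ C, ∀ c' ∈ C, c ≠ c' → ¬ π ∣ c - c')
    (hcusp : (∃ c ∈ C, f = X - Polynomial.C c) ∨ (∀ c ∈ C, X - Polynomial.C c ∉ pt π f))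
    (d : R) (hD1 : ¬ φ (Polynomial.C π) ∣ d)
    (hD2 : ∀ p : Λ[X], Prime p → p ∈ pt π f → p.natDegree ≠ 0 → (∀ c ∈ C, p.eval c ≠ 0) →
      ¬ φ p ∣ d) :
    ∃ (B : ℕ) (v : R), IsUnit v ∧ d = v * φ f ^ B := by
  obtain ⟨d₀, s, hs, hds⟩ := exists_mul_eq d
  have hsu : IsUnit (φ s) := isUnit_of_not_mem hs
  have hd : d = φ d₀ * ((hsu.unit⁻¹ : Rˣ) : R) := by
    rw [← hds, mul_assoc, IsUnit.mul_val_inv, mul_one]
  have hd₀ : d₀ ≠ 0 := by
    rintro rfl
    apply hD1
    rw [hd, map_zero, zero_mul]
    exact dvd_zero _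
  have key : ∀ p : Λ[X], Prime p → p ∈ pt π f → p ∣ d₀ → Associated p f := by
    intro p hp hmem hpd
    have hφp : Prime (φ p) := prime_map hp hmem
    have hpd' : φ p ∣ d := by
      rw [hd]
      exact Dvd.dvd.mul_right ((algebraMap Λ[X] R).map_dvd hpd) _
    by_cases hdeg : p.natDegree = 0
    · exfalso
      have hassoc : Associated p (Polynomial.C π) := associated_C_pi_of_natDegree_eq_zero hπ hp hdeg
      exact hD1 ((hassoc.map (algebraMap Λ[X] R)).symm.dvd.trans hpd')
    by_cases hroot : ∀ c ∈ C, p.eval c ≠ 0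
    · exact absurd hpd' (hD2 p hp hmem hdeg hroot)
    push Not at hroot
    obtain ⟨c, hcC, hc0⟩ := hroot
    have hdvd : X - Polynomial.C c ∣ p := Polynomial.dvd_iff_isRoot.mpr hc0
    have hassoc : Associated (X - Polynomial.C c) p :=
      (Polynomial.prime_X_sub_C c).irreducible.associated_of_dvd hp.irreducible hdvd
    have hcmem : X - Polynomial.C c ∈ pt π f := by
      obtain ⟨u, hu⟩ := hassoc.symm
      rw [← hu]
      exact (pt π f).mul_mem_right _ hmem
    rcases hcusp with ⟨c₀, hc₀C, hf⟩ | hno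
    · have hc₀mem : X - Polynomial.C c₀ ∈ pt π f := hf ▸ self_mem_pt π f
      have hcc₀ : c = c₀ := by
        by_contra hne
        exact not_both_mem hπ hfirr (hC c hcC c₀ hc₀C hne) ⟨hcmem, hc₀mem⟩
      rw [hf, ← hcc₀]
      exact hassoc.symm
    · exact absurd hcmem (hno c hcC)
  obtain ⟨B, v, hv, hB⟩ := exists_eq_unit_mul_pow hd₀ key
  refine ⟨B, v * ((hsu.unit⁻¹ : Rˣ) : R), hv.mul (hsu.unit⁻¹).isUnit, ?_⟩
  rw [hd, hB]
  ring

end LocalDisc

end Fermat.Agent.S18
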