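import Fermat.Agent.S18.LocalRing
import Fermat.Agent.S18.LocalInst
import Fermat.Agent.S18.UnramPoly

/-!
P11 / S18 ENGINE (LocalGlue), (I4): the unramifiedness hypothesis `UnramAway K t C` of the
engine, transported to the local ring `R = Λ[X]_(π, f)`: for a prime `p ∈ (π, f)` of positive
degree without roots in `C`, an element `z` integral over `R` with `z ^ 2 / p(t)` integral over
`R` has `π ^ m * (z / p(t))` integral over `R` for some `m`.

This is exactly the hypothesis `hunr` of `LocalDisc.discr_eq_unit_mul_pow_gen`.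
-/

set_option autoImplicit false

namespace Fermat.Agent.S18

namespace LocalInstUnram

open Polynomial LocalRing

variable {Λ K 𝔽 : Type*} [CommRing Λ] [IsDomain Λ] [IsDiscreteValuationRing Λ]
  [Field K] [Algebra Λ K] [IsFractionRing Λ K] [Field 𝔽] [Algebra K 𝔽] [Algebra Λ 𝔽]
  [IsScalarTower Λ K 𝔽]

/-- **(I4)** the hypothesis `hunr` of `LocalDisc.discr_eq_unit_mul_pow_gen` from the engine
hypothesis `UnramAway K t C`. -/
theorem hunr_of_unramAway (π : Λ) (hπ : Irreducible π) (f : Λ[X]) [hP : (pt π f).IsPrime]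
    {K₁ : Type*} [Field K₁] [Algebra Λ[X] K₁] [IsFractionRing Λ[X] K₁] [Algebra K₁ 𝔽]
    [Algebra (Localization.AtPrime (pt π f)) K₁]
    [IsScalarTower Λ[X] (Localization.AtPrime (pt π f)) K₁]
    [Algebra (Localization.AtPrime (pt π f)) 𝔽]
    [IsScalarTower (Localization.AtPrime (pt π f)) K₁ 𝔽]
    (t : 𝔽) (hcompat : ∀ a : Λ[X], algebraMap K₁ 𝔽 (algebraMap Λ[X] K₁ a) = aeval t a)
    (C : Finset Λ) (hB2 : UnramAway K t (algebraMap Λ K '' (C : Set Λ))) :
    ∀ p : Λ[X], Prime p → p ∈ pt π f → p.natDegree ≠ 0 → (∀ c ∈ C, p.eval c ≠ 0) →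
      ∀ z : 𝔽, IsIntegral (Localization.AtPrime (pt π f)) z →
        IsIntegral (Localization.AtPrime (pt π f))
          (z ^ 2 / algebraMap (Localization.AtPrime (pt π f)) 𝔽
            (algebraMap Λ[X] (Localization.AtPrime (pt π f)) p)) →
        ∃ m : ℕ, IsIntegral (Localization.AtPrime (pt π f))
          (algebraMap (Localization.AtPrime (pt π f)) 𝔽
              (algebraMap Λ[X] (Localization.AtPrime (pt π f)) (Polynomial.C π)) ^ m *
            (z / algebraMap (Localization.AtPrime (pt π f)) 𝔽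
              (algebraMap Λ[X] (Localization.AtPrime (pt π f)) p))) := by
  intro p hp _hmem hdeg hpC z hz hz2
  have hA := LocalInst.algebraMap_apply t hcompat (pt π f)
  rw [hA] at hz2
  rw [hA, hA]
  obtain ⟨a, ha, hza⟩ := LocalInst.exists_isIntegral_adjoin t hcompat (pt π f) hz
  obtain ⟨a', ha', hza'⟩ := LocalInst.exists_isIntegral_adjoin t hcompat (pt π f) hz2
  have hs : a * a' ∉ pt π f := fun h => (hP.mem_or_mem h).elim ha ha'
  have hmemA : ∀ b : Λ[X], IsIntegral (Algebra.adjoin Λ {t}) (aeval t b) := fun b =>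
    LocalBase.isIntegral_of_mem (V := (Algebra.adjoin Λ {t}).toSubring) (by
      show aeval t b ∈ Algebra.adjoin Λ {t}
      rw [Algebra.adjoin_singleton_eq_range_aeval]
      exact ⟨b, rfl⟩)
  have hz'1 : IsIntegral (Algebra.adjoin Λ {t}) (aeval t (a * a') * z) := by
    have h := (hmemA a').mul hza
    have e : aeval t (a * a') * z = aeval t a' * (aeval t a * z) := by
      rw [map_mul]; ring
    rw [e]
    exact h
  have hz'2 : IsIntegral (Algebra.adjoin Λ {t}) ((aeval t (a * a') * z) ^ 2 / aeval t p) := by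
    have h := (hmemA (a ^ 2 * a')).mul hza'
    have e : (aeval t (a * a') * z) ^ 2 / aeval t p =
        aeval t (a ^ 2 * a') * (aeval t a' * (z ^ 2 / aeval t p)) := by
      rw [map_mul, map_mul, map_pow]; ring
    rw [e]
    exact h
  obtain ⟨m, hm⟩ := UnramPoly.unramAway_poly (K := K) π hπ t C hB2 p hp hdeg hpC _ hz'1 hz'2
  rw [Algebra.smul_def, map_pow] at hm
  refine ⟨m, ?_⟩
  have h1 := LocalInst.isIntegral_of_isIntegral_adjoin t hcompat (pt π f) hm
  obtain ⟨u, hu⟩ := isUnit_of_not_mem hs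
  have h2 : IsIntegral (Localization.AtPrime (pt π f))
      (algebraMap (Localization.AtPrime (pt π f)) 𝔽 ((u⁻¹ : (Localization.AtPrime (pt π f))ˣ) :
        Localization.AtPrime (pt π f))) := isIntegral_algebraMap
  have h3 := h2.mul h1
  have e1 : algebraMap (Localization.AtPrime (pt π f)) 𝔽
      ((u⁻¹ : (Localization.AtPrime (pt π f))ˣ) : Localization.AtPrime (pt π f)) *
      aeval t (a * a') = 1 := by
    rw [← hA, ← hu, ← map_mul, Units.inv_mul, map_one]
  have e2 : aeval t (Polynomial.C π) ^ m * (z / aeval t p) =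
      algebraMap (Localization.AtPrime (pt π f)) 𝔽
        ((u⁻¹ : (Localization.AtPrime (pt π f))ˣ) : Localization.AtPrime (pt π f)) *
      (algebraMap Λ 𝔽 π ^ m * (aeval t (a * a') * z / aeval t p)) := by
    rw [aeval_C]
    calc algebraMap Λ 𝔽 π ^ m * (z / aeval t p)
        = (algebraMap (Localization.AtPrime (pt π f)) 𝔽
            ((u⁻¹ : (Localization.AtPrime (pt π f))ˣ) : Localization.AtPrime (pt π f)) *
            aeval t (a * a')) * (algebraMap Λ 𝔽 π ^ m * (z / aeval t p)) := by
          rw [e1, one_mul]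
      _ = _ := by ring
  rw [e2]
  exact h3

end LocalInstUnram

end Fermat.Agent.S18
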