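import Fermat.Agent.S18.Disc1Normal
import Fermat.Agent.S18.Disc2
import Fermat.Agent.S18.QuotBasis
import Fermat.Agent.S18.QuotDvr

/-!
# The local engine, normality form

Same hypotheses as `local_normal` (`S18/LocalNormal.lean`): `R` a 2-dimensional regular local
ring with parameters `π, y`, `S` a normal domain, finite free over `R`, with discriminant a unit
times a power of `y`.  Then every localisation of `S ⧸ πS` at a maximal ideal is a discrete
valuation ring (`local_normal_dvr`).
-/

namespace Fermat.Agent.S18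

open Module

theorem local_normal_dvr {R S : Type*} [CommRing R] [IsDomain R] [IsNoetherianRing R]
    [IsLocalRing R]
    [CommRing S] [IsDomain S] [IsIntegrallyClosed S] [Algebra R S] [Module.Finite R S]
    [Module.Free R S] [FaithfulSMul R S]
    (π y : R) (hm : IsLocalRing.maximalIdeal R = Ideal.span {π, y})
    (hπ : (Ideal.span {π} : Ideal R).IsPrime) (hy : (Ideal.span {y} : Ideal R).IsPrime)
    (hπ0 : π ≠ 0) (hy0 : y ≠ 0) (hπy : ¬ π ∣ y)
    [CharZero (R ⧸ Ideal.span {y})]
    {ι : Type*} [Fintype ι] [DecidableEq ι] (b : Basis ι R S)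
    (hd : ∃ (B : ℕ) (v : R), IsUnit v ∧ Algebra.discr R b = v * y ^ B)
    (M : Ideal (S ⧸ (Ideal.span {π}).map (algebraMap R S))) [M.IsMaximal] :
    ∃ _ : IsDomain (Localization.AtPrime M), IsDiscreteValuationRing (Localization.AtPrime M) := by
  classical
  obtain ⟨r, c, hspan, hindep⟩ := exists_spanning_indep (R := R)
    ((Ideal.map (algebraMap R S) (IsLocalRing.maximalIdeal R)).radical)
  have h2 := disc2 π y hm hπ hy hπ0 hy0 hπy b r c hindep
  obtain ⟨B, v, hv, hdisc⟩ := hd
  have hB : B ≤ Fintype.card ι - r := by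
    by_contra hcon
    push Not at hcon
    apply h2
    rw [hdisc]
    exact Dvd.dvd.mul_left (pow_dvd_pow y (by omega)) v
  obtain ⟨hdom, hdvr, hirr⟩ := exists_isDiscreteValuationRing_quotient π y hm hπ hπy
  obtain ⟨b', -, -, -, hdiscr'⟩ := exists_basis_quotient (Ideal.span {π}) b
  have hd' : ¬ (Ideal.Quotient.mk (Ideal.span {π}) y) ^ (Fintype.card ι - r + 1) ∣
      Algebra.discr (R ⧸ Ideal.span {π}) b' := by
    rw [hdiscr', hdisc, map_mul, map_pow]
    intro hdvd
    have h1 : (Ideal.Quotient.mk (Ideal.span {π}) y) ^ (B + 1) ∣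
        Ideal.Quotient.mk (Ideal.span {π}) v * (Ideal.Quotient.mk (Ideal.span {π}) y) ^ B :=
      (pow_dvd_pow _ (by omega)).trans hdvd
    have h3 : Ideal.Quotient.mk (Ideal.span {π}) y ∣ Ideal.Quotient.mk (Ideal.span {π}) v := by
      rw [pow_succ, mul_comm (Ideal.Quotient.mk (Ideal.span {π}) v)] at h1
      exact (mul_dvd_mul_iff_left (pow_ne_zero B hirr.ne_zero)).mp h1
    exact hirr.not_isUnit (isUnit_of_dvd_unit h3 (hv.map _))
  have hc' : ∀ x : S ⧸ (Ideal.span {π}).map (algebraMap R S),
      ∃ a : Fin r → R ⧸ Ideal.span {π},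
        x - ∑ i, a i • (Ideal.Quotient.mk ((Ideal.span {π}).map (algebraMap R S)) (c i)) ∈
          (Ideal.span {algebraMap (R ⧸ Ideal.span {π})
            (S ⧸ (Ideal.span {π}).map (algebraMap R S))
            (Ideal.Quotient.mk (Ideal.span {π}) y)}).radical := by
    intro x
    obtain ⟨x, rfl⟩ := Ideal.Quotient.mk_surjective x
    obtain ⟨a, N, hN⟩ := hspan x
    refine ⟨fun i => Ideal.Quotient.mk (Ideal.span {π}) (a i), N, ?_⟩
    have h1 : Ideal.Quotient.mk ((Ideal.span {π}).map (algebraMap R S)) x -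
        ∑ i, Ideal.Quotient.mk (Ideal.span {π}) (a i) •
          Ideal.Quotient.mk ((Ideal.span {π}).map (algebraMap R S)) (c i) =
        Ideal.Quotient.mk ((Ideal.span {π}).map (algebraMap R S)) (x - ∑ i, a i • c i) := by
      rw [map_sub, map_sum]
      congr 1
    rw [h1, ← map_pow]
    rw [hm, Ideal.map_span, Set.image_pair, Ideal.mem_span_pair] at hN
    obtain ⟨s₁, s₂, hs⟩ := hN
    rw [← hs, map_add, map_mul, map_mul]
    have h0 : Ideal.Quotient.mk ((Ideal.span {π}).map (algebraMap R S)) (algebraMap R S π) = 0 :=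
      Ideal.Quotient.eq_zero_iff_mem.mpr
        (Ideal.mem_map_of_mem _ (Ideal.mem_span_singleton_self π))
    rw [h0, mul_zero, zero_add, ← Ideal.Quotient.algebraMap_quotient_map_quotient]
    exact Ideal.mul_mem_left _ _ (Ideal.mem_span_singleton_self _)
  exact disc1_dvr b' (Ideal.Quotient.mk (Ideal.span {π}) y) hirr r
    (fun i => Ideal.Quotient.mk ((Ideal.span {π}).map (algebraMap R S)) (c i)) hc' hd' M

end Fermat.Agent.S18
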