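import Fermat.Agent.S18.LocalRing

/-!
P11 (S18), ENGINE / LocalGlue: choice of the local parameter `f` at a closed point of the special
fibre: if a cusp `X - c` (`c ∈ C`) passes through the point we take `f = X - c`, otherwise any
monic lift of the irreducible polynomial defining the point.
-/

set_option autoImplicit false

namespace Fermat.Agent.S18

namespace LocalRing

open Polynomial

variable {Λ : Type*} [CommRing Λ] [IsDomain Λ] [IsDiscreteValuationRing Λ]

/-- Every maximal ideal of `Λ[X]` containing `π` is `pt π f` for a monic `f` with irreducible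
reduction which is the cusp through the point if there is one. -/
theorem exists_eq_pt_cusp {π : Λ} (hπ : Irreducible π) (C : Finset Λ) (𝔫 : Ideal Λ[X])
    (h𝔫 : 𝔫.IsMaximal) (h : Polynomial.C π ∈ 𝔫) :
    ∃ f : Λ[X], f.Monic ∧ Irreducible (f.map (Ideal.Quotient.mk (Ideal.span {π}))) ∧
      𝔫 = pt π f ∧
      ((∃ c ∈ C, f = X - Polynomial.C c) ∨ (∀ c ∈ C, X - Polynomial.C c ∉ pt π f)) := by
  obtain ⟨f₀, hf₀, hirr₀, rfl⟩ := exists_eq_pt hπ 𝔫 h𝔫 h
  by_cases hc : ∃ c ∈ C, X - Polynomial.C c ∈ pt π f₀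
  · obtain ⟨c, hcC, hcmem⟩ := hc
    exact ⟨X - Polynomial.C c, Polynomial.monic_X_sub_C c, irreducible_map_X_sub_C hπ c,
      pt_eq_of_X_sub_C_mem hπ hirr₀ hcmem, Or.inl ⟨c, hcC, rfl⟩⟩
  · push Not at hc
    exact ⟨f₀, hf₀, hirr₀, rfl, Or.inr hc⟩

end LocalRing

end Fermat.Agent.S18
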