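import Mathlib

/-!
P11 (S18), ENGINE / LocalGlue support: the local rings of `Spec Λ[X]` at the closed points of
the special fibre, for a discrete valuation ring `Λ` with uniformiser `π`.

A closed point of the special fibre is `pt π f = (π, f)` for a monic `f ∈ Λ[X]` whose reduction
modulo `π` is irreducible.  `R = Localization.AtPrime (pt π f)` is a two-dimensional regular local
domain with parameters `π, f`; we collect the elementwise facts used by the local discriminant
argument (primes of `R`, characteristic of `R / p`, factorisation shape, `R / π` is a DVR with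
uniformiser `f`).
-/

set_option autoImplicit false

namespace Fermat.Agent.S18

namespace LocalRing

open Polynomial

variable {Λ : Type*} [CommRing Λ] [IsDomain Λ] [IsDiscreteValuationRing Λ]

/-- the closed point `(π, f)` of `Spec Λ[X]` -/
noncomputable def pt (π : Λ) (f : Λ[X]) : Ideal Λ[X] := Ideal.span {C π, f}

omit [IsDomain Λ] [IsDiscreteValuationRing Λ] in
theorem C_mem_pt (π : Λ) (f : Λ[X]) : C π ∈ pt π f :=
  Ideal.subset_span (Set.mem_insert _ _)

omit [IsDomain Λ] [IsDiscreteValuationRing Λ] in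
theorem self_mem_pt (π : Λ) (f : Λ[X]) : f ∈ pt π f :=
  Ideal.subset_span (Set.mem_insert_of_mem _ rfl)

section Point

variable {π : Λ} {f : Λ[X]}

omit [IsDomain Λ] [IsDiscreteValuationRing Λ] in
/-- membership in `(π, f)` is divisibility by `f` modulo `π` -/
theorem mem_pt_iff (a : Λ[X]) :
    a ∈ pt π f ↔ f.map (Ideal.Quotient.mk (Ideal.span {π})) ∣
      a.map (Ideal.Quotient.mk (Ideal.span {π})) := by
  constructor
  · intro h
    obtain ⟨c, d, rfl⟩ := Ideal.mem_span_pair.mp h
    rw [Polynomial.map_add, Polynomial.map_mul, Polynomial.map_mul, Polynomial.map_C,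
      Ideal.Quotient.eq_zero_iff_mem.mpr (Ideal.mem_span_singleton_self π), map_zero, mul_zero,
      zero_add]
    exact Dvd.intro_left _ rfl
  · rintro ⟨g', hg'⟩
    obtain ⟨g, rfl⟩ := Polynomial.map_surjective (Ideal.Quotient.mk (Ideal.span {π}))
      Ideal.Quotient.mk_surjective g'
    have h0 : (a - f * g).map (Ideal.Quotient.mk (Ideal.span {π})) = 0 := by
      rw [Polynomial.map_sub, Polynomial.map_mul, hg', sub_self]
    have h1 : C π ∣ a - f * g := by
      rw [Polynomial.C_dvd_iff_dvd_coeff]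
      intro i
      have := congrArg (fun q => q.coeff i) h0
      simp only [Polynomial.coeff_map, Polynomial.coeff_zero] at this
      exact Ideal.mem_span_singleton.mp (Ideal.Quotient.eq_zero_iff_mem.mp this)
    obtain ⟨h, hh⟩ := h1
    have : a = h * C π + g * f := by
      linear_combination hh
    rw [this]
    exact Ideal.mem_span_pair.mpr ⟨h, g, rfl⟩

variable (hπ : Irreducible π) (hf : f.Monic)
  (hfirr : Irreducible (f.map (Ideal.Quotient.mk (Ideal.span {π}))))

include hπ in
theorem isMaximal_span_pi : (Ideal.span {π} : Ideal Λ).IsMaximal :=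
  PrincipalIdealRing.isMaximal_of_irreducible hπ

omit [IsDomain Λ] [IsDiscreteValuationRing Λ] in
theorem pt_eq_comap (π : Λ) (f : Λ[X]) :
    pt π f = Ideal.comap (Polynomial.mapRingHom (Ideal.Quotient.mk (Ideal.span {π})))
      (Ideal.span {f.map (Ideal.Quotient.mk (Ideal.span {π}))}) := by
  ext a
  rw [mem_pt_iff, Ideal.mem_comap, Ideal.mem_span_singleton]
  rfl

include hπ hfirr in
/-- `(π, f)` is a maximal ideal of `Λ[X]` -/
theorem pt_isMaximal : (pt π f).IsMaximal := by
  have := isMaximal_span_pi hπ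
  let _ : Field (Λ ⧸ Ideal.span {π}) := Ideal.Quotient.field _
  have hmax : (Ideal.span {f.map (Ideal.Quotient.mk (Ideal.span {π}))} :
      Ideal (Λ ⧸ Ideal.span {π})[X]).IsMaximal :=
    PrincipalIdealRing.isMaximal_of_irreducible hfirr
  rw [pt_eq_comap]
  exact Ideal.comap_isMaximal_of_surjective _
    (Polynomial.map_surjective _ Ideal.Quotient.mk_surjective)

include hπ in
/-- every maximal ideal of `Λ[X]` containing `π` is of the form `(π, f)` -/
theorem exists_eq_pt (𝔫 : Ideal Λ[X]) (h𝔫 : 𝔫.IsMaximal) (h : C π ∈ 𝔫) :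
    ∃ f : Λ[X], f.Monic ∧ Irreducible (f.map (Ideal.Quotient.mk (Ideal.span {π}))) ∧
      𝔫 = pt π f := by
  have := isMaximal_span_pi hπ
  let _ : Field (Λ ⧸ Ideal.span {π}) := Ideal.Quotient.field _
  set ρ : Λ[X] →+* (Λ ⧸ Ideal.span {π})[X] :=
    Polynomial.mapRingHom (Ideal.Quotient.mk (Ideal.span {π})) with hρ
  have hρs : Function.Surjective ρ := Polynomial.map_surjective _ Ideal.Quotient.mk_surjective
  have hker : Ideal.comap ρ ⊥ ≤ 𝔫 := by
    intro a ha
    rw [Ideal.mem_comap, Ideal.mem_bot] at ha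
    have h1 : C π ∣ a := by
      rw [Polynomial.C_dvd_iff_dvd_coeff]
      intro i
      have := congrArg (fun q => q.coeff i) ha
      simp only [hρ, Polynomial.coe_mapRingHom, Polynomial.coeff_map, Polynomial.coeff_zero]
        at this
      exact Ideal.mem_span_singleton.mp (Ideal.Quotient.eq_zero_iff_mem.mp this)
    obtain ⟨b, rfl⟩ := h1
    exact 𝔫.mul_mem_right _ h
  have hcm : Ideal.comap ρ (Ideal.map ρ 𝔫) = 𝔫 := by
    rw [Ideal.comap_map_of_surjective ρ hρs, sup_eq_left]
    exact hker
  have hmax : (Ideal.map ρ 𝔫).IsMaximal := by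
    rcases Ideal.map_eq_top_or_isMaximal_of_surjective ρ hρs h𝔫 with h1 | h1
    · exfalso
      rw [h1, Ideal.comap_top] at hcm
      exact h𝔫.ne_top hcm.symm
    · exact h1
  obtain ⟨g, hg⟩ := (IsPrincipalIdealRing.principal (Ideal.map ρ 𝔫)).principal
  rw [Ideal.submodule_span_eq] at hg
  have hg0 : g ≠ 0 := by
    rintro rfl
    rw [Set.singleton_zero, Ideal.span_zero] at hg
    rw [hg] at hmax
    exact Polynomial.not_isField _ (Ring.isField_iff_maximal_bot.mpr hmax)
  have hgirr : Irreducible g := by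
    have hprime : (Ideal.span {g} : Ideal (Λ ⧸ Ideal.span {π})[X]).IsPrime := hg ▸ hmax.isPrime
    exact ((Ideal.span_singleton_prime hg0).mp hprime).irreducible
  have hmonic : (g * C g.leadingCoeff⁻¹).Monic := Polynomial.monic_mul_leadingCoeff_inv hg0
  have hassoc : Associated g (g * C g.leadingCoeff⁻¹) := by
    refine ⟨(Polynomial.isUnit_C.mpr ?_).unit, rfl⟩
    exact (inv_ne_zero (Polynomial.leadingCoeff_ne_zero.mpr hg0)).isUnit
  have hlift : g * C g.leadingCoeff⁻¹ ∈ Polynomial.lifts (Ideal.Quotient.mk (Ideal.span {π})) := by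
    rw [Polynomial.mem_lifts]
    exact Polynomial.map_surjective _ Ideal.Quotient.mk_surjective _
  obtain ⟨f, hfmap, -, hfmonic⟩ := Polynomial.lifts_and_natDegree_eq_and_monic hlift hmonic
  refine ⟨f, hfmonic, ?_, ?_⟩
  · rw [hfmap]
    exact hassoc.irreducible hgirr
  · rw [pt_eq_comap, hfmap, ← Ideal.span_singleton_eq_span_singleton.mpr hassoc, ← hg, hcm]

include hπ in
theorem prime_C_pi : Prime (C π : Λ[X]) :=
  Polynomial.prime_C_iff.mpr hπ.prime

include hπ hf hfirr in
/-- a monic polynomial with irreducible reduction is a prime element of `Λ[X]` -/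
theorem prime_of_monic : Prime f := by
  have := isMaximal_span_pi hπ
  have hirr : Irreducible f :=
    Polynomial.Monic.irreducible_of_irreducible_map (Ideal.Quotient.mk (Ideal.span {π})) f hf hfirr
  exact UniqueFactorizationMonoid.irreducible_iff_prime.mp hirr

omit [IsDomain Λ] [IsDiscreteValuationRing Λ] in
include hπ hf in
theorem not_C_pi_dvd : ¬ (C π : Λ[X]) ∣ f := by
  intro h
  have h1 := (Polynomial.C_dvd_iff_dvd_coeff π f).mp h f.natDegree
  rw [Polynomial.coeff_natDegree, hf.leadingCoeff] at h1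
  exact hπ.not_isUnit (isUnit_of_dvd_one h1)

include hπ in
/-- cusps: a linear polynomial satisfies the hypothesis bundle -/
theorem irreducible_map_X_sub_C (c : Λ) :
    Irreducible ((X - C c : Λ[X]).map (Ideal.Quotient.mk (Ideal.span {π}))) := by
  have := isMaximal_span_pi hπ
  let _ : Field (Λ ⧸ Ideal.span {π}) := Ideal.Quotient.field _
  rw [Polynomial.map_sub, Polynomial.map_X, Polynomial.map_C]
  exact Polynomial.irreducible_X_sub_C _

include hπ hfirr in
theorem pt_eq_of_X_sub_C_mem {c : Λ} (h : X - C c ∈ pt π f) : pt π f = pt π (X - C c) := by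
  have hmax : (pt π (X - C c)).IsMaximal := pt_isMaximal hπ (irreducible_map_X_sub_C hπ c)
  have hle : pt π (X - C c) ≤ pt π f := by
    rw [pt, Ideal.span_le]
    rintro x (rfl | rfl)
    · exact C_mem_pt π f
    · exact h
  exact (hmax.eq_of_le (pt_isMaximal hπ hfirr).ne_top hle).symm

include hπ hfirr in
/-- two cusps which are distinct modulo `π` do not pass through the same closed point -/
theorem not_both_mem {c c' : Λ} (hcc' : ¬ π ∣ c - c') :
    ¬ (X - C c ∈ pt π f ∧ X - C c' ∈ pt π f) := by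
  rintro ⟨h1, h2⟩
  have h3 : C (c - c') ∈ pt π f := by
    have : (C (c - c') : Λ[X]) = (X - C c') - (X - C c) := by
      rw [C_sub]; ring
    rw [this]
    exact (pt π f).sub_mem h2 h1
  have hu : IsUnit (c - c') := by
    by_contra hnu
    have hmem : c - c' ∈ IsLocalRing.maximalIdeal Λ := hnu
    rw [hπ.maximalIdeal_eq, Ideal.mem_span_singleton] at hmem
    exact hcc' hmem
  exact (pt_isMaximal hπ hfirr).ne_top
    (Ideal.eq_top_of_isUnit_mem _ h3 (Polynomial.isUnit_C.mpr hu))

end Point

omit [IsDomain Λ] [IsDiscreteValuationRing Λ] in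
/-- a polynomial which vanishes modulo `π` is divisible by `π` -/
theorem C_dvd_of_map_eq_zero {π : Λ} {a : Λ[X]}
    (h : a.map (Ideal.Quotient.mk (Ideal.span {π})) = 0) : C π ∣ a := by
  rw [Polynomial.C_dvd_iff_dvd_coeff]
  intro i
  have := congrArg (fun q => q.coeff i) h
  simp only [Polynomial.coeff_map, Polynomial.coeff_zero] at this
  exact Ideal.mem_span_singleton.mp (Ideal.Quotient.eq_zero_iff_mem.mp this)

section Local

variable {π : Λ} {f : Λ[X]} [hP : (pt π f).IsPrime]

local notation "R" => Localization.AtPrime (pt π f)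
local notation "φ" => algebraMap Λ[X] (Localization.AtPrime (pt π f))

omit [IsDiscreteValuationRing Λ] in
theorem algebraMap_injective : Function.Injective φ :=
  IsLocalization.injective R (pt π f).primeCompl_le_nonZeroDivisors

omit [IsDomain Λ] [IsDiscreteValuationRing Λ] in
theorem maximalIdeal_eq : IsLocalRing.maximalIdeal R = Ideal.span {φ (C π), φ f} := by
  have h := IsLocalization.AtPrime.map_eq_maximalIdeal (pt π f) R
  rw [← h]
  show Ideal.map φ (Ideal.span {C π, f}) = _
  rw [Ideal.map_span, Set.image_pair]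

instance isIntegrallyClosed : IsIntegrallyClosed R :=
  isIntegrallyClosed_of_isLocalization R (pt π f).primeCompl
    (pt π f).primeCompl_le_nonZeroDivisors

omit [IsDomain Λ] [IsDiscreteValuationRing Λ] in
theorem isUnit_of_not_mem {s : Λ[X]} (hs : s ∉ pt π f) : IsUnit (φ s) :=
  IsLocalization.map_units R (⟨s, hs⟩ : (pt π f).primeCompl)

omit [IsDomain Λ] [IsDiscreteValuationRing Λ] in
theorem exists_mul_eq (r : R) : ∃ a s : Λ[X], s ∉ pt π f ∧ r * φ s = φ a := by
  obtain ⟨⟨a, s⟩, h⟩ := IsLocalization.surj (pt π f).primeCompl r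
  exact ⟨a, s, s.2, h⟩

omit [IsDomain Λ] [IsDiscreteValuationRing Λ] in
theorem disjoint_span {p : Λ[X]} (hmem : p ∈ pt π f) :
    Disjoint ((pt π f).primeCompl : Set Λ[X]) (Ideal.span {p} : Ideal Λ[X]) := by
  rw [Set.disjoint_left]
  intro x hx hxp
  exact hx ((Ideal.span_singleton_le_iff_mem _).mpr hmem hxp)

omit [IsDiscreteValuationRing Λ] in
/-- a prime element of `Λ[X]` passing through the point stays prime in the local ring -/
theorem prime_map {p : Λ[X]} (hp : Prime p) (hmem : p ∈ pt π f) : Prime (φ p) := by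
  have hI : (Ideal.span {p} : Ideal Λ[X]).IsPrime :=
    (Ideal.span_singleton_prime hp.ne_zero).mpr hp
  have h1 := IsLocalization.isPrime_of_isPrime_disjoint (pt π f).primeCompl R _ hI
    (disjoint_span hmem)
  rw [Ideal.map_span, Set.image_singleton] at h1
  have h0 : φ p ≠ 0 := fun h => hp.ne_zero (algebraMap_injective (by rw [h, map_zero]))
  exact (Ideal.span_singleton_prime h0).mp h1

omit [IsDomain Λ] [IsDiscreteValuationRing Λ] in
/-- divisibility by a prime through the point can be tested in the local ring -/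
theorem dvd_of_map_dvd {p : Λ[X]} (hp : Prime p) (hmem : p ∈ pt π f) {a : Λ[X]}
    (h : φ p ∣ φ a) : p ∣ a := by
  have hI : (Ideal.span {p} : Ideal Λ[X]).IsPrime :=
    (Ideal.span_singleton_prime hp.ne_zero).mpr hp
  have h1 := IsLocalization.under_map_of_isPrime_disjoint (pt π f).primeCompl R hI
    (disjoint_span hmem)
  have h2 : a ∈ (Ideal.map φ (Ideal.span {p})).under Λ[X] := by
    rw [Ideal.under_def, Ideal.mem_comap, Ideal.map_span, Set.image_singleton,
      Ideal.mem_span_singleton]
    exact h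
  rw [h1] at h2
  exact Ideal.mem_span_singleton.mp h2

/-- `R / p` has characteristic zero for every prime `p ≠ π` through the point -/
theorem charZero_quotient [CharZero Λ] {p : Λ[X]} (hp : Prime p) (hmem : p ∈ pt π f)
    (hπ : Irreducible π) (hpπ : ¬ Associated p (C π)) :
    CharZero (R ⧸ Ideal.span {φ p}) := by
  apply charZero_of_inj_zero
  intro n hn
  by_contra hn0
  have h1 : (n : R) ∈ Ideal.span {φ p} := by
    rw [← Ideal.Quotient.eq_zero_iff_mem, map_natCast]
    exact hn
  rw [Ideal.mem_span_singleton] at h1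
  have h2 : φ p ∣ φ (C (n : Λ)) := by
    have : φ (C (n : Λ)) = (n : R) := by
      rw [Polynomial.C_eq_natCast, map_natCast]
    rw [this]
    exact h1
  have h3 : p ∣ C (n : Λ) := dvd_of_map_dvd hp hmem h2
  have hn' : (n : Λ) ≠ 0 := Nat.cast_ne_zero.mpr hn0
  have hCn : (C (n : Λ) : Λ[X]) ≠ 0 := C_ne_zero.mpr hn'
  obtain ⟨q, hq⟩ := h3
  have hq0 : q ≠ 0 := by
    rintro rfl
    rw [mul_zero] at hq
    exact hCn hq
  have hdeg : p.natDegree = 0 := by
    have := congrArg natDegree hq
    rw [natDegree_C, natDegree_mul hp.ne_zero hq0] at this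
    omega
  obtain ⟨c, rfl⟩ := natDegree_eq_zero.mp hdeg
  have hc : Prime c := Polynomial.prime_C_iff.mp hp
  have hassoc : Associated c π :=
    IsDiscreteValuationRing.associated_of_irreducible Λ hc.irreducible hπ
  exact hpπ (hassoc.map (C : Λ →+* Λ[X]))

/-- factorisation shape: an element of `Λ[X]` whose only prime factors through the point are
associated to `f` is a unit times a power of `f` in the local ring -/
theorem exists_eq_unit_mul_pow {d₀ : Λ[X]} (hd₀ : d₀ ≠ 0)
    (h : ∀ p : Λ[X], Prime p → p ∈ pt π f → p ∣ d₀ → Associated p f) :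
    ∃ (B : ℕ) (v : R), IsUnit v ∧ φ d₀ = v * φ f ^ B := by
  revert hd₀ h
  refine UniqueFactorizationMonoid.induction_on_prime d₀ ?_ ?_ ?_
  · intro h0
    exact absurd rfl h0
  · intro x hx _ _
    exact ⟨0, φ x, hx.map φ, by rw [pow_zero, mul_one]⟩
  · intro a p ha0 hp ih _ h
    obtain ⟨B, v, hv, hB⟩ := ih ha0 (fun q hq hqm hqa => h q hq hqm (Dvd.dvd.mul_left hqa p))
    by_cases hpm : p ∈ pt π f
    · obtain ⟨u, hu⟩ := h p hp hpm (dvd_mul_right p a)
      refine ⟨B + 1, v * φ ((u⁻¹ : Λ[X]ˣ) : Λ[X]), hv.mul ((u⁻¹).isUnit.map φ), ?_⟩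
      have hp' : p = f * ((u⁻¹ : Λ[X]ˣ) : Λ[X]) := by
        rw [← hu, mul_assoc, Units.mul_inv, mul_one]
      rw [map_mul, hB]
      conv_lhs => rw [hp']
      rw [map_mul]
      ring
    · exact ⟨B, φ p * v, (isUnit_of_not_mem hpm).mul hv, by rw [map_mul, hB]; ring⟩

variable (hπ : Irreducible π)

include hπ in
theorem isPrime_span_C_pi : (Ideal.span {φ (C π)} : Ideal R).IsPrime := by
  have h := prime_map (f := f) (prime_C_pi hπ) (C_mem_pt π f)
  exact (Ideal.span_singleton_prime h.ne_zero).mpr h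

include hπ in
theorem map_C_pi_ne_zero : φ (C π) ≠ 0 :=
  (prime_map (f := f) (prime_C_pi hπ) (C_mem_pt π f)).ne_zero

variable (hf : f.Monic)

include hf in
theorem map_f_ne_zero : φ f ≠ 0 := fun h =>
  hf.ne_zero (algebraMap_injective (by rw [h, map_zero]))

include hπ hf in
theorem not_map_C_pi_dvd_map_f : ¬ φ (C π) ∣ φ f := fun h =>
  not_C_pi_dvd hπ hf (dvd_of_map_dvd (prime_C_pi hπ) (C_mem_pt π f) h)

variable (hfirr : Irreducible (f.map (Ideal.Quotient.mk (Ideal.span {π}))))

include hπ hf hfirr in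
theorem isPrime_span_f : (Ideal.span {φ f} : Ideal R).IsPrime := by
  have h := prime_map (f := f) (prime_of_monic hπ hf hfirr) (self_mem_pt π f)
  exact (Ideal.span_singleton_prime h.ne_zero).mpr h

include hπ hf hfirr in
theorem charZero_quotient_f [CharZero Λ] : CharZero (R ⧸ Ideal.span {φ f}) :=
  charZero_quotient (prime_of_monic hπ hf hfirr) (self_mem_pt π f) hπ
    (fun h => not_C_pi_dvd hπ hf h.symm.dvd)

include hπ hf hfirr in
/-- `R / π` is a discrete valuation ring with uniformiser the class of `f` (usable form) -/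
theorem exists_eq_unit_mul_pow_add (r : R) (hr : ¬ φ (C π) ∣ r) :
    ∃ (k : ℕ) (u r' : R), IsUnit u ∧ r = u * φ f ^ k + φ (C π) * r' := by
  have _ := hf
  have := isMaximal_span_pi hπ
  let _ : Field (Λ ⧸ Ideal.span {π}) := Ideal.Quotient.field _
  obtain ⟨a, s, hs, has⟩ := exists_mul_eq r
  have hsu : IsUnit (φ s) := isUnit_of_not_mem hs
  have ha0 : a.map (Ideal.Quotient.mk (Ideal.span {π})) ≠ 0 := by
    intro h0
    obtain ⟨b, rfl⟩ := C_dvd_of_map_eq_zero h0
    apply hr
    refine ⟨φ b * ((hsu.unit⁻¹ : Rˣ) : R), ?_⟩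
    have : r = r * φ s * ((hsu.unit⁻¹ : Rˣ) : R) := by
      rw [mul_assoc, IsUnit.mul_val_inv, mul_one]
    rw [this, has, map_mul]
    ring
  obtain ⟨k, g', hg', hag'⟩ := WfDvdMonoid.max_power_factor ha0 hfirr
  obtain ⟨g, rfl⟩ := Polynomial.map_surjective (Ideal.Quotient.mk (Ideal.span {π}))
    Ideal.Quotient.mk_surjective g'
  have h0 : (a - f ^ k * g).map (Ideal.Quotient.mk (Ideal.span {π})) = 0 := by
    rw [Polynomial.map_sub, Polynomial.map_mul, Polynomial.map_pow, hag', sub_self]
  obtain ⟨h, hh⟩ := C_dvd_of_map_eq_zero h0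
  have hg : g ∉ pt π f := fun hmem => hg' ((mem_pt_iff g).mp hmem)
  have hgu : IsUnit (φ g) := isUnit_of_not_mem hg
  refine ⟨k, φ g * ((hsu.unit⁻¹ : Rˣ) : R), φ h * ((hsu.unit⁻¹ : Rˣ) : R),
    hgu.mul (hsu.unit⁻¹).isUnit, ?_⟩
  have ha : a = f ^ k * g + C π * h := by
    linear_combination hh
  have : r = r * φ s * ((hsu.unit⁻¹ : Rˣ) : R) := by
    rw [mul_assoc, IsUnit.mul_val_inv, mul_one]
  rw [this, has, ha, map_add, map_mul, map_mul, map_pow]
  ring

end Local

end LocalRing

end Fermat.Agent.S18
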