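import Mathlib
import Fermat.Agent.S18.Basic

/-!
P11 / S18 — (M1) `VjInt`: the Gauss ring of the `x`-line is integral over the Gauss ring of the
`j`-line, for a cover `j = Ng(x) / Dg(x)` with `lead(Ng)` a unit, `deg Dg < deg Ng` and
`Ng`, `Dg` coprime modulo `π`.

Main results (namespace `Fermat.Agent.S18.VjInt`), for `π` prime with `(π)` maximal and `x`
transcendental over `Λ`:
* `transcendental_j`     : `j` is transcendental over `Λ`;
* `gaussSub_j_le`        : `gaussSub π hπ j ≤ gaussSub π hπ x`;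
* `isIntegral_x`         : `x` is integral over `gaussSub π hπ j`;
* `exists_isIntegral_inv`: `b(x)` is invertible in the integral closure of `gaussSub π hπ j` when
  `π ∤ b`;
* `isIntegral_of_mem`    : every element of `gaussSub π hπ x` is integral over `gaussSub π hπ j`;
* `isIntegral_of_isIntegral` : integral over `gaussSub π hπ x` ⇒ integral over `gaussSub π hπ j`;
* `transcendental_j'`, `gaussSub_j_le'`, `isIntegral_x'`, `isIntegral_of_mem'`,
  `isIntegral_of_isIntegral'` : the same in the engine setting (`Λ` a DVR with fraction field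
  `K`, `π` irreducible, `x` transcendental over `K`).
Auxiliary: `homog` (homogenisation `D ^ m * c(N / D)`), `inv_aeval_mem_gaussSub`,
`exists_mul_eq_one_of_one_add` (`1 + π c` is a unit of the Gauss ring), `toGauss`,
`transcendental_of_cover` (residue-field argument).
-/

set_option autoImplicit false

namespace Fermat.Agent.S18

open Polynomial

namespace VjInt

/-! ### Homogenisation `D ^ m * c(N / D)` -/

section Homog

variable {R : Type*} [CommRing R]

/-- The polynomial `D ^ m * c(N / D) = ∑ i ≤ m, c_i N ^ i D ^ (m - i)`. -/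
noncomputable def homog (N D c : R[X]) (m : ℕ) : R[X] :=
  ∑ i ∈ Finset.range (m + 1), C (c.coeff i) * N ^ i * D ^ (m - i)

theorem natDegree_term_le (N D : R[X]) (a : R) (i k : ℕ) :
    (C a * N ^ i * D ^ k).natDegree ≤ i * N.natDegree + k * D.natDegree := by
  calc (C a * N ^ i * D ^ k).natDegree ≤ (C a * N ^ i).natDegree + (D ^ k).natDegree :=
        natDegree_mul_le
    _ ≤ (N ^ i).natDegree + (D ^ k).natDegree := by
        gcongr
        exact natDegree_C_mul_le _ _
    _ ≤ i * N.natDegree + k * D.natDegree := by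
        gcongr <;> exact natDegree_pow_le

theorem coeff_homog (N D c : R[X]) (m : ℕ) (hm : c.natDegree ≤ m)
    (hdeg : D.natDegree < N.natDegree) :
    (homog N D c m).coeff (c.natDegree * N.natDegree + (m - c.natDegree) * D.natDegree) =
      c.leadingCoeff * N.leadingCoeff ^ c.natDegree * D.leadingCoeff ^ (m - c.natDegree) := by
  unfold homog
  rw [finsetSum_coeff, Finset.sum_eq_single c.natDegree]
  · rw [mul_assoc, coeff_C_mul, coeff_mul_add_eq_of_natDegree_le natDegree_pow_le natDegree_pow_le,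
      coeff_pow_mul_natDegree, coeff_pow_mul_natDegree, coeff_natDegree, mul_assoc]
  · intro i hi hne
    rcases lt_or_gt_of_ne hne with hlt | hgt
    · apply coeff_eq_zero_of_natDegree_lt
      refine lt_of_le_of_lt (natDegree_term_le N D _ i (m - i)) ?_
      obtain ⟨s, hs⟩ : ∃ s, c.natDegree = i + s + 1 := ⟨c.natDegree - i - 1, by omega⟩
      have h1 : m - i = (m - c.natDegree) + (s + 1) := by omega
      rw [h1, hs, add_mul, add_mul, add_mul]
      have h2 : (s + 1) * D.natDegree < (s + 1) * N.natDegree :=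
        Nat.mul_lt_mul_of_pos_left hdeg (Nat.succ_pos s)
      nlinarith
    · rw [coeff_eq_zero_of_natDegree_lt hgt, map_zero, zero_mul, zero_mul, coeff_zero]
  · intro h
    exact absurd (Finset.mem_range.mpr (Nat.lt_succ_of_le hm)) h

theorem map_homog {S : Type*} [CommRing S] (f : R →+* S) (N D c : R[X]) (m : ℕ) :
    (homog N D c m).map f = homog (N.map f) (D.map f) (c.map f) m := by
  unfold homog
  rw [Polynomial.map_sum]
  refine Finset.sum_congr rfl fun i _ => ?_
  rw [Polynomial.map_mul, Polynomial.map_mul, Polynomial.map_pow, Polynomial.map_pow, map_C,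
    coeff_map]

theorem aeval_homog {𝔽 : Type*} [Field 𝔽] [Algebra R 𝔽] (N D c : R[X]) (m : ℕ)
    (hm : c.natDegree ≤ m) (x j : 𝔽) (hrel : aeval x N = j * aeval x D) :
    aeval x (homog N D c m) = aeval x D ^ m * aeval j c := by
  unfold homog
  rw [map_sum, aeval_eq_sum_range' (Nat.lt_succ_of_le hm) j, Finset.mul_sum]
  refine Finset.sum_congr rfl fun i hi => ?_
  have hi' : i ≤ m := Nat.lt_succ_iff.mp (Finset.mem_range.mp hi)
  rw [map_mul, map_mul, map_pow, map_pow, aeval_C, hrel, mul_pow, Algebra.smul_def]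
  have h1 : aeval x D ^ m = aeval x D ^ i * aeval x D ^ (m - i) := by
    rw [← pow_add, Nat.add_sub_cancel' hi']
  rw [h1]
  ring

end Homog

/-! ### Reduction modulo `π` -/

section Mod

variable {Λ : Type*} [CommRing Λ]

theorem C_dvd_iff_map_eq_zero (π : Λ) (b : Λ[X]) :
    C π ∣ b ↔ b.map (Ideal.Quotient.mk (Ideal.span {π})) = 0 := by
  rw [C_dvd_iff_dvd_coeff]
  constructor
  · intro h
    ext i
    rw [coeff_map, coeff_zero, Ideal.Quotient.eq_zero_iff_mem, Ideal.mem_span_singleton]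
    exact h i
  · intro h i
    have h1 := congrArg (fun q => q.coeff i) h
    simp only [coeff_map, coeff_zero] at h1
    rwa [Ideal.Quotient.eq_zero_iff_mem, Ideal.mem_span_singleton] at h1

variable {π : Λ} (hmax : (Ideal.span {π}).IsMaximal) {Ng Dg : Λ[X]}
  (hdeg : Dg.natDegree < Ng.natDegree) (hlead : IsUnit Ng.leadingCoeff)
  (hcop : IsCoprime (Ng.map (Ideal.Quotient.mk (Ideal.span {π})))
    (Dg.map (Ideal.Quotient.mk (Ideal.span {π}))))

include hmax hlead in
theorem natDegree_map_Ng :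
    (Ng.map (Ideal.Quotient.mk (Ideal.span {π}))).natDegree = Ng.natDegree := by
  have : Nontrivial (Λ ⧸ Ideal.span {π}) := Ideal.Quotient.nontrivial_iff.mpr hmax.ne_top
  apply natDegree_map_of_leadingCoeff_ne_zero
  exact (hlead.map (Ideal.Quotient.mk (Ideal.span {π}))).ne_zero

include hmax hdeg hlead hcop in
theorem not_C_dvd_Dg : ¬ C π ∣ Dg := by
  intro h
  rw [C_dvd_iff_map_eq_zero] at h
  rw [h, isCoprime_zero_right] at hcop
  have h1 := natDegree_eq_zero_of_isUnit hcop
  rw [natDegree_map_Ng hmax hlead] at h1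
  omega

include hmax hdeg hlead hcop in
theorem not_C_dvd_homog {c : Λ[X]} (hc : ¬ C π ∣ c) (m : ℕ) (hm : c.natDegree ≤ m) :
    ¬ C π ∣ homog Ng Dg c m := by
  let _ : Field (Λ ⧸ Ideal.span {π}) := Ideal.Quotient.field _
  have hD := not_C_dvd_Dg hmax hdeg hlead hcop
  rw [C_dvd_iff_map_eq_zero] at hc hD ⊢
  rw [map_homog]
  intro h0
  have hm' : (c.map (Ideal.Quotient.mk (Ideal.span {π}))).natDegree ≤ m :=
    (natDegree_map_le).trans hm
  have hdeg' : (Dg.map (Ideal.Quotient.mk (Ideal.span {π}))).natDegree <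
      (Ng.map (Ideal.Quotient.mk (Ideal.span {π}))).natDegree := by
    rw [natDegree_map_Ng hmax hlead]
    exact lt_of_le_of_lt natDegree_map_le hdeg
  have h1 := coeff_homog _ _ _ m hm' hdeg'
  rw [h0, coeff_zero] at h1
  have hN : (Ng.map (Ideal.Quotient.mk (Ideal.span {π}))) ≠ 0 := by
    intro h
    rw [h] at hdeg'
    simp at hdeg'
  exact mul_ne_zero (mul_ne_zero (leadingCoeff_ne_zero.mpr hc)
    (pow_ne_zero _ (leadingCoeff_ne_zero.mpr hN))) (pow_ne_zero _ (leadingCoeff_ne_zero.mpr hD))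
    h1.symm

end Mod

/-! ### The main statements -/

section Main

variable {Λ 𝔽 : Type*} [CommRing Λ] [Field 𝔽] [Algebra Λ 𝔽]
variable {π : Λ} (hπ : Prime π) (hmax : (Ideal.span {π}).IsMaximal) {Ng Dg : Λ[X]}
  (hdeg : Dg.natDegree < Ng.natDegree) (hlead : IsUnit Ng.leadingCoeff)
  (hcop : IsCoprime (Ng.map (Ideal.Quotient.mk (Ideal.span {π})))
    (Dg.map (Ideal.Quotient.mk (Ideal.span {π}))))
  {x j : 𝔽} (hx : Transcendental Λ x) (hcov : aeval x Ng = j * aeval x Dg)

include hdeg hlead hx hcov in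
/-- `j` is transcendental over `Λ`. -/
theorem transcendental_j : Transcendental Λ j := by
  rw [transcendental_iff]
  intro c hc
  by_contra hc0
  have h1 : aeval x (homog Ng Dg c c.natDegree) = 0 := by
    rw [aeval_homog Ng Dg c c.natDegree le_rfl x j hcov, hc, mul_zero]
  have h2 := (transcendental_iff.mp hx) _ h1
  have h3 := coeff_homog Ng Dg c c.natDegree le_rfl hdeg
  rw [h2, coeff_zero, Nat.sub_self, pow_zero, mul_one] at h3
  have h4 : c.leadingCoeff = 0 := by
    obtain ⟨u, hu⟩ := hlead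
    have h5 : c.leadingCoeff * Ng.leadingCoeff ^ c.natDegree * ((u⁻¹ : Λˣ) : Λ) ^ c.natDegree =
        c.leadingCoeff := by
      rw [mul_assoc, ← mul_pow, ← hu, Units.mul_inv, one_pow, mul_one]
    rw [← h5, ← h3, zero_mul]
  exact hc0 (leadingCoeff_eq_zero.mp h4)

include hmax hdeg hlead hcop hcov in
/-- The Gauss ring of the `j`-line is contained in the Gauss ring of the `x`-line. -/
theorem gaussSub_j_le : gaussSub π hπ j ≤ gaussSub π hπ x := by
  rintro v ⟨a, b, hb, hv⟩
  set m := max a.natDegree b.natDegree with hm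
  refine ⟨homog Ng Dg a m, homog Ng Dg b m,
    not_C_dvd_homog hmax hdeg hlead hcop hb m (le_max_right _ _), ?_⟩
  rw [aeval_homog Ng Dg b m (le_max_right _ _) x j hcov,
    aeval_homog Ng Dg a m (le_max_left _ _) x j hcov, ← hv]
  ring

end Main

section Units

variable {Λ 𝔽 : Type*} [CommRing Λ] [Field 𝔽] [Algebra Λ 𝔽]
variable {π : Λ} (hπ : Prime π) {t : 𝔽} (ht : Transcendental Λ t)

include ht in
theorem aeval_ne_zero_of_not_C_dvd {c : Λ[X]} (hc : ¬ C π ∣ c) : aeval t c ≠ 0 := by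
  intro h
  have h0 := (transcendental_iff.mp ht) c h
  exact hc (h0 ▸ dvd_zero _)

include ht in
/-- `c(t)⁻¹` lies in the Gauss ring when `π ∤ c`. -/
theorem inv_aeval_mem_gaussSub {c : Λ[X]} (hc : ¬ C π ∣ c) :
    (aeval t c)⁻¹ ∈ gaussSub π hπ t :=
  ⟨1, c, hc, by rw [inv_mul_cancel₀ (aeval_ne_zero_of_not_C_dvd ht hc), map_one]⟩

include ht in
/-- `1 + π c` is a unit of the Gauss ring. -/
theorem exists_mul_eq_one_of_one_add {c : 𝔽} (hc : c ∈ gaussSub π hπ t) :
    ∃ w ∈ gaussSub π hπ t, (1 + algebraMap Λ 𝔽 π * c) * w = 1 := by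
  obtain ⟨a, b, hb, hv⟩ := hc
  have hb' : ¬ C π ∣ (b + C π * a) := fun h =>
    hb ((dvd_add_left (dvd_mul_right _ _)).mp h)
  have hne := aeval_ne_zero_of_not_C_dvd ht hb'
  refine ⟨aeval t b * (aeval t (b + C π * a))⁻¹,
    Subring.mul_mem _ (aeval_mem_gaussSub π hπ t b) (inv_aeval_mem_gaussSub hπ ht hb'), ?_⟩
  have h1 : (1 + algebraMap Λ 𝔽 π * c) * aeval t b = aeval t (b + C π * a) := by
    rw [map_add, map_mul, aeval_C, ← hv]; ring
  rw [← mul_assoc, h1, mul_inv_cancel₀ hne]

end Units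

section IntX

variable {Λ 𝔽 : Type*} [CommRing Λ] [Field 𝔽] [Algebra Λ 𝔽]
variable {π : Λ} (hπ : Prime π) {Ng Dg : Λ[X]}
  (hdeg : Dg.natDegree < Ng.natDegree) (hlead : IsUnit Ng.leadingCoeff)
  {x j : 𝔽} (hcov : aeval x Ng = j * aeval x Dg)

/-- The structure map `Λ → gaussSub π hπ t`. -/
noncomputable def toGauss (t : 𝔽) : Λ →+* gaussSub π hπ t :=
  (algebraMap Λ 𝔽).codRestrict (gaussSub π hπ t) (algebraMap_mem_gaussSub π hπ t)

theorem aeval_map_toGauss (t y : 𝔽) (q : Λ[X]) :
    aeval y (q.map (toGauss hπ t)) = aeval y q := by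
  rw [aeval_def, eval₂_map, aeval_def]
  rfl

include hdeg hlead hcov in
/-- `x` is integral over the Gauss ring of the `j`-line. -/
theorem isIntegral_x : IsIntegral (gaussSub π hπ j) x := by
  have : Nontrivial Λ := (algebraMap Λ 𝔽).domain_nontrivial
  obtain ⟨u, hu⟩ := hlead
  have hu1 : ((u⁻¹ : Λˣ) : Λ) * Ng.leadingCoeff = 1 := by rw [← hu, Units.inv_mul]
  have hN' : (C ((u⁻¹ : Λˣ) : Λ) * Ng).Monic := monic_C_mul_of_mul_leadingCoeff_eq_one hu1
  have hdN : (C ((u⁻¹ : Λˣ) : Λ) * Ng).natDegree = Ng.natDegree :=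
    natDegree_C_mul_of_mul_ne_zero (by rw [hu1]; exact one_ne_zero)
  set ι := toGauss hπ j with hι
  let jV : gaussSub π hπ j := ⟨j, self_mem_gaussSub π hπ j⟩
  have hmonic : ((C ((u⁻¹ : Λˣ) : Λ) * Ng).map ι - C jV * (C ((u⁻¹ : Λˣ) : Λ) * Dg).map ι).Monic := by
    refine Monic.sub_of_left (hN'.map ι) (degree_lt_degree ?_)
    rw [hN'.natDegree_map, hdN]
    calc (C jV * (C ((u⁻¹ : Λˣ) : Λ) * Dg).map ι).natDegree
        ≤ ((C ((u⁻¹ : Λˣ) : Λ) * Dg).map ι).natDegree := natDegree_C_mul_le _ _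
      _ ≤ (C ((u⁻¹ : Λˣ) : Λ) * Dg).natDegree := natDegree_map_le
      _ ≤ Dg.natDegree := natDegree_C_mul_le _ _
      _ < Ng.natDegree := hdeg
  refine ⟨_, hmonic, ?_⟩
  rw [← aeval_def, map_sub, map_mul, aeval_C, aeval_map_toGauss, aeval_map_toGauss, map_mul,
    map_mul, aeval_C, hcov]
  change _ - j * _ = 0
  ring

end IntX

section Core

theorem isIntegral_of_mem_subring {𝔽 : Type*} [Field 𝔽] (V : Subring 𝔽) {v : 𝔽} (hv : v ∈ V) :
    IsIntegral V v :=
  isIntegral_algebraMap (R := V) (x := (⟨v, hv⟩ : V))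

/-- Abstract residue-field argument: if `N(x) = j D(x)` with `N`, `D` coprime and `j`
transcendental, then `x` is transcendental. -/
theorem transcendental_of_cover {κ E : Type*} [Field κ] [Field E] [Algebra κ E] {N D : κ[X]}
    (hcop : IsCoprime N D) {x j : E} (hj : Transcendental κ j)
    (hrel : aeval x N = j * aeval x D) : Transcendental κ x := by
  intro hx
  have hxi : IsIntegral κ x := isAlgebraic_iff_isIntegral.mp hx
  have hint : ∀ q : κ[X], IsIntegral κ (aeval x q) := fun q =>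
    adjoin_le_integralClosure hxi (aeval_mem_adjoin_singleton _ _)
  by_cases hD : aeval x D = 0
  · obtain ⟨s, t, hst⟩ := hcop
    have h1 := congrArg (aeval x) hst
    rw [map_add, map_mul, map_mul, hrel, hD, mul_zero, mul_zero, mul_zero, add_zero, map_one] at h1
    exact zero_ne_one h1
  · apply hj
    rw [isAlgebraic_iff_isIntegral]
    have h2 : j = aeval x N * (aeval x D)⁻¹ := by
      rw [hrel, mul_assoc, mul_inv_cancel₀ hD, mul_one]
    rw [h2]
    exact (hint N).mul (hint D).inv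

variable {Λ 𝔽 : Type*} [CommRing Λ] [Field 𝔽] [Algebra Λ 𝔽]
variable {π : Λ} (hπ : Prime π) (hmax : (Ideal.span {π}).IsMaximal) {Ng Dg : Λ[X]}
  (hdeg : Dg.natDegree < Ng.natDegree) (hlead : IsUnit Ng.leadingCoeff)
  (hcop : IsCoprime (Ng.map (Ideal.Quotient.mk (Ideal.span {π})))
    (Dg.map (Ideal.Quotient.mk (Ideal.span {π}))))
  {x j : 𝔽} (hx : Transcendental Λ x) (hcov : aeval x Ng = j * aeval x Dg)

/-- Polynomials (with coefficients in `Λ`) in an integral element are integral over the Gauss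
ring. -/
theorem isIntegral_aeval {t y : 𝔽} (hy : IsIntegral (gaussSub π hπ t) y) (q : Λ[X]) :
    IsIntegral (gaussSub π hπ t) (aeval y q) := by
  rw [← aeval_map_toGauss hπ t y q]
  exact adjoin_le_integralClosure hy (aeval_mem_adjoin_singleton _ _)

include hmax hdeg hlead hcop hx hcov in
/-- `b(x)` is a unit of the integral closure of the Gauss ring of the `j`-line when `π ∤ b`. -/
theorem exists_isIntegral_inv {b : Λ[X]} (hb : ¬ C π ∣ b) :
    ∃ w : 𝔽, IsIntegral (gaussSub π hπ j) w ∧ aeval x b * w = 1 := by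
  classical
  have htj : Transcendental Λ j := transcendental_j hdeg hlead hx hcov
  have hxi : IsIntegral (gaussSub π hπ j) x := isIntegral_x hπ hdeg hlead hcov
  have hji : IsIntegral (gaussSub π hπ j) j :=
    isIntegral_of_mem_subring _ (self_mem_gaussSub π hπ j)
  by_contra hcon
  let S := integralClosure (gaussSub π hπ j) 𝔽
  let ιS : Λ →+* S := (algebraMap (gaussSub π hπ j) S).comp (toGauss hπ j)
  have hev : ∀ (y : S) (q : Λ[X]), ((eval₂ ιS y q : S) : 𝔽) = aeval (y : 𝔽) q := by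
    intro y q
    have h := hom_eval₂ q ιS (S.val.toRingHom) y
    rw [aeval_def]
    exact h
  let xS : S := ⟨x, hxi⟩
  let jS : S := ⟨j, hji⟩
  have hbS : eval₂ ιS xS b ∈ nonunits S := by
    intro hu
    obtain ⟨w, hw⟩ := hu.exists_right_inv
    apply hcon
    refine ⟨(w : 𝔽), w.2, ?_⟩
    have h1 := congrArg (fun s : S => (s : 𝔽)) hw
    have h2 : ((eval₂ ιS xS b : S) : 𝔽) * (w : 𝔽) = 1 := h1
    rwa [hev] at h2
  obtain ⟨𝔐, h𝔐, hb𝔐⟩ := exists_max_ideal_of_mem_nonunits hbS
  have := h𝔐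
  have h𝔪 : (𝔐.comap (algebraMap (gaussSub π hπ j) S)).IsMaximal :=
    Ideal.isMaximal_comap_of_isIntegral_of_isMaximal 𝔐
  have hπ𝔐 : ιS π ∈ 𝔐 := by
    by_contra hn
    have hn' : toGauss hπ j π ∉ 𝔐.comap (algebraMap (gaussSub π hπ j) S) := hn
    obtain ⟨y, i, hi, hyi⟩ := h𝔪.exists_inv hn'
    obtain ⟨w, hw, hw1⟩ := exists_mul_eq_one_of_one_add hπ htj (neg_mem y.2)
    have h2 : (y : 𝔽) * algebraMap Λ 𝔽 π + (i : 𝔽) = 1 :=
      congrArg (fun s : gaussSub π hπ j => (s : 𝔽)) hyi
    have h1 : i * ⟨w, hw⟩ = 1 := by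
      apply Subtype.ext
      change (i : 𝔽) * w = 1
      rw [← hw1]
      congr 1
      linear_combination h2
    exact h𝔪.ne_top ((Ideal.eq_top_iff_one _).mpr (h1 ▸ Ideal.mul_mem_right _ _ hi))
  have := hmax
  let _ : Field (Λ ⧸ Ideal.span {π}) := Ideal.Quotient.field _
  let _ : Field (S ⧸ 𝔐) := Ideal.Quotient.field 𝔐
  let φ : S →+* S ⧸ 𝔐 := Ideal.Quotient.mk 𝔐
  have hker : ∀ a ∈ Ideal.span {π}, (φ.comp ιS) a = 0 := by
    intro a ha
    obtain ⟨r, rfl⟩ := Ideal.mem_span_singleton.mp ha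
    rw [RingHom.comp_apply, map_mul, map_mul, Ideal.Quotient.eq_zero_iff_mem.mpr hπ𝔐, zero_mul]
  let ψ : Λ ⧸ Ideal.span {π} →+* S ⧸ 𝔐 := Ideal.Quotient.lift _ (φ.comp ιS) hker
  let _ : Algebra (Λ ⧸ Ideal.span {π}) (S ⧸ 𝔐) := ψ.toAlgebra
  have hψ : ∀ (y : S) (q : Λ[X]),
      aeval (φ y) (q.map (Ideal.Quotient.mk (Ideal.span {π}))) = φ (eval₂ ιS y q) := by
    intro y q
    rw [aeval_def, eval₂_map, hom_eval₂]
    rfl
  have hjt : Transcendental (Λ ⧸ Ideal.span {π}) (φ jS) := by
    rw [transcendental_iff]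
    intro c' hc'
    obtain ⟨c, rfl⟩ := map_surjective _ Ideal.Quotient.mk_surjective c'
    by_contra hne
    have hc : ¬ C π ∣ c := fun h => hne ((C_dvd_iff_map_eq_zero π c).mp h)
    rw [hψ] at hc'
    have hmem : eval₂ ιS jS c ∈ 𝔐 := Ideal.Quotient.eq_zero_iff_mem.mp hc'
    have hinv : IsIntegral (gaussSub π hπ j) (aeval j c)⁻¹ :=
      isIntegral_of_mem_subring _ (inv_aeval_mem_gaussSub hπ htj hc)
    have h1 : eval₂ ιS jS c * ⟨(aeval j c)⁻¹, hinv⟩ = 1 := by
      apply Subtype.ext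
      change ((eval₂ ιS jS c : S) : 𝔽) * (aeval j c)⁻¹ = 1
      rw [hev]
      exact mul_inv_cancel₀ (aeval_ne_zero_of_not_C_dvd htj hc)
    exact h𝔐.ne_top ((Ideal.eq_top_iff_one _).mpr (h1 ▸ Ideal.mul_mem_right _ _ hmem))
  have hrel : aeval (φ xS) (Ng.map (Ideal.Quotient.mk (Ideal.span {π}))) =
      φ jS * aeval (φ xS) (Dg.map (Ideal.Quotient.mk (Ideal.span {π}))) := by
    rw [hψ, hψ, ← map_mul]
    congr 1
    apply Subtype.ext
    change ((eval₂ ιS xS Ng : S) : 𝔽) = j * ((eval₂ ιS xS Dg : S) : 𝔽)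
    rw [hev, hev]
    exact hcov
  have hxt := transcendental_of_cover hcop hjt hrel
  apply hxt
  refine ⟨b.map (Ideal.Quotient.mk (Ideal.span {π})),
    fun h => hb ((C_dvd_iff_map_eq_zero π b).mpr h), ?_⟩
  rw [hψ]
  exact Ideal.Quotient.eq_zero_iff_mem.mpr hb𝔐

include hmax hdeg hlead hcop hx hcov in
/-- Every element of the Gauss ring of the `x`-line is integral over the Gauss ring of the
`j`-line. -/
theorem isIntegral_of_mem {v : 𝔽} (hv : v ∈ gaussSub π hπ x) :
    IsIntegral (gaussSub π hπ j) v := by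
  obtain ⟨a, b, hb, hab⟩ := hv
  obtain ⟨w, hw, hw1⟩ := exists_isIntegral_inv hπ hmax hdeg hlead hcop hx hcov hb
  have hxi : IsIntegral (gaussSub π hπ j) x := isIntegral_x hπ hdeg hlead hcov
  have h1 : v = aeval x a * w := by
    rw [← hab, mul_assoc, hw1, mul_one]
  rw [h1]
  exact (isIntegral_aeval hπ hxi a).mul hw

include hmax hdeg hlead hcop hx hcov in
/-- Integrality over the Gauss ring of the `x`-line implies integrality over the Gauss ring of
the `j`-line. -/
theorem isIntegral_of_isIntegral {z : 𝔽} (hz : IsIntegral (gaussSub π hπ x) z) :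
    IsIntegral (gaussSub π hπ j) z := by
  obtain ⟨p, hp, hpz⟩ := hz
  let S := integralClosure (gaussSub π hπ j) 𝔽
  let f : gaussSub π hπ x →+* S :=
    (gaussSub π hπ x).subtype.codRestrict S.toSubring
      (fun v => isIntegral_of_mem hπ hmax hdeg hlead hcop hx hcov v.2)
  have h1 : IsIntegral S z := by
    refine ⟨p.map f, hp.map f, ?_⟩
    rw [eval₂_map]
    exact hpz
  exact _root_.isIntegral_trans (A := S) z h1

end Core

/-! ### The engine setting: `Λ` a DVR with fraction field `K`, `π` irreducible -/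

section Eng

variable {Λ K 𝔽 : Type*} [CommRing Λ] [IsDomain Λ] [IsDiscreteValuationRing Λ] [Field K]
  [Algebra Λ K] [IsFractionRing Λ K] [Field 𝔽] [Algebra K 𝔽] [Algebra Λ 𝔽] [IsScalarTower Λ K 𝔽]
  {π : Λ} (hπ : Irreducible π) {Ng Dg : Λ[X]}
  (hdeg : Dg.natDegree < Ng.natDegree) (hlead : IsUnit Ng.leadingCoeff)
  (hcop : IsCoprime (Ng.map (Ideal.Quotient.mk (Ideal.span {π})))
    (Dg.map (Ideal.Quotient.mk (Ideal.span {π}))))
  {x j : 𝔽} (hx : Transcendental K x) (hcov : aeval x Ng = j * aeval x Dg)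

include hπ in
theorem isMaximal_span_of_irreducible : (Ideal.span {π}).IsMaximal := by
  rw [← hπ.maximalIdeal_eq]
  exact IsLocalRing.maximalIdeal.isMaximal Λ

omit [IsDiscreteValuationRing Λ] in
include hx in
theorem transcendental_of_fractionRing : Transcendental Λ x := fun h =>
  hx ((IsFractionRing.isAlgebraic_iff Λ K 𝔽).mp h)

omit [IsDiscreteValuationRing Λ] in
include hdeg hlead hx hcov in
/-- `j` is transcendental over `K`. -/
theorem transcendental_j' : Transcendental K j := fun h =>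
  transcendental_j hdeg hlead (transcendental_of_fractionRing hx) hcov
    ((IsFractionRing.isAlgebraic_iff Λ K 𝔽).mpr h)

include hdeg hlead hcop hcov in
theorem gaussSub_j_le' : gaussSub π hπ.prime j ≤ gaussSub π hπ.prime x :=
  gaussSub_j_le hπ.prime (isMaximal_span_of_irreducible hπ) hdeg hlead hcop hcov

include hdeg hlead hcov in
theorem isIntegral_x' : IsIntegral (gaussSub π hπ.prime j) x :=
  isIntegral_x hπ.prime hdeg hlead hcov

include hdeg hlead hcop hx hcov in
theorem isIntegral_of_mem' {v : 𝔽} (hv : v ∈ gaussSub π hπ.prime x) :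
    IsIntegral (gaussSub π hπ.prime j) v :=
  isIntegral_of_mem hπ.prime (isMaximal_span_of_irreducible hπ) hdeg hlead hcop
    (transcendental_of_fractionRing hx) hcov hv

include hdeg hlead hcop hx hcov in
theorem isIntegral_of_isIntegral' {z : 𝔽} (hz : IsIntegral (gaussSub π hπ.prime x) z) :
    IsIntegral (gaussSub π hπ.prime j) z :=
  isIntegral_of_isIntegral hπ.prime (isMaximal_span_of_irreducible hπ) hdeg hlead hcop
    (transcendental_of_fractionRing hx) hcov hz

end Eng

end VjInt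

end Fermat.Agent.S18
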