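import Fermat.Agent.S18.ModelAbsCore
import Fermat.Agent.S18.VjInt
import Fermat.Agent.S18.GaussLineK
import Fermat.Agent.S18.Engine

/-!
P11 / S18 — ModelAbs (M3, note 208; proof: helper16).  The abstract model theorem: pure assembly
of VjInt (Lüroth step), DualBasis (B1), Engine (idempotents are trivial mod `π`) and Final
(Lagrange idempotents of the Kummer extension).
-/

set_option autoImplicit false

namespace Fermat.Agent.S18

open Polynomial IntermediateField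

/-- ModelAbs (M3): the abstract model theorem. -/
theorem model_abs {Λ K 𝔽 : Type*} [CommRing Λ] [IsDomain Λ] [IsDiscreteValuationRing Λ]
    [Field K] [CharZero K] [Algebra Λ K] [IsFractionRing Λ K] [Field 𝔽] [Algebra K 𝔽] [Algebra Λ 𝔽]
    [IsScalarTower Λ K 𝔽]
    (π : Λ) (hπ : Irreducible π)
    (p : ℕ) (hp : p.Prime) (hpu : IsUnit (p : Λ)) (ζ : Λ) (hζ : IsPrimitiveRoot ζ p)
    (Ng Dg : Λ[X]) (hdeg : Dg.natDegree < Ng.natDegree) (hlead : IsUnit Ng.leadingCoeff)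
    (hcop : IsCoprime (Ng.map (Ideal.Quotient.mk (Ideal.span {π})))
      (Dg.map (Ideal.Quotient.mk (Ideal.span {π}))))
    (C C' : Finset Λ) (hC : ∀ c ∈ C, ∀ c' ∈ C, c ≠ c' → IsUnit (c - c'))
    (hC' : ∀ c ∈ C', ∀ c' ∈ C', c ≠ c' → IsUnit (c - c'))
    (j x w u θ : 𝔽) (H : 𝔽[X])
    (hx : Transcendental K x) [FiniteDimensional K⟮x⟯ 𝔽]
    (hcov : aeval x Ng = j * aeval x Dg)
    (hclosed : ∀ y : 𝔽, IsAlgebraic K y → y ∈ (algebraMap K 𝔽).range)
    (hgen : IntermediateField.adjoin K {x, θ, w} = ⊤)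
    (huF : u ∈ IntermediateField.adjoin K {j, θ})
    (hirr : ∀ v ∈ IntermediateField.adjoin K {j, θ}, v ^ p ≠ u)
    (hw : w ^ p = u)
    (hHm : H.Monic) (hHc : ∀ i, H.coeff i ∈ gaussSub π hπ.prime j) (hHθ : H.eval θ = 0)
    (hHd : IsIntegral (gaussSub π hπ.prime j) (H.derivative.eval θ)⁻¹)
    (hHd0 : H.derivative.eval θ ≠ 0)
    (hu : IsIntegral (gaussSub π hπ.prime j) u) (hu' : IsIntegral (gaussSub π hπ.prime j) u⁻¹)
    (hu1 : ∃ δ : 𝔽, IsIntegral (gaussSub π hπ.prime j) δ ∧ u - 1 = π • δ)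
    (hB2 : UnramAway K x ((algebraMap Λ K) '' (C : Set Λ)))
    (hB2' : UnramAway K x⁻¹ ((algebraMap Λ K) '' (C' : Set Λ))) : False :=
  model_abs_of π hπ p hp hpu ζ hζ Ng Dg hdeg hlead j x w u θ H hx hcov hgen huF hirr hw
    hHm hHc hHθ hHd hHd0 hu hu' hu1
    (VjInt.gaussSub_j_le' hπ hdeg hlead hcop hcov)
    (fun _ hv => VjInt.isIntegral_of_mem' hπ hdeg hlead hcop hx hcov hv)
    (GaussLineK.mem_of_isIntegral_algebraMap π hπ.prime hx)
    (fun hB1 => Engine.engine π hπ x hx hclosed C C' hC hC' hB1 hB2 hB2')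

end Fermat.Agent.S18
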