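import Fermat.Agent.S18.Basic
import Fermat.Agent.S18.DualBasis
import Fermat.Agent.S18.Final

/-!
P11 / S18 — ModelAbsCore (helper16): the assembly behind `model_abs` (note 208), with the inputs
that are not yet on main (VjInt, GaussLineK, Engine) taken as explicit hypotheses.

* `ModelAbs.isIntegral_of_le`, `ModelAbs.isIntegral_of_isIntegral_of_le` : integrality along a
  tower of subrings of a field.
* `ModelAbs.cover_facts` : `Ng(x) = j Dg(x)`, `deg Dg < deg Ng`, `lead Ng` a unit, `x`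
  transcendental  ⟹  `j` transcendental and `j ∈ K(x)`.
* `ModelAbs.gaussSub_le_of_mem` : `gaussSub π t ⊆ E` for an intermediate field `E ∋ t`.
* `ModelAbs.hasIntegralDualBasis_of_kummer_tower` : (B1) for `K₁ ⊂ K₁(θ) ⊂ K₁(θ, w) = 𝔽`.
* `model_abs_of` : the model theorem, given `V_j ≤ V₀`, `V₀` integral over `V_j`,
  `V₀ ∩ K = Λ` and the engine implication (B1) ⟹ `IdemTrivial`.
-/

set_option autoImplicit false

namespace Fermat.Agent.S18

open Polynomial IntermediateField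

namespace ModelAbs

section Subrings

variable {𝔽 : Type*} [Field 𝔽]

/-- An element of a subring is integral over it. -/
theorem isIntegral_of_mem_subring {A : Subring 𝔽} {v : 𝔽} (hv : v ∈ A) : IsIntegral A v :=
  isIntegral_algebraMap (R := A) (A := 𝔽) (x := ⟨v, hv⟩)

/-- Integrality goes up along an inclusion of subrings. -/
theorem isIntegral_of_le {A B : Subring 𝔽} (h : A ≤ B) {z : 𝔽} (hz : IsIntegral A z) :
    IsIntegral B z := by
  obtain ⟨P, hP, hz⟩ := hz
  refine ⟨P.map (Subring.inclusion h), hP.map _, ?_⟩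
  rw [eval₂_map]
  exact hz

/-- Integrality goes down along an integral inclusion of subrings. -/
theorem isIntegral_of_isIntegral_of_le {A B : Subring 𝔽} (h : A ≤ B)
    (hB : ∀ v ∈ B, IsIntegral A v) {z : 𝔽} (hz : IsIntegral B z) : IsIntegral A z := by
  let _ : Algebra A B := (Subring.inclusion h).toAlgebra
  have : IsScalarTower A B 𝔽 := IsScalarTower.of_algebraMap_eq (fun _ => rfl)
  have : Algebra.IsIntegral A B := ⟨fun b => by
    have h1 : IsIntegral A (algebraMap B 𝔽 b) := hB b b.2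
    exact (isIntegral_algebraMap_iff (R := A) (A := B) (B := 𝔽) Subtype.val_injective).1 h1⟩
  exact isIntegral_trans (R := A) (A := B) z hz

/-- A monic polynomial with coefficients in a subring has roots integral over the subring. -/
theorem isIntegral_of_monic_of_coeff_mem {A : Subring 𝔽} (H : 𝔽[X]) (hH : H.Monic)
    (hc : ∀ i, H.coeff i ∈ A) {θ : 𝔽} (hθ : H.eval θ = 0) : IsIntegral A θ := by
  have hl : H ∈ lifts (algebraMap A 𝔽) :=
    (lifts_iff_coeff_lifts H).2 fun n => ⟨⟨H.coeff n, hc n⟩, rfl⟩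
  obtain ⟨P, hP, -, hPm⟩ := lifts_and_natDegree_eq_and_monic hl hH
  refine ⟨P, hPm, ?_⟩
  rw [eval₂_eq_eval_map, hP, hθ]

end Subrings

section Transc

variable {Λ K 𝔽 : Type*} [CommRing Λ] [Field K] [Algebra Λ K]
  [Field 𝔽] [Algebra K 𝔽] [Algebra Λ 𝔽] [IsScalarTower Λ K 𝔽]

/-- `aeval t a ∈ E` for every intermediate field `E` containing `t`. -/
theorem aeval_mem_of_mem (E : IntermediateField K 𝔽) {t : 𝔽} (ht : t ∈ E) (a : Λ[X]) :
    aeval t a ∈ E := by
  have h := IntermediateField.aeval_coe (S := E) (R := Λ) ⟨t, ht⟩ a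
  rw [show ((⟨t, ht⟩ : E) : 𝔽) = t from rfl] at h
  rw [h]
  exact (aeval (⟨t, ht⟩ : E) a).2

variable [IsFractionRing Λ K]

theorem aeval_ne_zero_of_transcendental {t : 𝔽} (ht : Transcendental K t) {P : Λ[X]}
    (hP : P ≠ 0) : aeval t P ≠ 0 := by
  intro h0
  apply ht
  refine ⟨P.map (algebraMap Λ K), (Polynomial.map_ne_zero_iff (IsFractionRing.injective Λ K)).2 hP,
    ?_⟩
  rw [aeval_map_algebraMap]
  exact h0

/-- The Gauss ring of `t` lies in every intermediate field containing `t` (`t` transcendental). -/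
theorem gaussSub_le_of_mem {π : Λ} (hπ : Prime π) (E : IntermediateField K 𝔽) {t : 𝔽}
    (ht : t ∈ E) (htr : Transcendental K t) : ∀ v ∈ gaussSub π hπ t, v ∈ E := by
  rintro v ⟨a, b, hb, hv⟩
  have hb0 : b ≠ 0 := fun h0 => hb (h0 ▸ dvd_zero _)
  have hbt : aeval t b ≠ 0 := aeval_ne_zero_of_transcendental htr hb0
  have hv' : v = aeval t a / aeval t b := by rw [← hv, mul_div_cancel_right₀ _ hbt]
  rw [hv']
  exact E.div_mem (aeval_mem_of_mem E ht a) (aeval_mem_of_mem E ht b)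

/-- In the cover situation `Ng(x) = j Dg(x)`, `j` is transcendental and lies in `K(x)`. -/
theorem cover_facts (Ng Dg : Λ[X]) (hdeg : Dg.natDegree < Ng.natDegree)
    (hlead : IsUnit Ng.leadingCoeff) (x j : 𝔽) (hx : Transcendental K x)
    (hcov : aeval x Ng = j * aeval x Dg) :
    Transcendental K j ∧ j ∈ K⟮x⟯ := by
  have hinjΛK : Function.Injective (algebraMap Λ K) := IsFractionRing.injective Λ K
  have : Nontrivial Λ := (algebraMap Λ K).domain_nontrivial
  have hNg0 : Ng ≠ 0 := by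
    intro h0
    rw [h0, leadingCoeff_zero] at hlead
    exact not_isUnit_zero hlead
  have hNgx : aeval x Ng ≠ 0 := aeval_ne_zero_of_transcendental hx hNg0
  have hDgx : aeval x Dg ≠ 0 := by
    intro h0
    rw [h0, mul_zero] at hcov
    exact hNgx hcov
  constructor
  · intro hj
    apply hx
    have : Algebra.IsAlgebraic K K⟮j⟯ := isAlgebraic_adjoin_simple hj.isIntegral
    have hjmem : j ∈ K⟮j⟯ := mem_adjoin_simple_self K j
    have : IsScalarTower Λ K⟮j⟯ 𝔽 := IsScalarTower.of_algebraMap_eq (fun _ => rfl)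
    refine IsAlgebraic.restrictScalars (R := K) (S := K⟮j⟯) ?_
    refine ⟨Ng.map (algebraMap Λ K⟮j⟯) - C (⟨j, hjmem⟩ : K⟮j⟯) * Dg.map (algebraMap Λ K⟮j⟯), ?_, ?_⟩
    · intro h0
      have h1 := congrArg (fun q => q.coeff Ng.natDegree) h0
      simp only [coeff_sub, coeff_map, coeff_C_mul, coeff_zero] at h1
      rw [coeff_eq_zero_of_natDegree_lt hdeg, map_zero, mul_zero, sub_zero] at h1
      have hinj : Function.Injective (algebraMap Λ K⟮j⟯) := by
        rw [IsScalarTower.algebraMap_eq Λ K K⟮j⟯]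
        exact (algebraMap K K⟮j⟯).injective.comp hinjΛK
      have h2 : Ng.leadingCoeff = 0 := hinj (by rw [map_zero]; exact h1)
      rw [h2] at hlead
      exact not_isUnit_zero hlead
    · rw [map_sub, map_mul, aeval_map_algebraMap, aeval_map_algebraMap, aeval_C, hcov]
      exact sub_self _
  · have hjx : j = aeval x Ng / aeval x Dg := by rw [hcov, mul_div_cancel_right₀ _ hDgx]
    rw [hjx]
    exact K⟮x⟯.div_mem (aeval_mem_of_mem K⟮x⟯ (mem_adjoin_simple_self K x) Ng)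
      (aeval_mem_of_mem K⟮x⟯ (mem_adjoin_simple_self K x) Dg)

end Transc

section KummerTower

variable {K₁ 𝔽 : Type*} [Field K₁] [Field 𝔽] [Algebra K₁ 𝔽]

theorem adjoin_eq_top_of_forall (M : IntermediateField K₁ 𝔽) (w θ : 𝔽) (hθM : θ ∈ M)
    (hgen : ∀ M : IntermediateField K₁ 𝔽, θ ∈ M → w ∈ M → M = ⊤) :
    IntermediateField.adjoin M {w} = ⊤ := by
  have hθ1 : θ ∈ IntermediateField.adjoin M {w} := by
    have h0 : algebraMap M 𝔽 ⟨θ, hθM⟩ ∈ IntermediateField.adjoin M {w} :=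
      (IntermediateField.adjoin M {w}).algebraMap_mem (⟨θ, hθM⟩ : M)
    exact h0
  have hw1 : w ∈ IntermediateField.adjoin M {w} := mem_adjoin_simple_self _ _
  have hθ2 : θ ∈ (IntermediateField.adjoin M {w}).restrictScalars K₁ :=
    (IntermediateField.mem_restrictScalars K₁).2 hθ1
  have hw2 : w ∈ (IntermediateField.adjoin M {w}).restrictScalars K₁ :=
    (IntermediateField.mem_restrictScalars K₁).2 hw1
  have h1 := hgen _ hθ2 hw2
  rw [eq_top_iff]
  intro y _
  have h2 : y ∈ (IntermediateField.adjoin M {w}).restrictScalars K₁ := by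
    rw [h1]; exact mem_top
  exact (IntermediateField.mem_restrictScalars K₁).1 h2

theorem irreducible_X_pow_sub_C_of_notMem (M : IntermediateField K₁ 𝔽) (p : ℕ) (hp : p.Prime)
    (ζ : K₁) (hζ : IsPrimitiveRoot ζ p) (w : 𝔽) (u : M) (hu0 : (u : 𝔽) ≠ 0) (hw : w ^ p = u)
    (hwM : w ∉ M) : Irreducible (X ^ p - Polynomial.C u : M[X]) := by
  refine X_pow_sub_C_irreducible_of_prime hp (fun b hb => hwM ?_)
  have hb' : (b : 𝔽) ^ p = w ^ p := by
    rw [hw, ← hb]; rfl
  have hb0 : (b : 𝔽) ≠ 0 := by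
    intro h0
    rw [h0, zero_pow hp.ne_zero, hw] at hb'
    exact hu0 hb'.symm
  have hroot : (w / (b : 𝔽)) ^ p = 1 := by
    rw [div_pow, ← hb', div_self (pow_ne_zero _ hb0)]
  have hζ' : IsPrimitiveRoot (algebraMap K₁ 𝔽 ζ) p :=
    hζ.map_of_injective (algebraMap K₁ 𝔽).injective
  have : NeZero p := ⟨hp.ne_zero⟩
  obtain ⟨i, -, hi⟩ := hζ'.eq_pow_of_pow_eq_one hroot
  have hw_eq : w = algebraMap K₁ 𝔽 ζ ^ i * b := by rw [hi, div_mul_cancel₀ _ hb0]
  rw [hw_eq]
  exact mul_mem (pow_mem (M.algebraMap_mem ζ) i) b.2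

/-- (B1) for the tower `K₁ ⊂ K₁(θ) ⊂ K₁(θ, w) = 𝔽`, `w ^ p = u ∈ K₁(θ)`: combine DB1, DB2. -/
theorem hasIntegralDualBasis_of_kummer_tower (V : Subring 𝔽) (p : ℕ) (hp : p.Prime)
    (hp0 : (p : 𝔽) ≠ 0) (ζ : K₁) (hζ : IsPrimitiveRoot ζ p)
    (θ w u : 𝔽) (H₁ : K₁[X]) (hH₁m : H₁.Monic) (hH₁θ : aeval θ H₁ = 0)
    (hH₁c : ∀ i, IsIntegral V (algebraMap K₁ 𝔽 (H₁.coeff i))) (hθ : IsIntegral V θ)
    (hd0 : aeval θ (derivative H₁) ≠ 0) (hd : IsIntegral V (aeval θ (derivative H₁))⁻¹)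
    (hu0 : u ≠ 0) (huM : u ∈ K₁⟮θ⟯) (hw : w ^ p = u)
    (hwi : IsIntegral V w) (hwi' : IsIntegral V w⁻¹) (hpi : IsIntegral V ((p : 𝔽)⁻¹))
    (hgen : ∀ M : IntermediateField K₁ 𝔽, θ ∈ M → w ∈ M → M = ⊤) :
    HasIntegralDualBasis V K₁ 𝔽 := by
  have hM : HasIntegralDualBasis V K₁ K₁⟮θ⟯ :=
    DualBasis.of_primitive V θ H₁ hH₁m hH₁θ hH₁c hθ hd0 hd
  have hθM : θ ∈ K₁⟮θ⟯ := mem_adjoin_simple_self _ θ
  by_cases hwM : w ∈ K₁⟮θ⟯
  · exact DualBasis.of_eq_top V _ (hgen _ hθM hwM) hM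
  · exact DualBasis.of_kummer V (K₁⟮θ⟯) p hp0 ⟨u, huM⟩ w hw
      (irreducible_X_pow_sub_C_of_notMem _ p hp ζ hζ w ⟨u, huM⟩ hu0 hw hwM)
      (adjoin_eq_top_of_forall _ w θ hθM hgen) hwi hwi' hpi hM

end KummerTower

end ModelAbs

/-- The abstract model theorem (note 208), with the inputs from VjInt (`hle`, `hint`),
GaussLineK (`hK`) and Engine (`hengine`) as hypotheses. -/
theorem model_abs_of {Λ K 𝔽 : Type*} [CommRing Λ] [IsDomain Λ] [IsDiscreteValuationRing Λ]
    [Field K] [CharZero K] [Algebra Λ K] [IsFractionRing Λ K] [Field 𝔽] [Algebra K 𝔽] [Algebra Λ 𝔽]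
    [IsScalarTower Λ K 𝔽]
    (π : Λ) (hπ : Irreducible π)
    (p : ℕ) (hp : p.Prime) (hpu : IsUnit (p : Λ)) (ζ : Λ) (hζ : IsPrimitiveRoot ζ p)
    (Ng Dg : Λ[X]) (hdeg : Dg.natDegree < Ng.natDegree) (hlead : IsUnit Ng.leadingCoeff)
    (j x w u θ : 𝔽) (H : 𝔽[X])
    (hx : Transcendental K x)
    (hcov : aeval x Ng = j * aeval x Dg)
    (hgen : IntermediateField.adjoin K {x, θ, w} = ⊤)
    (huF : u ∈ IntermediateField.adjoin K {j, θ})
    (hirr : ∀ v ∈ IntermediateField.adjoin K {j, θ}, v ^ p ≠ u)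
    (hw : w ^ p = u)
    (hHm : H.Monic) (hHc : ∀ i, H.coeff i ∈ gaussSub π hπ.prime j) (hHθ : H.eval θ = 0)
    (hHd : IsIntegral (gaussSub π hπ.prime j) (H.derivative.eval θ)⁻¹)
    (hHd0 : H.derivative.eval θ ≠ 0)
    (hu : IsIntegral (gaussSub π hπ.prime j) u) (hu' : IsIntegral (gaussSub π hπ.prime j) u⁻¹)
    (hu1 : ∃ δ : 𝔽, IsIntegral (gaussSub π hπ.prime j) δ ∧ u - 1 = π • δ)
    (hle : gaussSub π hπ.prime j ≤ gaussSub π hπ.prime x)
    (hint : ∀ v ∈ gaussSub π hπ.prime x, IsIntegral (gaussSub π hπ.prime j) v)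
    (hK : ∀ c : K, IsIntegral (gaussSub π hπ.prime x) (algebraMap K 𝔽 c) →
      ∃ l : Λ, algebraMap Λ K l = c)
    (hengine : HasIntegralDualBasis (gaussSub π hπ.prime x) K⟮x⟯ 𝔽 →
      IdemTrivial (gaussSub π hπ.prime x) π) : False := by
  classical
  -- Step 1: integrality transfers both ways along `V_j ≤ V₀`
  have hdown : ∀ z : 𝔽, IsIntegral (gaussSub π hπ.prime x) z →
      IsIntegral (gaussSub π hπ.prime j) z :=
    fun z hz => ModelAbs.isIntegral_of_isIntegral_of_le hle hint hz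
  have hup : ∀ z : 𝔽, IsIntegral (gaussSub π hπ.prime j) z →
      IsIntegral (gaussSub π hπ.prime x) z :=
    fun z hz => ModelAbs.isIntegral_of_le hle hz
  obtain ⟨hjtr, hjx⟩ := ModelAbs.cover_facts Ng Dg hdeg hlead x j hx hcov
  have hinjΛK : Function.Injective (algebraMap Λ K) := IsFractionRing.injective Λ K
  have hu0 : u ≠ 0 := by
    intro h0
    refine hirr 0 (zero_mem _) ?_
    rw [zero_pow hp.ne_zero, h0]
  -- `p` is invertible
  obtain ⟨l, hl⟩ := hpu.exists_right_inv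
  have hpl : (p : 𝔽) * algebraMap Λ 𝔽 l = 1 := by
    have := congrArg (algebraMap Λ 𝔽) hl
    rwa [map_mul, map_natCast, map_one] at this
  have hp0 : (p : 𝔽) ≠ 0 := left_ne_zero_of_mul_eq_one hpl
  have hpi : IsIntegral (gaussSub π hπ.prime x) ((p : 𝔽)⁻¹) := by
    rw [inv_eq_of_mul_eq_one_right hpl]
    exact ModelAbs.isIntegral_of_mem_subring (algebraMap_mem_gaussSub π hπ.prime x l)
  have hwi : IsIntegral (gaussSub π hπ.prime x) w :=
    IsIntegral.of_pow hp.pos (by rw [hw]; exact hup u hu)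
  have hwi' : IsIntegral (gaussSub π hπ.prime x) w⁻¹ :=
    IsIntegral.of_pow hp.pos (by rw [inv_pow, hw]; exact hup _ hu')
  -- Step 2: (B1)
  have hB1 : HasIntegralDualBasis (gaussSub π hπ.prime x) K⟮x⟯ 𝔽 := by
    -- `H` descends to `K₁ = K(x)`
    have hVjK₁ : ∀ v ∈ gaussSub π hπ.prime j, v ∈ K⟮x⟯ :=
      ModelAbs.gaussSub_le_of_mem hπ.prime K⟮x⟯ hjx hjtr
    have hl : H ∈ lifts (algebraMap K⟮x⟯ 𝔽) :=
      (lifts_iff_coeff_lifts H).2 fun n => ⟨⟨H.coeff n, hVjK₁ _ (hHc n)⟩, rfl⟩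
    obtain ⟨H₁, hH₁, -, hH₁m⟩ := lifts_and_natDegree_eq_and_monic hl hHm
    have hH₁θ : aeval θ H₁ = 0 := by
      rw [aeval_def, eval₂_eq_eval_map, hH₁, hHθ]
    have hH₁c : ∀ i, IsIntegral (gaussSub π hπ.prime x) (algebraMap K⟮x⟯ 𝔽 (H₁.coeff i)) := by
      intro i
      have h1 : algebraMap K⟮x⟯ 𝔽 (H₁.coeff i) = H.coeff i := by rw [← hH₁, coeff_map]
      rw [h1]
      exact ModelAbs.isIntegral_of_mem_subring (hle (hHc i))
    have hθint : IsIntegral (gaussSub π hπ.prime x) θ :=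
      ModelAbs.isIntegral_of_monic_of_coeff_mem H hHm (fun i => hle (hHc i)) hHθ
    have hder : aeval θ (derivative H₁) = H.derivative.eval θ := by
      rw [aeval_def, eval₂_eq_eval_map, ← derivative_map, hH₁]
    -- the primitive root of unity in `K(x)`
    have hζ₁ : IsPrimitiveRoot (algebraMap K K⟮x⟯ (algebraMap Λ K ζ)) p :=
      (hζ.map_of_injective hinjΛK).map_of_injective (algebraMap K K⟮x⟯).injective
    -- generation
    have hgen₁ : ∀ M : IntermediateField K⟮x⟯ 𝔽, θ ∈ M → w ∈ M → M = ⊤ := by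
      intro M hθM hwM
      have hxM : x ∈ M := by
        have h0 : algebraMap K⟮x⟯ 𝔽 ⟨x, mem_adjoin_simple_self K x⟩ ∈ M :=
          M.algebraMap_mem (⟨x, mem_adjoin_simple_self K x⟩ : K⟮x⟯)
        exact h0
      have h1 : IntermediateField.adjoin K {x, θ, w} ≤ M.restrictScalars K := by
        rw [IntermediateField.adjoin_le_iff]
        rintro s (rfl | rfl | rfl)
        · exact (IntermediateField.mem_restrictScalars K).2 hxM
        · exact (IntermediateField.mem_restrictScalars K).2 hθM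
        · exact (IntermediateField.mem_restrictScalars K).2 hwM
      rw [eq_top_iff]
      intro y _
      have h2 : y ∈ IntermediateField.adjoin K {x, θ, w} := by rw [hgen]; exact mem_top
      exact (IntermediateField.mem_restrictScalars K).1 (h1 h2)
    -- `u ∈ K(x)(θ)`
    have huM : u ∈ K⟮x⟯⟮θ⟯ := by
      have hFM : IntermediateField.adjoin K {j, θ} ≤ (K⟮x⟯⟮θ⟯).restrictScalars K := by
        rw [IntermediateField.adjoin_le_iff]
        rintro s (rfl | rfl)
        · have h0 : algebraMap K⟮x⟯ 𝔽 ⟨s, hjx⟩ ∈ K⟮x⟯⟮θ⟯ :=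
            (K⟮x⟯⟮θ⟯).algebraMap_mem (⟨s, hjx⟩ : K⟮x⟯)
          exact (IntermediateField.mem_restrictScalars K).2 h0
        · exact (IntermediateField.mem_restrictScalars K).2 (mem_adjoin_simple_self _ _)
      exact (IntermediateField.mem_restrictScalars K).1 (hFM huF)
    exact ModelAbs.hasIntegralDualBasis_of_kummer_tower (gaussSub π hπ.prime x) p hp hp0 _ hζ₁
      θ w u H₁ hH₁m hH₁θ hH₁c hθint (by rw [hder]; exact hHd0) (by rw [hder]; exact hup _ hHd)
      hu0 huM hw hwi hwi' hpi hgen₁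
  -- Step 3: the engine
  have hidem : IdemTrivial (gaussSub π hπ.prime x) π := hengine hB1
  -- Step 4: the final contradiction
  refine final π hπ (gaussSub π hπ.prime x) (gaussSub π hπ.prime j) hdown hle hK
    (fun a => algebraMap_mem_gaussSub π hπ.prime j a) hidem p hp hpu ζ hζ
    (IntermediateField.adjoin K {j, θ}) ?_ u w huF hw hirr (hup u hu) ?_
  · exact ModelAbs.gaussSub_le_of_mem hπ.prime _
      (IntermediateField.subset_adjoin K _ (by simp)) hjtr
  · obtain ⟨δ, hδ, hδu⟩ := hu1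
    exact ⟨δ, hup δ hδ, hδu⟩

end Fermat.Agent.S18
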