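import Fermat.Agent.S18.FullCInst
import Fermat.Agent.S18.ModelDefs

/-!
P11 / S18 — shortcut instances for the model instantiation (`ModelInst`, `GaussOut`, ...).

On the concrete carriers

* `F_K = ↥(modularFunctionFieldFullC K N)` with a subring `S` of `K` (in practice
  `K = ↥(constField K₀ T)`, `S = NumField.lam A K`),
* `𝔽 = ↥(genField K₀ T)` over `K = ↥(constField K₀ T)` with a subring `S` of `K`,

the default instance search for the algebra structures over `S` and for the scalar towers
`S → K → F_K`, `S → K → 𝔽` is very slow (it runs out of heartbeats at the default limits) or
fails.  The instances below are the ones the slow search finally finds (the data-carrying ones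
are equal to them up to unfolding of instances, checked by `with_reducible_and_instances rfl`,
so statements elaborated with or without this file are compatible), declared with higher
priority.  Importing this file is optional.
-/

set_option autoImplicit false

namespace Fermat.Agent.S18

open ModularCurve

section FullC

variable (K : Type*) [Field K] (N : ℕ) {C : Type*} [SetLike C K] [SubsemiringClass C K] (S : C)

/-- Shortcut: `F_N(K)` as a `K`-module. -/
noncomputable instance (priority := 1100) moduleFullC :
    Module K ↥(modularFunctionFieldFullC K N) :=
  Algebra.toModule

/-- Shortcut: the scalar action of `K` on `F_N(K)`. -/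
noncomputable instance (priority := 1100) smulFullC :
    SMul K ↥(modularFunctionFieldFullC K N) :=
  Algebra.toSMul

/-- Shortcut: `F_N(K)` as an algebra over a subring `S` of `K`. -/
noncomputable instance (priority := 1050) algebraSubFullC :
    Algebra ↥S ↥(modularFunctionFieldFullC K N) :=
  Algebra.ofSubsemiring S

/-- Shortcut: `F_N(K)` as a module over a subring `S` of `K`. -/
noncomputable instance (priority := 1050) moduleSubFullC :
    Module ↥S ↥(modularFunctionFieldFullC K N) :=
  Algebra.toModule

/-- Shortcut: the scalar action of a subring `S` of `K` on `F_N(K)`. -/
noncomputable instance (priority := 1050) smulSubFullC :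
    SMul ↥S ↥(modularFunctionFieldFullC K N) :=
  Algebra.toSMul

/-- Shortcut: the tower `S → K → F_N(K)`. -/
instance (priority := 1050) isScalarTowerSubFullC :
    IsScalarTower ↥S K ↥(modularFunctionFieldFullC K N) :=
  IsScalarTower.of_algebraMap_eq (fun _ => rfl)

end FullC

section Model

open Model

variable {L Ω : Type*} [Field L] [Algebra ℚ L] [Field Ω] [Algebra L Ω]
  (K₀ : IntermediateField ℚ L) (T : Set Ω)
  {C : Type*} [SetLike C ↥(constField K₀ T)] [SubsemiringClass C ↥(constField K₀ T)] (S : C)

/-- Shortcut: the model field as an algebra over a subring `S` of its constant field. -/
noncomputable instance (priority := 1050) algebraSubGenField :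
    Algebra ↥S ↥(genField K₀ T) :=
  Algebra.ofSubsemiring S

/-- The tower `S → K → 𝔽` for a subring `S` of the constant field `K` of the model field `𝔽`
(not found by the default search). -/
instance (priority := 1050) isScalarTowerSubGenField :
    IsScalarTower ↥S ↥(constField K₀ T) ↥(genField K₀ T) :=
  IsScalarTower.of_algebraMap_eq (fun _ => rfl)

end Model

end Fermat.Agent.S18
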