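import Fermat.Agent.S24.Analytic
import Fermat.Agent.S24.LocalCount
import Fermat.Agent.S24.Places

/-!
P11 (S18), RamE input: ramification of the function field `F_L = FFL L N` of `X₀(N)` over `L(j)`
at the finite places, extracted from the S24 local families.

* `ord_jL_sub_dvd`: a place over `j = c` has ramification index dividing `3` (`c = 0`),
  `2` (`c = 1728`), `1` (otherwise);
* `exists_residue`: the residue field of every place of `F_L` is `L`;
* `finiteDimensional_adjoin_algebraMap`: tower finiteness, so that the place theory of S24 applies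
  to finite extensions of `F_L`.
-/

set_option autoImplicit false
set_option linter.style.haveILetI false

namespace Fermat.Agent.S18.RamJ

open AlgebraicCurve Fermat.Agent.S24 IntermediateField

section Tower

/-- Tower finiteness: if `F / K(y)` and `E / F` are finite then `E / K(y)` is finite, where
`K(y)` is taken inside `E`. -/
theorem finiteDimensional_adjoin_algebraMap {K F E : Type*} [Field K] [Field F] [Field E]
    [Algebra K F] [Algebra K E] [Algebra F E] [IsScalarTower K F E] (y : F)
    [FiniteDimensional K⟮y⟯ F] [FiniteDimensional F E] :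
    FiniteDimensional K⟮algebraMap F E y⟯ E := by
  haveI : Module.Finite K⟮y⟯ E := Module.Finite.trans F E
  -- the restriction of `F → E` to `K(y) → K(y)` (inside `E`)
  have hmem : ∀ a : K⟮y⟯, algebraMap F E (a : F) ∈ K⟮algebraMap F E y⟯ := by
    intro a
    have h1 : (K⟮y⟯).map (IsScalarTower.toAlgHom K F E) = K⟮algebraMap F E y⟯ := by
      rw [IntermediateField.adjoin_map, Set.image_singleton]
      rfl
    rw [← h1]
    exact ⟨(a : F), a.2, rfl⟩
  let φ : K⟮y⟯ →+* K⟮algebraMap F E y⟯ :=
    { toFun := fun a => ⟨algebraMap F E (a : F), hmem a⟩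
      map_one' := by ext; simp
      map_mul' := by intro a b; ext; simp
      map_zero' := by ext; simp
      map_add' := by intro a b; ext; simp }
  letI : Algebra K⟮y⟯ K⟮algebraMap F E y⟯ := φ.toAlgebra
  haveI : IsScalarTower K⟮y⟯ K⟮algebraMap F E y⟯ E := by
    refine IsScalarTower.of_algebraMap_eq fun a => ?_
    rfl
  exact Module.Finite.of_restrictScalars_finite K⟮y⟯ K⟮algebraMap F E y⟯ E

end Tower

variable (N : ℕ) [NeZero N] (L : Type*) [Field L] [Algebra ℚ L] [IsAlgClosed L] [CharZero L]
  [Nonempty (L →+* ℂ)]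

/-- Ramification of `F_L / L(j)`: `e_P ∣ 3` over `j = 0`, `e_P ∣ 2` over `j = 1728`, `e_P = 1`
elsewhere. -/
theorem ord_jL_sub_dvd [DecidableEq L] (P : Place L (FFL L N)) (c : L)
    (hP : 0 < P.ord (jL L N - algebraMap L (FFL L N) c)) :
    P.ord (jL L N - algebraMap L (FFL L N) c) ∣
      (if c = 0 then 3 else if c = 1728 then 2 else 1 : ℤ) := by
  have hx : Transcendental L (jL L N) := transcendental_jL N L
  haveI : FiniteDimensional L⟮jL L N⟯ (FFL L N) := finiteDimensional_jL N L
  have hn : Module.finrank L⟮jL L N⟯ (FFL L N) = Fintype.card (XX N) := finrank_jL N L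
  obtain ⟨ι⟩ := ‹Nonempty (L →+* ℂ)›
  by_cases hc0 : c = 0
  · subst hc0
    rw [if_pos rfl]
    have hfam := isLocalFamily_ptRho N L ι
    obtain ⟨Pl, -, hsurj, -, hper, -⟩ :=
      exists_place_of_localFamily (transcendental_sub_algebraMap hx 0)
        (adjoin_sub_algebraMap (jL L N) 0) hn.symm three_pos hfam
    obtain ⟨i, rfl⟩ := hsurj P hP
    rw [hper i]
    exact_mod_cast hfam.per i
  · rw [if_neg hc0]
    by_cases hc : c = 1728
    · subst hc
      rw [if_pos rfl]
      have hfam := isLocalFamily_ptI N L ι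
      obtain ⟨Pl, -, hsurj, -, hper, -⟩ :=
        exists_place_of_localFamily (transcendental_sub_algebraMap hx 1728)
          (adjoin_sub_algebraMap (jL L N) 1728) hn.symm two_pos hfam
      obtain ⟨i, rfl⟩ := hsurj P hP
      rw [hper i]
      exact_mod_cast hfam.per i
    · rw [if_neg hc]
      obtain ⟨τ, hτ⟩ := Jfun_surjective (ι c)
      have hfam := isLocalFamily_generic N L ι τ c hτ hc0 hc
      obtain ⟨Pl, -, hsurj, -, hper, -⟩ :=
        exists_place_of_localFamily (transcendental_sub_algebraMap hx c)
          (adjoin_sub_algebraMap (jL L N) c) hn.symm one_pos hfam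
      obtain ⟨i, rfl⟩ := hsurj P hP
      rw [hper i]
      exact_mod_cast hfam.per i

/-- Over `j = 0` the ramification index divides `3`. -/
theorem ord_jL_dvd_three (P : Place L (FFL L N)) (hP : 0 < P.ord (jL L N)) :
    P.ord (jL L N) ∣ (3 : ℤ) := by
  classical
  have h := ord_jL_sub_dvd N L P 0 (by rwa [map_zero, sub_zero])
  rwa [map_zero, sub_zero, if_pos rfl] at h

/-- Over `j = 1728` the ramification index divides `2`. -/
theorem ord_jL_sub_1728_dvd_two (P : Place L (FFL L N))
    (hP : 0 < P.ord (jL L N - algebraMap L (FFL L N) 1728)) :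
    P.ord (jL L N - algebraMap L (FFL L N) 1728) ∣ (2 : ℤ) := by
  classical
  have h := ord_jL_sub_dvd N L P 1728 hP
  rwa [if_neg (by norm_num : (1728 : L) ≠ 0), if_pos rfl] at h

/-- Over `j = c`, `c ≠ 0, 1728`, the places of `F_L` are unramified. -/
theorem ord_jL_sub_eq_one (P : Place L (FFL L N)) {c : L} (hc0 : c ≠ 0) (hc : c ≠ 1728)
    (hP : 0 < P.ord (jL L N - algebraMap L (FFL L N) c)) :
    P.ord (jL L N - algebraMap L (FFL L N) c) = 1 := by
  classical
  have h := ord_jL_sub_dvd N L P c hP
  rw [if_neg hc0, if_neg hc] at h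
  exact Int.eq_one_of_dvd_one hP.le h

/-- The residue field of every place of `F_L` is `L`. -/
theorem exists_residue (P : Place L (FFL L N)) {f : FFL L N} (hf : 0 ≤ P.ord f) :
    ∃ c : L, f = algebraMap L (FFL L N) c ∨ 0 < P.ord (f - algebraMap L (FFL L N) c) := by
  haveI : FiniteDimensional L⟮jL L N⟯ (FFL L N) := finiteDimensional_jL N L
  exact exists_sub_mem_maximal (transcendental_jL N L) P hf

end Fermat.Agent.S18.RamJ
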