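import Fermat.Agent.S18.DvrGen
import Fermat.Agent.S18.RamJ

/-!
P11 (S18), module RamE: the places of `E_L = F_L(x)` (`F_L` the function field of `X₀(N)` over an
algebraically closed field `L` of characteristic `0`, `x` a root of `N_g(X) - j · D_g(X)`) are
unramified over the `x`-line outside the cusps (the poles of `g = N_g / D_g`).

* `exists_restrict`: restriction of a place to a subfield;
* `abhyankar`: Abhyankar's lemma by hand (the ring `O_P[x, s]`, `s = (x - a)^(e_Q / e_P) / ϖ_P`,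
  and the criterion `ord_eq_one_of_generated` of `DvrGen`);
* `ord_sub_eq_one`, `ord_sub_eq_one_of_frac`, `ord_sub_eq_one_of_factor`: the result, using the
  ramification of `F_L / L(j)` from `RamJ` (indices dividing `3` over `j = 0`, `2` over
  `j = 1728`, `1` elsewhere).
-/

set_option autoImplicit false
set_option linter.unusedSectionVars false

namespace Fermat.Agent.S18

namespace RamE

open AlgebraicCurve Polynomial
open Fermat.Agent.S24

section PlaceVal

variable {K Ω : Type*} [Field K] [Field Ω] [Algebra K Ω] (W : Place K Ω)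

theorem val_le_one_iff (z : Ω) : W.adicValuation z ≤ 1 ↔ z ∈ W.toValuationSubring := by
  rcases eq_or_ne z 0 with rfl | hz
  · simp
  · rw [PlacesBasic.mem_iff_ord_nonneg W hz]
    unfold Place.ord
    rw [neg_nonneg, WithZero.log_le_iff_le_exp (W.adicValuation_ne_zero hz), WithZero.exp_zero]

theorem val_lt_one_iff {z : Ω} (hz : z ≠ 0) : W.adicValuation z < 1 ↔ 0 < W.ord z := by
  unfold Place.ord
  rw [neg_pos, WithZero.log_lt_iff_lt_exp (W.adicValuation_ne_zero hz), WithZero.exp_zero]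

theorem val_eq_one_iff {z : Ω} (hz : z ≠ 0) : W.adicValuation z = 1 ↔ W.ord z = 0 :=
  (PlacesBasic.aux_ord_eq_zero_iff W hz).symm

theorem val_algebraMap_le (c : K) : W.adicValuation (algebraMap K Ω c) ≤ 1 :=
  (val_le_one_iff W _).2 (W.algebraMap_mem' c)

theorem val_algebraMap_eq {c : K} (hc : c ≠ 0) : W.adicValuation (algebraMap K Ω c) = 1 := by
  have h : algebraMap K Ω c ≠ 0 := (_root_.map_ne_zero _).2 hc
  exact (val_eq_one_iff W h).2 (PlacesBasic.ord_algebraMap W c)

theorem val_mul_lt {z z' : Ω} (hz : W.adicValuation z < 1) (hz' : W.adicValuation z' ≤ 1) :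
    W.adicValuation (z * z') < 1 := by
  rw [map_mul]
  exact mul_lt_one_of_nonneg_of_lt_one_left zero_le hz hz'

/-- The valuation ring of a place as a `K`-subalgebra. -/
def valSubalgebra : Subalgebra K Ω :=
  { W.toValuationSubring.toSubring with algebraMap_mem' := W.algebraMap_mem' }

theorem mem_valSubalgebra {z : Ω} : z ∈ valSubalgebra W ↔ W.adicValuation z ≤ 1 :=
  (val_le_one_iff W z).symm

theorem aeval_mem {B : Subalgebra K Ω} {z : Ω} (hz : z ∈ B) (g : K[X]) : aeval z g ∈ B := by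
  have h := B.aeval_coe ⟨z, hz⟩ g
  rw [show ((⟨z, hz⟩ : B) : Ω) = z from rfl] at h
  rw [h]
  exact (aeval (⟨z, hz⟩ : B) g).2

theorem val_aeval_le {z : Ω} (hz : W.adicValuation z ≤ 1) (g : K[X]) :
    W.adicValuation (aeval z g) ≤ 1 :=
  (mem_valSubalgebra W).1 (aeval_mem ((mem_valSubalgebra W).2 hz) g)

theorem aeval_eq_eval_add (g : K[X]) (a : K) (x : Ω) :
    aeval x g =
      algebraMap K Ω (g.eval a) + (x - algebraMap K Ω a) * aeval x (g /ₘ (X - C a)) := by
  conv_lhs => rw [← modByMonic_add_div g (X - C a), modByMonic_X_sub_C_eq_C_eval]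
  simp only [map_add, map_mul, map_sub, aeval_C, aeval_X]

theorem val_aeval_eq_one {x : Ω} {a : K} (hx : W.adicValuation (x - algebraMap K Ω a) < 1)
    {g : K[X]} (hg : g.eval a ≠ 0) : W.adicValuation (aeval x g) = 1 := by
  have hxle : W.adicValuation x ≤ 1 := by
    have h := W.adicValuation.map_add_le hx.le (val_algebraMap_le W a)
    rwa [sub_add_cancel] at h
  have h1 := val_algebraMap_eq W (Ω := Ω) hg
  have h2 : W.adicValuation ((x - algebraMap K Ω a) * aeval x (g /ₘ (X - C a))) < 1 :=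
    val_mul_lt W hx (val_aeval_le W hxle _)
  rw [aeval_eq_eval_add g a x, Valuation.map_add_eq_of_lt_left _ (by rw [h1]; exact h2), h1]

/-- If `g(z)` lies in the maximal ideal, for a monic `g` over the algebraically closed constant
field, then `z` is congruent to a root of `g`. -/
theorem exists_root_val_lt [IsAlgClosed K] {g : K[X]} (hg : g.Monic) {z : Ω}
    (hz : W.adicValuation z ≤ 1) (h : W.adicValuation (aeval z g) < 1) :
    ∃ r : K, g.IsRoot r ∧ W.adicValuation (z - algebraMap K Ω r) < 1 := by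
  by_contra hcon
  have hcon' : ∀ r : K, g.IsRoot r → 1 ≤ W.adicValuation (z - algebraMap K Ω r) :=
    fun r hr => not_lt.1 fun hlt => hcon ⟨r, hr, hlt⟩
  have hprod := (IsAlgClosed.splits g).eq_prod_roots_of_monic hg
  have h1 : aeval z g = (g.roots.map (fun r => z - algebraMap K Ω r)).prod := by
    conv_lhs => rw [hprod]
    rw [map_multiset_prod, Multiset.map_map]
    congr 1
    refine Multiset.map_congr rfl fun r _ => ?_
    simp
  have h2 : W.adicValuation (aeval z g) = 1 := by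
    rw [h1, map_multiset_prod, Multiset.map_map]
    refine Multiset.prod_eq_one fun v hv => ?_
    obtain ⟨r, hr, rfl⟩ := Multiset.mem_map.1 hv
    have hle : W.adicValuation (z - algebraMap K Ω r) ≤ 1 :=
      W.adicValuation.map_sub_le hz (val_algebraMap_le W r)
    have hroot : g.IsRoot r := (mem_roots hg.ne_zero).1 hr
    exact le_antisymm hle (hcon' r hroot)
  rw [h2] at h
  exact lt_irrefl _ h

end PlaceVal

section Restrict

variable {L F E : Type*} [Field L] [Field F] [Field E]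
  [Algebra L F] [Algebra L E] [Algebra F E] [IsScalarTower L F E]

/-- Restriction of a place of `E` to a subfield `F` on which it is non-trivial. -/
theorem exists_restrict (W : Place L E) {y : F} (hy : y ≠ 0)
    (hW : 0 < W.ord (algebraMap F E y)) :
    ∃ (P : Place L F) (d : ℕ), 0 < d ∧
      ∀ f : F, f ≠ 0 → W.ord (algebraMap F E f) = d * P.ord f := by
  refine exists_place_of_valuation (fun f => W.ord (algebraMap F E f)) ?_ ?_ ?_ hy hW
  · intro f g hf hg
    show W.ord (algebraMap F E (f * g)) = _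
    rw [map_mul, W.ord_mul ((_root_.map_ne_zero _).2 hf) ((_root_.map_ne_zero _).2 hg)]
  · intro f g hf hg hfg
    show min (W.ord (algebraMap F E f)) (W.ord (algebraMap F E g)) ≤ W.ord (algebraMap F E (f + g))
    rw [map_add]
    exact PlacesBasic.min_ord_le_ord_add W ((_root_.map_ne_zero _).2 hf) ((_root_.map_ne_zero _).2 hg)
      (by rw [← map_add]; exact (_root_.map_ne_zero _).2 hfg)
  · intro a _
    show W.ord (algebraMap F E (algebraMap L F a)) = 0
    rw [← IsScalarTower.algebraMap_apply]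
    exact PlacesBasic.ord_algebraMap W a

end Restrict


section Abhyankar

variable {L F E : Type*} [Field L] [Field F] [Field E]
  [Algebra L F] [Algebra L E] [Algebra F E] [IsScalarTower L F E]

/-- The ring `O_P[x, s] ⊂ E`. -/
def ringB (P : Place L F) (x s : E) : Subalgebra L E :=
  Algebra.adjoin L ((algebraMap F E) '' (P.toValuationSubring : Set F) ∪ {x, s})

theorem algebraMap_mem_ringB (P : Place L F) (x s : E) {f : F} (hf : f ∈ P.toValuationSubring) :
    algebraMap F E f ∈ ringB P x s :=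
  Algebra.subset_adjoin (Or.inl ⟨f, hf, rfl⟩)

theorem x_mem_ringB (P : Place L F) (x s : E) : x ∈ ringB P x s :=
  Algebra.subset_adjoin (Or.inr (by simp))

theorem s_mem_ringB (P : Place L F) (x s : E) : s ∈ ringB P x s :=
  Algebra.subset_adjoin (Or.inr (by simp))

/-- Clearing denominators: every `p(x)`, `p ∈ F[X]`, is a fraction of elements of `O_P[x, s]`
with denominator in `O_P`. -/
theorem exists_clear (P : Place L F) (x s : E) (p : F[X]) :
    ∃ δ : F, δ ∈ P.toValuationSubring ∧ δ ≠ 0 ∧ algebraMap F E δ * aeval x p ∈ ringB P x s := by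
  induction p using Polynomial.induction_on' with
  | add p q hp hq =>
    obtain ⟨δ₁, h1, h10, h1m⟩ := hp
    obtain ⟨δ₂, h2, h20, h2m⟩ := hq
    refine ⟨δ₁ * δ₂, mul_mem h1 h2, mul_ne_zero h10 h20, ?_⟩
    have e : algebraMap F E (δ₁ * δ₂) * aeval x (p + q) =
        algebraMap F E δ₂ * (algebraMap F E δ₁ * aeval x p) +
          algebraMap F E δ₁ * (algebraMap F E δ₂ * aeval x q) := by
      rw [map_mul, map_add]; ring
    rw [e]
    exact add_mem (mul_mem (algebraMap_mem_ringB P x s h2) h1m)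
      (mul_mem (algebraMap_mem_ringB P x s h1) h2m)
  | monomial n c =>
    have key : ∃ δ : F, δ ∈ P.toValuationSubring ∧ δ ≠ 0 ∧ δ * c ∈ P.toValuationSubring := by
      rcases P.toValuationSubring.mem_or_inv_mem c with h | h
      · exact ⟨1, one_mem _, one_ne_zero, by rwa [one_mul]⟩
      · rcases eq_or_ne c 0 with rfl | hc
        · exact ⟨1, one_mem _, one_ne_zero, by rw [mul_zero]; exact zero_mem _⟩
        · exact ⟨c⁻¹, h, inv_ne_zero hc, by rw [inv_mul_cancel₀ hc]; exact one_mem _⟩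
    obtain ⟨δ, hδ, hδ0, hδc⟩ := key
    refine ⟨δ, hδ, hδ0, ?_⟩
    have e : algebraMap F E δ * aeval x (monomial n c) = algebraMap F E (δ * c) * x ^ n := by
      rw [aeval_monomial, map_mul]; ring
    rw [e]
    exact mul_mem (algebraMap_mem_ringB P x s hδc) (pow_mem (x_mem_ringB P x s) n)

/-- **Abhyankar's lemma by hand.** `E = F(x)`, `W` a place of `E` centred at `x = a`; if
`y · D(x) = (x - a)^e · R(x)` with `y ∈ F`, `D(a), R(a) ≠ 0`, and the ramification index of every
place of `F` at which `y` vanishes divides `e`, then `x - a` is a uniformiser at `W`. -/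
theorem abhyankar [IsAlgClosed L] [CharZero L] (W : Place L E)
    (hres : ∀ (P : Place L F) (f : F), 0 ≤ P.ord f →
      ∃ c : L, f = algebraMap L F c ∨ 0 < P.ord (f - algebraMap L F c))
    (x : E) (hfrac : ∀ z : E, ∃ p q : F[X], aeval x q ≠ 0 ∧ z * aeval x q = aeval x p)
    (a : L) (ht : 0 < W.ord (x - algebraMap L E a))
    (y : F) (Dg Rg : L[X]) (eQ : ℕ) (heQ : 0 < eQ) (hD : Dg.eval a ≠ 0) (hR : Rg.eval a ≠ 0)
    (hrel : algebraMap F E y * aeval x Dg = (x - algebraMap L E a) ^ eQ * aeval x Rg)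
    (hram : ∀ P : Place L F, 0 < P.ord y → P.ord y ∣ (eQ : ℤ)) :
    W.ord (x - algebraMap L E a) = 1 := by
  classical
  obtain ⟨t, ht_def⟩ : ∃ t : E, t = x - algebraMap L E a := ⟨_, rfl⟩
  rw [← ht_def] at ht hrel ⊢
  have ht0 : t ≠ 0 := by
    intro h
    rw [h, W.ord_zero] at ht
    exact lt_irrefl _ ht
  have hνt : W.adicValuation t < 1 := (val_lt_one_iff W ht0).2 ht
  have hνt' : W.adicValuation (x - algebraMap L E a) < 1 := by rw [← ht_def]; exact hνt
  have hνx : W.adicValuation x ≤ 1 := by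
    have h := W.adicValuation.map_add_le hνt'.le (val_algebraMap_le W a)
    rwa [sub_add_cancel] at h
  have hDx : W.adicValuation (aeval x Dg) = 1 := val_aeval_eq_one W hνt' hD
  have hRx : W.adicValuation (aeval x Rg) = 1 := val_aeval_eq_one W hνt' hR
  have hDx0 : aeval x Dg ≠ 0 := fun h => by
    rw [h, map_zero] at hDx; exact zero_ne_one hDx
  have hRx0 : aeval x Rg ≠ 0 := fun h => by
    rw [h, map_zero] at hRx; exact zero_ne_one hRx
  have hy0 : y ≠ 0 := by
    rintro rfl
    rw [map_zero, zero_mul] at hrel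
    exact mul_ne_zero (pow_ne_zero _ ht0) hRx0 hrel.symm
  have hyE0 : algebraMap F E y ≠ 0 := (_root_.map_ne_zero _).2 hy0
  have hordD : W.ord (aeval x Dg) = 0 := (val_eq_one_iff W hDx0).1 hDx
  have hordR : W.ord (aeval x Rg) = 0 := (val_eq_one_iff W hRx0).1 hRx
  have hordyE : W.ord (algebraMap F E y) = eQ * W.ord t := by
    have h := congrArg W.ord hrel
    rw [W.ord_mul hyE0 hDx0, W.ord_mul (pow_ne_zero _ ht0) hRx0, hordD, hordR, add_zero,
      add_zero, ← zpow_natCast, W.ord_zpow] at h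
    exact h
  have hyEpos : 0 < W.ord (algebraMap F E y) := by
    rw [hordyE]
    exact mul_pos (by exact_mod_cast heQ) ht
  -- the place of `F` below `W`
  obtain ⟨P, d, hd, hWP⟩ := exists_restrict W hy0 hyEpos
  have hPy : 0 < P.ord y := by
    have h := hWP y hy0
    rw [h] at hyEpos
    rcases le_or_gt (P.ord y) 0 with hle | hgt
    · exact absurd hyEpos (not_lt.2 (mul_nonpos_of_nonneg_of_nonpos (Nat.cast_nonneg d) hle))
    · exact hgt
  obtain ⟨eP, heP⟩ := Int.eq_ofNat_of_zero_le hPy.le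
  have heP0 : 0 < eP := by
    rw [heP] at hPy
    exact_mod_cast hPy
  obtain ⟨m, hm⟩ : ∃ m : ℕ, eQ = eP * m := by
    have h := hram P hPy
    rw [heP] at h
    exact Int.natCast_dvd_natCast.1 h
  have hm0 : 0 < m := by
    rcases Nat.eq_zero_or_pos m with rfl | h
    · rw [mul_zero] at hm
      omega
    · exact h
  -- a uniformiser of `P`
  obtain ⟨ϖ, hϖ⟩ := DvrGen.exists_ord_eq_one P
  have hϖ0 : ϖ ≠ 0 := by
    rintro rfl
    rw [P.ord_zero] at hϖ
    exact zero_ne_one hϖ
  have hϖmem : ϖ ∈ P.toValuationSubring :=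
    (PlacesBasic.mem_iff_ord_nonneg P hϖ0).2 (by rw [hϖ]; exact zero_le_one)
  -- `α := y / ϖ ^ e_P`, a unit at `P`
  obtain ⟨α, hα⟩ : ∃ α : F, α = y / ϖ ^ eP := ⟨_, rfl⟩
  have hα0 : α ≠ 0 := by
    rw [hα]
    exact div_ne_zero hy0 (pow_ne_zero _ hϖ0)
  have hordα : P.ord α = 0 := by
    rw [hα, div_eq_mul_inv, P.ord_mul hy0 (inv_ne_zero (pow_ne_zero _ hϖ0)), P.ord_inv,
      ← zpow_natCast, P.ord_zpow, hϖ, heP]
    ring
  have hαinv : α⁻¹ ∈ P.toValuationSubring :=
    (PlacesBasic.mem_iff_ord_nonneg P (inv_ne_zero hα0)).2 (by rw [P.ord_inv, hordα, neg_zero])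
  have hyα : y = α * ϖ ^ eP := by
    rw [hα]
    field_simp
  -- `s := t ^ m / ϖ`
  obtain ⟨ϖE, hϖE⟩ : ∃ ϖE : E, ϖE = algebraMap F E ϖ := ⟨_, rfl⟩
  have hϖE0 : ϖE ≠ 0 := by
    rw [hϖE]
    exact (_root_.map_ne_zero _).2 hϖ0
  obtain ⟨s, hs⟩ : ∃ s : E, s = t ^ m / ϖE := ⟨_, rfl⟩
  have hsϖ : s * ϖE = t ^ m := by
    rw [hs]
    field_simp
  have hsrel : s ^ eP * aeval x Rg = algebraMap F E α * aeval x Dg := by
    have h1 : s ^ eP * ϖE ^ eP = t ^ eQ := by
      rw [← mul_pow, hsϖ, ← pow_mul, hm, mul_comm]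
    have h2 : algebraMap F E y = algebraMap F E α * ϖE ^ eP := by
      rw [hyα, map_mul, map_pow, hϖE]
    have h3 : ϖE ^ eP * (s ^ eP * aeval x Rg) =
        ϖE ^ eP * (algebraMap F E α * aeval x Dg) := by
      calc ϖE ^ eP * (s ^ eP * aeval x Rg) = (s ^ eP * ϖE ^ eP) * aeval x Rg := by ring
        _ = t ^ eQ * aeval x Rg := by rw [h1]
        _ = algebraMap F E y * aeval x Dg := hrel.symm
        _ = ϖE ^ eP * (algebraMap F E α * aeval x Dg) := by rw [h2]; ring
    exact mul_left_cancel₀ (pow_ne_zero _ hϖE0) h3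
  have hs0 : s ≠ 0 := by
    rw [hs]
    exact div_ne_zero (pow_ne_zero _ ht0) hϖE0
  have hαE0 : algebraMap F E α ≠ 0 := (_root_.map_ne_zero _).2 hα0
  have hords : W.ord s = 0 := by
    have h := congrArg W.ord hsrel
    rw [W.ord_mul (pow_ne_zero _ hs0) hRx0, W.ord_mul hαE0 hDx0, hordD, hordR, add_zero,
      add_zero, hWP α hα0, hordα, mul_zero, ← zpow_natCast, W.ord_zpow] at h
    rcases mul_eq_zero.1 h with h' | h'
    · exact absurd h' (by exact_mod_cast heP0.ne')
    · exact h'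
  have hνs : W.adicValuation s = 1 := (val_eq_one_iff W hs0).2 hords
  -- the ring `B = O_P[x, s]`
  obtain ⟨B, hBdef⟩ : ∃ B : Subalgebra L E, B = ringB P x s := ⟨_, rfl⟩
  have hxB : x ∈ B := hBdef ▸ x_mem_ringB P x s
  have hsB : s ∈ B := hBdef ▸ s_mem_ringB P x s
  have hFB : ∀ f : F, f ∈ P.toValuationSubring → algebraMap F E f ∈ B := fun f hf =>
    hBdef ▸ algebraMap_mem_ringB P x s hf
  have hLB : ∀ c : L, algebraMap L E c ∈ B := fun c => B.algebraMap_mem c
  have htB : t ∈ B := by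
    rw [ht_def]
    exact sub_mem hxB (hLB a)
  have hϖB : ϖE ∈ B := by
    rw [hϖE]
    exact hFB ϖ hϖmem
  have hBle : ∀ b ∈ B, W.adicValuation b ≤ 1 := by
    have hle : B ≤ valSubalgebra W := by
      rw [hBdef]
      refine Algebra.adjoin_le ?_
      rintro z (⟨f, hf, rfl⟩ | hz)
      · show algebraMap F E f ∈ valSubalgebra W
        rw [mem_valSubalgebra]
        rcases eq_or_ne f 0 with rfl | hf0
        · rw [map_zero, map_zero]
          exact zero_le_one
        · rw [val_le_one_iff]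
          refine (PlacesBasic.mem_iff_ord_nonneg W ((_root_.map_ne_zero _).2 hf0)).2 ?_
          rw [hWP f hf0]
          exact mul_nonneg (Nat.cast_nonneg d) ((PlacesBasic.mem_iff_ord_nonneg P hf0).1 hf)
      · rcases hz with rfl | rfl
        · exact (mem_valSubalgebra W).2 hνx
        · exact (mem_valSubalgebra W).2 hνs.le
    intro b hb
    exact (mem_valSubalgebra W).1 (hle hb)
  -- Taylor expansions of `D(x)`, `R(x)` at `a`
  obtain ⟨qD, hqDB, hDexp⟩ : ∃ qD ∈ B, aeval x Dg = algebraMap L E (Dg.eval a) + t * qD :=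
    ⟨_, aeval_mem hxB _, by rw [ht_def]; exact aeval_eq_eval_add Dg a x⟩
  obtain ⟨qR, hqRB, hRexp⟩ : ∃ qR ∈ B, aeval x Rg = algebraMap L E (Rg.eval a) + t * qR :=
    ⟨_, aeval_mem hxB _, by rw [ht_def]; exact aeval_eq_eval_add Rg a x⟩
  have hDa : algebraMap L E (Dg.eval a) ≠ 0 := (_root_.map_ne_zero _).2 hD
  have hRa : algebraMap L E (Rg.eval a) ≠ 0 := (_root_.map_ne_zero _).2 hR
  -- `ϖ ∈ t B`
  obtain ⟨β₀, hβ₀B, hβ₀⟩ : ∃ β₀ ∈ B, ϖE = t * β₀ := by
    obtain ⟨s', hs'⟩ : ∃ s' : E, s' = s ^ (eP - 1) * aeval x Rg * algebraMap F E α⁻¹ := ⟨_, rfl⟩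
    have hs'B : s' ∈ B := by
      rw [hs']
      exact mul_mem (mul_mem (pow_mem hsB _) (aeval_mem hxB Rg)) (hFB _ hαinv)
    have hss' : s * s' = aeval x Dg := by
      have h1 : s * s ^ (eP - 1) = s ^ eP := by
        rw [← pow_succ', Nat.sub_add_cancel heP0]
      calc s * s' = (s * s ^ (eP - 1)) * aeval x Rg * algebraMap F E α⁻¹ := by rw [hs']; ring
        _ = (algebraMap F E α * aeval x Dg) * algebraMap F E α⁻¹ := by rw [h1, hsrel]
        _ = aeval x Dg := by
          rw [map_inv₀]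
          field_simp
    have h1 : ϖE * aeval x Dg = t * (t ^ (m - 1) * s') := by
      have h2 : t * t ^ (m - 1) = t ^ m := by
        rw [← pow_succ', Nat.sub_add_cancel hm0]
      calc ϖE * aeval x Dg = (s * ϖE) * s' := by rw [← hss']; ring
        _ = t ^ m * s' := by rw [hsϖ]
        _ = t * (t ^ (m - 1) * s') := by rw [← h2]; ring
    refine ⟨algebraMap L E (Dg.eval a)⁻¹ * (t ^ (m - 1) * s' - ϖE * qD),
      mul_mem (hLB _) (sub_mem (mul_mem (pow_mem htB _) hs'B) (mul_mem hϖB hqDB)), ?_⟩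
    rw [hDexp] at h1
    rw [map_inv₀]
    field_simp
    linear_combination h1
  -- residues of elements of `O_P`
  have hdecomp : ∀ c : F, 0 ≤ P.ord c → ∃ c₀ : L, ∃ β ∈ B,
      algebraMap F E c = algebraMap L E c₀ + t * β ∧ (c₀ = 0 → c = 0 ∨ 0 < P.ord c) := by
    intro c hc
    obtain ⟨c₀, h | h⟩ := hres P c hc
    · refine ⟨c₀, 0, zero_mem _, ?_, ?_⟩
      · rw [h, mul_zero, add_zero, ← IsScalarTower.algebraMap_apply]
      · intro h0
        left
        rw [h, h0, map_zero]
    · have hne : c - algebraMap L F c₀ ≠ 0 := by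
        intro h0
        rw [h0, P.ord_zero] at h
        exact lt_irrefl _ h
      obtain ⟨c', hc'⟩ : ∃ c' : F, c' = (c - algebraMap L F c₀) / ϖ := ⟨_, rfl⟩
      have hc'mem : c' ∈ P.toValuationSubring := by
        have h0 : c' ≠ 0 := by
          rw [hc']
          exact div_ne_zero hne hϖ0
        refine (PlacesBasic.mem_iff_ord_nonneg P h0).2 ?_
        rw [hc', div_eq_mul_inv, P.ord_mul hne (inv_ne_zero hϖ0), P.ord_inv, hϖ]
        omega
      refine ⟨c₀, β₀ * algebraMap F E c', mul_mem hβ₀B (hFB _ hc'mem), ?_, ?_⟩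
      · have h1 : c = algebraMap L F c₀ + ϖ * c' := by
          rw [hc']
          field_simp
          ring
        conv_lhs => rw [h1]
        rw [map_add, map_mul, ← IsScalarTower.algebraMap_apply, ← hϖE, hβ₀]
        ring
      · intro h0
        right
        rwa [h0, map_zero, sub_zero] at h
  -- Claim A: `B = L[s] + t B`
  have hA : ∀ b ∈ B, ∃ f : L[X], ∃ b' ∈ B, b = aeval s f + t * b' := by
    intro b hb
    rw [hBdef] at hb
    refine Algebra.adjoin_induction (p := fun b _ => ∃ f : L[X], ∃ b' ∈ B, b = aeval s f + t * b')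
      ?_ ?_ ?_ ?_ hb
    · rintro z (⟨c, hc, rfl⟩ | hz)
      · rcases eq_or_ne c 0 with rfl | hc0
        · exact ⟨0, 0, zero_mem _, by simp⟩
        · obtain ⟨c₀, β, hβ, hcβ, -⟩ := hdecomp c ((PlacesBasic.mem_iff_ord_nonneg P hc0).1 hc)
          exact ⟨C c₀, β, hβ, by rw [hcβ, aeval_C]⟩
      · rcases hz with rfl | rfl
        · exact ⟨C a, 1, one_mem _, by rw [aeval_C, mul_one, ht_def]; ring⟩
        · exact ⟨X, 0, zero_mem _, by rw [aeval_X, mul_zero, add_zero]⟩
    · intro r
      exact ⟨C r, 0, zero_mem _, by rw [aeval_C, mul_zero, add_zero]⟩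
    · rintro z z' - - ⟨f, b', hb', rfl⟩ ⟨f', b'', hb'', rfl⟩
      exact ⟨f + f', b' + b'', add_mem hb' hb'', by rw [map_add]; ring⟩
    · rintro z z' - - ⟨f, b', hb', rfl⟩ ⟨f', b'', hb'', rfl⟩
      refine ⟨f * f', aeval s f * b'' + b' * aeval s f' + t * b' * b'', ?_, by rw [map_mul]; ring⟩
      exact add_mem (add_mem (mul_mem (aeval_mem hsB f) hb'') (mul_mem hb' (aeval_mem hsB f')))
        (mul_mem (mul_mem htB hb') hb'')
  -- Claim B: `s ^ e_P ≡ γ mod t B` for a nonzero constant `γ`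
  obtain ⟨α₀, β₁, hβ₁B, hαdec, hα₀⟩ := hdecomp α hordα.ge
  have hα₀0 : α₀ ≠ 0 := by
    intro h0
    rcases hα₀ h0 with h | h
    · exact hα0 h
    · rw [hordα] at h
      exact lt_irrefl _ h
  obtain ⟨γ, hγ⟩ : ∃ γ : L, γ = α₀ * Dg.eval a / Rg.eval a := ⟨_, rfl⟩
  have hγ0 : γ ≠ 0 := by
    rw [hγ]
    exact div_ne_zero (mul_ne_zero hα₀0 hD) hR
  obtain ⟨bB, hbB, hsγ⟩ : ∃ bB ∈ B, s ^ eP - algebraMap L E γ = t * bB := by
    refine ⟨algebraMap L E (Rg.eval a)⁻¹ * (algebraMap L E α₀ * qD +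
      β₁ * algebraMap L E (Dg.eval a) + t * β₁ * qD - s ^ eP * qR), ?_, ?_⟩
    · exact mul_mem (hLB _) (sub_mem (add_mem (add_mem (mul_mem (hLB _) hqDB)
        (mul_mem hβ₁B (hLB _))) (mul_mem (mul_mem htB hβ₁B) hqDB)) (mul_mem (pow_mem hsB _) hqRB))
    · have h := hsrel
      rw [hRexp, hDexp, hαdec] at h
      rw [hγ, map_div₀, map_mul, map_inv₀]
      field_simp
      linear_combination h
  have hνsγ : W.adicValuation (s ^ eP - algebraMap L E γ) < 1 := by
    rw [hsγ]
    exact val_mul_lt W hνt (hBle _ hbB)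
  -- the residue `s₀` of `s` at `W`
  obtain ⟨s₀, hs₀root, hs₀⟩ : ∃ s₀ : L, (X ^ eP - C γ : L[X]).IsRoot s₀ ∧
      W.adicValuation (s - algebraMap L E s₀) < 1 := by
    refine exists_root_val_lt W (monic_X_pow_sub_C γ heP0.ne') hνs.le ?_
    rw [map_sub, map_pow, aeval_X, aeval_C]
    exact hνsγ
  have hs₀pow : s₀ ^ eP = γ := by
    have h := hs₀root
    rw [IsRoot.def, eval_sub, eval_pow, eval_X, eval_C, sub_eq_zero] at h
    exact h
  have hs₀0 : s₀ ≠ 0 := by
    rintro rfl
    rw [zero_pow heP0.ne'] at hs₀pow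
    exact hγ0 hs₀pow.symm
  obtain ⟨hp, hfac⟩ : ∃ hp : L[X], (X - C s₀) * hp = X ^ eP - C γ :=
    ⟨_, mul_divByMonic_eq_iff_isRoot.2 hs₀root⟩
  have hhp0 : hp.eval s₀ ≠ 0 := by
    have hder : (derivative ((X - C s₀) * hp)).eval s₀ =
        (derivative (X ^ eP - C γ : L[X])).eval s₀ := by rw [hfac]
    simp only [derivative_mul, derivative_sub, derivative_X, derivative_C, sub_zero, one_mul,
      eval_add, eval_mul, eval_sub, eval_X, eval_C, sub_self, zero_mul, add_zero,
      derivative_X_pow, eval_pow] at hder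
    rw [hder]
    exact mul_ne_zero (by simpa using heP0.ne') (pow_ne_zero _ hs₀0)
  have hb''val : W.adicValuation (aeval s hp) = 1 := val_aeval_eq_one W hs₀ hhp0
  have hb''0 : aeval s hp ≠ 0 := fun h => by
    rw [h, map_zero] at hb''val
    exact zero_ne_one hb''val
  have hfacE : (s - algebraMap L E s₀) * aeval s hp = t * bB := by
    have h := congrArg (aeval s) hfac
    rw [map_mul, map_sub, map_sub, map_pow, aeval_X, aeval_C, aeval_C] at h
    rw [h, hsγ]
  -- the key property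
  have hkey : ∀ b ∈ B.toSubring, b ≠ 0 → 0 < W.ord b →
      ∃ b' b'', b' ∈ B.toSubring ∧ b'' ∈ B.toSubring ∧ W.ord b'' = 0 ∧ b'' ≠ 0 ∧
        b * b'' = t * b' := by
    intro b hb hb0 hbord
    obtain ⟨f, b₁, hb₁, hbeq⟩ := hA b hb
    have hνb : W.adicValuation b < 1 := (val_lt_one_iff W hb0).2 hbord
    have hνtb : W.adicValuation (t * b₁) < 1 := val_mul_lt W hνt (hBle _ hb₁)
    have hνf : W.adicValuation (aeval s f) < 1 := by
      have h := W.adicValuation.map_sub_lt hνb hνtb
      rwa [hbeq, add_sub_cancel_right] at h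
    have hfexp := aeval_eq_eval_add f s₀ s
    obtain ⟨F₁, hF₁B, hF₁⟩ : ∃ F₁ ∈ B, F₁ = aeval s (f /ₘ (X - C s₀)) :=
      ⟨_, aeval_mem hsB _, rfl⟩
    rw [← hF₁] at hfexp
    have hfs₀ : f.eval s₀ = 0 := by
      by_contra hne
      have h1 : W.adicValuation (algebraMap L E (f.eval s₀)) = 1 := val_algebraMap_eq W hne
      have h2 : W.adicValuation ((s - algebraMap L E s₀) * F₁) < 1 :=
        val_mul_lt W hs₀ (hBle _ hF₁B)
      have h3 : W.adicValuation (aeval s f) = 1 := by
        rw [hfexp, Valuation.map_add_eq_of_lt_left _ (by rw [h1]; exact h2), h1]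
      rw [h3] at hνf
      exact lt_irrefl _ hνf
    rw [hfs₀, map_zero, zero_add] at hfexp
    refine ⟨F₁ * bB + b₁ * aeval s hp, aeval s hp, ?_, aeval_mem hsB hp,
      (val_eq_one_iff W hb''0).1 hb''val, hb''0, ?_⟩
    · exact add_mem (mul_mem hF₁B hbB) (mul_mem hb₁ (aeval_mem hsB hp))
    · rw [hbeq, hfexp]
      linear_combination F₁ * hfacE
  -- `E` is the fraction field of `B`
  have hfracB : ∀ z : E, ∃ b c, b ∈ B.toSubring ∧ c ∈ B.toSubring ∧ c ≠ 0 ∧ z * c = b := by
    intro z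
    obtain ⟨p, q, hq, hz⟩ := hfrac z
    obtain ⟨δp, hδp, hδp0, hpB⟩ := exists_clear P x s p
    obtain ⟨δq, hδq, hδq0, hqB⟩ := exists_clear P x s q
    rw [← hBdef] at hpB hqB
    refine ⟨algebraMap F E δq * (algebraMap F E δp * aeval x p),
      algebraMap F E δp * (algebraMap F E δq * aeval x q),
      mul_mem (hFB _ hδq) hpB, mul_mem (hFB _ hδp) hqB, ?_, ?_⟩
    · exact mul_ne_zero ((_root_.map_ne_zero _).2 hδp0)
        (mul_ne_zero ((_root_.map_ne_zero _).2 hδq0) hq)
    · rw [← hz]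
      ring
  exact ord_eq_one_of_generated W B.toSubring
    (fun b hb => (val_le_one_iff W b).1 (hBle b hb)) hfracB t htB ht hkey

end Abhyankar


section Mult

variable {R : Type*} [CommRing R] [IsDomain R]

theorem rootMultiplicity_pow_eq {Q : R[X]} (hQ : Q ≠ 0) (a : R) (k : ℕ) :
    (Q ^ k).rootMultiplicity a = k * Q.rootMultiplicity a := by
  induction k with
  | zero => rw [pow_zero, zero_mul, ← C_1, rootMultiplicity_C]
  | succ k ih =>
    rw [pow_succ, rootMultiplicity_mul (mul_ne_zero (pow_ne_zero _ hQ) hQ), ih]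
    ring

/-- The root multiplicities of `c · Q ^ k` are divisible by `k`. -/
theorem dvd_rootMultiplicity_of_eq_C_mul_pow {G Q : R[X]} {c : R} {k : ℕ}
    (h : G = C c * Q ^ k) (a : R) : k ∣ G.rootMultiplicity a := by
  rcases eq_or_ne G 0 with rfl | hG
  · rw [rootMultiplicity_zero]
    exact dvd_zero _
  · have hQ : Q ^ k ≠ 0 := by
      rintro h0
      rw [h0, mul_zero] at h
      exact hG h
    rcases eq_or_ne Q 0 with rfl | hQ0
    · rcases Nat.eq_zero_or_pos k with rfl | hk
      · rw [h, pow_zero, mul_one, rootMultiplicity_C]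
      · rw [zero_pow hk.ne'] at hQ
        exact absurd rfl hQ
    · rw [h, rootMultiplicity_mul (by rw [← h]; exact hG), rootMultiplicity_C, zero_add,
        rootMultiplicity_pow_eq hQ0]
      exact dvd_mul_right _ _

end Mult

section Main

variable (N : ℕ) [NeZero N] {L : Type*} [Field L] [Algebra ℚ L] [IsAlgClosed L] [CharZero L]
  [Nonempty (L →+* ℂ)]
  {E : Type*} [Field E] [Algebra L E] [Algebra (FFL L N) E] [IsScalarTower L (FFL L N) E]

/-- **RamE**, fraction form.  `E = F_L(x)` with `N_g(x) = j · D_g(x)`; if the root multiplicities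
of `N_g` are divisible by `3` and those of `N_g - 1728 D_g` by `2`, then every place of `E`
centred at a point `x = a` which is not a pole of `g = N_g / D_g` is unramified over the
`x`-line: `ord_W (x - a) = 1`. -/
theorem ord_sub_eq_one_of_frac (Ng Dg : L[X])
    (h3 : ∀ a : L, Ng.eval a = 0 → 3 ∣ Ng.rootMultiplicity a)
    (h2 : ∀ a : L, (Ng - C 1728 * Dg).eval a = 0 → 2 ∣ (Ng - C 1728 * Dg).rootMultiplicity a)
    (x : E) (hcov : aeval x Ng = algebraMap (FFL L N) E (jL L N) * aeval x Dg)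
    (hfrac : ∀ z : E, ∃ p q : (FFL L N)[X], aeval x q ≠ 0 ∧ z * aeval x q = aeval x p)
    (a : L) (ha : Dg.eval a ≠ 0) (W : Place L E) (hW : 0 < W.ord (x - algebraMap L E a)) :
    W.ord (x - algebraMap L E a) = 1 := by
  classical
  have hxa0 : x - algebraMap L E a ≠ 0 := by
    intro h
    rw [h, W.ord_zero] at hW
    exact lt_irrefl _ hW
  have hνt : W.adicValuation (x - algebraMap L E a) < 1 := (val_lt_one_iff W hxa0).2 hW
  have hDx : W.adicValuation (aeval x Dg) = 1 := val_aeval_eq_one W hνt ha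
  have hDx0 : aeval x Dg ≠ 0 := fun h => by
    rw [h, map_zero] at hDx; exact zero_ne_one hDx
  -- the value `c = g(a)` of `j` at `W`
  obtain ⟨c, hc⟩ : ∃ c : L, c = Ng.eval a / Dg.eval a := ⟨_, rfl⟩
  obtain ⟨G, hG⟩ : ∃ G : L[X], G = Ng - C c * Dg := ⟨_, rfl⟩
  have hGa : G.eval a = 0 := by
    rw [hG, eval_sub, eval_mul, eval_C, hc]
    field_simp
    ring
  obtain ⟨y, hy⟩ : ∃ y : FFL L N, y = jL L N - algebraMap L (FFL L N) c := ⟨_, rfl⟩
  have hyE : algebraMap (FFL L N) E y * aeval x Dg = aeval x G := by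
    rw [hy, hG, map_sub, map_sub, map_mul, aeval_C, ← IsScalarTower.algebraMap_apply, hcov]
    ring
  have hG0 : G ≠ 0 := by
    intro h0
    rw [h0, map_zero] at hyE
    have h1 : algebraMap (FFL L N) E y = 0 := (mul_eq_zero.1 hyE).resolve_right hDx0
    have h2 : y = 0 := (_root_.map_eq_zero _).1 h1
    have h3 : jL L N = algebraMap L (FFL L N) c := by
      rw [hy] at h2
      exact sub_eq_zero.1 h2
    exact transcendental_jL N L (h3 ▸ isAlgebraic_algebraMap c)
  have heQ : 0 < G.rootMultiplicity a := (rootMultiplicity_pos hG0).2 hGa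
  obtain ⟨Rg, hGR, hRndvd⟩ := exists_eq_pow_rootMultiplicity_mul_and_not_dvd G hG0 a
  have hR : Rg.eval a ≠ 0 := fun h => hRndvd (dvd_iff_isRoot.2 h)
  have hrel : algebraMap (FFL L N) E y * aeval x Dg =
      (x - algebraMap L E a) ^ G.rootMultiplicity a * aeval x Rg := by
    rw [hyE]
    conv_lhs => rw [hGR]
    rw [map_mul, map_pow, map_sub, aeval_X, aeval_C]
  have hram : ∀ P : Place L (FFL L N), 0 < P.ord y → P.ord y ∣ (G.rootMultiplicity a : ℤ) := by
    intro P hP
    rw [hy] at hP ⊢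
    have h := RamJ.ord_jL_sub_dvd N L P c hP
    by_cases hc0 : c = 0
    · rw [if_pos hc0] at h
      have hGN : G = Ng := by rw [hG, hc0, map_zero, zero_mul, sub_zero]
      have h3' : 3 ∣ G.rootMultiplicity a := by
        rw [hGN]
        exact h3 a (by rw [← hGN]; exact hGa)
      exact dvd_trans h (by exact_mod_cast h3')
    · rw [if_neg hc0] at h
      by_cases hc1 : c = 1728
      · rw [if_pos hc1] at h
        have hGN : G = Ng - C 1728 * Dg := by rw [hG, hc1]
        have h2' : 2 ∣ G.rootMultiplicity a := by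
          rw [hGN]
          exact h2 a (by rw [← hGN]; exact hGa)
        exact dvd_trans h (by exact_mod_cast h2')
      · rw [if_neg hc1] at h
        exact dvd_trans h (one_dvd _)
  exact abhyankar W (fun P f hf => RamJ.exists_residue N L P hf) x hfrac a hW y Dg Rg
    (G.rootMultiplicity a) heQ ha hR hrel hram

omit [Algebra ℚ L] [IsAlgClosed L] [CharZero L] [Nonempty (L →+* ℂ)] [Algebra L E]
  [IsScalarTower L (FFL L N) E] in
/-- If `E = F(x)` then every element of `E` is a fraction of polynomials in `x`. -/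
theorem frac_of_adjoin_eq_top {F : Type*} [Field F] [Algebra F E] {x : E}
    (hgen : IntermediateField.adjoin F {x} = ⊤) (z : E) :
    ∃ p q : F[X], aeval x q ≠ 0 ∧ z * aeval x q = aeval x p := by
  have hz : z ∈ IntermediateField.adjoin F {x} := by
    rw [hgen]
    exact IntermediateField.mem_top
  obtain ⟨r, s, hrs⟩ := (IntermediateField.mem_adjoin_simple_iff F z).1 hz
  by_cases hs : aeval x s = 0
  · refine ⟨0, 1, by simp, ?_⟩
    rw [hrs, hs, div_zero, zero_mul, map_zero]
  · exact ⟨r, s, hs, by rw [hrs, div_mul_cancel₀ _ hs]⟩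

/-- **RamE.**  `E = F_L(x)` with `N_g(x) = j · D_g(x)`; every place of `E` centred at a point
`x = a` outside the cusps (`D_g(a) ≠ 0`) is unramified over the `x`-line: `ord_W (x - a) = 1`. -/
theorem ord_sub_eq_one (Ng Dg : L[X])
    (h3 : ∀ a : L, Ng.eval a = 0 → 3 ∣ Ng.rootMultiplicity a)
    (h2 : ∀ a : L, (Ng - C 1728 * Dg).eval a = 0 → 2 ∣ (Ng - C 1728 * Dg).rootMultiplicity a)
    (x : E) (hcov : aeval x Ng = algebraMap (FFL L N) E (jL L N) * aeval x Dg)
    (hgen : IntermediateField.adjoin (FFL L N) {x} = ⊤)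
    (a : L) (ha : Dg.eval a ≠ 0) (W : Place L E) (hW : 0 < W.ord (x - algebraMap L E a)) :
    W.ord (x - algebraMap L E a) = 1 :=
  ord_sub_eq_one_of_frac N Ng Dg h3 h2 x hcov (frac_of_adjoin_eq_top hgen) a ha W hW

/-- **RamE** for cover data given by factorisations `N_g = c₃ Q₃³`, `N_g - 1728 D_g = c₂ Q₂²`
(the shape of `S18/Cover.lean`). -/
theorem ord_sub_eq_one_of_factor (Ng Dg Q₃ Q₂ : L[X]) (c₃ c₂ : L)
    (hN : Ng = C c₃ * Q₃ ^ 3) (hN' : Ng - C 1728 * Dg = C c₂ * Q₂ ^ 2)
    (x : E) (hcov : aeval x Ng = algebraMap (FFL L N) E (jL L N) * aeval x Dg)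
    (hgen : IntermediateField.adjoin (FFL L N) {x} = ⊤)
    (a : L) (ha : Dg.eval a ≠ 0) (W : Place L E) (hW : 0 < W.ord (x - algebraMap L E a)) :
    W.ord (x - algebraMap L E a) = 1 :=
  ord_sub_eq_one N Ng Dg (fun a _ => dvd_rootMultiplicity_of_eq_C_mul_pow hN a)
    (fun a _ => dvd_rootMultiplicity_of_eq_C_mul_pow hN' a) x hcov hgen a ha W hW

end Main

end RamE

end Fermat.Agent.S18
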