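import Fermat.Agent.S18.DvrGen
import Fermat.Agent.S18.RamE
import Fermat.Agent.S24.Places

/-!
P11 (S18), module RamW: (RAM-OUT).

* `RamW.ord_eq_one_kummer`: the Kummer step.  If `Ω = E[w]`, `w ^ p = u ∈ E`, `p` invertible in
  the constant field and `p ∣ ord_V u`, then a uniformiser of the place `V` of `E` stays a
  uniformiser at every place `W` of `Ω` above `V` (via `ord_eq_one_of_generated`, `B₀ = O_V[w₁]`,
  `w₁ = w / t ^ (ord_V u / p)`).
* `ram_out`, `ram_out_of_factor`: `Ω = F_L(x, w)` is unramified over `L(x)` at every place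
  `x = a` with `a` not a cusp (`RamE.ord_sub_eq_one` for `F_L(x)` + the Kummer step).
-/

set_option autoImplicit false

namespace Fermat.Agent.S18

open AlgebraicCurve IntermediateField Polynomial
open Fermat.Agent.S24

namespace RamW

section Val

variable {K F : Type*} [Field K] [Field F] [Algebra K F]

theorem val_lt_one_iff (W : Place K F) {z : F} (hz : z ≠ 0) :
    W.adicValuation z < 1 ↔ 0 < W.ord z := by
  have hne := W.adicValuation_ne_zero hz
  unfold Place.ord
  rw [← WithZero.exp_zero, ← WithZero.log_lt_iff_lt_exp hne]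
  omega

theorem val_le_one_iff (W : Place K F) {z : F} (hz : z ≠ 0) :
    W.adicValuation z ≤ 1 ↔ 0 ≤ W.ord z := by
  have hne := W.adicValuation_ne_zero hz
  unfold Place.ord
  rw [← WithZero.exp_zero, ← WithZero.log_le_iff_le_exp hne]
  omega

theorem val_eq_one_iff (W : Place K F) {z : F} (hz : z ≠ 0) :
    W.adicValuation z = 1 ↔ W.ord z = 0 :=
  (PlacesBasic.aux_ord_eq_zero_iff W hz).symm

theorem val_algebraMap (W : Place K F) {c : K} (hc : c ≠ 0) :
    W.adicValuation (algebraMap K F c) = 1 := by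
  have hne : algebraMap K F c ≠ 0 := by
    rw [Ne, map_eq_zero]
    exact hc
  rw [val_eq_one_iff W hne]
  exact PlacesBasic.ord_algebraMap W c

theorem val_lt_one_of (W : Place K F) {z : F} (hz : z = 0 ∨ 0 < W.ord z) :
    W.adicValuation z < 1 := by
  rcases hz with rfl | hz
  · rw [map_zero]
    exact zero_lt_one
  · have hz0 : z ≠ 0 := by
      rintro rfl
      rw [W.ord_zero] at hz
      exact lt_irrefl _ hz
    exact (val_lt_one_iff W hz0).2 hz

theorem val_le_one_of (W : Place K F) {z : F} (hz : z = 0 ∨ 0 ≤ W.ord z) :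
    W.adicValuation z ≤ 1 := by
  rcases hz with rfl | hz
  · rw [map_zero]
    exact zero_le_one
  · by_cases hz0 : z = 0
    · rw [hz0, map_zero]
      exact zero_le_one
    · exact (val_le_one_iff W hz0).2 hz

end Val

section Kummer

variable {L E Ω : Type*} [Field L] [Field E] [Field Ω] [Algebra L E] [Algebra E Ω] [Algebra L Ω]
  [IsScalarTower L E Ω]

/-- **Kummer step.**  Let `Ω = E[w]` with `w ^ p = u ∈ E`, `p` invertible in the constant field
`L`, and let `W` be a place of `Ω` above the place `V` of `E` (ramification index `d`), both with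
residue field `L`.  If `p ∣ ord_V u` and `t ∈ E` is a uniformiser of `V`, then `t` is a uniformiser
of `W`. -/
theorem ord_eq_one_kummer (p : ℕ) (hpL : (p : L) ≠ 0) (u : E) (hu : u ≠ 0) (w : Ω)
    (hw : w ^ p = algebraMap E Ω u) (hgen : ∀ z : Ω, ∃ P : E[X], z = aeval w P)
    (W : Place L Ω) (V : Place L E) (d : ℕ) (hd : 0 < d)
    (hWV : ∀ f : E, f ≠ 0 → W.ord (algebraMap E Ω f) = d * V.ord f)
    (hres : ∀ f : E, 0 ≤ V.ord f → ∃ c : L, f = algebraMap L E c ∨ 0 < V.ord (f - algebraMap L E c))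
    (hresW : ∀ z : Ω, 0 ≤ W.ord z →
      ∃ c : L, z = algebraMap L Ω c ∨ 0 < W.ord (z - algebraMap L Ω c))
    (hdiv : (p : ℤ) ∣ V.ord u) (t : E) (ht : V.ord t = 1) :
    W.ord (algebraMap E Ω t) = 1 := by
  classical
  have hp0 : p ≠ 0 := by
    rintro rfl
    exact hpL Nat.cast_zero
  have ht0 : t ≠ 0 := by
    rintro rfl
    rw [V.ord_zero] at ht
    exact zero_ne_one ht
  set v := W.adicValuation with hv
  have hinj : Function.Injective (algebraMap E Ω) := (algebraMap E Ω).injective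
  -- `w₁ = w / t ^ k`, `w₁ ^ p = u₁`, a `V`-unit
  obtain ⟨k, hk⟩ := hdiv
  set τ : E := t ^ k with hτ
  have hτ0 : τ ≠ 0 := zpow_ne_zero k ht0
  set u₁ : E := u / τ ^ p with hu₁
  have hu₁0 : u₁ ≠ 0 := div_ne_zero hu (pow_ne_zero p hτ0)
  have hu₁ord : V.ord u₁ = 0 := by
    rw [hu₁, div_eq_mul_inv, V.ord_mul hu (inv_ne_zero (pow_ne_zero p hτ0)), V.ord_inv,
      ← zpow_natCast τ p, V.ord_zpow, hτ, V.ord_zpow, ht, hk]
    ring
  set w₁ : Ω := w / algebraMap E Ω τ with hw₁def
  have hτΩ : algebraMap E Ω τ ≠ 0 := by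
    rw [Ne, map_eq_zero]
    exact hτ0
  have hw₁ : w₁ ^ p = algebraMap E Ω u₁ := by
    rw [hw₁def, div_pow, hw, hu₁, map_div₀, map_pow]
  have hw₁0 : w₁ ≠ 0 := by
    intro h
    rw [h, zero_pow hp0] at hw₁
    exact hu₁0 (hinj (by rw [← hw₁, map_zero]))
  have hww₁ : w = algebraMap E Ω τ * w₁ := by
    rw [hw₁def, mul_div_cancel₀ _ hτΩ]
  -- valuations of elements coming from `E`
  have hvE_le : ∀ f : E, f ∈ V.toValuationSubring → v (algebraMap E Ω f) ≤ 1 := by
    intro f hf
    rcases eq_or_ne f 0 with rfl | hf0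
    · rw [map_zero, map_zero]
      exact zero_le_one
    · apply val_le_one_of
      right
      rw [hWV f hf0]
      have := (PlacesBasic.mem_iff_ord_nonneg V hf0).1 hf
      positivity
  have hvE_lt : ∀ f : E, (f = 0 ∨ 0 < V.ord f) → v (algebraMap E Ω f) < 1 := by
    intro f hf
    rcases eq_or_ne f 0 with rfl | hf0
    · rw [map_zero, map_zero]
      exact zero_lt_one
    · apply val_lt_one_of
      right
      rw [hWV f hf0]
      have h1 : 0 < V.ord f := hf.resolve_left hf0
      positivity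
  have hvw₁ : v w₁ = 1 := by
    have h1 : v w₁ ^ p = 1 := by
      rw [← map_pow, hw₁, val_eq_one_iff W (by rw [Ne, map_eq_zero]; exact hu₁0), hWV u₁ hu₁0,
        hu₁ord, mul_zero]
    exact (pow_eq_one_iff.1 h1).resolve_right hp0
  have hvt : v (algebraMap E Ω t) < 1 := hvE_lt t (Or.inr (by rw [ht]; exact zero_lt_one))
  -- division by `t` in `O_V`
  have hdivt : ∀ f : E, (f = 0 ∨ 0 < V.ord f) →
      ∃ f' : E, f' ∈ V.toValuationSubring ∧ f = t * f' := by
    intro f hf
    rcases eq_or_ne f 0 with rfl | hf0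
    · exact ⟨0, V.toValuationSubring.zero_mem, by rw [mul_zero]⟩
    · have h1 : 0 < V.ord f := hf.resolve_left hf0
      refine ⟨f / t, ?_, by rw [mul_div_cancel₀ _ ht0]⟩
      rw [PlacesBasic.mem_iff_ord_nonneg V (div_ne_zero hf0 ht0), div_eq_mul_inv,
        V.ord_mul hf0 (inv_ne_zero ht0), V.ord_inv, ht]
      omega
  -- the ring `B₀ = O_V[w₁]`
  let φ : V.toValuationSubring →+* Ω := (algebraMap E Ω).comp V.toValuationSubring.subtype
  have hφ : ∀ f : V.toValuationSubring, φ f = algebraMap E Ω (f : E) := fun _ => rfl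
  let B₀ : Subring Ω := (Polynomial.eval₂RingHom φ w₁).range
  have hB₀ : ∀ c : (V.toValuationSubring)[X], Polynomial.eval₂ φ w₁ c ∈ B₀ := fun c => ⟨c, rfl⟩
  have hB₀E : ∀ f : E, f ∈ V.toValuationSubring → algebraMap E Ω f ∈ B₀ := by
    intro f hf
    have := hB₀ (Polynomial.C ⟨f, hf⟩)
    rwa [Polynomial.eval₂_C] at this
  have hB₀w : w₁ ∈ B₀ := by
    have := hB₀ Polynomial.X
    rwa [Polynomial.eval₂_X] at this
  have hB₀L : ∀ g : L[X], aeval w₁ g ∈ B₀ := by
    intro g
    have h := hB₀ (g.map (algebraMap L V.toValuationSubring))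
    rw [Polynomial.eval₂_map] at h
    have hcomp : φ.comp (algebraMap L V.toValuationSubring) = algebraMap L Ω := by
      ext c
      rw [RingHom.comp_apply, hφ, Place.coe_algebraMap, ← IsScalarTower.algebraMap_apply]
    rw [hcomp] at h
    exact h
  have hvB₀ : ∀ b ∈ B₀, v b ≤ 1 := by
    rintro b ⟨c, rfl⟩
    rw [Polynomial.coe_eval₂RingHom, Polynomial.eval₂_eq_sum_range]
    apply Valuation.map_sum_le
    intro i _
    rw [map_mul, map_pow, hvw₁, one_pow, mul_one, hφ]
    exact hvE_le _ (c.coeff i).2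
  have hBW : ∀ b ∈ B₀, b ∈ W.toValuationSubring := by
    intro b hb
    rcases eq_or_ne b 0 with rfl | hb0
    · exact W.toValuationSubring.zero_mem
    · exact (PlacesBasic.mem_iff_ord_nonneg W hb0).2 ((val_le_one_iff W hb0).1 (hvB₀ b hb))
  -- `Ω` is the fraction field of `B₀`
  have hfrac : ∀ z : Ω, ∃ b c, b ∈ B₀ ∧ c ∈ B₀ ∧ c ≠ 0 ∧ z * c = b := by
    intro z
    obtain ⟨P, rfl⟩ := hgen z
    set Q : E[X] := P.comp (Polynomial.C τ * Polynomial.X) with hQ
    have hPQ : aeval w P = aeval w₁ Q := by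
      rw [hQ, Polynomial.aeval_comp, map_mul, Polynomial.aeval_C, Polynomial.aeval_X, ← hww₁]
    obtain ⟨b, hb, hbQ⟩ := IsLocalization.integerNormalization_spec
      (nonZeroDivisors V.toValuationSubring) Q
    set Nm := IsLocalization.integerNormalization (nonZeroDivisors V.toValuationSubring) Q
    have hb0 : (b : E) ≠ 0 := by
      intro h
      exact nonZeroDivisors.ne_zero hb (Subtype.ext h)
    refine ⟨Polynomial.eval₂ φ w₁ Nm, algebraMap E Ω (b : E), hB₀ _, hB₀E _ b.2, ?_, ?_⟩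
    · rw [Ne, map_eq_zero]
      exact hb0
    · have h1 : Polynomial.eval₂ φ w₁ Nm
          = aeval w₁ (Nm.map (algebraMap V.toValuationSubring E)) := by
        rw [Polynomial.aeval_def, Polynomial.eval₂_map]
        rfl
      have h2 : b • Q = Polynomial.C (b : E) * Q := by
        ext i
        rw [Polynomial.coeff_smul, Polynomial.coeff_C_mul]
        rfl
      rw [hPQ, h1, hbQ, h2, map_mul, Polynomial.aeval_C]
      ring
  -- decomposition `B₀ = L[w₁] + t B₀`
  have hdecomp : ∀ c : (V.toValuationSubring)[X], ∃ (g : L[X]) (b₁ : Ω), b₁ ∈ B₀ ∧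
      Polynomial.eval₂ φ w₁ c = aeval w₁ g + algebraMap E Ω t * b₁ := by
    intro c
    induction c using Polynomial.induction_on' with
    | add c c' hc hc' =>
      obtain ⟨g, b₁, hb₁, h1⟩ := hc
      obtain ⟨g', b₁', hb₁', h1'⟩ := hc'
      refine ⟨g + g', b₁ + b₁', B₀.add_mem hb₁ hb₁', ?_⟩
      rw [Polynomial.eval₂_add, h1, h1', map_add]
      ring
    | monomial n f =>
      have hfnn : 0 ≤ V.ord (f : E) := by
        rcases eq_or_ne (f : E) 0 with h | h
        · rw [h, V.ord_zero]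
        · exact (PlacesBasic.mem_iff_ord_nonneg V h).1 f.2
      obtain ⟨γ, hγ⟩ := hres (f : E) hfnn
      obtain ⟨f', hf', hff'⟩ := hdivt ((f : E) - algebraMap L E γ) (by
        rcases hγ with h | h
        · left
          rw [h, sub_self]
        · right
          exact h)
      refine ⟨Polynomial.monomial n γ, algebraMap E Ω f' * w₁ ^ n,
        B₀.mul_mem (hB₀E f' hf') (B₀.pow_mem hB₀w n), ?_⟩
      have h1 : (f : E) = algebraMap L E γ + t * f' := by
        rw [← hff']
        ring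
      rw [Polynomial.eval₂_monomial, hφ, Polynomial.aeval_monomial, h1, map_add, map_mul,
        ← IsScalarTower.algebraMap_apply]
      ring
  -- evaluation of constant-coefficient polynomials at `w₁` modulo `w₁ - β`
  obtain ⟨β, hβ⟩ := hresW w₁ (by rw [(val_eq_one_iff W hw₁0).1 hvw₁])
  set β' : Ω := algebraMap L Ω β with hβ'
  have hvβ : v (w₁ - β') < 1 := val_lt_one_of W (by
    rcases hβ with h | h
    · left
      rw [h, sub_self]
    · right
      exact h)
  have hpoly : ∀ g : L[X], ∃ b₂ : Ω, b₂ ∈ B₀ ∧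
      aeval w₁ g = algebraMap L Ω (g.eval β) + (w₁ - β') * b₂ := by
    intro g
    obtain ⟨h, hh⟩ := Polynomial.X_sub_C_dvd_sub_C_eval (a := β) (p := g)
    refine ⟨aeval w₁ h, hB₀L h, ?_⟩
    have h1 : g = Polynomial.C (g.eval β) + (Polynomial.X - Polynomial.C β) * h := by
      rw [← hh]
      ring
    conv_lhs => rw [h1]
    rw [map_add, map_mul, map_sub, Polynomial.aeval_C, Polynomial.aeval_X, Polynomial.aeval_C]
  -- the residue of `u₁`
  obtain ⟨υ, hυ⟩ := hres u₁ (by rw [hu₁ord])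
  have hυ0 : υ ≠ 0 := by
    rintro rfl
    rw [map_zero, sub_zero] at hυ
    rcases hυ with h | h
    · exact hu₁0 h
    · rw [hu₁ord] at h
      exact lt_irrefl _ h
  obtain ⟨s, hs, hst⟩ := hdivt (u₁ - algebraMap L E υ) (by
    rcases hυ with h | h
    · left
      rw [h, sub_self]
    · right
      exact h)
  have hu₁Ω : algebraMap E Ω u₁ - algebraMap L Ω υ = algebraMap E Ω t * algebraMap E Ω s := by
    rw [← map_mul, ← hst, map_sub, ← IsScalarTower.algebraMap_apply]
  -- the cofactor `e` of `X - β` in `X ^ p - β ^ p`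
  obtain ⟨e, he⟩ : Polynomial.X - Polynomial.C β ∣ (Polynomial.X ^ p - Polynomial.C (β ^ p) : L[X]) := by
    rw [Polynomial.dvd_iff_isRoot]
    simp
  have hew : (w₁ - β') * aeval w₁ e = algebraMap E Ω u₁ - algebraMap L Ω (β ^ p) := by
    have h := congrArg (aeval w₁) he
    rw [map_sub, map_pow, Polynomial.aeval_X, Polynomial.aeval_C, map_mul, map_sub,
      Polynomial.aeval_X, Polynomial.aeval_C, hw₁] at h
    exact h.symm
  have hβυ : β ^ p = υ := by
    by_contra hne
    have h1 : v (algebraMap L Ω (β ^ p - υ)) = 1 := val_algebraMap W (sub_ne_zero.mpr hne)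
    have h2 : algebraMap L Ω (β ^ p - υ)
        = algebraMap E Ω t * algebraMap E Ω s - (w₁ - β') * aeval w₁ e := by
      rw [hew, ← hu₁Ω, map_sub]
      ring
    have h3 : v (algebraMap E Ω t * algebraMap E Ω s - (w₁ - β') * aeval w₁ e) < 1 := by
      refine lt_of_le_of_lt (Valuation.map_sub _ _ _) (max_lt ?_ ?_)
      · rw [map_mul]
        exact mul_lt_one_of_lt_of_le hvt (hvE_le s hs)  
      · rw [map_mul]
        exact mul_lt_one_of_lt_of_le hvβ (hvB₀ _ (hB₀L e))
    rw [h2] at h1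
    rw [h1] at h3
    exact lt_irrefl _ h3
  have hβ0 : β ≠ 0 := by
    rintro rfl
    rw [zero_pow hp0] at hβυ
    exact hυ0 hβυ.symm
  have heβ : e.eval β = (p : L) * β ^ (p - 1) := by
    have h := congrArg (fun q : L[X] => (Polynomial.derivative q).eval β) he
    simp only [Polynomial.derivative_sub, Polynomial.derivative_X_pow, Polynomial.derivative_C,
      sub_zero, Polynomial.derivative_mul, Polynomial.derivative_X, one_mul, Polynomial.eval_add,
      Polynomial.eval_mul, Polynomial.eval_sub, Polynomial.eval_X, Polynomial.eval_C, sub_self,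
      zero_mul, add_zero, Polynomial.eval_pow] at h
    exact h.symm
  obtain ⟨b₃, hb₃, hb₃e⟩ := hpoly e
  have hve : v (aeval w₁ e) = 1 := by
    rw [hb₃e, add_comm]
    have h1 : v (algebraMap L Ω (e.eval β)) = 1 := by
      apply val_algebraMap W
      rw [heβ]
      exact mul_ne_zero hpL (pow_ne_zero _ hβ0)
    have h2 : v ((w₁ - β') * b₃) < v (algebraMap L Ω (e.eval β)) := by
      rw [h1, map_mul]
      exact mul_lt_one_of_lt_of_le hvβ (hvB₀ _ hb₃)
    rw [Valuation.map_add_eq_of_lt_right _ h2, h1]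
  have he0 : aeval w₁ e ≠ 0 := by
    intro h
    rw [h, map_zero] at hve
    exact zero_ne_one hve
  -- apply DvrGen
  refine ord_eq_one_of_generated W B₀ hBW hfrac (algebraMap E Ω t)
    (hB₀E t ((PlacesBasic.mem_iff_ord_nonneg V ht0).2 (by rw [ht]; exact zero_le_one))) ?_ ?_
  · rw [hWV t ht0, ht, mul_one]
    exact_mod_cast hd
  · rintro b ⟨c, rfl⟩ hb0 hbpos
    rw [Polynomial.coe_eval₂RingHom] at hb0 hbpos ⊢
    obtain ⟨g, b₁, hb₁, hgb⟩ := hdecomp c
    obtain ⟨b₂, hb₂, hgb₂⟩ := hpoly g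
    have hvb : v (Polynomial.eval₂ φ w₁ c) < 1 := (val_lt_one_iff W hb0).2 hbpos
    have hgβ : g.eval β = 0 := by
      by_contra hne
      have h1 : v (algebraMap L Ω (g.eval β)) = 1 := val_algebraMap W hne
      have h2 : algebraMap L Ω (g.eval β)
          = Polynomial.eval₂ φ w₁ c - algebraMap E Ω t * b₁ - (w₁ - β') * b₂ := by
        rw [hgb, hgb₂]
        ring
      have h3 : v (Polynomial.eval₂ φ w₁ c - algebraMap E Ω t * b₁ - (w₁ - β') * b₂) < 1 := by
        refine lt_of_le_of_lt (Valuation.map_sub _ _ _) (max_lt ?_ ?_)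
        · refine lt_of_le_of_lt (Valuation.map_sub _ _ _) (max_lt hvb ?_)
          rw [map_mul]
          exact mul_lt_one_of_lt_of_le hvt (hvB₀ _ hb₁)
        · rw [map_mul]
          exact mul_lt_one_of_lt_of_le hvβ (hvB₀ _ hb₂)
      rw [h2] at h1
      rw [h1] at h3
      exact lt_irrefl _ h3
    refine ⟨algebraMap E Ω s * b₂ + b₁ * aeval w₁ e, aeval w₁ e,
      B₀.add_mem (B₀.mul_mem (hB₀E s hs) hb₂) (B₀.mul_mem hb₁ (hB₀L e)), hB₀L e,
      (val_eq_one_iff W he0).1 hve, he0, ?_⟩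
    have h4 : (w₁ - β') * aeval w₁ e = algebraMap E Ω t * algebraMap E Ω s := by
      rw [hew, hβυ, hu₁Ω]
    rw [hgb, hgb₂, hgβ, map_zero, zero_add]
    calc ((w₁ - β') * b₂ + algebraMap E Ω t * b₁) * aeval w₁ e
        = (w₁ - β') * aeval w₁ e * b₂ + algebraMap E Ω t * b₁ * aeval w₁ e := by ring
      _ = algebraMap E Ω t * (algebraMap E Ω s * b₂ + b₁ * aeval w₁ e) := by
        rw [h4]
        ring

end Kummer

section Transfer

variable {L F E : Type*} [Field L] [Field F] [Field E] [Algebra L F] [Algebra L E] [Algebra F E]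
  [IsScalarTower L F E]

/-- Divisibility of all orders of `u` at the places of `F` passes to the places of an extension
`E`. -/
theorem dvd_ord_algebraMap (m : ℤ) (u : F) (hdiv : ∀ P : Place L F, m ∣ P.ord u)
    (V : Place L E) : m ∣ V.ord (algebraMap F E u) := by
  rcases eq_or_ne u 0 with rfl | hu
  · rw [map_zero, V.ord_zero]
    exact dvd_zero m
  rcases lt_trichotomy (V.ord (algebraMap F E u)) 0 with h | h | h
  · have h' : 0 < V.ord (algebraMap F E u⁻¹) := by
      rw [map_inv₀, V.ord_inv]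
      omega
    obtain ⟨P, d, -, hP⟩ := RamE.exists_restrict V (inv_ne_zero hu) h'
    rw [hP u hu]
    exact Dvd.dvd.mul_left (hdiv P) _
  · rw [h]
    exact dvd_zero m
  · obtain ⟨P, d, -, hP⟩ := RamE.exists_restrict V hu h
    rw [hP u hu]
    exact Dvd.dvd.mul_left (hdiv P) _

end Transfer

section FunctionField

variable (N : ℕ) [NeZero N] {L : Type*} [Field L] [Algebra ℚ L] [IsAlgClosed L] [CharZero L]
  [Nonempty (L →+* ℂ)] {E : Type*} [Field E] [Algebra L E] [Algebra (FFL L N) E]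
  [IsScalarTower L (FFL L N) E]

omit [IsAlgClosed L] [CharZero L] [Nonempty (L →+* ℂ)] in
theorem transcendental_algebraMap_jL :
    Transcendental L (algebraMap (FFL L N) E (jL L N)) := fun h =>
  transcendental_jL N L ((isAlgebraic_algebraMap_iff (algebraMap (FFL L N) E).injective).mp h)

/-- The residue field of every place of a finite extension of `F_L` is `L`. -/
theorem exists_residue [FiniteDimensional (FFL L N) E] (V : Place L E) {f : E}
    (hf : 0 ≤ V.ord f) : ∃ c : L, f = algebraMap L E c ∨ 0 < V.ord (f - algebraMap L E c) := by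
  have := finiteDimensional_jL N L
  have : FiniteDimensional L⟮algebraMap (FFL L N) E (jL L N)⟯ E :=
    RamJ.finiteDimensional_adjoin_algebraMap (jL L N)
  exact exists_sub_mem_maximal (transcendental_algebraMap_jL N) V hf

end FunctionField

section Generation

variable {F Ω : Type*} [Field F] [Field Ω] [Algebra F Ω]

/-- If `Ω = F(x, w)` and `w` is integral over `F(x)`, every element of `Ω` is a polynomial in `w`
with coefficients in `F(x)`. -/
theorem exists_aeval_of_adjoin_pair (x w : Ω) (hgen : IntermediateField.adjoin F {x, w} = ⊤)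
    (hw : IsIntegral F⟮x⟯ w) (z : Ω) : ∃ P : (F⟮x⟯)[X], z = aeval w P := by
  have h1 : (F⟮x⟯⟮w⟯).restrictScalars F = ⊤ := by
    rw [adjoin_simple_adjoin_simple, hgen]
  have h2 : F⟮x⟯⟮w⟯ = ⊤ := by
    apply IntermediateField.restrictScalars_injective F
    rw [h1]
    rfl
  have h3 : Algebra.adjoin F⟮x⟯ {w} = ⊤ := by
    rw [← adjoin_simple_toSubalgebra_of_isAlgebraic hw.isAlgebraic, h2]
    rfl
  have h4 : z ∈ Algebra.adjoin F⟮x⟯ {w} := by
    rw [h3]
    exact Algebra.mem_top
  rw [Algebra.adjoin_singleton_eq_range_aeval] at h4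
  obtain ⟨P, hP⟩ := h4
  exact ⟨P, hP.symm⟩

end Generation

end RamW

namespace RamW

/-- (RAM-OUT) with the intermediate field `E = F_L(x)` as an abstract field. -/
theorem ram_out_aux (N : ℕ) [NeZero N] {L : Type*} [Field L] [Algebra ℚ L] [IsAlgClosed L]
    [CharZero L] [Nonempty (L →+* ℂ)] {E Ω : Type*} [Field E] [Field Ω]
    [Algebra L E] [Algebra (FFL L N) E] [IsScalarTower L (FFL L N) E]
    [FiniteDimensional (FFL L N) E]
    [Algebra L Ω] [Algebra (FFL L N) Ω] [IsScalarTower L (FFL L N) Ω]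
    [FiniteDimensional (FFL L N) Ω]
    [Algebra E Ω] [IsScalarTower L E Ω] [IsScalarTower (FFL L N) E Ω] (Ng Dg : L[X])
    (h3 : ∀ a : L, Ng.eval a = 0 → 3 ∣ Ng.rootMultiplicity a)
    (h2 : ∀ a : L, (Ng - C 1728 * Dg).eval a = 0 → 2 ∣ (Ng - C 1728 * Dg).rootMultiplicity a)
    (x' : E) (hcov' : aeval x' Ng = algebraMap (FFL L N) E (jL L N) * aeval x' Dg)
    (hgenE : IntermediateField.adjoin (FFL L N) {x'} = ⊤) (w : Ω)
    (hgenW : ∀ z : Ω, ∃ P : E[X], z = aeval w P)
    (p : ℕ) (hp : p.Prime) (u : FFL L N) (hu : u ≠ 0) (hw : w ^ p = algebraMap (FFL L N) Ω u)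
    (hdiv : ∀ P : Place L (FFL L N), (p : ℤ) ∣ P.ord u)
    (a : L) (ha : Dg.eval a ≠ 0) (W : Place L Ω)
    (hW : 0 < W.ord (algebraMap E Ω x' - algebraMap L Ω a)) :
    W.ord (algebraMap E Ω x' - algebraMap L Ω a) = 1 := by
  -- the uniformiser `t = x - a` of the place `V = W ∩ E`
  set t : E := x' - algebraMap L E a with ht
  have htΩ : algebraMap E Ω t = algebraMap E Ω x' - algebraMap L Ω a := by
    rw [ht, map_sub, ← IsScalarTower.algebraMap_apply]
  have ht0 : t ≠ 0 := by
    intro h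
    rw [← htΩ, h, map_zero, W.ord_zero] at hW
    exact lt_irrefl _ hW
  obtain ⟨V, d, hd, hWV⟩ := RamE.exists_restrict W ht0 (by rw [htΩ]; exact hW)
  have hVt : V.ord t = 1 := by
    apply RamE.ord_sub_eq_one N Ng Dg h3 h2 x' hcov' hgenE a ha V
    have h1 := hWV t ht0
    rw [htΩ] at h1
    rw [h1] at hW
    have hd' : (0 : ℤ) < d := by exact_mod_cast hd
    exact (mul_pos_iff_of_pos_left hd').mp hW
  -- the Kummer step
  have huE : algebraMap (FFL L N) E u ≠ 0 := by
    rw [Ne, map_eq_zero]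
    exact hu
  have hwE : w ^ p = algebraMap E Ω (algebraMap (FFL L N) E u) := by
    rw [← IsScalarTower.algebraMap_apply]
    exact hw
  have hkum := ord_eq_one_kummer p (Nat.cast_ne_zero.mpr hp.ne_zero)
    (algebraMap (FFL L N) E u) huE w hwE hgenW W V d hd hWV
    (fun f hf => exists_residue N V hf) (fun z hz => exists_residue N W hz)
    (dvd_ord_algebraMap (p : ℤ) u hdiv V) t hVt
  rw [htΩ] at hkum
  exact hkum

end RamW

/-- **(R) RAM-OUT.**  Let `Ω = F_L(x, w)` be a finite extension of the function field `F_L` of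
`X₀(N)` over `L`, where `x` is a coordinate of the auxiliary cover `Ng(x) = j · Dg(x)` of the
`j`-line and `w ^ p = u ∈ F_L` with `p ∣ ord_P u` at all places `P` of `F_L`.  Then `Ω / L(x)` is
unramified over every `a ∈ L` which is not a cusp (`Dg(a) ≠ 0`): every place `W` of `Ω` with
`x(W) = a` has `ord_W (x - a) = 1`. -/
theorem ram_out (N : ℕ) [NeZero N] {L : Type*} [Field L] [Algebra ℚ L] [IsAlgClosed L]
    [CharZero L] [Nonempty (L →+* ℂ)] {Ω : Type*} [Field Ω] [Algebra L Ω] [Algebra (FFL L N) Ω]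
    [IsScalarTower L (FFL L N) Ω] [FiniteDimensional (FFL L N) Ω] (Ng Dg : L[X])
    (h3 : ∀ a : L, Ng.eval a = 0 → 3 ∣ Ng.rootMultiplicity a)
    (h2 : ∀ a : L, (Ng - C 1728 * Dg).eval a = 0 → 2 ∣ (Ng - C 1728 * Dg).rootMultiplicity a)
    (x w : Ω) (hcov : aeval x Ng = algebraMap (FFL L N) Ω (jL L N) * aeval x Dg)
    (hgen : IntermediateField.adjoin (FFL L N) {x, w} = ⊤)
    (p : ℕ) (hp : p.Prime) (u : FFL L N) (hu : u ≠ 0) (hw : w ^ p = algebraMap (FFL L N) Ω u)
    (hdiv : ∀ P : Place L (FFL L N), (p : ℤ) ∣ P.ord u)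
    (a : L) (ha : Dg.eval a ≠ 0) (W : Place L Ω) (hW : 0 < W.ord (x - algebraMap L Ω a)) :
    W.ord (x - algebraMap L Ω a) = 1 := by
  have : IsScalarTower L (FFL L N)⟮x⟯ Ω := IsScalarTower.of_algebraMap_eq (fun c => rfl)
  have hcov' : aeval (AdjoinSimple.gen (FFL L N) x) Ng
      = algebraMap (FFL L N) (FFL L N)⟮x⟯ (jL L N) * aeval (AdjoinSimple.gen (FFL L N) x) Dg := by
    apply (algebraMap (FFL L N)⟮x⟯ Ω).injective
    rw [map_mul, ← Polynomial.aeval_algebraMap_apply, ← Polynomial.aeval_algebraMap_apply,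
      ← IsScalarTower.algebraMap_apply (FFL L N) (FFL L N)⟮x⟯ Ω, AdjoinSimple.algebraMap_gen]
    exact hcov
  have hgenE : IntermediateField.adjoin (FFL L N) {AdjoinSimple.gen (FFL L N) x} = ⊤ := by
    apply IntermediateField.lift_injective
    rw [lift_adjoin_simple, lift_top, AdjoinSimple.coe_gen]
  have hwint : IsIntegral (FFL L N)⟮x⟯ w := by
    have h1 : IsIntegral (FFL L N) w := by
      refine ⟨Polynomial.X ^ p - Polynomial.C u, Polynomial.monic_X_pow_sub_C _ hp.ne_zero, ?_⟩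
      rw [Polynomial.eval₂_sub, Polynomial.eval₂_pow, Polynomial.eval₂_X, Polynomial.eval₂_C, hw,
        sub_self]
    exact h1.tower_top
  exact RamW.ram_out_aux N Ng Dg h3 h2 (AdjoinSimple.gen (FFL L N) x) hcov' hgenE w
    (RamW.exists_aeval_of_adjoin_pair x w hgen hwint) p hp u hu hw hdiv a ha W hW

/-- **(R) RAM-OUT** for cover data given by factorisations `N_g = c₃ Q₃³`,
`N_g - 1728 D_g = c₂ Q₂²` (the shape of `S18/Cover.lean`). -/
theorem ram_out_of_factor (N : ℕ) [NeZero N] {L : Type*} [Field L] [Algebra ℚ L] [IsAlgClosed L]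
    [CharZero L] [Nonempty (L →+* ℂ)] {Ω : Type*} [Field Ω] [Algebra L Ω] [Algebra (FFL L N) Ω]
    [IsScalarTower L (FFL L N) Ω] [FiniteDimensional (FFL L N) Ω] (Ng Dg Q₃ Q₂ : L[X])
    (c₃ c₂ : L) (hN : Ng = C c₃ * Q₃ ^ 3) (hN' : Ng - C 1728 * Dg = C c₂ * Q₂ ^ 2)
    (x w : Ω) (hcov : aeval x Ng = algebraMap (FFL L N) Ω (jL L N) * aeval x Dg)
    (hgen : IntermediateField.adjoin (FFL L N) {x, w} = ⊤)
    (p : ℕ) (hp : p.Prime) (u : FFL L N) (hu : u ≠ 0) (hw : w ^ p = algebraMap (FFL L N) Ω u)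
    (hdiv : ∀ P : Place L (FFL L N), (p : ℤ) ∣ P.ord u)
    (a : L) (ha : Dg.eval a ≠ 0) (W : Place L Ω) (hW : 0 < W.ord (x - algebraMap L Ω a)) :
    W.ord (x - algebraMap L Ω a) = 1 :=
  ram_out N Ng Dg (fun a _ => RamE.dvd_rootMultiplicity_of_eq_C_mul_pow hN a)
    (fun a _ => RamE.dvd_rootMultiplicity_of_eq_C_mul_pow hN' a) x w hcov hgen p hp u hu hw hdiv
    a ha W hW

end Fermat.Agent.S18
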