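import Mathlib
import Fermat.Prelude.Def_FLTPrelim_Ramification

/-!
P11 (S18), RED / Step A support: the residue field of a valuation subring of an algebraically
closed field is algebraically closed; its characteristic is `ℓ` when the valuation subring lies
over the prime `ℓ`.
-/

set_option autoImplicit false

namespace Fermat.Agent.S18

open Polynomial

namespace ResClosed

variable {L : Type*} [Field L]

/-- The residue field of a valuation subring of an algebraically closed field is algebraically
closed. -/
theorem isAlgClosed_residueField (A : ValuationSubring L) [IsAlgClosed L] :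
    IsAlgClosed (IsLocalRing.ResidueField A) := by
  apply IsAlgClosed.of_exists_root
  intro p hp hirr
  have hsurj : Function.Surjective (IsLocalRing.residue A) := IsLocalRing.residue_surjective
  have hlift : p ∈ Polynomial.lifts (IsLocalRing.residue A) := by
    rw [Polynomial.mem_lifts]
    exact Polynomial.map_surjective _ hsurj p
  obtain ⟨P, hPp, hPdeg, hPmonic⟩ := Polynomial.lifts_and_natDegree_eq_and_monic hlift hp
  have hdeg : (P.map (algebraMap A L)).degree ≠ 0 := by
    rw [Polynomial.degree_map_eq_of_injective (FaithfulSMul.algebraMap_injective A L),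
      Polynomial.degree_eq_natDegree hPmonic.ne_zero, hPdeg]
    have h1 : p.natDegree ≠ 0 := by
      intro h0
      have h2 : p = 1 := Polynomial.eq_one_of_monic_natDegree_zero hp h0
      exact hirr.not_isUnit (h2 ▸ isUnit_one)
    exact_mod_cast h1
  obtain ⟨α, hα⟩ := IsAlgClosed.exists_root (P.map (algebraMap A L)) hdeg
  have hint : IsIntegral A α := by
    refine ⟨P, hPmonic, ?_⟩
    rw [← Polynomial.eval_map]
    exact hα
  obtain ⟨a, rfl⟩ := (IsIntegrallyClosed.isIntegral_iff (R := A) (K := L)).mp hint
  have ha : P.eval a = 0 := by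
    apply FaithfulSMul.algebraMap_injective A L
    rw [map_zero, ← Polynomial.eval₂_at_apply, ← Polynomial.eval_map]
    exact hα
  refine ⟨IsLocalRing.residue A a, ?_⟩
  rw [← hPp, Polynomial.eval_map, Polynomial.eval₂_at_apply, ha, map_zero]

/-- If `A` lies over the prime `ℓ`, then `ℓ = 0` in the residue field. -/
theorem natCast_residueField_eq_zero (A : ValuationSubring L) {ℓ : ℕ}
    (hA : A.LiesOverPrime ℓ) : ((ℓ : ℕ) : IsLocalRing.ResidueField A) = 0 := by
  have h1 : (((ℓ : A) : A) : L) ∈ A.nonunits := by
    have : (((ℓ : A) : A) : L) = (ℓ : L) := by simp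
    rw [this]
    exact hA
  have h2 : (ℓ : A) ∈ IsLocalRing.maximalIdeal A := ValuationSubring.coe_mem_nonunits_iff.mp h1
  have h3 : IsLocalRing.residue A (ℓ : A) = 0 := (IsLocalRing.residue_eq_zero_iff _).mpr h2
  rwa [map_natCast] at h3

/-- If `A` lies over the prime `ℓ`, its residue field has characteristic `ℓ`. -/
theorem charP_residueField (A : ValuationSubring L) {ℓ : ℕ} [hℓ : Fact ℓ.Prime]
    (hA : A.LiesOverPrime ℓ) : CharP (IsLocalRing.ResidueField A) ℓ :=
  (CharP.charP_iff_prime_eq_zero hℓ.out).mpr (natCast_residueField_eq_zero A hA)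

/-- If `A` lies over `ℓ` and `ℓ ∤ N`, then `N ≠ 0` in the residue field. -/
theorem natCast_residueField_ne_zero (A : ValuationSubring L) {ℓ : ℕ} [Fact ℓ.Prime]
    (hA : A.LiesOverPrime ℓ) {N : ℕ} (hℓN : ¬ ℓ ∣ N) :
    ((N : ℕ) : IsLocalRing.ResidueField A) ≠ 0 := by
  have := charP_residueField A hA
  intro h
  exact hℓN ((CharP.cast_eq_zero_iff (IsLocalRing.ResidueField A) ℓ N).mp h)

end ResClosed

end Fermat.Agent.S18
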