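import Fermat.Agent.S18.StepA
import Fermat.Agent.S18.FkConst
import Fermat.Agent.S18.ResClosed

/-!
P11 (S18), RED = Step A, final form: the statement of S18 follows from the Kummer property (★)
(`StepA.Star`) for all primes `p ≠ ℓ`.  This discharges the two side hypotheses of
`StepA.eq_zero_of_star_modL`: the residue field of `A` is algebraically closed (`ResClosed`) and
nonzero elements of `F_k` without zeros and poles are constant (`FkConst`, via `ValDVR`).
-/

set_option autoImplicit false

open ModularCurve AlgebraicCurve

namespace Fermat.Agent.S18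

namespace RedA

set_option synthInstance.maxHeartbeats 400000 in
/-- **RED (Step A).** S18 `⇐` (★) for every prime `p ≠ ℓ`. -/
theorem eq_zero_of_star (N : ℕ) [NeZero N] {ℓ : ℕ} [Fact ℓ.Prime] (hℓN : ¬ ℓ ∣ N)
    (A : ValuationSubring (AlgebraicClosure ℚ)) (hA : A.LiesOverPrime ℓ)
    (hstar : ∀ p : ℕ, p.Prime → p ≠ ℓ → StepA.Star A (IsLocalRing.residue A) N p)
    (h : ModularCurve.ReductionInputsModL A N) (m : ℕ) (hm : ¬ ℓ ∣ m)
    (z : ModularCurve.JZero N) (hmz : m • z = 0)
    (hz : ModularCurve.reductionModL A N z = 0) : z = 0 := by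
  have : IsAlgClosed (IsLocalRing.ResidueField A) := ResClosed.isAlgClosed_residueField A
  exact StepA.eq_zero_of_star_modL N A
    (FkConst.mem_range_of_ord_eq_zero (IsLocalRing.ResidueField A) N
      (ResClosed.natCast_residueField_ne_zero A hA hℓN))
    hstar h m hm z hmz hz

end RedA

end Fermat.Agent.S18
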