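import Mathlib
import Fermat.Prelude.Def_ModularCurve_ReductionModL

/-!
P11 (S18), Step A (assembly): reduction of S18 to the Kummer statement (★).

Let `A ⊂ L` be a valuation ring, `π : A → k` a surjective ring homomorphism to a field,
`F = L · F_N ⊂ L((q))` and `F_k = k(j(q^d) : d ∣ N) ⊂ k((q))`.  `liftRing` is the ring of all
`Y ∈ A((q))` whose image in `L((q))` lies in `F` and whose reduction lies in `F_k`.

`Star p` : if `Y₁, Y₂ ∈ liftRing` have the same nonzero reduction and all orders of
`u = Y₁ / Y₂ ∈ F` are divisible by `p`, then `u` is a `p`-th power in `F`.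

Main result `eq_zero_of_star` : if `Star p` holds for all primes `p ≠ ℓ`, `k` is algebraically
closed and the only elements of `F_k` with trivial divisor are the constants, then a class
`z ∈ Pic⁰(F)` killed by some `m` prime to `ℓ` with `reductionAlong A π N z = 0` is zero.
-/

set_option autoImplicit false

noncomputable section

namespace Fermat.Agent.S18

open ModularCurve AlgebraicCurve HahnSeries IntermediateField

namespace StepA

section General

variable {L : Type*} [Field L] [Algebra ℚ L] (A : ValuationSubring L)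
variable {k : Type*} [Field k] (π : A →+* k) (N : ℕ)

/-- The function field `F = L · F_N` of `X₀(N)` over `L`. -/
abbrev FL : IntermediateField L (LaurentSeries L) :=
  laurentBaseChange L (modularFunctionFieldFull N)

/-- The ring of `Y ∈ A((q))` with `Y ∈ F` and `Y mod π ∈ F_k`. -/
def liftRing : Subring (LaurentSeries A) :=
  ((laurentBaseChange L (modularFunctionFieldFull N)).toSubring.comap (coeffMap A.subtype)) ⊓
    ((modularFunctionFieldFullC k N).toSubring.comap (coeffMap π))

variable {A π N}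

theorem mem_liftRing {Y : LaurentSeries A} :
    Y ∈ liftRing A π N ↔
      coeffMap A.subtype Y ∈ laurentBaseChange L (modularFunctionFieldFull N) ∧
        coeffMap π Y ∈ modularFunctionFieldFullC k N :=
  Iff.rfl

variable (A π N)

/-- `liftRing → F`. -/
def toF : liftRing A π N →+* laurentBaseChange L (modularFunctionFieldFull N) where
  toFun Y := ⟨coeffMap A.subtype (Y : LaurentSeries A), (mem_liftRing.mp Y.2).1⟩
  map_one' := Subtype.ext (map_one _)
  map_mul' _ _ := Subtype.ext (map_mul _ _ _)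
  map_zero' := Subtype.ext (map_zero _)
  map_add' _ _ := Subtype.ext (map_add _ _ _)

/-- `liftRing → F_k` (reduction). -/
def toFk : liftRing A π N →+* modularFunctionFieldFullC k N where
  toFun Y := ⟨coeffMap π (Y : LaurentSeries A), (mem_liftRing.mp Y.2).2⟩
  map_one' := Subtype.ext (map_one _)
  map_mul' _ _ := Subtype.ext (map_mul _ _ _)
  map_zero' := Subtype.ext (map_zero _)
  map_add' _ _ := Subtype.ext (map_add _ _ _)

variable {A π N}

@[simp]
theorem coe_toF (Y : liftRing A π N) :
    ((toF A π N Y : laurentBaseChange L (modularFunctionFieldFull N)) : LaurentSeries L) =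
      coeffMap A.subtype (Y : LaurentSeries A) :=
  rfl

@[simp]
theorem coe_toFk (Y : liftRing A π N) :
    ((toFk A π N Y : modularFunctionFieldFullC k N) : LaurentSeries k) =
      coeffMap π (Y : LaurentSeries A) :=
  rfl

omit [Algebra ℚ L] in
theorem coeffMap_subtype_injective : Function.Injective (coeffMap A.subtype) := by
  intro x y hxy
  ext n
  have h := congrArg (fun z : LaurentSeries L => z.coeff n) hxy
  simp only [coeffMap_coeff] at h
  exact h

theorem toF_ne_zero {Y : liftRing A π N} (hY : toFk A π N Y ≠ 0) : toF A π N Y ≠ 0 := by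
  intro h
  apply hY
  have h1 : coeffMap A.subtype (Y : LaurentSeries A) = 0 := congrArg Subtype.val h
  have h2 : (Y : LaurentSeries A) = 0 :=
    coeffMap_subtype_injective (h1.trans (map_zero _).symm)
  exact Subtype.ext (by rw [coe_toFk, h2, map_zero]; rfl)

/-! ### Generators of `liftRing` -/

theorem jqNModC_mem_liftRing {d : ℕ} [NeZero d] (hd : d ∣ N) :
    jqNModC A d ∈ liftRing A π N := by
  rw [mem_liftRing, coeffMap_jqNModC, coeffMap_jqNModC]
  refine ⟨?_, jqModCd_mem_full k N hd⟩
  have h1 : coeffEmb L (qExpand ℚ d jq) = jqNModC L d := by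
    rw [coeffEmb, ← jqModC_rat]
    exact coeffMap_jqNModC (algebraMap ℚ L) d
  rw [← h1]
  exact coeffEmb_mem_laurentBaseChange L (jqd_mem_full N hd)

theorem single_zero_mem_liftRing (a : A) :
    (HahnSeries.single (0 : ℤ) a : LaurentSeries A) ∈ liftRing A π N := by
  rw [mem_liftRing, coeffMap_single, coeffMap_single]
  constructor
  · rw [← algebraMap_laurentSeries_eq_single]
    exact (laurentBaseChange L (modularFunctionFieldFull N)).algebraMap_mem _
  · rw [← algebraMap_laurentSeries_eq_single]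
    exact (modularFunctionFieldFullC k N).algebraMap_mem _

/-! ### (L): every element of `F_k` is a quotient of reductions of elements of `liftRing` -/

theorem exists_lift (hπ : Function.Surjective π) {g : LaurentSeries k}
    (hg : g ∈ modularFunctionFieldFullC k N) :
    ∃ G₁ G₂ : liftRing A π N, toFk A π N G₂ ≠ 0 ∧
      g * coeffMap π (G₂ : LaurentSeries A) = coeffMap π (G₁ : LaurentSeries A) := by
  have hne : ∀ G : liftRing A π N, toFk A π N G ≠ 0 ↔ coeffMap π (G : LaurentSeries A) ≠ 0 := by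
    intro G
    rw [Ne, Ne, ← coe_toFk, ZeroMemClass.coe_eq_zero]
  unfold modularFunctionFieldFullC at hg
  induction hg using IntermediateField.adjoin_induction with
  | mem x hx =>
    obtain ⟨d, hd0, hd, rfl⟩ := hx
    refine ⟨⟨jqNModC A d, jqNModC_mem_liftRing hd⟩, 1, ?_, ?_⟩
    · rw [map_one]; exact one_ne_zero
    · show _ * coeffMap π (1 : LaurentSeries A) = coeffMap π (jqNModC A d)
      rw [map_one, mul_one, coeffMap_jqNModC]
      rfl
  | algebraMap c =>
    obtain ⟨a, rfl⟩ := hπ c
    refine ⟨⟨HahnSeries.single 0 a, single_zero_mem_liftRing a⟩, 1, ?_, ?_⟩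
    · rw [map_one]; exact one_ne_zero
    · show _ * coeffMap π (1 : LaurentSeries A) = coeffMap π (HahnSeries.single 0 a)
      rw [map_one, mul_one, coeffMap_single, algebraMap_laurentSeries_eq_single]
  | add x y _ _ hx hy =>
    obtain ⟨G₁, G₂, hG, hxG⟩ := hx
    obtain ⟨H₁, H₂, hH, hyH⟩ := hy
    refine ⟨G₁ * H₂ + H₁ * G₂, G₂ * H₂, ?_, ?_⟩
    · rw [map_mul]; exact mul_ne_zero hG hH
    · show (x + y) * coeffMap π ((G₂ : LaurentSeries A) * (H₂ : LaurentSeries A)) =
        coeffMap π ((G₁ : LaurentSeries A) * (H₂ : LaurentSeries A) +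
          (H₁ : LaurentSeries A) * (G₂ : LaurentSeries A))
      rw [map_mul, map_add, map_mul, map_mul, ← hxG, ← hyH]
      ring
  | inv x _ hx =>
    obtain ⟨G₁, G₂, hG, hxG⟩ := hx
    by_cases hx0 : x = 0
    · refine ⟨0, 1, ?_, ?_⟩
      · rw [map_one]; exact one_ne_zero
      · show _ * coeffMap π (1 : LaurentSeries A) = coeffMap π (0 : LaurentSeries A)
        rw [hx0, inv_zero, zero_mul, map_zero]
    · have hG2 : coeffMap π (G₂ : LaurentSeries A) ≠ 0 := (hne G₂).mp hG
      have hG1 : coeffMap π (G₁ : LaurentSeries A) ≠ 0 := by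
        rw [← hxG]; exact mul_ne_zero hx0 hG2
      refine ⟨G₂, G₁, (hne G₁).mpr hG1, ?_⟩
      rw [← hxG, ← mul_assoc, inv_mul_cancel₀ hx0, one_mul]
  | mul x y _ _ hx hy =>
    obtain ⟨G₁, G₂, hG, hxG⟩ := hx
    obtain ⟨H₁, H₂, hH, hyH⟩ := hy
    refine ⟨G₁ * H₁, G₂ * H₂, ?_, ?_⟩
    · rw [map_mul]; exact mul_ne_zero hG hH
    · show (x * y) * coeffMap π ((G₂ : LaurentSeries A) * (H₂ : LaurentSeries A)) =
        coeffMap π ((G₁ : LaurentSeries A) * (H₁ : LaurentSeries A))
      rw [map_mul, map_mul, ← hxG, ← hyH]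
      ring

/-! ### Orders of quotients and powers -/

section Ord

variable {K F : Type*} [Field K] [Field F] [Algebra K F]

theorem ord_pow (P : Place K F) (f : F) (n : ℕ) : P.ord (f ^ n) = n * P.ord f := by
  rw [← zpow_natCast, P.ord_zpow]

theorem ord_div (P : Place K F) {f g : F} (hf : f ≠ 0) (hg : g ≠ 0) :
    P.ord (f / g) = P.ord f - P.ord g := by
  rw [div_eq_mul_inv, P.ord_mul hf (inv_ne_zero hg), P.ord_inv, sub_eq_add_neg]

end Ord

/-! ### The closure induction -/

theorem exists_of_mem_closure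
    {r : Place L (laurentBaseChange L (modularFunctionFieldFull N)) →
      Place k (modularFunctionFieldFullC k N)}
    (hr : IsPlaceReductionAlong A π N r)
    {D : Divisor L (laurentBaseChange L (modularFunctionFieldFull N))}
    (hD : D ∈ AddSubgroup.closure (integralPrincipalDivisors A π N)) :
    ∃ Y₁ Y₂ : liftRing A π N, toFk A π N Y₁ ≠ 0 ∧ toFk A π N Y₂ ≠ 0 ∧
      (∀ P, D P = P.ord (toF A π N Y₁) - P.ord (toF A π N Y₂)) ∧
      (∀ Q, Finsupp.mapDomain r D Q = Q.ord (toFk A π N Y₁) - Q.ord (toFk A π N Y₂)) := by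
  induction hD using AddSubgroup.closure_induction with
  | mem E hE =>
    obtain ⟨y, hy, hyk, hne, hE'⟩ := hE
    refine ⟨⟨y, hy, hyk⟩, 1, ?_, ?_, ?_, ?_⟩
    · intro h
      exact hne (congrArg Subtype.val h)
    · rw [map_one]; exact one_ne_zero
    · intro P
      rw [map_one, Place.ord_one, sub_zero]
      exact hE' P
    · intro Q
      rw [map_one, Place.ord_one, sub_zero]
      exact hr.2 y hy hyk hne E hE' Q
  | zero =>
    refine ⟨1, 1, ?_, ?_, ?_, ?_⟩
    · rw [map_one]; exact one_ne_zero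
    · rw [map_one]; exact one_ne_zero
    · intro P
      rw [sub_self]; rfl
    · intro Q
      rw [sub_self, Finsupp.mapDomain_zero]; rfl
  | add E E' _ _ hE hE' =>
    obtain ⟨Y₁, Y₂, h1, h2, hP, hQ⟩ := hE
    obtain ⟨Z₁, Z₂, h1', h2', hP', hQ'⟩ := hE'
    refine ⟨Y₁ * Z₁, Y₂ * Z₂, ?_, ?_, ?_, ?_⟩
    · rw [map_mul]; exact mul_ne_zero h1 h1'
    · rw [map_mul]; exact mul_ne_zero h2 h2'
    · intro P
      rw [map_mul, map_mul, P.ord_mul (toF_ne_zero h1) (toF_ne_zero h1'),
        P.ord_mul (toF_ne_zero h2) (toF_ne_zero h2'), Finsupp.add_apply, hP P, hP' P]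
      ring
    · intro Q
      rw [map_mul, map_mul, Q.ord_mul h1 h1', Q.ord_mul h2 h2', Finsupp.mapDomain_add,
        Finsupp.add_apply, hQ Q, hQ' Q]
      ring
  | neg E _ hE =>
    obtain ⟨Y₁, Y₂, h1, h2, hP, hQ⟩ := hE
    refine ⟨Y₂, Y₁, h2, h1, ?_, ?_⟩
    · intro P
      rw [Finsupp.neg_apply, hP P]
      ring
    · intro Q
      rw [← Finsupp.mapDomain.addMonoidHom_apply, map_neg, Finsupp.mapDomain.addMonoidHom_apply,
        Finsupp.neg_apply, hQ Q]
      ring

/-! ### The Kummer statement (★) and the main reduction -/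

variable (A π N) in
/-- **Property (★)** for the exponent `p`: if `Y₁, Y₂ ∈ A((q))` lie in `F` with reductions in
`F_k`, have the same nonzero reduction, and all orders of `u = Y₁ / Y₂` are divisible by `p`,
then `u` is a `p`-th power in `F`. -/
def Star (p : ℕ) : Prop :=
  ∀ Y₁ Y₂ : liftRing A π N, toFk A π N Y₁ ≠ 0 → toFk A π N Y₁ = toFk A π N Y₂ →
    (∀ P : Place L (laurentBaseChange L (modularFunctionFieldFull N)),
      (p : ℤ) ∣ P.ord (toF A π N Y₁ / toF A π N Y₂)) →
    ∃ w : laurentBaseChange L (modularFunctionFieldFull N),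
      w ^ p = toF A π N Y₁ / toF A π N Y₂

/-- (★) in unbundled form (no `liftRing`). -/
theorem star_of_forall {p : ℕ}
    (h : ∀ (Y₁ Y₂ : LaurentSeries A)
      (h₁ : coeffMap A.subtype Y₁ ∈ laurentBaseChange L (modularFunctionFieldFull N))
      (h₂ : coeffMap A.subtype Y₂ ∈ laurentBaseChange L (modularFunctionFieldFull N)),
      coeffMap π Y₁ ∈ modularFunctionFieldFullC k N → coeffMap π Y₁ ≠ 0 →
      coeffMap π Y₁ = coeffMap π Y₂ →
      (∀ P : Place L (laurentBaseChange L (modularFunctionFieldFull N)),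
        (p : ℤ) ∣ P.ord ((⟨_, h₁⟩ : laurentBaseChange L (modularFunctionFieldFull N)) / ⟨_, h₂⟩)) →
      ∃ w : laurentBaseChange L (modularFunctionFieldFull N),
        w ^ p = (⟨_, h₁⟩ : laurentBaseChange L (modularFunctionFieldFull N)) / ⟨_, h₂⟩) :
    Star A π N p := by
  intro Y₁ Y₂ hne heq hord
  exact h Y₁ Y₂ (mem_liftRing.mp Y₁.2).1 (mem_liftRing.mp Y₂.2).1 (mem_liftRing.mp Y₁.2).2
    (fun h0 => hne (Subtype.ext h0)) (congrArg Subtype.val heq) hord

/-- Step A at the level of divisors, for a prime exponent. -/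
theorem mem_principal_of_star (hπ : Function.Surjective π) [IsAlgClosed k]
    (hconst : ∀ w : modularFunctionFieldFullC k N, w ≠ 0 →
      (∀ Q : Place k (modularFunctionFieldFullC k N), Q.ord w = 0) →
      w ∈ Set.range (algebraMap k (modularFunctionFieldFullC k N)))
    {p : ℕ} (hp : p.Prime) (hstar : Star A π N p)
    {r : Place L (laurentBaseChange L (modularFunctionFieldFull N)) →
      Place k (modularFunctionFieldFullC k N)}
    (hr : IsPlaceReductionAlong A π N r) (hgen : PrincipalGeneratedByIntegral A π N)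
    (D : Divisor L (laurentBaseChange L (modularFunctionFieldFull N)))
    (hpD : p • D ∈ Divisor.principal (K := L) (F := laurentBaseChange L (modularFunctionFieldFull N)))
    (hred : Finsupp.mapDomain r D ∈
      Divisor.principal (K := k) (F := modularFunctionFieldFullC k N)) :
    D ∈ Divisor.principal (K := L) (F := laurentBaseChange L (modularFunctionFieldFull N)) := by
  have hp0 : (p : ℤ) ≠ 0 := by exact_mod_cast hp.ne_zero
  obtain ⟨g, hg0, hg⟩ := hred
  obtain ⟨Y₁, Y₂, hY₁, hY₂, hP, hQ⟩ := exists_of_mem_closure hr (hgen hpD)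
  have hQ' : ∀ Q : Place k (modularFunctionFieldFullC k N),
      (p : ℤ) * Q.ord g = Q.ord (toFk A π N Y₁) - Q.ord (toFk A π N Y₂) := by
    intro Q
    rw [← hQ Q, Finsupp.mapDomain_smul, Finsupp.smul_apply, hg Q, nsmul_eq_mul]
  have hP' : ∀ P : Place L (laurentBaseChange L (modularFunctionFieldFull N)),
      (p : ℤ) * D P = P.ord (toF A π N Y₁) - P.ord (toF A π N Y₂) := by
    intro P
    rw [← hP P, Finsupp.smul_apply, nsmul_eq_mul]
  -- the constant
  have hden : toFk A π N Y₂ * g ^ p ≠ 0 := mul_ne_zero hY₂ (pow_ne_zero _ hg0)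
  have hw0 : toFk A π N Y₁ / (toFk A π N Y₂ * g ^ p) ≠ 0 := div_ne_zero hY₁ hden
  have hword : ∀ Q : Place k (modularFunctionFieldFullC k N),
      Q.ord (toFk A π N Y₁ / (toFk A π N Y₂ * g ^ p)) = 0 := by
    intro Q
    rw [ord_div Q hY₁ hden, Q.ord_mul hY₂ (pow_ne_zero _ hg0), ord_pow]
    linarith [hQ' Q]
  obtain ⟨c, hc⟩ := hconst _ hw0 hword
  obtain ⟨c₁, hc₁⟩ := IsAlgClosed.exists_pow_nat_eq c hp.pos
  have hc0 : algebraMap k (modularFunctionFieldFullC k N) c₁ ≠ 0 := by
    intro h0
    apply hw0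
    rw [← hc, ← hc₁, map_pow, h0, zero_pow hp.ne_zero]
  -- lift `c₁ * g`
  obtain ⟨G₁, G₂, hG₂, hG⟩ := exists_lift (A := A) hπ
    (algebraMap k (modularFunctionFieldFullC k N) c₁ * g).2
  have hG' : algebraMap k (modularFunctionFieldFullC k N) c₁ * g * toFk A π N G₂ =
      toFk A π N G₁ := Subtype.ext hG
  have hG₁ : toFk A π N G₁ ≠ 0 := by
    rw [← hG']
    exact mul_ne_zero (mul_ne_zero hc0 hg0) hG₂
  -- the two lifts with equal reduction
  have hcp : algebraMap k (modularFunctionFieldFullC k N) c₁ ^ p =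
      toFk A π N Y₁ / (toFk A π N Y₂ * g ^ p) := by
    rw [← map_pow, hc₁, hc]
  have hEq : toFk A π N (Y₁ * G₂ ^ p) = toFk A π N (Y₂ * G₁ ^ p) := by
    rw [map_mul, map_mul, map_pow, map_pow, ← hG', mul_pow, mul_pow, hcp]
    field_simp
  have hne : toFk A π N (Y₁ * G₂ ^ p) ≠ 0 := by
    rw [map_mul, map_pow]
    exact mul_ne_zero hY₁ (pow_ne_zero _ hG₂)
  have hFY₁ := toF_ne_zero hY₁
  have hFY₂ := toF_ne_zero hY₂
  have hFG₁ := toF_ne_zero hG₁
  have hFG₂ := toF_ne_zero hG₂
  have hord : ∀ P : Place L (laurentBaseChange L (modularFunctionFieldFull N)),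
      P.ord (toF A π N (Y₁ * G₂ ^ p) / toF A π N (Y₂ * G₁ ^ p)) =
        (p : ℤ) * (D P + P.ord (toF A π N G₂) - P.ord (toF A π N G₁)) := by
    intro P
    rw [map_mul, map_mul, map_pow, map_pow,
      ord_div P (mul_ne_zero hFY₁ (pow_ne_zero _ hFG₂)) (mul_ne_zero hFY₂ (pow_ne_zero _ hFG₁)),
      P.ord_mul hFY₁ (pow_ne_zero _ hFG₂), P.ord_mul hFY₂ (pow_ne_zero _ hFG₁), ord_pow, ord_pow]
    linarith [hP' P]
  obtain ⟨w, hw⟩ := hstar _ _ hne hEq (fun P => ⟨_, hord P⟩)
  have hw0' : w ≠ 0 := by
    intro h0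
    have h1 : toF A π N (Y₁ * G₂ ^ p) / toF A π N (Y₂ * G₁ ^ p) ≠ 0 := by
      rw [map_mul, map_mul, map_pow, map_pow]
      exact div_ne_zero (mul_ne_zero hFY₁ (pow_ne_zero _ hFG₂))
        (mul_ne_zero hFY₂ (pow_ne_zero _ hFG₁))
    apply h1
    rw [← hw, h0, zero_pow hp.ne_zero]
  refine ⟨w * toF A π N G₁ / toF A π N G₂, div_ne_zero (mul_ne_zero hw0' hFG₁) hFG₂, fun P => ?_⟩
  have h1 : (p : ℤ) * P.ord w =
      (p : ℤ) * (D P + P.ord (toF A π N G₂) - P.ord (toF A π N G₁)) := by
    rw [← hord P, ← hw, ord_pow]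
  have h2 := mul_left_cancel₀ hp0 h1
  rw [ord_div P (mul_ne_zero hw0' hFG₁) hFG₂, P.ord_mul hw0' hFG₁, h2]
  ring

/-- Step A for classes, prime exponent. -/
theorem eq_zero_of_star_prime (hπ : Function.Surjective π) [IsAlgClosed k]
    (hconst : ∀ w : modularFunctionFieldFullC k N, w ≠ 0 →
      (∀ Q : Place k (modularFunctionFieldFullC k N), Q.ord w = 0) →
      w ∈ Set.range (algebraMap k (modularFunctionFieldFullC k N)))
    {p : ℕ} (hp : p.Prime) (hstar : Star A π N p)
    (h : ReductionInputsAlong A π N)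
    (z : Pic0 L (laurentBaseChange L (modularFunctionFieldFull N)))
    (hpz : p • z = 0) (hz : reductionAlong A π N z = 0) : z = 0 := by
  obtain ⟨D, rfl⟩ := Pic0.mk_surjective z
  have hpD : p • (D : Divisor L (laurentBaseChange L (modularFunctionFieldFull N))) ∈
      Divisor.principal (K := L) (F := laurentBaseChange L (modularFunctionFieldFull N)) := by
    have h1 : ((p • D : Divisor.degZero (K := L)
        (F := laurentBaseChange L (modularFunctionFieldFull N))) :
        Pic0 L (laurentBaseChange L (modularFunctionFieldFull N))) = 0 := hpz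
    rw [QuotientAddGroup.eq_zero_iff, AddSubgroup.mem_addSubgroupOf] at h1
    exact h1
  have hred : Finsupp.mapDomain h.choose
      (D : Divisor L (laurentBaseChange L (modularFunctionFieldFull N))) ∈
      Divisor.principal (K := k) (F := modularFunctionFieldFullC k N) := by
    rw [reductionAlong_mk h D] at hz
    have h1 : ((reductionDegZeroAlong h.choose h.choose_spec.1.1 D :
        Divisor.degZero (K := k) (F := modularFunctionFieldFullC k N)) :
        Pic0 k (modularFunctionFieldFullC k N)) = 0 := hz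
    rw [QuotientAddGroup.eq_zero_iff, AddSubgroup.mem_addSubgroupOf] at h1
    exact h1
  have hD := mem_principal_of_star hπ hconst hp hstar h.choose_spec.1 h.choose_spec.2 _ hpD hred
  show ((D : Divisor.degZero (K := L) (F := laurentBaseChange L (modularFunctionFieldFull N))) :
    Pic0 L (laurentBaseChange L (modularFunctionFieldFull N))) = 0
  rw [QuotientAddGroup.eq_zero_iff, AddSubgroup.mem_addSubgroupOf]
  exact hD

/-- **Step A.** If (★) holds for every prime `p ≠ ℓ`, then a class killed by some `m` prime to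
`ℓ` whose reduction vanishes is zero. -/
theorem eq_zero_of_star (hπ : Function.Surjective π) [IsAlgClosed k]
    (hconst : ∀ w : modularFunctionFieldFullC k N, w ≠ 0 →
      (∀ Q : Place k (modularFunctionFieldFullC k N), Q.ord w = 0) →
      w ∈ Set.range (algebraMap k (modularFunctionFieldFullC k N)))
    {ℓ : ℕ} (hstar : ∀ p : ℕ, p.Prime → p ≠ ℓ → Star A π N p)
    (h : ReductionInputsAlong A π N) (m : ℕ) (hm : ¬ ℓ ∣ m)
    (z : Pic0 L (laurentBaseChange L (modularFunctionFieldFull N)))
    (hmz : m • z = 0) (hz : reductionAlong A π N z = 0) : z = 0 := by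
  induction m using Nat.strong_induction_on generalizing z with
  | _ m ih =>
    rcases Nat.eq_zero_or_pos m with rfl | hm0
    · exact absurd (dvd_zero ℓ) hm
    by_cases hm1 : m = 1
    · rwa [hm1, one_smul] at hmz
    have hpp : (m.minFac).Prime := Nat.minFac_prime hm1
    obtain ⟨m', hm'⟩ := Nat.minFac_dvd m
    have hpl : m.minFac ≠ ℓ := fun hl => hm (hl ▸ Nat.minFac_dvd m)
    have hm'lt : m' < m := by
      have h2 := hpp.two_le
      have hm'0 : 0 < m' := by
        rcases Nat.eq_zero_or_pos m' with h0 | h0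
        · rw [h0, mul_zero] at hm'; omega
        · exact h0
      nlinarith
    have hm'l : ¬ ℓ ∣ m' := fun hl => hm (hm' ▸ Dvd.dvd.mul_left hl _)
    have hz' : m' • z = 0 := by
      apply eq_zero_of_star_prime hπ hconst hpp (hstar _ hpp hpl) h
      · rw [← mul_smul, ← hm']; exact hmz
      · rw [map_nsmul, hz, smul_zero]
    exact ih m' hm'lt hm'l z hz' hz

end General

/-! ### The S18 shape -/

set_option synthInstance.maxHeartbeats 400000 in
/-- **Step A for S18.** -/
theorem eq_zero_of_star_modL (N : ℕ) {ℓ : ℕ} (A : ValuationSubring (AlgebraicClosure ℚ))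
    [IsAlgClosed (IsLocalRing.ResidueField A)]
    (hconst : ∀ w : modularFunctionFieldFullC (IsLocalRing.ResidueField A) N, w ≠ 0 →
      (∀ Q : Place (IsLocalRing.ResidueField A)
        (modularFunctionFieldFullC (IsLocalRing.ResidueField A) N), Q.ord w = 0) →
      w ∈ Set.range (algebraMap (IsLocalRing.ResidueField A)
        (modularFunctionFieldFullC (IsLocalRing.ResidueField A) N)))
    (hstar : ∀ p : ℕ, p.Prime → p ≠ ℓ → Star A (IsLocalRing.residue A) N p)
    (h : ReductionInputsModL A N) (m : ℕ) (hm : ¬ ℓ ∣ m) (z : JZero N)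
    (hmz : m • z = 0) (hz : reductionModL A N z = 0) : z = 0 :=
  eq_zero_of_star IsLocalRing.residue_surjective hconst hstar h m hm z hmz hz

end StepA

end Fermat.Agent.S18

end
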