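import Mathlib

/-!
P11 / S18, module `UnramDisc` (note 201 (4)): a prime `p` of a domain `R` with `R / p` of
characteristic zero does not divide the discriminant of a finite free `R`-algebra `S` as soon as
`S / p S` is reduced.

Proof.  Let `κ = Frac (R / p)` and let `ρ : S → Mat_n(κ)` be the regular representation of `S`
(with respect to the basis `b`) reduced modulo `p`; its kernel is `p S`.  If `p ∣ discr`, the Gram
matrix of the trace form has a kernel vector modulo `p`, which gives `z ∈ S`, `z ∉ p S`, with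
`Tr(s z) ∈ p R` for all `s`.  Put `Z = ρ z`.  By Cayley–Hamilton `Z ^ a * ν(Z) = 0` with
`ν(0) ≠ 0`, so `Z * ν(Z)` is nilpotent, hence zero because `S / p S` is reduced.  Therefore
`Z = Z ^ 2 * q(Z)` for a polynomial `q`, and `e = Z * q(Z)` is an idempotent matrix with
`e * Z = Z` and `Tr e = 0`.  In characteristic zero this forces `e = 0`, so `Z = 0`, i.e.
`z ∈ p S`: contradiction.
-/

set_option autoImplicit false

namespace Fermat.Agent.S18

namespace UnramDisc

open Polynomial Module

section Dvd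

variable {S : Type*} [CommRing S]

/-- Iterating `P ∣ z ^ 2 → P ∣ z`. -/
theorem dvd_of_dvd_pow {P : S} (hred : ∀ z : S, P ∣ z ^ 2 → P ∣ z) (m : ℕ) (z : S)
    (h : P ∣ z ^ (m + 1)) : P ∣ z := by
  induction m with
  | zero => simpa using h
  | succ m ih =>
    apply ih
    apply hred
    refine h.trans ?_
    rw [← pow_mul]
    exact pow_dvd_pow z (by omega)

end Dvd

section Main

variable {R S : Type*} [CommRing R] [CommRing S] [Algebra R S]
variable {ι : Type*} [Fintype ι] [DecidableEq ι]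
variable (p : R)

/-- The residue map `R → Frac (R / p)`. -/
noncomputable def resMap : R →+* FractionRing (R ⧸ Ideal.span {p}) :=
  (algebraMap (R ⧸ Ideal.span {p}) (FractionRing (R ⧸ Ideal.span {p}))).comp
    (Ideal.Quotient.mk (Ideal.span {p}))

theorem resMap_eq_zero_iff (r : R) : resMap p r = 0 ↔ p ∣ r := by
  unfold resMap
  rw [RingHom.comp_apply, map_eq_zero_iff _ (IsFractionRing.injective _ _),
    Ideal.Quotient.eq_zero_iff_mem, Ideal.mem_span_singleton]

theorem exists_resMap_div (hp : Prime p) (c : FractionRing (R ⧸ Ideal.span {p})) :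
    ∃ a d : R, ¬ p ∣ d ∧ resMap p d * c = resMap p a := by
  have hI : (Ideal.span {p} : Ideal R).IsPrime := (Ideal.span_singleton_prime hp.ne_zero).mpr hp
  obtain ⟨x, y, hy, rfl⟩ := IsFractionRing.div_surjective (R ⧸ Ideal.span {p}) c
  obtain ⟨a, rfl⟩ := Ideal.Quotient.mk_surjective x
  obtain ⟨d, rfl⟩ := Ideal.Quotient.mk_surjective y
  have hd : ¬ p ∣ d := by
    intro hd
    have h0 : (Ideal.Quotient.mk (Ideal.span {p})) d = 0 :=
      Ideal.Quotient.eq_zero_iff_mem.mpr (Ideal.mem_span_singleton.mpr hd)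
    exact nonZeroDivisors.ne_zero hy h0
  refine ⟨a, d, hd, ?_⟩
  have hd0 : resMap p d ≠ 0 := fun h => hd ((resMap_eq_zero_iff p d).mp h)
  change resMap p d * (resMap p a / resMap p d) = resMap p a
  rw [mul_div_cancel₀ _ hd0]

/-- The regular representation of `S` modulo `p`, with entries in `Frac (R / p)`. -/
noncomputable def rho (b : Basis ι R S) :
    S →+* Matrix ι ι (FractionRing (R ⧸ Ideal.span {p})) :=
  ((resMap p).mapMatrix).comp (Algebra.leftMulMatrix b).toRingHom

theorem rho_apply (b : Basis ι R S) (s : S) (i j : ι) :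
    rho p b s i j = resMap p (b.repr (s * b j) i) := by
  simp [rho, Algebra.leftMulMatrix_eq_repr_mul]

theorem rho_smul (b : Basis ι R S) (a : R) (s : S) :
    rho p b (a • s) = resMap p a • rho p b s := by
  ext i j
  rw [Matrix.smul_apply, rho_apply, rho_apply, smul_mul_assoc, map_smul, Finsupp.smul_apply,
    smul_eq_mul, map_mul, smul_eq_mul]

theorem trace_rho (b : Basis ι R S) (s : S) :
    Matrix.trace (rho p b s) = resMap p (Algebra.trace R S s) := by
  rw [Algebra.trace_eq_matrix_trace b, Matrix.trace, Matrix.trace, map_sum]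
  rfl

theorem dvd_of_rho_eq_zero (b : Basis ι R S) (s : S) (h : rho p b s = 0) :
    algebraMap R S p ∣ s := by
  have h1 : ∀ i j, p ∣ b.repr (s * b j) i := fun i j => by
    rw [← resMap_eq_zero_iff, ← rho_apply, h]
    rfl
  choose c hc using h1
  have h2 : ∀ j, s * b j = algebraMap R S p * ∑ i, c i j • b i := fun j => by
    conv_lhs => rw [← b.sum_repr (s * b j)]
    rw [Finset.mul_sum]
    refine Finset.sum_congr rfl fun i _ => ?_
    rw [hc i j, mul_smul, Algebra.smul_def p]
  refine ⟨∑ j, b.repr 1 j • ∑ i, c i j • b i, ?_⟩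
  calc s = s * 1 := (mul_one s).symm
    _ = s * ∑ j, b.repr 1 j • b j := by rw [b.sum_repr]
    _ = ∑ j, b.repr 1 j • (s * b j) := by
      rw [Finset.mul_sum]
      exact Finset.sum_congr rfl fun j _ => mul_smul_comm _ _ _
    _ = ∑ j, b.repr 1 j • (algebraMap R S p * ∑ i, c i j • b i) :=
      Finset.sum_congr rfl fun j _ => by rw [h2 j]
    _ = algebraMap R S p * ∑ j, b.repr 1 j • ∑ i, c i j • b i := by
      rw [Finset.mul_sum]
      exact Finset.sum_congr rfl fun j _ => (mul_smul_comm _ _ _).symm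

theorem rho_eq_zero_of_dvd (b : Basis ι R S) (s : S) (h : algebraMap R S p ∣ s) :
    rho p b s = 0 := by
  obtain ⟨t, rfl⟩ := h
  rw [← Algebra.smul_def, rho_smul]
  have h0 : resMap p p = 0 := (resMap_eq_zero_iff p p).mpr dvd_rfl
  rw [h0, zero_smul]

/-- Clearing denominators: every polynomial in `ρ z` is, up to a nonzero scalar, in the image of
`ρ`. -/
theorem exists_clear (hp : Prime p) (b : Basis ι R S) (z : S)
    (f : (FractionRing (R ⧸ Ideal.span {p}))[X]) :
    ∃ (d : R) (s : S), ¬ p ∣ d ∧ resMap p d • Polynomial.aeval (rho p b z) f = rho p b s := by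
  induction f using Polynomial.induction_on' with
  | add f g hf hg =>
    obtain ⟨d₁, s₁, hd₁, h₁⟩ := hf
    obtain ⟨d₂, s₂, hd₂, h₂⟩ := hg
    refine ⟨d₁ * d₂, d₂ • s₁ + d₁ • s₂, fun h => (hp.dvd_or_dvd h).elim hd₁ hd₂, ?_⟩
    rw [map_add, smul_add, map_mul, map_add, rho_smul, rho_smul, ← h₁, ← h₂, smul_smul,
      smul_smul, mul_comm (resMap p d₂)]
  | monomial n c =>
    obtain ⟨a, d, hd, hc⟩ := exists_resMap_div p hp c
    refine ⟨d, a • z ^ n, hd, ?_⟩
    rw [rho_smul, map_pow, ← hc, Polynomial.aeval_monomial, ← Algebra.smul_def, smul_smul]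

end Main

end UnramDisc

open Polynomial Module

/-- **UnramDisc.**  If `S / p S` is reduced and `R / p` has characteristic zero then `p` does not
divide the discriminant of `S` over `R`. -/
theorem not_dvd_discr_of_sq {R S : Type*} [CommRing R] [IsDomain R] [CommRing S] [Algebra R S]
    [Module.Finite R S] [Module.Free R S]
    (p : R) (hp : Prime p) [CharZero (R ⧸ Ideal.span {p})]
    (hred : ∀ z : S, algebraMap R S p ∣ z ^ 2 → algebraMap R S p ∣ z)
    {ι : Type*} [Fintype ι] [DecidableEq ι] (b : Basis ι R S) : ¬ p ∣ Algebra.discr R b := by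
  intro hdiv
  have hI : (Ideal.span {p} : Ideal R).IsPrime := (Ideal.span_singleton_prime hp.ne_zero).mpr hp
  -- a kernel vector of the Gram matrix modulo `p`
  have hdet : ((Ideal.Quotient.mk (Ideal.span {p})).mapMatrix (Algebra.traceMatrix R b)).det =
      0 := by
    rw [← RingHom.map_det, ← Algebra.discr_def]
    exact Ideal.Quotient.eq_zero_iff_mem.mpr (Ideal.mem_span_singleton.mpr hdiv)
  obtain ⟨v, hv0, hv⟩ := Matrix.exists_mulVec_eq_zero_iff.mpr hdet
  choose w hw using fun i => Ideal.Quotient.mk_surjective (I := Ideal.span {p}) (v i)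
  have hw0 : ∃ i, ¬ p ∣ w i := by
    by_contra hcon
    simp only [not_exists, not_not] at hcon
    apply hv0
    funext i
    rw [← hw i]
    exact Ideal.Quotient.eq_zero_iff_mem.mpr (Ideal.mem_span_singleton.mpr (hcon i))
  -- the element `z`
  obtain ⟨z, hz⟩ : ∃ z : S, z = ∑ j, w j • b j := ⟨_, rfl⟩
  have htr_b : ∀ i, p ∣ Algebra.trace R S (b i * z) := by
    intro i
    have h1 : Algebra.trace R S (b i * z) = ∑ j, Algebra.traceMatrix R b i j * w j := by
      rw [hz, Finset.mul_sum, map_sum]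
      refine Finset.sum_congr rfl fun j _ => ?_
      rw [mul_smul_comm, map_smul, smul_eq_mul, mul_comm, Algebra.traceMatrix_apply,
        Algebra.traceForm_apply]
    rw [h1, ← Ideal.mem_span_singleton, ← Ideal.Quotient.eq_zero_iff_mem, map_sum]
    have h2 := congrFun hv i
    simp only [Matrix.mulVec, dotProduct, RingHom.mapMatrix_apply, Matrix.map_apply,
      Pi.zero_apply] at h2
    rw [← h2]
    refine Finset.sum_congr rfl fun j _ => ?_
    rw [map_mul, hw j]
  have htr : ∀ s : S, p ∣ Algebra.trace R S (s * z) := by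
    intro s
    rw [← b.sum_repr s, Finset.sum_mul, map_sum]
    refine Finset.dvd_sum fun i _ => ?_
    rw [smul_mul_assoc, map_smul, smul_eq_mul]
    exact Dvd.dvd.mul_left (htr_b i) _
  -- pass to matrices over `Frac (R / p)`
  obtain ⟨Z, hZ⟩ : ∃ Z, Z = UnramDisc.rho p b z := ⟨_, rfl⟩
  have htrZ : ∀ s : S, Matrix.trace (UnramDisc.rho p b s * Z) = 0 := by
    intro s
    rw [hZ, ← map_mul, UnramDisc.trace_rho, UnramDisc.resMap_eq_zero_iff]
    exact htr s
  have hχ : Polynomial.aeval Z Z.charpoly = 0 := Matrix.aeval_self_charpoly Z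
  obtain ⟨ν, hν, hXν⟩ := Polynomial.exists_eq_pow_rootMultiplicity_mul_and_not_dvd Z.charpoly
    (Matrix.charpoly_monic Z).ne_zero 0
  rw [map_zero, sub_zero] at hν hXν
  obtain ⟨a, ha⟩ : ∃ a : ℕ, a = Z.charpoly.rootMultiplicity 0 := ⟨_, rfl⟩
  rw [← ha] at hν
  -- reducedness: `Z * ν(Z) = 0`
  have hW : Polynomial.aeval Z (X * ν) = 0 := by
    obtain ⟨d, s, hd, hds⟩ := UnramDisc.exists_clear p hp b z (X * ν)
    rw [← hZ] at hds
    have hpow : (Polynomial.aeval Z (X * ν)) ^ (a + 1) = 0 := by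
      rw [← map_pow]
      have h : (X * ν) ^ (a + 1) = Z.charpoly * (X * ν ^ a) := by
        rw [hν]
        ring
      rw [h, map_mul, hχ, zero_mul]
    have h1 : UnramDisc.rho p b (s ^ (a + 1)) = 0 := by
      rw [map_pow, ← hds, _root_.smul_pow, hpow, smul_zero]
    have h2 : algebraMap R S p ∣ s :=
      UnramDisc.dvd_of_dvd_pow hred a s (UnramDisc.dvd_of_rho_eq_zero p b _ h1)
    have h3 : UnramDisc.rho p b s = 0 := UnramDisc.rho_eq_zero_of_dvd p b s h2
    rw [h3] at hds
    have hd0 : UnramDisc.resMap p d ≠ 0 := fun h => hd ((UnramDisc.resMap_eq_zero_iff p d).mp h)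
    rw [← inv_smul_smul₀ hd0 (Polynomial.aeval Z (X * ν)), hds, smul_zero]
  -- the idempotent
  obtain ⟨c, hc⟩ : ∃ c, c = ν.coeff 0 := ⟨_, rfl⟩
  have hc0 : c ≠ 0 := fun h => hXν (Polynomial.X_dvd_iff.mpr (hc ▸ h))
  obtain ⟨q, hq⟩ : ∃ q : (FractionRing (R ⧸ Ideal.span {p}))[X], q = C (-c⁻¹) * ν.divX :=
    ⟨_, rfl⟩
  have hkey : X - X ^ 2 * q = C c⁻¹ * (X * ν) := by
    have h1 : (C c⁻¹ : (FractionRing (R ⧸ Ideal.span {p}))[X]) * C c = 1 := by
      rw [← C_mul, inv_mul_cancel₀ hc0, C_1]
    conv_rhs => rw [← Polynomial.divX_mul_X_add ν, ← hc]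
    rw [hq, C_neg]
    linear_combination (-(X : (FractionRing (R ⧸ Ideal.span {p}))[X])) * h1
  have hZ2 : Polynomial.aeval Z (X - X ^ 2 * q) = 0 := by
    rw [hkey, map_mul, hW, mul_zero]
  obtain ⟨e, he⟩ : ∃ e, e = Polynomial.aeval Z (q * X) := ⟨_, rfl⟩
  have he_idem : e * e = e := by
    have h : (q * X) * (q * X) - q * X = -q * (X - X ^ 2 * q) := by ring
    have h' := congrArg (Polynomial.aeval Z) h
    rw [map_sub, map_mul, map_mul (Polynomial.aeval Z) (-q), hZ2, mul_zero, sub_eq_zero, ← he]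
      at h'
    exact h'
  have heZ : e * Z = Z := by
    have h : (q * X) * X - X = -(X - X ^ 2 * q) := by ring
    have h' := congrArg (Polynomial.aeval Z) h
    rw [map_sub, map_mul, map_neg, hZ2, neg_zero, sub_eq_zero, Polynomial.aeval_X, ← he] at h'
    exact h'
  have he_tr : Matrix.trace e = 0 := by
    obtain ⟨d, s, hd, hds⟩ := UnramDisc.exists_clear p hp b z q
    rw [← hZ] at hds
    have hd0 : UnramDisc.resMap p d ≠ 0 := fun h => hd ((UnramDisc.resMap_eq_zero_iff p d).mp h)
    have h1 : UnramDisc.resMap p d • e = UnramDisc.rho p b s * Z := by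
      rw [he, map_mul, Polynomial.aeval_X, ← hds, smul_mul_assoc]
    have h2 : UnramDisc.resMap p d * Matrix.trace e = 0 := by
      rw [← smul_eq_mul, ← Matrix.trace_smul, h1, htrZ]
    exact (mul_eq_zero.mp h2).resolve_left hd0
  have he0 : e = 0 := by
    have hidem : IsIdempotentElem (Matrix.toLin' e) := by
      unfold IsIdempotentElem
      rw [Module.End.mul_eq_comp, ← Matrix.toLin'_mul, he_idem]
    have htr0 : LinearMap.trace (FractionRing (R ⧸ Ideal.span {p})) _ (Matrix.toLin' e) = 0 := by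
      rw [Matrix.trace_toLin'_eq, he_tr]
    have h0 := (LinearMap.IsIdempotentElem.trace_eq_zero_iff hidem).mp htr0
    exact Matrix.toLin'.injective (by rw [h0, map_zero])
  have hZ0 : UnramDisc.rho p b z = 0 := by rw [← hZ, ← heZ, he0, zero_mul]
  obtain ⟨t, ht⟩ := UnramDisc.dvd_of_rho_eq_zero p b z hZ0
  obtain ⟨i, hi⟩ := hw0
  apply hi
  have h1 : b.repr z i = w i := by
    rw [hz]
    exact congrFun (b.repr_sum_self w) i
  rw [← h1, ht, ← Algebra.smul_def, map_smul, Finsupp.smul_apply, smul_eq_mul]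
  exact dvd_mul_right _ _

end Fermat.Agent.S18
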